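import Fermat.Agent.ES1.ConjK

/-!
# ES₁ / F3-conj — `stmtDiamondH : StmtDiamondH`

The diamond automorphisms of `fieldC K L M H` over the `Γ₀(L)`-field
`F₀ = modularFunctionFieldFullC K L`, for every field `K` of characteristic `0` algebraic over `ℚ`
(interface: `ES1/ConjPlan.lean`).

* over `ℂ` (`ES1/ConjC.lean`): `S_{M,H,b}(q^e)` is the expansion of the modular function
  `es1rcThetaE e H b` for `Γ = gammaH L M H ◁ Γ₀(L)`; Lagrange interpolation in the tower
  `Γ ≤ Γ₀(L)` (generation, norm polynomial) and the conjugation principle `f ↦ f ∘ γ`;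
* descent `ℂ → K` (`ES1/ConjK.lean`);
* the automorphism `R(S_1) ↦ R(S_c)` (`ES1/ConjAut.lean`).
-/

set_option autoImplicit false
set_option linter.unusedSectionVars false
set_option linter.style.haveILetI false

noncomputable section

open Polynomial ModularCurve

namespace Fermat.Agent.ES1

/-- an embedding into `ℂ` of a field algebraic over `ℚ` -/
def es1cjIota (K : Type) [Field K] [CharZero K] [Algebra.IsAlgebraic ℚ K] : K →+* ℂ :=
  (IsAlgClosed.lift (R := ℚ) (S := K) (M := ℂ)).toRingHom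

section Aut

variable {K : Type} [Field K] [CharZero K] (ι : K →+* ℂ)
  {L M : ℕ} [NeZero L] (hML : M ∣ L) (H : Subgroup (ZMod M)ˣ) {m : ℕ}
  {a : Fin (m + 1) → (ZMod M)ˣ} (hrep : IsRepFam H a)

include hML in
theorem es1cj_sS_mem (b : (ZMod M)ˣ) : sS K M H b ∈ fieldC K L M H := by
  have h := qExpand_sS_mem K L M H (es1cj_one_mul_dvd hML) b
  rwa [qExpand_one_apply] at h

include ι hML hrep in
/-- **(aut) over `K`.** -/
theorem es1cj_aut_K (c : (ZMod M)ˣ) :
    ∃ σ : fieldC K L M H ≃ₐ[K] fieldC K L M H,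
      (∀ f : fieldC K L M H, (f : LaurentSeries K) ∈ modularFunctionFieldFullC K L → σ f = f) ∧
      ∀ (e : ℕ) [NeZero e] (he : e * M ∣ L) (b : (ZMod M)ˣ),
        ((σ ⟨qExpand K e (sS K M H b), qExpand_sS_mem K L M H he b⟩ : fieldC K L M H) :
          LaurentSeries K) = qExpand K e (sS K M H (b * c)) := by
  have h1M := es1cj_one_mul_dvd hML
  have hgen : fieldC K L M H ≤ IntermediateField.adjoin K
      ((modularFunctionFieldFullC K L : Set (LaurentSeries K)) ∪ {sS K M H 1}) :=
    es1cj_gen_K ι hML H hrep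
  have hint : ∃ P : Polynomial (modularFunctionFieldFullC K L), P.Monic ∧
      P.eval₂ (modularFunctionFieldFullC K L).val.toRingHom (sS K M H 1) = 0 := by
    obtain ⟨P, hP, -, hP0⟩ := es1cj_poly_K ι hML H hrep
    exact ⟨P, hP, hP0⟩
  -- the conjugation principle at `e₁ = 1`, `b₁ = 1`
  have hcp : ∀ (R : Polynomial (modularFunctionFieldFullC K L)) (e : ℕ) [NeZero e]
      (_ : e * M ∣ L) (b : (ZMod M)ˣ),
      R.eval₂ (modularFunctionFieldFullC K L).val.toRingHom (sS K M H 1) =
        qExpand K e (sS K M H b) →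
      R.eval₂ (modularFunctionFieldFullC K L).val.toRingHom (sS K M H c) =
        qExpand K e (sS K M H (b * c)) := by
    intro R e _ he b h
    have h' := es1cj_cp_K ι hML H c R 1 h1M 1 e he b (by rw [qExpand_one_apply]; exact h)
    rwa [qExpand_one_apply, one_mul] at h'
  have hcp0 : ∀ R : Polynomial (modularFunctionFieldFullC K L),
      R.eval₂ (modularFunctionFieldFullC K L).val.toRingHom (sS K M H 1) = 0 →
      R.eval₂ (modularFunctionFieldFullC K L).val.toRingHom (sS K M H c) = 0 := by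
    intro R h
    have h' := es1cj_cp_K_zero ι hML H c R 1 h1M 1 (by rw [qExpand_one_apply]; exact h)
    rwa [qExpand_one_apply, one_mul] at h'
  have hback : ∀ R : Polynomial (modularFunctionFieldFullC K L),
      R.eval₂ (modularFunctionFieldFullC K L).val.toRingHom (sS K M H 1) = sS K M H c⁻¹ →
      R.eval₂ (modularFunctionFieldFullC K L).val.toRingHom (sS K M H c) = sS K M H 1 := by
    intro R h
    have h' := hcp R 1 h1M c⁻¹ (by rw [qExpand_one_apply]; exact h)
    rwa [qExpand_one_apply, inv_mul_cancel] at h'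
  obtain ⟨σ, hσ⟩ := es1cj_exists_algEquiv (modularFunctionFieldFullC K L) (fieldC K L M H)
    (full_le_fieldC K L M H) (sS K M H 1) (es1cj_sS_mem hML H 1) hgen hint
    (sS K M H c) (sS K M H c⁻¹) (es1cj_sS_mem hML H c) (es1cj_sS_mem hML H c⁻¹) hcp0 hback
  refine ⟨σ, ?_, ?_⟩
  · intro f hf
    apply Subtype.ext
    have h := hσ (Polynomial.C ⟨(f : LaurentSeries K), hf⟩) f (by rw [Polynomial.eval₂_C]; rfl)
    rw [h, Polynomial.eval₂_C]
    rfl
  · intro e _ he b
    obtain ⟨R, hR⟩ := es1cj_exists_poly (modularFunctionFieldFullC K L) (sS K M H 1) hint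
      (hgen (qExpand_sS_mem K L M H he b))
    rw [hσ R ⟨qExpand K e (sS K M H b), qExpand_sS_mem K L M H he b⟩ hR]
    exact hcp R e he b hR

end Aut

/-- **(F3-conj)** -/
theorem stmtDiamondH : StmtDiamondH := by
  intro K _ _ _ L M H m a hL hML hrep
  haveI : NeZero L := ⟨hL⟩
  exact ⟨es1cj_gen_K (es1cjIota K) hML H hrep, es1cj_poly_K (es1cjIota K) hML H hrep,
    fun c => es1cj_aut_K (es1cjIota K) hML H hrep c⟩

end Fermat.Agent.ES1
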