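import Mathlib

/-!
# ES₁ / F3-conj — abstract algebra: an automorphism from the conjugation principle

`F₀ ≤ F ≤ Ω` fields (over `K`), `F ≤ F₀(s)`, `s` integral over `F₀`.

* `es1cj_exists_poly` : every element of `F₀(s)` is `R(s)` for a polynomial `R` over `F₀`;
* `es1cj_exists_algHom` : if every polynomial relation `R(s) = 0` over `F₀` implies `R(s') = 0`
  (`s' ∈ F`), there is a `K`-algebra endomorphism `σ` of `F` with `σ (R(s)) = R(s')`;
* `es1cj_exists_algEquiv` : if moreover `s = R₀(s')` whenever `s'' = R₀(s)` for some `s'' ∈ F`,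
  then `σ` is an automorphism.
-/

set_option autoImplicit false

noncomputable section

namespace Fermat.Agent.ES1

open Polynomial IntermediateField

section Aut

variable {K Ω : Type*} [Field K] [Field Ω] [Algebra K Ω]
  (F₀ F : IntermediateField K Ω)

/-- every element of `F₀(s)` is a polynomial in `s` when `s` is integral over `F₀` -/
theorem es1cj_exists_poly (s : Ω)
    (hint : ∃ P : Polynomial F₀, P.Monic ∧ P.eval₂ F₀.val.toRingHom s = 0)
    {x : Ω} (hx : x ∈ IntermediateField.adjoin K ((F₀ : Set Ω) ∪ {s})) :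
    ∃ R : Polynomial F₀, R.eval₂ F₀.val.toRingHom s = x := by
  have h1 : x ∈ (IntermediateField.adjoin F₀ {s}).restrictScalars K := by
    rw [IntermediateField.restrictScalars_adjoin]
    exact hx
  have h2 : x ∈ IntermediateField.adjoin F₀ {s} := h1
  have halg : IsIntegral F₀ s := by
    obtain ⟨P, hP, hPs⟩ := hint
    exact ⟨P, hP, hPs⟩
  have h3 : x ∈ (IntermediateField.adjoin F₀ {s}).toSubalgebra := h2
  rw [IntermediateField.adjoin_simple_toSubalgebra_of_isAlgebraic halg.isAlgebraic,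
    Algebra.adjoin_singleton_eq_range_aeval] at h3
  obtain ⟨R, hR⟩ := h3
  exact ⟨R, hR⟩

theorem es1cj_eval_mem (h₀ : F₀ ≤ F) {t : Ω} (ht : t ∈ F) (R : Polynomial F₀) :
    R.eval₂ F₀.val.toRingHom t ∈ F := by
  rw [Polynomial.eval₂_eq_sum_range]
  exact sum_mem fun i _ => mul_mem (h₀ (R.coeff i).2) (pow_mem ht i)

/-- evaluation at a point of `F`, as a ring homomorphism into `F` -/
def es1cjEval (h₀ : F₀ ≤ F) (t : Ω) (ht : t ∈ F) : Polynomial F₀ →+* F :=
  (Polynomial.eval₂RingHom F₀.val.toRingHom t).codRestrict F (fun R => es1cj_eval_mem F₀ F h₀ ht R)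

theorem es1cjEval_coe (h₀ : F₀ ≤ F) (t : Ω) (ht : t ∈ F) (R : Polynomial F₀) :
    ((es1cjEval F₀ F h₀ t ht R : F) : Ω) = R.eval₂ F₀.val.toRingHom t := rfl

/-- the endomorphism `R(s) ↦ R(s')` -/
theorem es1cj_exists_algHom (h₀ : F₀ ≤ F) (s : Ω) (hs : s ∈ F)
    (hgen : F ≤ IntermediateField.adjoin K ((F₀ : Set Ω) ∪ {s}))
    (hint : ∃ P : Polynomial F₀, P.Monic ∧ P.eval₂ F₀.val.toRingHom s = 0)
    (s' : Ω) (hs' : s' ∈ F)
    (hcp : ∀ R : Polynomial F₀, R.eval₂ F₀.val.toRingHom s = 0 →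
      R.eval₂ F₀.val.toRingHom s' = 0) :
    ∃ σ : F →ₐ[K] F, ∀ (R : Polynomial F₀) (x : F),
      R.eval₂ F₀.val.toRingHom s = (x : Ω) → (σ x : Ω) = R.eval₂ F₀.val.toRingHom s' := by
  set φ := es1cjEval F₀ F h₀ s hs with hφ
  set φ' := es1cjEval F₀ F h₀ s' hs' with hφ'
  have hsurj : Function.Surjective φ := by
    intro x
    obtain ⟨R, hR⟩ := es1cj_exists_poly F₀ s hint (hgen x.2)
    exact ⟨R, Subtype.ext hR⟩
  have hker : RingHom.ker φ ≤ RingHom.ker φ' := by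
    intro R hR
    rw [RingHom.mem_ker] at hR ⊢
    have h1 : R.eval₂ F₀.val.toRingHom s = 0 := by
      have := congrArg (fun y : F => (y : Ω)) hR
      simpa [hφ, es1cjEval_coe] using this
    exact Subtype.ext (hcp R h1)
  set σ₀ : F →+* F := RingHom.liftOfSurjective φ hsurj ⟨φ', hker⟩ with hσ₀
  have hσφ : ∀ R, σ₀ (φ R) = φ' R := fun R =>
    RingHom.liftOfRightInverse_comp_apply φ _ _ ⟨φ', hker⟩ R
  have hcomm : ∀ k : K, σ₀ (algebraMap K F k) = algebraMap K F k := by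
    intro k
    have h1 : algebraMap K F k = φ (Polynomial.C (algebraMap K F₀ k)) := by
      apply Subtype.ext
      rw [hφ, es1cjEval_coe, Polynomial.eval₂_C]
      rfl
    have h2 : algebraMap K F k = φ' (Polynomial.C (algebraMap K F₀ k)) := by
      apply Subtype.ext
      rw [hφ', es1cjEval_coe, Polynomial.eval₂_C]
      rfl
    rw [h1, hσφ, ← h2, ← h1]
  refine ⟨{ σ₀ with commutes' := hcomm }, ?_⟩
  intro R x hx
  have hxφ : x = φ R := Subtype.ext hx.symm
  show ((σ₀ x : F) : Ω) = _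
  rw [hxφ, hσφ, hφ', es1cjEval_coe]

/-- the automorphism `R(s) ↦ R(s')` -/
theorem es1cj_exists_algEquiv (h₀ : F₀ ≤ F) (s : Ω) (hs : s ∈ F)
    (hgen : F ≤ IntermediateField.adjoin K ((F₀ : Set Ω) ∪ {s}))
    (hint : ∃ P : Polynomial F₀, P.Monic ∧ P.eval₂ F₀.val.toRingHom s = 0)
    (s' s'' : Ω) (hs' : s' ∈ F) (hs'' : s'' ∈ F)
    (hcp : ∀ R : Polynomial F₀, R.eval₂ F₀.val.toRingHom s = 0 →
      R.eval₂ F₀.val.toRingHom s' = 0)
    (hback : ∀ R : Polynomial F₀, R.eval₂ F₀.val.toRingHom s = s'' →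
      R.eval₂ F₀.val.toRingHom s' = s) :
    ∃ σ : F ≃ₐ[K] F, ∀ (R : Polynomial F₀) (x : F),
      R.eval₂ F₀.val.toRingHom s = (x : Ω) → (σ x : Ω) = R.eval₂ F₀.val.toRingHom s' := by
  obtain ⟨σ, hσ⟩ := es1cj_exists_algHom F₀ F h₀ s hs hgen hint s' hs' hcp
  have hinj : Function.Injective σ := σ.toRingHom.injective
  have hsurj : Function.Surjective σ := by
    intro y
    obtain ⟨R, hR⟩ := es1cj_exists_poly F₀ s hint (hgen y.2)
    obtain ⟨R₀, hR₀⟩ := es1cj_exists_poly F₀ s hint (hgen hs'')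
    have hcomp : ∀ t : Ω, (R.comp R₀).eval₂ F₀.val.toRingHom t =
        R.eval₂ F₀.val.toRingHom (R₀.eval₂ F₀.val.toRingHom t) := by
      intro t
      exact Polynomial.eval₂_comp _
    refine ⟨⟨(R.comp R₀).eval₂ F₀.val.toRingHom s, es1cj_eval_mem F₀ F h₀ hs _⟩, ?_⟩
    apply Subtype.ext
    rw [hσ (R.comp R₀) _ rfl, hcomp, hback R₀ hR₀, hR]
  exact ⟨AlgEquiv.ofBijective σ ⟨hinj, hsurj⟩, fun R x hx => hσ R x hx⟩

end Aut

end Fermat.Agent.ES1
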