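import Fermat.Agent.ES1.Defs
import Fermat.Agent.INJ.NumField

/-!
# ES₁ / F1 — formal facts on the generators `S_{M,H,a}` (helper81)

* `MonicAt x n` : the Laurent series `x` is `qⁿ (1 + …)` (lowest term `qⁿ`, coefficient `1`);
  calculus (`coeffMap`, `qExpand`, products over `ℤ`, sums with different orders).
* `es1f_monicAt_eisY`, `es1f_monicAt_gZ` : `Y_{M,a'} = q^{a'}(1 + …)`, `G_{M,a'} = q^{4a'-1}(1 + …)`
  for `1 ≤ a'`, `2a' < M`.
* `cosetReps` : nonempty for `M ≥ 2`, its elements have `2a' < M` for `M ≥ 3`, it only depends on the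
  class of `a` in `(ℤ/M)ˣ/±H`, and different classes have disjoint `cosetReps`.
* `es1fLead M H a` : the least element of `cosetReps M H a`;
  `es1f_monicAt_sS` : `S_{M,H,a} = q^{4·lead-1}(1 + …)` over EVERY commutative ring (`M ≥ 3`);
  `es1f_sS_ne`, `es1f_sS_sub` : the `S_{M,H,a}` of different classes are different, their
  difference is `± q^n (1 + …)`.
* `es1f_coeffMap_sS`, `es1f_coeffMap_mem_fieldC`, `es1f_fieldBar_eq` : base change.
-/

set_option autoImplicit false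
set_option linter.style.haveILetI false

noncomputable section

open HahnSeries ModularCurve AlgebraicCurve

namespace Fermat.Agent.ES1

/-! ## Series of the form `qⁿ (1 + …)` -/

section Monic

variable {R S : Type*} [CommRing R] [CommRing S]

/-- `x = qⁿ (1 + …)` -/
def MonicAt (x : LaurentSeries R) (n : ℤ) : Prop :=
  x.coeff n = 1 ∧ ∀ k : ℤ, k < n → x.coeff k = 0

theorem MonicAt.coeffMap {x : LaurentSeries R} {n : ℤ} (h : MonicAt x n) (f : R →+* S) :
    MonicAt (coeffMap f x) n :=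
  ⟨by rw [coeffMap_coeff, h.1, map_one], fun k hk => by rw [coeffMap_coeff, h.2 k hk, map_zero]⟩

theorem MonicAt.ne_zero [Nontrivial R] {x : LaurentSeries R} {n : ℤ} (h : MonicAt x n) :
    x ≠ 0 := by
  rintro rfl
  have := h.1
  rw [HahnSeries.coeff_zero] at this
  exact zero_ne_one this

theorem MonicAt.order_eq [Nontrivial R] {x : LaurentSeries R} {n : ℤ} (h : MonicAt x n) :
    x.order = n := by
  apply le_antisymm
  · exact HahnSeries.order_le_of_coeff_ne_zero (by rw [h.1]; exact one_ne_zero)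
  · by_contra hlt
    push Not at hlt
    exact (HahnSeries.coeff_order_eq_zero.not.mpr h.ne_zero) (h.2 _ hlt)

theorem MonicAt.leadingCoeff_eq [Nontrivial R] {x : LaurentSeries R} {n : ℤ}
    (h : MonicAt x n) : x.leadingCoeff = 1 := by
  rw [HahnSeries.leadingCoeff_eq, h.order_eq, h.1]

theorem es1f_monicAt_of_order {x : LaurentSeries R} (hx : x.leadingCoeff = 1) [Nontrivial R] :
    MonicAt x x.order := by
  refine ⟨by rw [← HahnSeries.leadingCoeff_eq, hx], fun k hk =>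
    HahnSeries.coeff_eq_zero_of_lt_order hk⟩

theorem MonicAt.unique [Nontrivial R] {x : LaurentSeries R} {n m : ℤ} (h : MonicAt x n)
    (h' : MonicAt x m) : n = m := by
  rw [← h.order_eq, ← h'.order_eq]

/-- products (over a domain) -/
theorem MonicAt.mul [IsDomain R] {x y : LaurentSeries R} {n m : ℤ} (hx : MonicAt x n)
    (hy : MonicAt y m) : MonicAt (x * y) (n + m) := by
  have h1 : (x * y).order = n + m := by
    rw [HahnSeries.order_mul hx.ne_zero hy.ne_zero, hx.order_eq, hy.order_eq]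
  have h2 : (x * y).leadingCoeff = 1 := by
    rw [HahnSeries.leadingCoeff_mul, hx.leadingCoeff_eq, hy.leadingCoeff_eq, mul_one]
  have := es1f_monicAt_of_order h2
  rwa [h1] at this

theorem MonicAt.pow [IsDomain R] {x : LaurentSeries R} {n : ℤ} (hx : MonicAt x n) (k : ℕ) :
    MonicAt (x ^ k) (k * n) := by
  induction k with
  | zero =>
    rw [pow_zero, Nat.cast_zero, zero_mul]
    refine ⟨by rw [HahnSeries.coeff_one, if_pos rfl], fun j hj => ?_⟩
    rw [HahnSeries.coeff_one, if_neg (ne_of_lt hj)]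
  | succ k ih =>
    have := ih.mul hx
    rw [pow_succ]
    convert this using 1
    push_cast
    ring

/-- adding terms of higher order -/
theorem MonicAt.add {x y : LaurentSeries R} {n : ℤ} (hx : MonicAt x n)
    (hy : ∀ k : ℤ, k ≤ n → y.coeff k = 0) : MonicAt (x + y) n :=
  ⟨by rw [HahnSeries.coeff_add, hx.1, hy n le_rfl, add_zero],
    fun k hk => by rw [HahnSeries.coeff_add, hx.2 k hk, hy k hk.le, add_zero]⟩

theorem MonicAt.coeff_of_le {x : LaurentSeries R} {n m : ℤ} (hx : MonicAt x m) (h : n < m)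
    (k : ℤ) (hk : k ≤ n) : x.coeff k = 0 :=
  hx.2 k (lt_of_le_of_lt hk h)

/-- a sum of series `q^{φ i}(1 + …)` with `φ` injective on the index set -/
theorem es1f_monicAt_sum {ι : Type*} [LinearOrder ι] (s : Finset ι) (hs : s.Nonempty)
    (f : ι → LaurentSeries R) (φ : ι → ℤ) (hφ : ∀ i ∈ s, ∀ j ∈ s, i < j → φ i < φ j)
    (hf : ∀ i ∈ s, MonicAt (f i) (φ i)) :
    MonicAt (∑ i ∈ s, f i) (φ (s.min' hs)) := by
  classical
  have hmem := s.min'_mem hs
  rw [← Finset.add_sum_erase s f hmem]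
  refine (hf _ hmem).add fun k hk => ?_
  rw [HahnSeries.coeff_sum]
  refine Finset.sum_eq_zero fun i hi => ?_
  have hi' := Finset.mem_of_mem_erase hi
  have hne : i ≠ s.min' hs := Finset.ne_of_mem_erase hi
  have hlt : s.min' hs < i := lt_of_le_of_ne (s.min'_le i hi') (Ne.symm hne)
  exact (hf i hi').2 k (lt_of_le_of_lt hk (hφ _ hmem _ hi' hlt))

/-- `x(q^e)` -/
theorem MonicAt.qExpand {x : LaurentSeries R} {n : ℤ} (hx : MonicAt x n) (e : ℕ) [NeZero e] :
    MonicAt (qExpand R e x) (e * n) := by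
  refine ⟨by rw [qExpand_coeff_mul, hx.1], fun k hk => ?_⟩
  by_cases hd : (e : ℤ) ∣ k
  · obtain ⟨m, rfl⟩ := hd
    rw [qExpand_coeff_mul]
    have he : (0 : ℤ) < e := by exact_mod_cast Nat.pos_of_ne_zero (NeZero.ne e)
    exact hx.2 m (lt_of_mul_lt_mul_left hk he.le)
  · exact qExpand_coeff_of_not_dvd e x hd

/-- power series with lowest term `qⁿ` -/
theorem es1f_monicAt_ofPowerSeries {p : PowerSeries R} {n : ℕ} (h1 : PowerSeries.coeff n p = 1)
    (h0 : ∀ k < n, PowerSeries.coeff k p = 0) :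
    MonicAt (HahnSeries.ofPowerSeries ℤ R p) n := by
  refine ⟨by rw [HahnSeries.ofPowerSeries_apply_coeff, h1], fun k hk => ?_⟩
  rcases le_or_gt 0 k with hk0 | hk0
  · lift k to ℕ using hk0
    rw [HahnSeries.ofPowerSeries_apply_coeff]
    exact h0 k (by exact_mod_cast hk)
  · exact ofPowerSeries_coeff_of_neg _ hk0

end Monic

/-! ## The Eisenstein series `Y_{M,a'}` and `G_{M,a'}` -/

section Eis

variable {M a' : ℕ}

theorem es1f_cast_eq_iff (ha : 2 * a' < M) {d : ℕ} (hd : d ≤ a') :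
    (d : ZMod M) = (a' : ZMod M) ↔ d = a' := by
  constructor
  · intro h
    rw [ZMod.natCast_eq_natCast_iff] at h
    exact Nat.ModEq.eq_of_lt_of_lt h (by omega) (by omega)
  · rintro rfl; rfl

theorem es1f_cast_ne_neg (ha : 2 * a' < M) {d : ℕ} (hd1 : 1 ≤ d) (hd : d ≤ a') :
    (d : ZMod M) ≠ -(a' : ZMod M) := by
  intro h
  have h1 : ((d + a' : ℕ) : ZMod M) = 0 := by
    rw [Nat.cast_add, h, neg_add_cancel]
  rw [ZMod.natCast_eq_zero_iff] at h1
  have := Nat.le_of_dvd (by omega) h1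
  omega

theorem es1f_eisYCoeff_of_lt (ha : 2 * a' < M) {n : ℕ} (hn : n < a') :
    eisYCoeff M (a' : ZMod M) n = 0 := by
  unfold eisYCoeff
  refine Finset.sum_eq_zero fun m hm => ?_
  have hm' := Nat.mem_divisors.mp hm
  have hd1 : 1 ≤ n / m := Nat.div_pos (Nat.le_of_dvd (Nat.pos_of_ne_zero hm'.2) hm'.1)
    (Nat.pos_of_dvd_of_pos hm'.1 (Nat.pos_of_ne_zero hm'.2))
  have hd : n / m ≤ a' := (Nat.div_le_self n m).trans hn.le
  have h1 : ¬ ((n / m : ℕ) : ZMod M) = (a' : ZMod M) := by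
    rw [es1f_cast_eq_iff ha hd]
    have := Nat.div_le_self n m
    omega
  rw [if_neg h1, if_neg (es1f_cast_ne_neg ha hd1 hd), sub_zero]

theorem es1f_eisYCoeff_self (h1 : 1 ≤ a') (ha : 2 * a' < M) :
    eisYCoeff M (a' : ZMod M) a' = 1 := by
  unfold eisYCoeff
  have h1mem : 1 ∈ a'.divisors := Nat.mem_divisors.mpr ⟨one_dvd _, by omega⟩
  rw [Finset.sum_eq_single_of_mem 1 h1mem]
  · rw [Nat.div_one, if_pos rfl, if_neg (es1f_cast_ne_neg ha h1 le_rfl)]
    norm_num
  · intro m hm hm1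
    have hm' := Nat.mem_divisors.mp hm
    have hmpos : 0 < m := Nat.pos_of_dvd_of_pos hm'.1 (by omega)
    have hd1 : 1 ≤ a' / m := Nat.div_pos (Nat.le_of_dvd (by omega) hm'.1) hmpos
    have hd : a' / m ≤ a' := Nat.div_le_self a' m
    have hlt : a' / m < a' := Nat.div_lt_self (by omega) (by omega)
    have h2 : ¬ ((a' / m : ℕ) : ZMod M) = (a' : ZMod M) := by
      rw [es1f_cast_eq_iff ha hd]
      omega
    rw [if_neg h2, if_neg (es1f_cast_ne_neg ha hd1 hd), sub_zero]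

/-- `Y_{M,a'} = q^{a'} (1 + …)` -/
theorem es1f_monicAt_eisY (h1 : 1 ≤ a') (ha : 2 * a' < M) :
    MonicAt (HahnSeries.ofPowerSeries ℤ ℤ (eisYZ M (a' : ZMod M))) a' := by
  refine es1f_monicAt_ofPowerSeries ?_ fun k hk => ?_
  · rw [eisYZ, PowerSeries.coeff_mk]
    exact es1f_eisYCoeff_self h1 ha
  · rw [eisYZ, PowerSeries.coeff_mk]
    exact es1f_eisYCoeff_of_lt ha hk

/-- `Δ⁻¹ = q⁻¹ (1 + …)` -/
theorem es1f_monicAt_deltaInvZ : MonicAt Fermat.Agent.S28.deltaInvZ (-1) := by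
  have h1 : MonicAt (HahnSeries.single (-1 : ℤ) (1 : ℤ) : LaurentSeries ℤ) (-1) :=
    ⟨HahnSeries.coeff_single_same _ _, fun k hk => HahnSeries.coeff_single_of_ne (ne_of_lt hk)⟩
  have h2 : MonicAt (HahnSeries.ofPowerSeries ℤ ℤ dedekindEtaUnitInv) ((0 : ℕ) : ℤ) :=
    es1f_monicAt_ofPowerSeries (by
      rw [PowerSeries.coeff_zero_eq_constantCoeff_apply]
      exact constantCoeff_dedekindEtaUnitInv) (fun k hk => absurd hk (Nat.not_lt_zero k))
  have := h1.mul h2
  simpa [Fermat.Agent.S28.deltaInvZ] using this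

/-- `G_{M,a'} = q^{4a'-1} (1 + …)` -/
theorem es1f_monicAt_gZ (h1 : 1 ≤ a') (ha : 2 * a' < M) :
    MonicAt (gZ M (a' : ZMod M)) (4 * (a' : ℤ) - 1) := by
  have h := ((es1f_monicAt_eisY h1 ha).pow 4).mul es1f_monicAt_deltaInvZ
  rw [← map_pow] at h
  have e : ((4 : ℕ) : ℤ) * (a' : ℤ) + -1 = 4 * (a' : ℤ) - 1 := by push_cast; ring
  rw [e] at h
  exact h

end Eis

/-! ## The classes `± a H` and `cosetReps` -/

section Coset

variable {M : ℕ} {H : Subgroup (ZMod M)ˣ}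

/-- `x ∈ ± a H` -/
def InPM (H : Subgroup (ZMod M)ˣ) (a : (ZMod M)ˣ) (x : ZMod M) : Prop :=
  ∃ h ∈ H, x = ((a * h : (ZMod M)ˣ) : ZMod M) ∨ x = -((a * h : (ZMod M)ˣ) : ZMod M)

theorem es1f_mem_cosetReps {a : (ZMod M)ˣ} {a' : ℕ} :
    a' ∈ cosetReps M H a ↔ (1 ≤ a' ∧ a' ≤ M / 2) ∧ InPM H a (a' : ZMod M) := by
  classical
  unfold cosetReps
  simp only [Finset.mem_filter, Finset.mem_Icc]
  rfl

theorem InPM.self (a : (ZMod M)ˣ) : InPM H a (a : ZMod M) :=
  ⟨1, H.one_mem, Or.inl (by rw [mul_one])⟩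

theorem InPM.neg {a : (ZMod M)ˣ} {x : ZMod M} (h : InPM H a x) : InPM H a (-x) := by
  obtain ⟨h₀, hh₀, hx | hx⟩ := h
  · exact ⟨h₀, hh₀, Or.inr (by rw [hx])⟩
  · exact ⟨h₀, hh₀, Or.inl (by rw [hx, neg_neg])⟩

theorem InPM.isUnit {a : (ZMod M)ˣ} {x : ZMod M} (h : InPM H a x) : IsUnit x := by
  obtain ⟨h₀, -, hx | hx⟩ := h
  · rw [hx]; exact (a * h₀).isUnit
  · rw [hx]; exact (a * h₀).isUnit.neg

/-- transitivity: `b ∈ ± a H`, `x ∈ ± b H` ⇒ `x ∈ ± a H` -/
theorem InPM.trans {a b : (ZMod M)ˣ} {x : ZMod M} (hab : InPM H a (b : ZMod M))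
    (hx : InPM H b x) : InPM H a x := by
  obtain ⟨h₁, hh₁, hb | hb⟩ := hab
  · obtain ⟨h₂, hh₂, hx | hx⟩ := hx
    · exact ⟨h₁ * h₂, H.mul_mem hh₁ hh₂, Or.inl (by
        rw [hx, Units.val_mul, hb, Units.val_mul, Units.val_mul, Units.val_mul]; ring)⟩
    · exact ⟨h₁ * h₂, H.mul_mem hh₁ hh₂, Or.inr (by
        rw [hx, Units.val_mul, hb, Units.val_mul, Units.val_mul, Units.val_mul]; ring)⟩
  · obtain ⟨h₂, hh₂, hx | hx⟩ := hx
    · exact ⟨h₁ * h₂, H.mul_mem hh₁ hh₂, Or.inr (by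
        rw [hx, Units.val_mul, hb, Units.val_mul, Units.val_mul, Units.val_mul]; ring)⟩
    · exact ⟨h₁ * h₂, H.mul_mem hh₁ hh₂, Or.inl (by
        rw [hx, Units.val_mul, hb, Units.val_mul, Units.val_mul, Units.val_mul]; ring)⟩

/-- symmetry -/
theorem InPM.symm {a b : (ZMod M)ˣ} (hab : InPM H a (b : ZMod M)) : InPM H b (a : ZMod M) := by
  obtain ⟨h₁, hh₁, hb | hb⟩ := hab
  · refine ⟨h₁⁻¹, H.inv_mem hh₁, Or.inl ?_⟩
    rw [Units.val_mul, hb, Units.val_mul, mul_assoc, ← Units.val_mul, mul_inv_cancel,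
      Units.val_one, mul_one]
  · refine ⟨h₁⁻¹, H.inv_mem hh₁, Or.inr ?_⟩
    rw [Units.val_mul, hb, Units.val_mul, neg_mul, neg_neg, mul_assoc, ← Units.val_mul,
      mul_inv_cancel, Units.val_one, mul_one]

/-- two classes with a common element are equal -/
theorem InPM.of_common {a b : (ZMod M)ˣ} {x : ZMod M} (ha : InPM H a x) (hb : InPM H b x) :
    InPM H a (b : ZMod M) := by
  obtain ⟨h₂, hh₂, hx | hx⟩ := hb
  · -- `x = b h₂`, so `b = x h₂⁻¹`
    have hb' : (b : ZMod M) = x * ((h₂⁻¹ : (ZMod M)ˣ) : ZMod M) := by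
      rw [hx, Units.val_mul, mul_assoc, ← Units.val_mul, mul_inv_cancel, Units.val_one, mul_one]
    obtain ⟨h₁, hh₁, hx' | hx'⟩ := ha
    · exact ⟨h₁ * h₂⁻¹, H.mul_mem hh₁ (H.inv_mem hh₂), Or.inl (by
        rw [hb', hx', Units.val_mul, Units.val_mul, Units.val_mul]; ring)⟩
    · exact ⟨h₁ * h₂⁻¹, H.mul_mem hh₁ (H.inv_mem hh₂), Or.inr (by
        rw [hb', hx', Units.val_mul, Units.val_mul, Units.val_mul]; ring)⟩
  · have hb' : (b : ZMod M) = -(x * ((h₂⁻¹ : (ZMod M)ˣ) : ZMod M)) := by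
      rw [hx, Units.val_mul, neg_mul, neg_neg, mul_assoc, ← Units.val_mul, mul_inv_cancel,
        Units.val_one, mul_one]
    obtain ⟨h₁, hh₁, hx' | hx'⟩ := ha
    · exact ⟨h₁ * h₂⁻¹, H.mul_mem hh₁ (H.inv_mem hh₂), Or.inr (by
        rw [hb', hx', Units.val_mul, Units.val_mul, Units.val_mul]; ring)⟩
    · exact ⟨h₁ * h₂⁻¹, H.mul_mem hh₁ (H.inv_mem hh₂), Or.inl (by
        rw [hb', hx', Units.val_mul, Units.val_mul, Units.val_mul]; ring)⟩

/-- `cosetReps` only depends on the class `± a H` -/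
theorem es1f_cosetReps_eq {a b : (ZMod M)ˣ} (hab : InPM H a (b : ZMod M)) :
    cosetReps M H b = cosetReps M H a := by
  ext a'
  rw [es1f_mem_cosetReps, es1f_mem_cosetReps]
  exact ⟨fun h => ⟨h.1, hab.trans h.2⟩, fun h => ⟨h.1, hab.symm.trans h.2⟩⟩

/-- different classes have disjoint `cosetReps` -/
theorem es1f_inPM_of_mem {a b : (ZMod M)ˣ} {a' : ℕ} (ha : a' ∈ cosetReps M H a)
    (hb : a' ∈ cosetReps M H b) : InPM H a (b : ZMod M) :=
  (es1f_mem_cosetReps.mp ha).2.of_common (es1f_mem_cosetReps.mp hb).2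

/-- the elements of `cosetReps` are `< M/2` (for `M ≥ 3`) -/
theorem es1f_two_mul_lt (hM : 3 ≤ M) {a : (ZMod M)ˣ} {a' : ℕ}
    (ha : a' ∈ cosetReps M H a) : 1 ≤ a' ∧ 2 * a' < M := by
  obtain ⟨⟨h1, h2⟩, h3⟩ := es1f_mem_cosetReps.mp ha
  refine ⟨h1, ?_⟩
  have hcop : Nat.Coprime a' M := (ZMod.isUnit_iff_coprime a' M).mp h3.isUnit
  by_contra hlt
  have heq : 2 * a' = M := by omega
  have hdvd : a' ∣ M := ⟨2, by omega⟩
  have h4 : a' = 1 := Nat.Coprime.eq_one_of_dvd hcop hdvd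
  omega

/-- `cosetReps` is not empty (for `M ≥ 3`) -/
theorem es1f_cosetReps_nonempty (hM : 3 ≤ M) (a : (ZMod M)ˣ) : (cosetReps M H a).Nonempty := by
  haveI : NeZero M := ⟨by omega⟩
  haveI : Fact (1 < M) := ⟨by omega⟩
  have hx0 : (a : ZMod M).val ≠ 0 := by
    rw [Ne, ZMod.val_eq_zero]
    exact a.ne_zero
  have hxlt : (a : ZMod M).val < M := ZMod.val_lt _
  have hcast : (((a : ZMod M).val : ℕ) : ZMod M) = (a : ZMod M) := ZMod.natCast_zmod_val _
  by_cases hle : (a : ZMod M).val ≤ M / 2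
  · refine ⟨(a : ZMod M).val, es1f_mem_cosetReps.mpr ⟨⟨by omega, hle⟩, ?_⟩⟩
    rw [hcast]
    exact InPM.self a
  · refine ⟨M - (a : ZMod M).val, es1f_mem_cosetReps.mpr ⟨⟨by omega, by omega⟩, ?_⟩⟩
    have h1 : ((M - (a : ZMod M).val : ℕ) : ZMod M) = -(a : ZMod M) := by
      rw [Nat.cast_sub hxlt.le, hcast, ZMod.natCast_self, zero_sub]
    rw [h1]
    exact (InPM.self a).neg

end Coset

/-! ## The generators `S_{M,H,a}` -/

section Lead

variable (M : ℕ) (H : Subgroup (ZMod M)ˣ)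

/-- the least element of `cosetReps M H a` (and `0` if there is none) -/
def es1fLead (a : (ZMod M)ˣ) : ℕ :=
  if h : (cosetReps M H a).Nonempty then (cosetReps M H a).min' h else 0

variable {M H}

theorem es1f_lead_mem (hM : 3 ≤ M) (a : (ZMod M)ˣ) : es1fLead M H a ∈ cosetReps M H a := by
  rw [es1fLead, dif_pos (es1f_cosetReps_nonempty hM a)]
  exact Finset.min'_mem _ _

theorem es1f_lead_eq_of_inPM {a b : (ZMod M)ˣ} (hab : InPM H a (b : ZMod M)) :
    es1fLead M H b = es1fLead M H a := by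
  unfold es1fLead
  simp only [es1f_cosetReps_eq hab]

theorem es1f_lead_eq_iff (hM : 3 ≤ M) {a b : (ZMod M)ˣ} :
    es1fLead M H a = es1fLead M H b ↔ InPM H a (b : ZMod M) := by
  constructor
  · intro h
    have ha := es1f_lead_mem (H := H) hM a
    have hb := es1f_lead_mem (H := H) hM b
    rw [← h] at hb
    exact es1f_inPM_of_mem ha hb
  · intro h
    exact (es1f_lead_eq_of_inPM h).symm

/-- `S_{M,H,a} = q^{4·lead-1} (1 + …)` over `ℤ` -/
theorem es1f_monicAt_sZ (hM : 3 ≤ M) (a : (ZMod M)ˣ) :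
    MonicAt (sZ M H a) (4 * (es1fLead M H a : ℤ) - 1) := by
  have hne := es1f_cosetReps_nonempty (H := H) hM a
  have h := es1f_monicAt_sum (cosetReps M H a) hne (fun a' : ℕ => gZ M (a' : ZMod M))
    (fun a' : ℕ => 4 * (a' : ℤ) - 1) (fun i _ j _ hij => by
      have : (i : ℤ) < j := by exact_mod_cast hij
      linarith)
    (fun i hi => by
      obtain ⟨h1, h2⟩ := es1f_two_mul_lt hM hi
      exact es1f_monicAt_gZ h1 h2)
  rw [es1fLead, dif_pos hne]
  exact h

variable (R : Type*) [CommRing R]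

/-- `S_{M,H,a} = q^{4·lead-1} (1 + …)` over every commutative ring -/
theorem es1f_monicAt_sS (hM : 3 ≤ M) (a : (ZMod M)ˣ) :
    MonicAt (sS R M H a) (4 * (es1fLead M H a : ℤ) - 1) :=
  (es1f_monicAt_sZ hM a).coeffMap _

theorem es1f_sS_ne_zero [Nontrivial R] (hM : 3 ≤ M) (a : (ZMod M)ˣ) : sS R M H a ≠ 0 :=
  (es1f_monicAt_sS R hM a).ne_zero

theorem es1f_order_sS [Nontrivial R] (hM : 3 ≤ M) (a : (ZMod M)ˣ) :
    (sS R M H a).order = 4 * (es1fLead M H a : ℤ) - 1 :=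
  (es1f_monicAt_sS R hM a).order_eq

theorem es1f_sS_eq_of_inPM {a b : (ZMod M)ˣ} (hab : InPM H a (b : ZMod M)) :
    sS R M H b = sS R M H a := by
  unfold sS sZ
  rw [es1f_cosetReps_eq hab]

/-- the `S_{M,H,a}` of different classes are different: their difference is `± q^n (1 + …)` -/
theorem es1f_sS_sub (hM : 3 ≤ M) {a b : (ZMod M)ˣ} (hab : ¬ InPM H a (b : ZMod M)) :
    ∃ n : ℤ, MonicAt (sS R M H a - sS R M H b) n ∨ MonicAt (sS R M H b - sS R M H a) n := by
  have hne : es1fLead M H a ≠ es1fLead M H b := fun h => hab ((es1f_lead_eq_iff hM).mp h)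
  have ha := es1f_monicAt_sS R (H := H) hM a
  have hb := es1f_monicAt_sS R (H := H) hM b
  rcases lt_or_gt_of_ne hne with hlt | hlt
  · refine ⟨4 * (es1fLead M H a : ℤ) - 1, Or.inl ?_⟩
    rw [sub_eq_add_neg]
    refine ha.add fun k hk => ?_
    rw [HahnSeries.coeff_neg, hb.2 k (by
      have : (es1fLead M H a : ℤ) < es1fLead M H b := by exact_mod_cast hlt
      linarith), neg_zero]
  · refine ⟨4 * (es1fLead M H b : ℤ) - 1, Or.inr ?_⟩
    rw [sub_eq_add_neg]
    refine hb.add fun k hk => ?_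
    rw [HahnSeries.coeff_neg, ha.2 k (by
      have : (es1fLead M H b : ℤ) < es1fLead M H a := by exact_mod_cast hlt
      linarith), neg_zero]

theorem es1f_sS_ne [Nontrivial R] (hM : 3 ≤ M) {a b : (ZMod M)ˣ}
    (hab : ¬ InPM H a (b : ZMod M)) : sS R M H a ≠ sS R M H b := by
  intro h
  obtain ⟨n, hn | hn⟩ := es1f_sS_sub R hM hab
  · rw [h, sub_self] at hn
    exact hn.ne_zero rfl
  · rw [h, sub_self] at hn
    exact hn.ne_zero rfl

theorem es1f_sS_eq_iff [Nontrivial R] (hM : 3 ≤ M) {a b : (ZMod M)ˣ} :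
    sS R M H a = sS R M H b ↔ InPM H a (b : ZMod M) :=
  ⟨fun h => by_contra fun hab => es1f_sS_ne R hM hab h, fun h => (es1f_sS_eq_of_inPM R h).symm⟩

end Lead

/-! ## Base change -/

section BaseChange

variable {R S : Type*} [CommRing R] [CommRing S]

theorem es1f_coeffMap_sS (f : R →+* S) (M : ℕ) (H : Subgroup (ZMod M)ˣ) (a : (ZMod M)ˣ) :
    coeffMap f (sS R M H a) = sS S M H a := by
  unfold sS
  rw [coeffMap_coeffMap]
  exact coeffMap_congr (RingHom.ext_int _ _) _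

theorem es1f_coeffMap_qExpand_sS (f : R →+* S) (M : ℕ) (H : Subgroup (ZMod M)ˣ)
    (a : (ZMod M)ˣ) (e : ℕ) [NeZero e] :
    coeffMap f (qExpand R e (sS R M H a)) = qExpand S e (sS S M H a) := by
  rw [coeffMap_qExpand, es1f_coeffMap_sS]

variable {K K' : Type*} [Field K] [Field K']

/-- `coeffMap f` maps the field of `X_H(L; M)` over `K` into the one over `K'`. -/
theorem es1f_coeffMap_mem_fieldC (f : K →+* K') (L M : ℕ) (H : Subgroup (ZMod M)ˣ)
    {x : LaurentSeries K} (hx : x ∈ fieldC K L M H) : coeffMap f x ∈ fieldC K' L M H := by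
  have hx' : x ∈ Subfield.closure
      (Set.range (algebraMap K (LaurentSeries K)) ∪
        (divisorExpansionsC K L ∪ diamondExpansionsC K L M H)) := hx
  clear hx
  induction hx' using Subfield.closure_induction with
  | mem y hy =>
      rcases hy with ⟨c, rfl⟩ | ⟨d, hd, hdN, rfl⟩ | ⟨e, he, a, heL, rfl⟩
      · rw [Fermat.Agent.INJ.nf_coeffMap_algebraMap]
        exact (fieldC K' L M H).algebraMap_mem _
      · have : coeffMap f (qExpand K d (jqModC K)) = qExpand K' d (jqModC K') :=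
          coeffMap_jqNModC f d
        rw [this]
        exact jd_mem_fieldC K' L M H hdN
      · rw [es1f_coeffMap_qExpand_sS]
        exact qExpand_sS_mem K' L M H heL a
  | one => simp
  | add x y _ _ hx hy => simpa using add_mem hx hy
  | neg x _ hx => simpa using neg_mem hx
  | inv x _ hx => simpa using inv_mem hx
  | mul x y _ _ hx hy => simpa using mul_mem hx hy

/-- the two descriptions of the field over `ℚ̄` -/
theorem es1f_fieldBar_eq (L M : ℕ) (H : Subgroup (ZMod M)ˣ) :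
    fieldBar L M H = fieldC (AlgebraicClosure ℚ) L M H := by
  apply le_antisymm
  · show laurentBaseChange (AlgebraicClosure ℚ) (fieldQ L M H) ≤ _
    rw [laurentBaseChange, IntermediateField.adjoin_le_iff]
    rintro _ ⟨x, hx, rfl⟩
    exact es1f_coeffMap_mem_fieldC (algebraMap ℚ (AlgebraicClosure ℚ)) L M H hx
  · rw [fieldC, IntermediateField.adjoin_le_iff]
    rintro _ (⟨d, hd, hdN, rfl⟩ | ⟨e, he, a, heL, rfl⟩)
    · have h1 : qExpand (AlgebraicClosure ℚ) d (jqModC (AlgebraicClosure ℚ)) =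
          coeffEmb (AlgebraicClosure ℚ) (qExpand ℚ d (jqModC ℚ)) :=
        (coeffMap_jqNModC (algebraMap ℚ (AlgebraicClosure ℚ)) d).symm
      rw [h1]
      exact coeffEmb_mem_laurentBaseChange _ (jd_mem_fieldC ℚ L M H hdN)
    · have h1 : qExpand (AlgebraicClosure ℚ) e (sS (AlgebraicClosure ℚ) M H a) =
          coeffEmb (AlgebraicClosure ℚ) (qExpand ℚ e (sS ℚ M H a)) :=
        (es1f_coeffMap_qExpand_sS (algebraMap ℚ (AlgebraicClosure ℚ)) M H a e).symm
      rw [h1]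
      exact coeffEmb_mem_laurentBaseChange _ (qExpand_sS_mem ℚ L M H heL a)

end BaseChange

end Fermat.Agent.ES1
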