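import Fermat.Agent.ES1.InjPlan
import Fermat.Agent.ES1.Formal

/-!
# ES₁ / F3-conj — interface: the diamond automorphisms of `fieldC K L M H` over the `Γ₀(L)`-field

Characteristic `0`, `K` algebraic over `ℚ` (so `K` embeds into `ℂ`).  `M ∣ L`, `H ≤ (ℤ/M)ˣ`.

* `IsRepFam H a` : `a : Fin (m + 1) → (ℤ/M)ˣ` is a system of representatives of
  `(ℤ/M)ˣ / ±H`, with `a 0 = 1`.
* `StmtDiamondH` (**piece F3-conj**): for such `K`
  * `gen`  : `fieldC K L M H = F₀(S_{M,H,1})`, `F₀ = modularFunctionFieldFullC K L`;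
  * `poly` : `S_{M,H,1}` is a root of a monic polynomial of degree `m + 1` over `F₀`
             (`∏ᵢ (X − S_{M,H,aᵢ})`, whose coefficients are `Γ₀(L)`-invariant);
  * `aut`  : for every `c ∈ (ℤ/M)ˣ` there is an automorphism `δ_c` of `fieldC K L M H` over `F₀`
             with `δ_c (S_{M,H,b}(q^e)) = S_{M,H,bc}(q^e)` for all `b` and all `e` with `e·M ∣ L`.
  Proof (owner: see `NOTES/ES1-plan.md`): over `ℂ`, `S_{M,H,b}(eτ)` is a modular function for
  `Γ = Γ_H(M) ∩ Γ₀(L)` (F2: `f2Ga_smul`, `laurentOf_f2Ga`), `Γ₀(L)` permutes the `S_{M,H,aᵢ}`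
  (pairwise different: F1), Lagrange (`es1rc_tower`) + `rc_laurentOf_mem_full` (RC for `Γ₀(L)`),
  then descent `ℂ → K` (`ES/DescentInj.lean`: `mem_laurentBaseChange_of_coeffMap_mem`).
  Consequences (captain): the `ConjFamily` instances for INJ₁ and `StmtRelDegH`
  (`ES1/DescentLevelH.lean`): `[fieldBar L M H : modularFunctionFieldBar L] = m + 1` for all `L`.
-/

set_option autoImplicit false

noncomputable section

namespace Fermat.Agent.ES1

open Polynomial ModularCurve IntermediateField AlgebraicCurve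

/-- a system of representatives of `(ℤ/M)ˣ / ±H`, starting with `1` -/
structure IsRepFam {M : ℕ} (H : Subgroup (ZMod M)ˣ) {m : ℕ} (a : Fin (m + 1) → (ZMod M)ˣ) :
    Prop where
  zero : a 0 = 1
  inj : ∀ i j, InPM H (a i) ((a j : (ZMod M)ˣ) : ZMod M) → i = j
  surj : ∀ c : (ZMod M)ˣ, ∃ i, InPM H (a i) (c : ZMod M)

/-- **(F3-conj)** generation by `S_{M,H,1}`, its polynomial over the `Γ₀(L)`-field, and the
diamond automorphisms, over a field `K` of characteristic `0` algebraic over `ℚ`. -/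
def StmtDiamondH : Prop :=
  ∀ (K : Type) [Field K] [CharZero K] [Algebra.IsAlgebraic ℚ K] (L M : ℕ)
    (H : Subgroup (ZMod M)ˣ) {m : ℕ} (a : Fin (m + 1) → (ZMod M)ˣ),
    L ≠ 0 → M ∣ L → IsRepFam H a →
    (fieldC K L M H ≤ IntermediateField.adjoin K
      ((modularFunctionFieldFullC K L : Set (LaurentSeries K)) ∪ {sS K M H 1})) ∧
    (∃ P : Polynomial (modularFunctionFieldFullC K L), P.Monic ∧ P.natDegree = m + 1 ∧
      Polynomial.eval₂ (modularFunctionFieldFullC K L).val.toRingHom (sS K M H 1) P = 0) ∧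
    (∀ c : (ZMod M)ˣ, ∃ σ : fieldC K L M H ≃ₐ[K] fieldC K L M H,
      (∀ f : fieldC K L M H, (f : LaurentSeries K) ∈ modularFunctionFieldFullC K L → σ f = f) ∧
      ∀ (e : ℕ) [NeZero e] (he : e * M ∣ L) (b : (ZMod M)ˣ),
        ((σ ⟨qExpand K e (sS K M H b), qExpand_sS_mem K L M H he b⟩ : fieldC K L M H) :
          LaurentSeries K) = qExpand K e (sS K M H (b * c)))

end Fermat.Agent.ES1
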