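import Mathlib

/-!
# ES₁ / F3-conj — the conjugation principle (pure algebra)

`Λ : A →+* Ω` an injective ring homomorphism into a field, `g : A →+* A` a ring endomorphism.
`es1cj_Rel Λ g x y` : `x = Λ a / Λ b`, `y = Λ (g a) / Λ (g b)` — the graph of the extension of `g`
to the fractions.  The relation is additive, multiplicative and functional, so:

* `es1cj_cp` (**conjugation principle**): if the coefficients `r` of `P ∈ Ω[X]` are fixed
  (`Rel r r`) and `P(Λ u) = Λ v`, then `P(Λ (g u)) = Λ (g v)`.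
-/

set_option autoImplicit false

namespace Fermat.Agent.ES1

section

variable {A Ω : Type*} [CommRing A] [Field Ω] (Λ : A →+* Ω) (g : A →+* A)

/-- the graph of the extension of `g` to fractions of `Λ A` -/
def es1cj_Rel (x y : Ω) : Prop :=
  ∃ a b : A, Λ b ≠ 0 ∧ Λ (g b) ≠ 0 ∧ x * Λ b = Λ a ∧ y * Λ (g b) = Λ (g a)

variable {Λ g}

theorem es1cj_rel_of (a : A) : es1cj_Rel Λ g (Λ a) (Λ (g a)) :=
  ⟨a, 1, by rw [map_one]; exact one_ne_zero, by rw [map_one, map_one]; exact one_ne_zero,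
    by rw [map_one, mul_one], by rw [map_one, map_one, mul_one]⟩

theorem es1cj_rel_zero : es1cj_Rel Λ g 0 0 := by
  have := es1cj_rel_of (Λ := Λ) (g := g) 0
  simpa using this

theorem es1cj_rel_one : es1cj_Rel Λ g 1 1 := by
  have := es1cj_rel_of (Λ := Λ) (g := g) 1
  simpa using this

/-- a fraction of fixed elements is fixed -/
theorem es1cj_rel_fixed {x : Ω} {a b : A} (hb : Λ b ≠ 0) (hx : x * Λ b = Λ a) (ha : g a = a)
    (hgb : g b = b) : es1cj_Rel Λ g x x :=
  ⟨a, b, hb, by rw [hgb]; exact hb, hx, by rw [hgb, ha]; exact hx⟩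

theorem es1cj_rel_add {x y x' y' : Ω} (h : es1cj_Rel Λ g x y) (h' : es1cj_Rel Λ g x' y') :
    es1cj_Rel Λ g (x + x') (y + y') := by
  obtain ⟨a, b, hb, hgb, hx, hy⟩ := h
  obtain ⟨a', b', hb', hgb', hx', hy'⟩ := h'
  refine ⟨a * b' + a' * b, b * b', ?_, ?_, ?_, ?_⟩
  · rw [map_mul]; exact mul_ne_zero hb hb'
  · rw [map_mul, map_mul]; exact mul_ne_zero hgb hgb'
  · rw [map_mul, map_add, map_mul, map_mul, ← hx, ← hx']
    ring
  · simp only [map_mul, map_add]
    rw [← hy, ← hy']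
    ring

theorem es1cj_rel_mul {x y x' y' : Ω} (h : es1cj_Rel Λ g x y) (h' : es1cj_Rel Λ g x' y') :
    es1cj_Rel Λ g (x * x') (y * y') := by
  obtain ⟨a, b, hb, hgb, hx, hy⟩ := h
  obtain ⟨a', b', hb', hgb', hx', hy'⟩ := h'
  refine ⟨a * a', b * b', ?_, ?_, ?_, ?_⟩
  · rw [map_mul]; exact mul_ne_zero hb hb'
  · rw [map_mul, map_mul]; exact mul_ne_zero hgb hgb'
  · rw [map_mul, map_mul, ← hx, ← hx']
    ring
  · simp only [map_mul]
    rw [← hy, ← hy']
    ring

theorem es1cj_rel_pow {x y : Ω} (h : es1cj_Rel Λ g x y) (n : ℕ) :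
    es1cj_Rel Λ g (x ^ n) (y ^ n) := by
  induction n with
  | zero => simpa using es1cj_rel_one
  | succ n ih =>
    rw [pow_succ, pow_succ]
    exact es1cj_rel_mul ih h

theorem es1cj_rel_sum {ι : Type*} (s : Finset ι) (x y : ι → Ω)
    (h : ∀ i ∈ s, es1cj_Rel Λ g (x i) (y i)) :
    es1cj_Rel Λ g (∑ i ∈ s, x i) (∑ i ∈ s, y i) := by
  classical
  induction s using Finset.induction_on with
  | empty => simpa using es1cj_rel_zero
  | insert i s hi ih =>
    rw [Finset.sum_insert hi, Finset.sum_insert hi]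
    exact es1cj_rel_add (h i (Finset.mem_insert_self i s))
      (ih fun j hj => h j (Finset.mem_insert_of_mem hj))

/-- the relation is functional -/
theorem es1cj_rel_unique (hΛ : Function.Injective Λ) {x y y' : Ω} (h : es1cj_Rel Λ g x y)
    (h' : es1cj_Rel Λ g x y') : y = y' := by
  obtain ⟨a, b, hb, hgb, hx, hy⟩ := h
  obtain ⟨a', b', hb', hgb', hx', hy'⟩ := h'
  have h1 : Λ (a * b') = Λ (a' * b) := by
    rw [map_mul, map_mul, ← hx, ← hx']
    ring
  have h2 : a * b' = a' * b := hΛ h1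
  have h3 : Λ (g a) * Λ (g b') = Λ (g a') * Λ (g b) := by
    rw [← map_mul, ← map_mul, ← map_mul, ← map_mul, h2]
  rw [← hy, ← hy'] at h3
  have h4 : (y - y') * (Λ (g b) * Λ (g b')) = 0 := by linear_combination h3
  rcases mul_eq_zero.mp h4 with h5 | h5
  · exact sub_eq_zero.mp h5
  · exact absurd h5 (mul_ne_zero hgb hgb')

theorem es1cj_rel_eval (P : Polynomial Ω)
    (hP : ∀ i, es1cj_Rel Λ g (P.coeff i) (P.coeff i)) {x y : Ω} (h : es1cj_Rel Λ g x y) :
    es1cj_Rel Λ g (P.eval x) (P.eval y) := by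
  rw [Polynomial.eval_eq_sum_range, Polynomial.eval_eq_sum_range]
  exact es1cj_rel_sum _ _ _ fun i _ => es1cj_rel_mul (hP i) (es1cj_rel_pow h i)

/-- **The conjugation principle.** -/
theorem es1cj_cp (hΛ : Function.Injective Λ) (P : Polynomial Ω)
    (hP : ∀ i, es1cj_Rel Λ g (P.coeff i) (P.coeff i)) (u v : A)
    (h : P.eval (Λ u) = Λ v) : P.eval (Λ (g u)) = Λ (g v) := by
  have h1 : es1cj_Rel Λ g (P.eval (Λ u)) (P.eval (Λ (g u))) :=
    es1cj_rel_eval P hP (es1cj_rel_of u)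
  rw [h] at h1
  exact es1cj_rel_unique hΛ h1 (es1cj_rel_of v)

end

end Fermat.Agent.ES1
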