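import Fermat.Agent.ES1.RCTower
import Fermat.Agent.ES1.ConjRel

/-!
# ES₁ / F3-conj — the tower `Γ ◁ Γ'` over `ℂ`: generation by ONE conjugate, the norm polynomial,
the conjugation principle

`Γ ≤ Γ' ≤ SL(2, ℤ)` of finite index, `T ∈ Γ`, `δ_i ∈ SL(2, ℤ)` normalising `Γ` and permuted by
`Γ'` (as in `es1rc_tower`), `E` a field containing the Laurent expansions of the modular functions
of level `Γ'`.

* `es1cjLam hT : modFunAlgG Γ →+* ℂ((q))` (Laurent expansion, injective), `es1cjComp γ hγ`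
  (composition with `γ` normalising `Γ`);
* `es1cj_tower` : if `E' ⊇ E` contains the expansion of `θ` and the conjugates `θ ∘ δ_i`
  (`i ≠ i₀`) have expansions different from that of `θ ∘ δ_{i₀} = θ`, then `E'` contains the
  expansions of all modular functions of level `Γ`.  (`es1rc_tower` asks `E'` to contain the
  expansions of ALL the conjugates.)
* `es1cj_prod_coeff_mem` : the coefficients of `∏_i (X − Λ(θ ∘ δ_i))` lie in `E`;
* `es1cj_cp_modular` : the conjugation principle for `γ ∈ Γ'` normalising `Γ` and polynomials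
  over a field `E` of fractions of expansions of modular functions of level `Γ'`.
-/

set_option autoImplicit false
set_option linter.unusedSectionVars false

noncomputable section

open UpperHalfPlane ModularForm CongruenceSubgroup Filter Topology Polynomial
open scoped MatrixGroups Manifold

namespace Fermat.Agent.ES1

open Fermat.Agent.S23 Fermat.Agent.S28 Fermat.Agent.ES

variable {Γ Γ' : Subgroup SL(2, ℤ)}

/-- the Laurent expansion at `i∞` on the modular functions of level `Γ ∋ T` -/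
def es1cjLam (hT : ModularGroup.T ∈ Γ) : modFunAlgG Γ →+* LaurentSeries ℂ :=
  (laurentExp.comp (Subalgebra.inclusion (modFunAlgG_le_merInf hT))).toRingHom

theorem es1cjLam_apply (hT : ModularGroup.T ∈ Γ) (f : modFunAlgG Γ) :
    es1cjLam hT f = laurentOf (f : ℍ → ℂ) := rfl

theorem es1cjLam_injective (hT : ModularGroup.T ∈ Γ) : Function.Injective (es1cjLam hT) := by
  intro f g h
  apply Subtype.ext
  exact laurentOf_injective (f.2.isMerInf hT) (g.2.isMerInf hT) h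

/-- composition with an element normalising `Γ` -/
def es1cjComp [Γ.FiniteIndex] (γ : SL(2, ℤ)) (hγ : ∀ x ∈ Γ, γ * x * γ⁻¹ ∈ Γ) :
    modFunAlgG Γ →+* modFunAlgG Γ where
  toFun f := ⟨fun z => (f : ℍ → ℂ) (γ • z), f.2.comp_normalizer γ hγ⟩
  map_one' := rfl
  map_mul' _ _ := rfl
  map_zero' := rfl
  map_add' _ _ := rfl

theorem es1cjComp_apply [Γ.FiniteIndex] (γ : SL(2, ℤ)) (hγ : ∀ x ∈ Γ, γ * x * γ⁻¹ ∈ Γ)
    (f : modFunAlgG Γ) (z : ℍ) :
    ((es1cjComp γ hγ f : modFunAlgG Γ) : ℍ → ℂ) z = (f : ℍ → ℂ) (γ • z) := rfl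

section Lagrange

variable {R : Type*} [CommRing R] {ι : Type*} [Fintype ι] [DecidableEq ι]

/-- `∏_i (X − Θ_i)` -/
def es1cjProd (Θ : ι → R) : R[X] := ∏ i, (X - C (Θ i))

theorem es1cjProd_map {S : Type*} [CommRing S] (φ : R →+* S) (Θ : ι → R) :
    (es1cjProd Θ).map φ = es1cjProd (fun i => φ (Θ i)) := by
  simp only [es1cjProd, Polynomial.map_prod, Polynomial.map_sub, Polynomial.map_X,
    Polynomial.map_C]

theorem es1cjProd_perm (Θ : ι → R) (σ : Equiv.Perm ι) :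
    es1cjProd (fun i => Θ (σ i)) = es1cjProd Θ := by
  simp only [es1cjProd]
  exact Equiv.prod_comp σ (fun i => X - C (Θ i))

theorem es1cjProd_monic [Nontrivial R] (Θ : ι → R) : (es1cjProd Θ).Monic :=
  monic_prod_of_monic _ _ fun i _ => monic_X_sub_C (Θ i)

theorem es1cjProd_natDegree [Nontrivial R] (Θ : ι → R) :
    (es1cjProd Θ).natDegree = Fintype.card ι := by
  rw [es1cjProd, natDegree_prod_of_monic _ _ fun i _ => monic_X_sub_C (Θ i)]
  simp

theorem es1cjProd_eval (Θ : ι → R) (i₀ : ι) : (es1cjProd Θ).eval (Θ i₀) = 0 := by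
  rw [es1cjProd, Polynomial.eval_prod]
  exact Finset.prod_eq_zero (Finset.mem_univ i₀) (by simp)

end Lagrange

section Tower

variable [Γ.FiniteIndex] [Γ'.FiniteIndex] {ι : Type*} [Fintype ι] [DecidableEq ι]
  (δ : ι → SL(2, ℤ))
  (hnorm : ∀ i, ∀ γ ∈ Γ, δ i * γ * (δ i)⁻¹ ∈ Γ)
  (hperm : ∀ γ ∈ Γ', ∃ σ : Equiv.Perm ι, ∀ i, δ i * γ * (δ (σ i))⁻¹ ∈ Γ)

/-- the conjugates of a modular function -/
def es1cjConj (hnorm : ∀ i, ∀ γ ∈ Γ, δ i * γ * (δ i)⁻¹ ∈ Γ) {f : ℍ → ℂ} (hf : IsModFunG Γ f) :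
    ι → modFunAlgG Γ :=
  fun i => ⟨fun z => f (δ i • z), hf.comp_normalizer (δ i) (hnorm i)⟩

include hperm in
/-- `Γ'` permutes the conjugates -/
theorem es1cj_conj_perm {γ : SL(2, ℤ)} (hγ : γ ∈ Γ') :
    ∃ σ : Equiv.Perm ι, ∀ {g : ℍ → ℂ}, IsModFunG Γ g → ∀ i (w : ℍ),
      g (δ i • (γ • w)) = g (δ (σ i) • w) := by
  obtain ⟨σ, hσ⟩ := hperm γ hγ
  refine ⟨σ, fun {g} hg i w => ?_⟩
  have h1 := hg.comp_smul (hσ i) (δ (σ i) • w)
  have h2 : (δ i * γ * (δ (σ i))⁻¹) • (δ (σ i) • w) = δ i • (γ • w) := by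
    rw [← mul_smul, ← mul_smul]
    congr 1
    group
  rw [h2] at h1
  exact h1

include hperm in
/-- the coefficients of the Lagrange polynomial of two families of conjugates are modular
functions of level `Γ'` -/
theorem es1cj_lag_coeff {f θ : ℍ → ℂ} (hf : IsModFunG Γ f) (hθ : IsModFunG Γ θ) (j : ℕ) :
    IsModFunG Γ' (((lagPoly (es1cjConj δ hnorm hf) (es1cjConj δ hnorm hθ)).coeff j :
      modFunAlgG Γ) : ℍ → ℂ) := by
  set Q := lagPoly (es1cjConj δ hnorm hf) (es1cjConj δ hnorm hθ) with hQ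
  refine IsModFunG.of_invariant (Q.coeff j).2 fun γ hγ z => ?_
  obtain ⟨σ, hconj⟩ := es1cj_conj_perm δ hperm hγ
  have h1 : (Q.map (modFunAlgG Γ).val.toRingHom).map (compSmul γ) =
      Q.map (modFunAlgG Γ).val.toRingHom := by
    rw [hQ, lagPoly_map, lagPoly_map]
    have h2 : (fun i => compSmul γ ((modFunAlgG Γ).val.toRingHom (es1cjConj δ hnorm hf i))) =
        fun i => (modFunAlgG Γ).val.toRingHom (es1cjConj δ hnorm hf (σ i)) := by
      funext i w
      exact hconj hf i w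
    have h3 : (fun i => compSmul γ ((modFunAlgG Γ).val.toRingHom (es1cjConj δ hnorm hθ i))) =
        fun i => (modFunAlgG Γ).val.toRingHom (es1cjConj δ hnorm hθ (σ i)) := by
      funext i w
      exact hconj hθ i w
    rw [h2, h3]
    exact lagPoly_perm (fun i => (modFunAlgG Γ).val.toRingHom (es1cjConj δ hnorm hf i))
      (fun i => (modFunAlgG Γ).val.toRingHom (es1cjConj δ hnorm hθ i)) σ
  have h4 := congrArg (fun P : (ℍ → ℂ)[X] => P.coeff j) h1
  simp only [Polynomial.coeff_map] at h4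
  exact congrFun h4 z

include hperm in
/-- the coefficients of `∏_i (X − θ ∘ δ_i)` are modular functions of level `Γ'` -/
theorem es1cj_prod_coeff {θ : ℍ → ℂ} (hθ : IsModFunG Γ θ) (j : ℕ) :
    IsModFunG Γ' (((es1cjProd (es1cjConj δ hnorm hθ)).coeff j : modFunAlgG Γ) : ℍ → ℂ) := by
  set Q := es1cjProd (es1cjConj δ hnorm hθ) with hQ
  refine IsModFunG.of_invariant (Q.coeff j).2 fun γ hγ z => ?_
  obtain ⟨σ, hconj⟩ := es1cj_conj_perm δ hperm hγ
  have h1 : (Q.map (modFunAlgG Γ).val.toRingHom).map (compSmul γ) =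
      Q.map (modFunAlgG Γ).val.toRingHom := by
    rw [hQ, es1cjProd_map, es1cjProd_map]
    have h3 : (fun i => compSmul γ ((modFunAlgG Γ).val.toRingHom (es1cjConj δ hnorm hθ i))) =
        fun i => (modFunAlgG Γ).val.toRingHom (es1cjConj δ hnorm hθ (σ i)) := by
      funext i w
      exact hconj hθ i w
    rw [h3]
    exact es1cjProd_perm (fun i => (modFunAlgG Γ).val.toRingHom (es1cjConj δ hnorm hθ i)) σ
  have h4 := congrArg (fun P : (ℍ → ℂ)[X] => P.coeff j) h1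
  simp only [Polynomial.coeff_map] at h4
  exact congrFun h4 z

include hnorm hperm in
/-- **The coefficients of the norm polynomial** `∏_i (X − Λ(θ ∘ δ_i))` lie in `E`. -/
theorem es1cj_prod_coeff_mem (hT : ModularGroup.T ∈ Γ)
    (E : IntermediateField ℂ (LaurentSeries ℂ))
    (hE : ∀ g : ℍ → ℂ, IsModFunG Γ' g → laurentOf g ∈ E)
    {θ : ℍ → ℂ} (hθ : IsModFunG Γ θ) (j : ℕ) :
    (es1cjProd (fun i => laurentOf (fun z => θ (δ i • z)))).coeff j ∈ E := by
  have h1 : es1cjProd (fun i => laurentOf (fun z => θ (δ i • z))) =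
      (es1cjProd (es1cjConj δ hnorm hθ)).map (es1cjLam hT) := by
    rw [es1cjProd_map]
    rfl
  rw [h1, Polynomial.coeff_map, es1cjLam_apply]
  exact hE _ (es1cj_prod_coeff δ hnorm hperm hθ j)

include hnorm hperm in
/-- **The tower step, generation by one conjugate.** -/
theorem es1cj_tower (hT : ModularGroup.T ∈ Γ) (i₀ : ι) (hδ₀ : δ i₀ ∈ Γ)
    (E E' : IntermediateField ℂ (LaurentSeries ℂ)) (hEE' : E ≤ E')
    (hE : ∀ g : ℍ → ℂ, IsModFunG Γ' g → laurentOf g ∈ E)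
    (θ : ℍ → ℂ) (hθ : IsModFunG Γ θ) (hθE : laurentOf θ ∈ E')
    (hθne : ∀ i, i ≠ i₀ →
      laurentOf (fun z => θ (δ i • z)) ≠ laurentOf (fun z => θ (δ i₀ • z)))
    {f : ℍ → ℂ} (hf : IsModFunG Γ f) : laurentOf f ∈ E' := by
  have hone : IsModFunG Γ (fun _ : ℍ => (1 : ℂ)) := isModFunG_const Γ 1
  set F := es1cjConj δ hnorm hf with hF
  set Θ := es1cjConj δ hnorm hθ with hΘ
  set U := es1cjConj δ hnorm hone with hU
  set Q := lagPoly F Θ with hQ
  set D := lagPoly U Θ with hD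
  set Λ := es1cjLam hT with hΛdef
  have hΛ : ∀ g : modFunAlgG Γ, Λ g = laurentOf (g : ℍ → ℂ) := fun g => rfl
  have hΘ₀ : ((Θ i₀ : modFunAlgG Γ) : ℍ → ℂ) = θ := by
    funext z
    exact hθ.comp_smul hδ₀ z
  have hF₀ : ((F i₀ : modFunAlgG Γ) : ℍ → ℂ) = f := by
    funext z
    exact hf.comp_smul hδ₀ z
  have hΘE : Λ (Θ i₀) ∈ E' := by rw [hΛ, hΘ₀]; exact hθE
  -- evaluation of polynomials with coefficients in `E` at `Θ i₀`
  have hevalmem : ∀ P : (modFunAlgG Γ)[X], (∀ j, Λ (P.coeff j) ∈ E) →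
      Λ (P.eval (Θ i₀)) ∈ E' := by
    intro P hP
    rw [Polynomial.eval_eq_sum_range, map_sum]
    refine E'.sum_mem fun j _ => ?_
    rw [map_mul, map_pow]
    exact E'.mul_mem (hEE' (hP j)) (pow_mem hΘE j)
  have hQmem : Λ (Q.eval (Θ i₀)) ∈ E' :=
    hevalmem Q fun j => hE _ (es1cj_lag_coeff δ hnorm hperm hf hθ j)
  have hDmem : Λ (D.eval (Θ i₀)) ∈ E' :=
    hevalmem D fun j => hE _ (es1cj_lag_coeff δ hnorm hperm hone hθ j)
  have hQev : Q.eval (Θ i₀) = F i₀ * ∏ i' ∈ Finset.univ.erase i₀, (Θ i₀ - Θ i') :=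
    lagPoly_eval F Θ i₀
  have hDev : D.eval (Θ i₀) = ∏ i' ∈ Finset.univ.erase i₀, (Θ i₀ - Θ i') := by
    have h := lagPoly_eval U Θ i₀
    have hU1 : U i₀ = 1 := rfl
    rw [hU1, one_mul] at h
    exact h
  have hDne : Λ (D.eval (Θ i₀)) ≠ 0 := by
    rw [hDev, map_prod, Finset.prod_ne_zero_iff]
    intro i' hi'
    rw [map_sub, sub_ne_zero, hΛ, hΛ]
    exact (hθne i' (Finset.ne_of_mem_erase hi')).symm
  have hrel : Λ (Q.eval (Θ i₀)) = Λ (F i₀) * Λ (D.eval (Θ i₀)) := by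
    rw [hQev, hDev, map_mul]
  have hF0 : Λ (F i₀) = Λ (Q.eval (Θ i₀)) / Λ (D.eval (Θ i₀)) := by
    rw [hrel, mul_div_assoc, div_self hDne, mul_one]
  have h5 : Λ (F i₀) ∈ E' := by
    rw [hF0]
    exact E'.div_mem hQmem hDmem
  rw [hΛ, hF₀] at h5
  exact h5

end Tower

/-- **The conjugation principle for modular functions.**  `γ ∈ Γ'` normalises `Γ ≤ Γ'`, the
elements of `E` are fractions of expansions of modular functions of level `Γ'`.  A polynomial
relation `P(Λ u) = Λ v` over `E` between modular functions of level `Γ` is preserved by `γ`. -/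
theorem es1cj_cp_modular [Γ.FiniteIndex] (hT : ModularGroup.T ∈ Γ) (hΓ : Γ ≤ Γ')
    (γ : SL(2, ℤ)) (hγ : ∀ x ∈ Γ, γ * x * γ⁻¹ ∈ Γ) (hγ' : γ ∈ Γ')
    (E : IntermediateField ℂ (LaurentSeries ℂ))
    (hfrac : ∀ x ∈ E, ∃ a b : ℍ → ℂ, IsModFunG Γ' a ∧ IsModFunG Γ' b ∧ laurentOf b ≠ 0 ∧
      x * laurentOf b = laurentOf a)
    (P : Polynomial E) {u v : ℍ → ℂ} (hu : IsModFunG Γ u) (hv : IsModFunG Γ v)
    (h : P.eval₂ E.val.toRingHom (laurentOf u) = laurentOf v) :
    P.eval₂ E.val.toRingHom (laurentOf (fun z => u (γ • z))) = laurentOf (fun z => v (γ • z)) := by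
  rw [Polynomial.eval₂_eq_eval_map] at h ⊢
  have hP : ∀ i, es1cj_Rel (es1cjLam hT) (es1cjComp γ hγ)
      ((P.map E.val.toRingHom).coeff i) ((P.map E.val.toRingHom).coeff i) := by
    intro i
    rw [Polynomial.coeff_map]
    obtain ⟨a, b, ha, hb, hb0, hab⟩ := hfrac _ (P.coeff i).2
    have hfix : ∀ {c : ℍ → ℂ} (hc : IsModFunG Γ' c),
        es1cjComp γ hγ ⟨c, hc.mono hΓ⟩ = ⟨c, hc.mono hΓ⟩ := by
      intro c hc
      apply Subtype.ext
      funext z
      exact hc.comp_smul hγ' z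
    exact es1cj_rel_fixed (a := ⟨a, ha.mono hΓ⟩) (b := ⟨b, hb.mono hΓ⟩) hb0 hab (hfix ha)
      (hfix hb)
  exact es1cj_cp (es1cjLam_injective hT) (P.map E.val.toRingHom) hP ⟨u, hu⟩ ⟨v, hv⟩ h

end Fermat.Agent.ES1
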