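import Fermat.Agent.ES1.RCGammaA
import Fermat.Agent.ES1.ConjTower
import Fermat.Agent.ES1.ConjPlan

/-!
# ES₁ / F3-conj over `ℂ`

`Γ = gammaH L M H ◁ Γ' = Γ₀(L)` (`M ∣ L`), `a : Fin (m + 1) → (ℤ/M)ˣ` representatives of
`(ℤ/M)ˣ/±H` with `a 0 = 1`, `E = modularFunctionFieldFullC ℂ L`, `S_b = sS ℂ M H b`.

* `es1cj_exists_perm`  : multiplication by `c` permutes the representatives;
* `es1cj_sS_ne`        : the `S_{a i}` are pairwise different (any coefficient ring);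
* `es1cj_gen_C`        : `fieldC ℂ L M H ≤ E(S_1)`;
* `es1cj_poly_C`       : the coefficients of `∏_i (X − S_{a i})` lie in `E`;
* `es1cj_cp_C`, `es1cj_cp_C_zero` : the conjugation principle: a polynomial relation over `E`
  `P(S_{b₁}(q^{e₁})) = S_{b₂}(q^{e₂})` (or `= 0`) remains true after `b ↦ b c`.
-/

set_option autoImplicit false
set_option linter.unusedSectionVars false

noncomputable section

open UpperHalfPlane ModularForm CongruenceSubgroup Polynomial ModularCurve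
open scoped MatrixGroups Manifold

namespace Fermat.Agent.ES1

open Fermat.Agent.S23 Fermat.Agent.S28 Fermat.Agent.ES

/-! ### Representatives -/

section Group

variable {M : ℕ} {H : Subgroup (ZMod M)ˣ}

theorem es1cj_inPM_mul_right {a b : (ZMod M)ˣ} (c : (ZMod M)ˣ) (h : InPM H a (b : ZMod M)) :
    InPM H (a * c) ((b * c : (ZMod M)ˣ) : ZMod M) := by
  have := es1rc_inPM_mul (u := c) h
  rwa [← Units.val_mul] at this

theorem es1cj_mem_pmH_of_inPM {a b : (ZMod M)ˣ} (h : InPM H a (b : ZMod M)) :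
    b * a⁻¹ ∈ pmH H := by
  rw [es1rc_mem_pmH_iff]
  have := es1cj_inPM_mul_right a⁻¹ h
  rwa [mul_inv_cancel] at this

/-- multiplication by `c` permutes the representatives -/
theorem es1cj_exists_perm {m : ℕ} {a : Fin (m + 1) → (ZMod M)ˣ} (hrep : IsRepFam H a)
    (c : (ZMod M)ˣ) :
    ∃ σ : Equiv.Perm (Fin (m + 1)),
      ∀ i, InPM H (a (σ i)) ((a i * c : (ZMod M)ˣ) : ZMod M) := by
  choose s hs using fun i => hrep.surj (a i * c)
  have hinj : Function.Injective s := by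
    intro i j hij
    apply hrep.inj
    have h1 := hs i
    have h2 := hs j
    rw [hij] at h1
    have h3 : InPM H (a i * c) ((a j * c : (ZMod M)ˣ) : ZMod M) := h1.symm.trans h2
    have h4 := es1cj_inPM_mul_right c⁻¹ h3
    rwa [mul_assoc, mul_inv_cancel, mul_one, mul_assoc, mul_inv_cancel, mul_one] at h4
  exact ⟨Equiv.ofBijective s (Finite.injective_iff_bijective.mp hinj), hs⟩

theorem es1cj_units_subsingleton [NeZero M] (hM : ¬ 3 ≤ M) : Subsingleton (ZMod M)ˣ := by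
  have hM0 : M ≠ 0 := NeZero.ne M
  have hcard : Fintype.card (ZMod M)ˣ = 1 := by
    rw [ZMod.card_units_eq_totient]
    have h12 : M = 1 ∨ M = 2 := by omega
    rcases h12 with rfl | rfl
    · rfl
    · rfl
  exact Fintype.card_le_one_iff_subsingleton.mp hcard.le

/-- the `S_{M,H,a i}` are pairwise different -/
theorem es1cj_sS_ne (R : Type*) [CommRing R] [Nontrivial R] [NeZero M] {m : ℕ}
    {a : Fin (m + 1) → (ZMod M)ˣ} (hrep : IsRepFam H a) {i j : Fin (m + 1)} (hij : i ≠ j) :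
    sS R M H (a i) ≠ sS R M H (a j) := by
  by_cases hM : 3 ≤ M
  · exact es1f_sS_ne R hM fun h => hij (hrep.inj i j h)
  · exfalso
    apply hij
    apply hrep.inj
    have := es1cj_units_subsingleton (M := M) hM
    rw [Subsingleton.elim (a j) (a i)]
    exact InPM.self (a i)

end Group

/-! ### The tower data -/

/-- representatives `δ_i ∈ Γ₀(L)` with diamond `a i` -/
structure es1cjData (L M : ℕ) {m : ℕ} (a : Fin (m + 1) → (ZMod M)ˣ) where
  /-- the matrices -/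
  δ : Fin (m + 1) → SL(2, ℤ)
  memL : ∀ i, δ i ∈ Gamma0 L
  memM : ∀ i, δ i ∈ Gamma0 M
  diam : ∀ i, diamHom M ⟨δ i, memM i⟩ = a i

theorem es1cj_gamma0_le {L M : ℕ} (hML : M ∣ L) : Gamma0 L ≤ Gamma0 M :=
  Fermat.Agent.ES.RC.rc_Gamma0_le_of_dvd hML

/-- an element of `Γ₀(L)` with given diamond -/
theorem es1cj_exists_diam {L M : ℕ} [NeZero L] (hML : M ∣ L) (c : (ZMod M)ˣ) :
    ∃ (γ : SL(2, ℤ)) (_ : γ ∈ Gamma0 L) (hγM : γ ∈ Gamma0 M), diamHom M ⟨γ, hγM⟩ = c := by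
  obtain ⟨γ, hγ, h00⟩ := es1rc_exists_rep hML c
  refine ⟨γ, hγ, es1cj_gamma0_le hML hγ, ?_⟩
  ext
  rw [coe_diamHom]
  exact h00

theorem es1cj_exists_data {L M : ℕ} [NeZero L] (hML : M ∣ L) {m : ℕ}
    (a : Fin (m + 1) → (ZMod M)ˣ) : Nonempty (es1cjData L M a) := by
  choose δ hL hM hd using fun i => es1cj_exists_diam hML (a i)
  exact ⟨⟨δ, hL, hM, hd⟩⟩

section Data

variable {L M : ℕ} [NeZero L] {H : Subgroup (ZMod M)ˣ} {m : ℕ}
  {a : Fin (m + 1) → (ZMod M)ˣ} (D : es1cjData L M a)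

theorem es1cjData.norm (i : Fin (m + 1)) (γ : SL(2, ℤ)) (hγ : γ ∈ gammaH L M H) :
    D.δ i * γ * (D.δ i)⁻¹ ∈ gammaH L M H :=
  conj_mem_gammaH (D.memL i) (D.memM i) hγ

theorem es1cjData.zero_mem (hrep : IsRepFam H a) : D.δ 0 ∈ gammaH L M H := by
  refine ⟨D.memL 0, D.memM 0, ?_⟩
  rw [D.diam, hrep.zero]
  exact one_mem _

theorem es1cjData.perm (hML : M ∣ L) (hrep : IsRepFam H a) (γ : SL(2, ℤ))
    (hγ : γ ∈ Gamma0 L) :
    ∃ σ : Equiv.Perm (Fin (m + 1)), ∀ i, D.δ i * γ * (D.δ (σ i))⁻¹ ∈ gammaH L M H := by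
  have hγM : γ ∈ Gamma0 M := es1cj_gamma0_le hML hγ
  obtain ⟨σ, hσ⟩ := es1cj_exists_perm hrep (diamHom M ⟨γ, hγM⟩)
  refine ⟨σ, fun i => ?_⟩
  have hM' : D.δ i * γ * (D.δ (σ i))⁻¹ ∈ Gamma0 M :=
    mul_mem (mul_mem (D.memM i) hγM) (inv_mem (D.memM (σ i)))
  refine ⟨mul_mem (mul_mem (D.memL i) hγ) (inv_mem (D.memL (σ i))), hM', ?_⟩
  have : (⟨D.δ i * γ * (D.δ (σ i))⁻¹, hM'⟩ : Gamma0 M)
      = ⟨D.δ i, D.memM i⟩ * ⟨γ, hγM⟩ * (⟨D.δ (σ i), D.memM (σ i)⟩ : Gamma0 M)⁻¹ := rfl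
  rw [this, map_mul, map_mul, map_inv, D.diam, D.diam]
  exact es1cj_mem_pmH_of_inPM (hσ i)

end Data

/-! ### The modular functions `θ_{e,b}` -/

section Theta

variable {L M : ℕ} [NeZero L] (hML : M ∣ L) (H : Subgroup (ZMod M)ˣ)

include hML in
theorem es1cj_neZero_M : NeZero M :=
  ⟨fun h => NeZero.ne L (by rw [h] at hML; exact Nat.eq_zero_of_zero_dvd hML)⟩

include hML in
theorem es1cj_one_mul_dvd : 1 * M ∣ L := by rwa [one_mul]

/-- `θ_{1,1} ∘ γ = θ_{1, ⟨γ⟩}` and its expansion -/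
theorem es1cj_laurentOf_theta_comp (γ : SL(2, ℤ)) (hγL : γ ∈ Gamma0 L) (hγM : γ ∈ Gamma0 M)
    (e : ℕ) [NeZero e] (he : e * M ∣ L) (b : (ZMod M)ˣ) :
    laurentOf (fun z => es1rcThetaE e H b (γ • z)) =
      qExpand ℂ e (sS ℂ M H (b * diamHom M ⟨γ, hγM⟩)) := by
  have hML : M ∣ L := (Dvd.intro_left e rfl).trans he
  haveI := es1cj_neZero_M hML
  have h1 : (fun z => es1rcThetaE e H b (γ • z)) =
      es1rcThetaE e H (b * diamHom M ⟨γ, hγM⟩) := by
    funext z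
    exact es1rcThetaE_smul_of_mem H b e he γ hγL hγM z
  rw [h1, laurentOf_es1rcThetaE]

end Theta

/-! ### Generation and the norm polynomial over `ℂ` -/

section Main

variable {L M : ℕ} [NeZero L] (hML : M ∣ L) (H : Subgroup (ZMod M)ˣ) {m : ℕ}
  {a : Fin (m + 1) → (ZMod M)ˣ} (hrep : IsRepFam H a)

include hML hrep in
/-- **(gen) over `ℂ`.** -/
theorem es1cj_gen_C :
    fieldC ℂ L M H ≤ IntermediateField.adjoin ℂ
      ((modularFunctionFieldFullC ℂ L : Set (LaurentSeries ℂ)) ∪ {sS ℂ M H 1}) := by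
  classical
  haveI := es1cj_neZero_M hML
  haveI := es1rc_finiteIndex hML H
  obtain ⟨D⟩ := es1cj_exists_data hML a
  set E := modularFunctionFieldFullC ℂ L with hE
  set E' := IntermediateField.adjoin ℂ ((E : Set (LaurentSeries ℂ)) ∪ {sS ℂ M H 1}) with hE'
  have hEE' : E ≤ E' := fun x hx =>
    IntermediateField.subset_adjoin ℂ _ (Or.inl hx)
  have hS1 : sS ℂ M H 1 ∈ E' := IntermediateField.subset_adjoin ℂ _ (Or.inr rfl)
  have h1M := es1cj_one_mul_dvd hML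
  have hθ : IsModFunG (gammaH L M H) (es1rcThetaE 1 H (1 : (ZMod M)ˣ)) :=
    es1rcThetaE_isModFunG H 1 1 h1M
  have hconj : ∀ i, laurentOf (fun z => es1rcThetaE 1 H (1 : (ZMod M)ˣ) (D.δ i • z)) =
      sS ℂ M H (a i) := by
    intro i
    rw [es1cj_laurentOf_theta_comp H (D.δ i) (D.memL i) (D.memM i) 1 h1M 1, D.diam, one_mul,
      qExpand_one_apply]
  have key : ∀ f : ℍ → ℂ, IsModFunG (gammaH L M H) f → laurentOf f ∈ E' := by
    intro f hf
    refine es1cj_tower (Γ := gammaH L M H) (Γ' := Gamma0 L) D.δ (fun i γ hγ => D.norm i γ hγ)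
      (fun γ hγ => D.perm hML hrep γ hγ) (T_mem_gammaH L M H) 0 (D.zero_mem hrep) E E' hEE'
      (fun g hg => Fermat.Agent.ES.RC.rc_laurentOf_mem_full L hg)
      (es1rcThetaE 1 H 1) hθ ?_ ?_ hf
    · rw [laurentOf_es1rcThetaE, qExpand_one_apply]
      exact hS1
    · intro i hi
      rw [hconj i, hconj 0]
      exact es1cj_sS_ne ℂ hrep hi
  rw [fieldC, IntermediateField.adjoin_le_iff]
  rintro x (hx | ⟨e, he0, b, he, rfl⟩)
  · exact hEE' (IntermediateField.subset_adjoin ℂ _ hx)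
  · haveI := he0
    rw [← laurentOf_es1rcThetaE H b e]
    exact key _ (es1rcThetaE_isModFunG H b e he)

include hML hrep in
/-- **(poly) over `ℂ`**: the coefficients of `∏_i (X − S_{a i})` lie in the `Γ₀(L)`-field. -/
theorem es1cj_poly_C (j : ℕ) :
    (es1cjProd (fun i => sS ℂ M H (a i))).coeff j ∈ modularFunctionFieldFullC ℂ L := by
  classical
  haveI := es1cj_neZero_M hML
  haveI := es1rc_finiteIndex hML H
  obtain ⟨D⟩ := es1cj_exists_data hML a
  have h1M := es1cj_one_mul_dvd hML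
  have hθ : IsModFunG (gammaH L M H) (es1rcThetaE 1 H (1 : (ZMod M)ˣ)) :=
    es1rcThetaE_isModFunG H 1 1 h1M
  have hconj : (fun i => laurentOf (fun z => es1rcThetaE 1 H (1 : (ZMod M)ˣ) (D.δ i • z))) =
      fun i => sS ℂ M H (a i) := by
    funext i
    rw [es1cj_laurentOf_theta_comp H (D.δ i) (D.memL i) (D.memM i) 1 h1M 1, D.diam, one_mul,
      qExpand_one_apply]
  have h := es1cj_prod_coeff_mem (Γ := gammaH L M H) (Γ' := Gamma0 L) D.δ
    (fun i γ hγ => D.norm i γ hγ) (fun γ hγ => D.perm hML hrep γ hγ) (T_mem_gammaH L M H)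
    (modularFunctionFieldFullC ℂ L)
    (fun g hg => Fermat.Agent.ES.RC.rc_laurentOf_mem_full L hg) hθ j
  rw [hconj] at h
  exact h

include hML in
/-- **The conjugation principle over `ℂ`.** -/
theorem es1cj_cp_C (c : (ZMod M)ˣ) (P : Polynomial (modularFunctionFieldFullC ℂ L))
    (e₁ : ℕ) [NeZero e₁] (he₁ : e₁ * M ∣ L) (b₁ : (ZMod M)ˣ)
    (e₂ : ℕ) [NeZero e₂] (he₂ : e₂ * M ∣ L) (b₂ : (ZMod M)ˣ)
    (h : P.eval₂ (modularFunctionFieldFullC ℂ L).val.toRingHom (qExpand ℂ e₁ (sS ℂ M H b₁)) =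
      qExpand ℂ e₂ (sS ℂ M H b₂)) :
    P.eval₂ (modularFunctionFieldFullC ℂ L).val.toRingHom (qExpand ℂ e₁ (sS ℂ M H (b₁ * c))) =
      qExpand ℂ e₂ (sS ℂ M H (b₂ * c)) := by
  haveI := es1cj_neZero_M hML
  haveI := es1rc_finiteIndex hML H
  obtain ⟨γ, hγL, hγM, hγc⟩ := es1cj_exists_diam hML c
  have h1 := es1cj_cp_modular (Γ := gammaH L M H) (Γ' := Gamma0 L) (T_mem_gammaH L M H)
    (gammaH_le_gamma0 L M H) γ (fun x hx => conj_mem_gammaH hγL hγM hx) hγL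
    (modularFunctionFieldFullC ℂ L)
    (fun x hx => Fermat.Agent.ES.RC.rc_exists_frac L hx) P
    (es1rcThetaE_isModFunG H b₁ e₁ he₁) (es1rcThetaE_isModFunG H b₂ e₂ he₂)
    (by rw [laurentOf_es1rcThetaE, laurentOf_es1rcThetaE]; exact h)
  rw [es1cj_laurentOf_theta_comp H γ hγL hγM e₁ he₁ b₁,
    es1cj_laurentOf_theta_comp H γ hγL hγM e₂ he₂ b₂, hγc] at h1
  exact h1

include hML in
/-- **The conjugation principle over `ℂ`**, for relations `P(S_b(q^e)) = 0`. -/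
theorem es1cj_cp_C_zero (c : (ZMod M)ˣ) (P : Polynomial (modularFunctionFieldFullC ℂ L))
    (e₁ : ℕ) [NeZero e₁] (he₁ : e₁ * M ∣ L) (b₁ : (ZMod M)ˣ)
    (h : P.eval₂ (modularFunctionFieldFullC ℂ L).val.toRingHom (qExpand ℂ e₁ (sS ℂ M H b₁)) =
      0) :
    P.eval₂ (modularFunctionFieldFullC ℂ L).val.toRingHom (qExpand ℂ e₁ (sS ℂ M H (b₁ * c))) =
      0 := by
  haveI := es1cj_neZero_M hML
  haveI := es1rc_finiteIndex hML H
  obtain ⟨γ, hγL, hγM, hγc⟩ := es1cj_exists_diam hML c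
  have hz : IsModFunG (gammaH L M H) (fun _ : ℍ => (0 : ℂ)) := isModFunG_const _ 0
  have hz0 : laurentOf (fun _ : ℍ => (0 : ℂ)) = 0 := laurentOf_zero
  have h1 := es1cj_cp_modular (Γ := gammaH L M H) (Γ' := Gamma0 L) (T_mem_gammaH L M H)
    (gammaH_le_gamma0 L M H) γ (fun x hx => conj_mem_gammaH hγL hγM hx) hγL
    (modularFunctionFieldFullC ℂ L)
    (fun x hx => Fermat.Agent.ES.RC.rc_exists_frac L hx) P
    (es1rcThetaE_isModFunG H b₁ e₁ he₁) hz
    (by rw [laurentOf_es1rcThetaE, hz0]; exact h)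
  rw [es1cj_laurentOf_theta_comp H γ hγL hγM e₁ he₁ b₁, hγc] at h1
  exact h1.trans hz0

end Main

end Fermat.Agent.ES1
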