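import Fermat.Agent.ES1.ConjUse
import Fermat.Agent.INJ.NFEmb

/-!
# ES₁ / F3-conj — the degree `[fieldBar L M H : modularFunctionFieldBar L]` (captain helper36)

* `exists_isRepFam` : systems of representatives of `(ℤ/M)ˣ/±H` exist.
* `StmtRelDegH` : the degree of `fieldBar L M H` over `modularFunctionFieldBar L` is positive and
  does not depend on `L` (consumed by the level descent `ES1/DescentLevelH.lean` and by G2/HN).
* `stmtRelDegH_of_diamond : StmtDiamondH → StmtRelDegH`.
-/

set_option autoImplicit false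

noncomputable section

namespace Fermat.Agent.ES1

open Polynomial ModularCurve IntermediateField AlgebraicCurve Fermat.Agent.INJ

/-- the equivalence relation `b ∈ ± a H` on `(ℤ/M)ˣ` -/
def repSetoid {M : ℕ} (H : Subgroup (ZMod M)ˣ) : Setoid (ZMod M)ˣ where
  r a b := InPM H a (b : ZMod M)
  iseqv :=
    { refl := fun a => InPM.self a
      symm := fun h => h.symm
      trans := fun h₁ h₂ => h₁.trans h₂ }

theorem exists_isRepFam {M : ℕ} (hM : M ≠ 0) (H : Subgroup (ZMod M)ˣ) :
    ∃ (m : ℕ) (a : Fin (m + 1) → (ZMod M)ˣ), IsRepFam H a := by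
  classical
  haveI : NeZero M := ⟨hM⟩
  haveI : Finite (Quotient (repSetoid H)) := Quotient.finite _
  haveI : Nonempty (Quotient (repSetoid H)) := ⟨Quotient.mk _ 1⟩
  obtain ⟨n, ⟨e₀⟩⟩ := Finite.exists_equiv_fin (Quotient (repSetoid H))
  have hn : n ≠ 0 := by
    rintro rfl
    exact (e₀ (Quotient.mk _ 1)).elim0
  obtain ⟨m, rfl⟩ := Nat.exists_eq_succ_of_ne_zero hn
  -- move the class of `1` to the index `0`
  let e : Fin (m + 1) ≃ Quotient (repSetoid H) :=
    (Equiv.swap 0 (e₀ (Quotient.mk _ 1))).trans e₀.symm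
  have he0 : e 0 = Quotient.mk _ 1 := by
    simp [e]
  let a : Fin (m + 1) → (ZMod M)ˣ := fun i => if i = 0 then 1 else (e i).out
  have hae : ∀ i, (Quotient.mk (repSetoid H) (a i)) = e i := by
    intro i
    by_cases hi : i = 0
    · simp only [a, hi, if_true, he0]
    · simp only [a, hi, if_false]
      exact Quotient.out_eq _
  refine ⟨m, a, ⟨by simp [a], fun i j h => ?_, fun c => ?_⟩⟩
  · have h1 : Quotient.mk (repSetoid H) (a i) = Quotient.mk (repSetoid H) (a j) :=
      Quotient.sound h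
    rw [hae, hae] at h1
    exact e.injective h1
  · refine ⟨e.symm (Quotient.mk _ c), ?_⟩
    have h1 := hae (e.symm (Quotient.mk _ c))
    rw [Equiv.apply_symm_apply] at h1
    exact Quotient.exact h1

/-- The degree `[K_Γ : K_{Γ₀(L)}]` over `ℚ̄` is positive and independent of `L`. -/
def StmtRelDegH : Prop :=
  ∀ (M : ℕ) (H : Subgroup (ZMod M)ˣ), ∃ d : ℕ, d ≠ 0 ∧ ∀ L : ℕ, L ≠ 0 → M ∣ L →
    (modularFunctionFieldBar L).relfinrank (fieldBar L M H) = d

theorem stmtRelDegH_of_diamond (hD : StmtDiamondH) : StmtRelDegH := by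
  intro M H
  by_cases hM : M = 0
  · refine ⟨1, one_ne_zero, fun L hL hML => ?_⟩
    rw [hM] at hML
    exact absurd (Nat.eq_zero_of_zero_dvd hML) hL
  · obtain ⟨m, a, ha⟩ := exists_isRepFam hM H
    refine ⟨m + 1, Nat.succ_ne_zero m, fun L hL hML => ?_⟩
    rw [nf_bar_eq_fullC, es1f_fieldBar_eq]
    haveI : Algebra.IsAlgebraic ℚ NfQb := by
      have h := AlgebraicClosure.isAlgebraic ℚ
      convert h
      · rfl
      · exact Subsingleton.elim _ _
    exact es1cu_relfinrank hD NfQb L M H a hL hML ha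

end Fermat.Agent.ES1
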