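import Fermat.Agent.ES1.ConjC
import Fermat.Agent.ES1.ConjAut
import Fermat.Agent.ES.DescentInj
import Fermat.Agent.ES.G2.HeckeDeg

/-!
# ES₁ / F3-conj — descent from `ℂ` to a subfield `K`

`ι : K →+* ℂ` any field embedding (exists when `K` is algebraic over `ℚ`).

* `es1cj_full_descent` : `coeffMap ι x ∈ F₀^ℂ ⇒ x ∈ F₀^K` (`F₀ = modularFunctionFieldFullC · L`);
* `es1cj_gen_descent`  : the same for `F₀(S_1)`;
* `es1cj_gen_K`, `es1cj_poly_K`, `es1cj_cp_K`, `es1cj_cp_K_zero` : (gen), (poly) and the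
  conjugation principle over `K`.
-/

set_option autoImplicit false
set_option linter.unusedSectionVars false
set_option linter.style.haveILetI false

noncomputable section

open Polynomial ModularCurve

namespace Fermat.Agent.ES1

open Fermat.Agent.ES

/-- the field `F₀(S_{M,H,1})` -/
def es1cjGen (k : Type*) [Field k] (L M : ℕ) (H : Subgroup (ZMod M)ˣ) :
    IntermediateField k (LaurentSeries k) :=
  IntermediateField.adjoin k
    ((modularFunctionFieldFullC k L : Set (LaurentSeries k)) ∪ {sS k M H 1})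

section BaseChange

variable (k : Type*) [Field k] [Algebra ℚ k] (L M : ℕ) (H : Subgroup (ZMod M)ˣ)

theorem es1cj_coeffEmb_mem_gen {x : LaurentSeries ℚ} (hx : x ∈ es1cjGen ℚ L M H) :
    coeffEmb k x ∈ es1cjGen k L M H := by
  unfold es1cjGen at hx
  induction hx using IntermediateField.adjoin_induction with
  | mem x hx =>
    rcases hx with hx | hx
    · exact IntermediateField.subset_adjoin k _
        (Or.inl (Fermat.Agent.ES.G2.hdeg_coeffEmb_mem_full k L
          (by rw [← modularFunctionFieldFullC_rat]; exact hx)))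
    · rw [Set.mem_singleton_iff] at hx
      rw [hx]
      have h1 : coeffEmb k (sS ℚ M H 1) = sS k M H 1 :=
        es1f_coeffMap_sS (algebraMap ℚ k) M H 1
      rw [h1]
      exact IntermediateField.subset_adjoin k _ (Or.inr rfl)
  | algebraMap r =>
    rw [Fermat.Agent.ES.G2.hdeg_coeffEmb_algebraMap]
    exact IntermediateField.algebraMap_mem _ _
  | add x y _ _ hx hy =>
    rw [map_add]
    exact add_mem hx hy
  | inv x _ hx =>
    rw [map_inv₀]
    exact inv_mem hx
  | mul x y _ _ hx hy =>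
    rw [map_mul]
    exact mul_mem hx hy

theorem es1cj_baseChange_gen :
    laurentBaseChange k (es1cjGen ℚ L M H) = es1cjGen k L M H := by
  apply le_antisymm
  · rw [laurentBaseChange, IntermediateField.adjoin_le_iff]
    rintro _ ⟨x, hx, rfl⟩
    exact es1cj_coeffEmb_mem_gen k L M H hx
  · rw [es1cjGen, IntermediateField.adjoin_le_iff]
    rintro x (hx | hx)
    · have hx' : x ∈ laurentBaseChange k (modularFunctionFieldFull L) := by
        rw [Fermat.Agent.ES.G2.hdeg_laurentBaseChange_full k L]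
        exact hx
      refine IntermediateField.adjoin.mono k _ _ (Set.image_mono ?_) hx'
      intro y hy
      exact IntermediateField.subset_adjoin ℚ _
        (Or.inl (by rw [modularFunctionFieldFullC_rat]; exact hy))
    · rw [Set.mem_singleton_iff] at hx
      rw [hx]
      have h1 : coeffEmb k (sS ℚ M H 1) = sS k M H 1 :=
        es1f_coeffMap_sS (algebraMap ℚ k) M H 1
      rw [← h1]
      exact coeffEmb_mem_laurentBaseChange k
        (IntermediateField.subset_adjoin ℚ _ (Or.inr rfl))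

end BaseChange

section Descent

variable {K : Type} [Field K] [CharZero K] (ι : K →+* ℂ) (L M : ℕ) (H : Subgroup (ZMod M)ˣ)

theorem es1cj_full_descent {x : LaurentSeries K}
    (h : coeffMap ι x ∈ modularFunctionFieldFullC ℂ L) : x ∈ modularFunctionFieldFullC K L := by
  letI : Algebra K ℂ := ι.toAlgebra
  rw [← Fermat.Agent.ES.G2.hdeg_laurentBaseChange_full ℂ L] at h
  rw [← Fermat.Agent.ES.G2.hdeg_laurentBaseChange_full K L]
  exact Fermat.Agent.ES.DescentInj.mem_laurentBaseChange_of_coeffMap_mem (K := K) (L := ℂ) _ h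

theorem es1cj_gen_descent {x : LaurentSeries K}
    (h : coeffMap ι x ∈ es1cjGen ℂ L M H) : x ∈ es1cjGen K L M H := by
  letI : Algebra K ℂ := ι.toAlgebra
  rw [← es1cj_baseChange_gen ℂ L M H] at h
  rw [← es1cj_baseChange_gen K L M H]
  exact Fermat.Agent.ES.DescentInj.mem_laurentBaseChange_of_coeffMap_mem (K := K) (L := ℂ) _ h

/-- the restriction of `coeffMap ι` to the `Γ₀(L)`-fields -/
def es1cjRes : modularFunctionFieldFullC K L →+* modularFunctionFieldFullC ℂ L :=
  ((coeffMap ι).comp (modularFunctionFieldFullC K L).val.toRingHom).codRestrict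
    (modularFunctionFieldFullC ℂ L) (fun x => Fermat.Agent.INJ.nf_coeffMap_mem_fullC ι L x.2)

theorem es1cj_coeffMap_eval₂ (P : Polynomial (modularFunctionFieldFullC K L))
    (t : LaurentSeries K) :
    coeffMap ι (P.eval₂ (modularFunctionFieldFullC K L).val.toRingHom t) =
      (P.map (es1cjRes ι L)).eval₂ (modularFunctionFieldFullC ℂ L).val.toRingHom
        (coeffMap ι t) := by
  rw [Polynomial.hom_eval₂, Polynomial.eval₂_map]
  rfl

end Descent

section Main

variable {K : Type} [Field K] [CharZero K] (ι : K →+* ℂ)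
  {L M : ℕ} [NeZero L] (hML : M ∣ L) (H : Subgroup (ZMod M)ˣ) {m : ℕ}
  {a : Fin (m + 1) → (ZMod M)ˣ} (hrep : IsRepFam H a)

include ι hML hrep in
/-- **(gen) over `K`.** -/
theorem es1cj_gen_K : fieldC K L M H ≤ es1cjGen K L M H := by
  rw [fieldC, IntermediateField.adjoin_le_iff]
  rintro x (hx | ⟨e, he0, b, he, rfl⟩)
  · exact IntermediateField.subset_adjoin K _ (Or.inl (IntermediateField.subset_adjoin K _ hx))
  · haveI := he0
    apply es1cj_gen_descent ι
    rw [es1f_coeffMap_qExpand_sS]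
    exact es1cj_gen_C hML H hrep (qExpand_sS_mem ℂ L M H he b)

include ι hML hrep in
/-- **(poly) over `K`.** -/
theorem es1cj_poly_K :
    ∃ P : Polynomial (modularFunctionFieldFullC K L), P.Monic ∧ P.natDegree = m + 1 ∧
      Polynomial.eval₂ (modularFunctionFieldFullC K L).val.toRingHom (sS K M H 1) P = 0 := by
  classical
  set Q : Polynomial (LaurentSeries K) := es1cjProd (fun i => sS K M H (a i)) with hQ
  have hmap : Q.map (coeffMap ι) = es1cjProd (fun i => sS ℂ M H (a i)) := by
    rw [hQ, es1cjProd_map]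
    congr 1
    funext i
    exact es1f_coeffMap_sS ι M H (a i)
  have hcoef : ∀ j, Q.coeff j ∈ modularFunctionFieldFullC K L := by
    intro j
    apply es1cj_full_descent ι
    rw [← Polynomial.coeff_map, hmap]
    exact es1cj_poly_C hML H hrep j
  have hlift : Q ∈ Polynomial.lifts (modularFunctionFieldFullC K L).val.toRingHom :=
    (Polynomial.lifts_iff_coeff_lifts Q).2 fun j => ⟨⟨Q.coeff j, hcoef j⟩, rfl⟩
  obtain ⟨P, hPmap, hPdeg, hPmonic⟩ :=
    Polynomial.lifts_and_natDegree_eq_and_monic hlift (es1cjProd_monic _)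
  refine ⟨P, hPmonic, ?_, ?_⟩
  · rw [hPdeg, hQ, es1cjProd_natDegree, Fintype.card_fin]
  · rw [← Polynomial.eval_map, hPmap, hQ]
    have h0 := es1cjProd_eval (fun i => sS K M H (a i)) 0
    simp only [hrep.zero] at h0
    exact h0

include ι hML in
/-- **The conjugation principle over `K`.** -/
theorem es1cj_cp_K (c : (ZMod M)ˣ) (P : Polynomial (modularFunctionFieldFullC K L))
    (e₁ : ℕ) [NeZero e₁] (he₁ : e₁ * M ∣ L) (b₁ : (ZMod M)ˣ)
    (e₂ : ℕ) [NeZero e₂] (he₂ : e₂ * M ∣ L) (b₂ : (ZMod M)ˣ)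
    (h : P.eval₂ (modularFunctionFieldFullC K L).val.toRingHom (qExpand K e₁ (sS K M H b₁)) =
      qExpand K e₂ (sS K M H b₂)) :
    P.eval₂ (modularFunctionFieldFullC K L).val.toRingHom (qExpand K e₁ (sS K M H (b₁ * c))) =
      qExpand K e₂ (sS K M H (b₂ * c)) := by
  apply Fermat.Agent.ES.DescentInj.coeffMap_inj ι
  rw [es1cj_coeffMap_eval₂, es1f_coeffMap_qExpand_sS, es1f_coeffMap_qExpand_sS]
  apply es1cj_cp_C hML H c (P.map (es1cjRes ι L)) e₁ he₁ b₁ e₂ he₂ b₂
  rw [← es1f_coeffMap_qExpand_sS ι, ← es1f_coeffMap_qExpand_sS ι, ← es1cj_coeffMap_eval₂, h]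

include ι hML in
/-- **The conjugation principle over `K`**, for relations `P(S_b(q^e)) = 0`. -/
theorem es1cj_cp_K_zero (c : (ZMod M)ˣ) (P : Polynomial (modularFunctionFieldFullC K L))
    (e₁ : ℕ) [NeZero e₁] (he₁ : e₁ * M ∣ L) (b₁ : (ZMod M)ˣ)
    (h : P.eval₂ (modularFunctionFieldFullC K L).val.toRingHom (qExpand K e₁ (sS K M H b₁)) =
      0) :
    P.eval₂ (modularFunctionFieldFullC K L).val.toRingHom (qExpand K e₁ (sS K M H (b₁ * c))) =
      0 := by
  apply Fermat.Agent.ES.DescentInj.coeffMap_inj ι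
  rw [es1cj_coeffMap_eval₂, es1f_coeffMap_qExpand_sS, map_zero]
  apply es1cj_cp_C_zero hML H c (P.map (es1cjRes ι L)) e₁ he₁ b₁
  rw [← es1f_coeffMap_qExpand_sS ι, ← es1cj_coeffMap_eval₂, h, map_zero]

end Main

end Fermat.Agent.ES1
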