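import Fermat.Agent.ES1.InjPlan

/-!
# ES₁/INJ₁-inst: generic finiteness over `E(t)` and the interface of the instantiations

* `injH1_fin_tower` : `F'/F` finite, `F/E(t)` finite ⇒ `F'/E(t)` finite;
* `injH1_fin_of_gen` : intermediate fields `F ≤ F' ≤ E(F ∪ {s})` of `Ω/E`, `s` integral over `F`,
  `F/E(t)` finite ⇒ `F'/E(t)` finite (fork of `INJ/BGFin.lean` for a general field);
* `StmtConjFamNF L M H ℓ` : the conjugate family of `fieldC K₀ L M H` over
  `modularFunctionFieldFullC K₀ L` in the number-field setting of `StmtInjNFH`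
  (from F1 + F3-conj = `StmtDiamondH`).
-/

set_option autoImplicit false
set_option linter.style.haveILetI false
set_option linter.unusedSectionVars false

noncomputable section

open IntermediateField Polynomial

namespace Fermat.Agent.ES1

section Tower

variable {E F F' : Type*} [Field E] [Field F] [Field F'] [Algebra E F] [Algebra E F']
  [Algebra F F'] [IsScalarTower E F F']

/-- the image of `E(t)` lies in `E(t')`, `t'` the image of `t` -/
theorem injH1_algebraMap_mem_adjoin (t : F) (a : F) (ha : a ∈ E⟮t⟯) :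
    algebraMap F F' a ∈ E⟮algebraMap F F' t⟯ := by
  have h1 : (E⟮t⟯).map (IsScalarTower.toAlgHom E F F') = E⟮algebraMap F F' t⟯ := by
    rw [IntermediateField.adjoin_map, Set.image_singleton]
    rfl
  rw [← h1]
  exact ⟨a, ha, rfl⟩

/-- **tower**: `F'/F` finite and `F/E(t)` finite ⇒ `F'/E(t)` finite. -/
theorem injH1_fin_tower (t : F) [FiniteDimensional E⟮t⟯ F] [FiniteDimensional F F'] :
    FiniteDimensional E⟮algebraMap F F' t⟯ F' := by
  classical
  obtain ⟨s, hs⟩ := (Module.finite_def (R := E⟮t⟯) (M := F)).mp inferInstance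
  obtain ⟨s', hs'⟩ := (Module.finite_def (R := F) (M := F')).mp inferInstance
  refine (Module.finite_def (R := E⟮algebraMap F F' t⟯) (M := F')).mpr
    ⟨Finset.image₂ (fun b c => algebraMap F F' b * c) s s', ?_⟩
  rw [eq_top_iff]
  intro y hy'
  clear hy'
  set G : Set F' :=
    ((Finset.image₂ (fun b c => algebraMap F F' b * c) s s' : Finset F') : Set F') with hG
  have hmemG : ∀ b ∈ s, ∀ c ∈ s', algebraMap F F' b * c ∈ G := fun b hb c hc =>
    Finset.mem_coe.mpr (Finset.mem_image₂_of_mem hb hc)
  have hGmem : ∀ z ∈ G, ∃ b ∈ s, ∃ c ∈ s', algebraMap F F' b * c = z := fun z hz =>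
    Finset.mem_image₂.mp (Finset.mem_coe.mp hz)
  clear_value G
  -- multiples of the generators
  have key : ∀ a : F, ∀ c ∈ s',
      algebraMap F F' a * c ∈ Submodule.span E⟮algebraMap F F' t⟯ G := by
    intro a c hc
    have ha : a ∈ Submodule.span E⟮t⟯ (s : Set F) := by rw [hs]; trivial
    induction ha using Submodule.span_induction with
    | mem b hb => exact Submodule.subset_span (hmemG b hb c hc)
    | zero => rw [map_zero, zero_mul]; exact zero_mem _
    | add a b _ _ ha hb => rw [map_add, add_mul]; exact add_mem ha hb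
    | smul l b _ hb =>
      have h1 : algebraMap F F' (l • b) * c
          = (⟨algebraMap F F' (l : F), injH1_algebraMap_mem_adjoin t _ l.2⟩ :
              E⟮algebraMap F F' t⟯) • (algebraMap F F' b * c) := by
        rw [Algebra.smul_def, map_mul, mul_assoc]
        rfl
      rw [h1]
      exact Submodule.smul_mem _ _ hb
  have key2 : ∀ a : F, ∀ u ∈ Submodule.span E⟮algebraMap F F' t⟯ G,
      algebraMap F F' a * u ∈ Submodule.span E⟮algebraMap F F' t⟯ G := by
    intro a u hu
    induction hu using Submodule.span_induction with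
    | mem z hz =>
      obtain ⟨b₀, hb₀, c₀, hc₀, rfl⟩ := hGmem z hz
      have := key (a * b₀) c₀ hc₀
      rwa [map_mul, mul_assoc] at this
    | zero => rw [mul_zero]; exact zero_mem _
    | add u v _ _ hu hv => rw [mul_add]; exact add_mem hu hv
    | smul l u _ hu =>
      have h1 : algebraMap F F' a * (l • u) = l • (algebraMap F F' a * u) := by
        rw [Algebra.smul_def, Algebra.smul_def]; ring
      rw [h1]
      exact Submodule.smul_mem _ _ hu
  have hy : y ∈ Submodule.span F (s' : Set F') := by rw [hs']; trivial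
  induction hy using Submodule.span_induction with
  | mem c hc =>
    have := key 1 c hc
    rwa [map_one, one_mul] at this
  | zero => exact zero_mem _
  | add a b _ _ ha hb => exact add_mem ha hb
  | smul a b _ hb =>
    rw [Algebra.smul_def]
    exact key2 a b hb

end Tower

section Gen

variable {E Ω : Type*} [Field E] [Field Ω] [Algebra E Ω]

/-- `F'` as an algebra over `F ≤ F'` -/
@[reducible] def injH1Alg (F F' : IntermediateField E Ω) (hle : F ≤ F') : Algebra F F' :=
  (IntermediateField.inclusion hle).toRingHom.toAlgebra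

theorem injH1Alg_tower (F F' : IntermediateField E Ω) (hle : F ≤ F') :
    letI := injH1Alg F F' hle
    IsScalarTower E F F' := by
  letI := injH1Alg F F' hle
  refine IsScalarTower.of_algebraMap_eq fun c => ?_
  exact ((IntermediateField.inclusion hle).commutes c).symm

/-- `F ≤ F' ≤ E(F ∪ {s})`, `s` integral over `F` ⇒ `F'/F` is finite. -/
theorem injH1_finite_of_gen (F F' : IntermediateField E Ω) (hle : F ≤ F') (s : Ω)
    (hgen : F' ≤ IntermediateField.adjoin E ((F : Set Ω) ∪ {s}))
    (hs : IsIntegral F s) :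
    letI := injH1Alg F F' hle
    FiniteDimensional F F' := by
  letI := injH1Alg F F' hle
  haveI : FiniteDimensional F (IntermediateField.adjoin F {s}) :=
    IntermediateField.adjoin.finiteDimensional hs
  have hmem : ∀ x ∈ F', x ∈ IntermediateField.adjoin F {s} := by
    intro x hx
    have h1 : IntermediateField.adjoin E ((F : Set Ω) ∪ {s})
        ≤ (IntermediateField.adjoin F {s}).restrictScalars E := by
      rw [IntermediateField.adjoin_le_iff]
      rintro y (hy | hy)
      · exact (IntermediateField.adjoin F {s}).algebraMap_mem (⟨y, hy⟩ : F)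
      · rw [Set.mem_singleton_iff] at hy
        subst hy
        exact IntermediateField.mem_adjoin_simple_self F y
    exact h1 (hgen hx)
  let φ : F' →ₗ[F] IntermediateField.adjoin F {s} :=
    { toFun := fun x => ⟨x, hmem x x.2⟩
      map_add' := fun x y => rfl
      map_smul' := fun a x => by
        apply Subtype.ext
        rfl }
  have hφ : Function.Injective φ := by
    intro x y hxy
    apply Subtype.ext
    have h2 : ((φ x : IntermediateField.adjoin F {s}) : Ω) = (φ y : IntermediateField.adjoin F {s}) :=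
      congrArg Subtype.val hxy
    exact h2
  exact Module.Finite.of_injective φ hφ

/-- **finiteness over `E(t)`**: `F ≤ F' ≤ E(F ∪ {s})`, `s` integral over `F`, `F/E(t)` finite
⇒ `F'/E(t)` finite. -/
theorem injH1_fin_of_gen (F F' : IntermediateField E Ω) (hle : F ≤ F') (s : Ω)
    (hgen : F' ≤ IntermediateField.adjoin E ((F : Set Ω) ∪ {s}))
    (hs : IsIntegral F s) (t : Ω) (ht : t ∈ F)
    (hfin : FiniteDimensional E⟮(⟨t, ht⟩ : F)⟯ F) :
    FiniteDimensional E⟮(⟨t, hle ht⟩ : F')⟯ F' := by
  letI := injH1Alg F F' hle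
  haveI := injH1Alg_tower F F' hle
  haveI := injH1_finite_of_gen F F' hle s hgen hs
  exact injH1_fin_tower (E := E) (F := F) (F' := F') (⟨t, ht⟩ : F)

/-- integrality from a monic polynomial with `eval₂` -/
theorem injH1_isIntegral_of_eval₂ (F : IntermediateField E Ω) (s : Ω)
    (h : ∃ P : Polynomial F, P.Monic ∧ Polynomial.eval₂ F.val.toRingHom s P = 0) :
    IsIntegral F s := by
  obtain ⟨P, hP, h0⟩ := h
  exact ⟨P, hP, h0⟩

/-- integrality of a `p`-th root -/
theorem injH1_isIntegral_of_pow (F : IntermediateField E Ω) (s : Ω) (p : ℕ) (hp : p ≠ 0)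
    (h : s ^ p ∈ F) : IsIntegral F s := by
  refine ⟨Polynomial.X ^ p - Polynomial.C (⟨s ^ p, h⟩ : F),
    Polynomial.monic_X_pow_sub_C _ hp, ?_⟩
  rw [Polynomial.eval₂_sub, Polynomial.eval₂_pow, Polynomial.eval₂_X, Polynomial.eval₂_C]
  exact sub_self _

end Gen

section Interface

open ModularCurve Fermat.Agent.INJ

/-- **(F1 + F3-conj ⇒ INJ₁-inst)** the conjugate family of `fieldC K₀ L M H` over
`modularFunctionFieldFullC K₀ L`, in the number-field setting of `StmtInjNFH`
(`A₀ = nfSub A K₀`, `E = K₀`, `r = nfRes A K₀`). -/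
def StmtConjFamNF (L M : ℕ) (H : Subgroup (ZMod M)ˣ) (ℓ : ℕ) : Prop :=
  ∀ A : ValuationSubring NfQb, A.LiesOverPrime ℓ →
  ∀ K₀ : IntermediateField ℚ NfQb, FiniteDimensional ℚ K₀ →
    ∃ (m : ℕ) (S : Fin (m + 1) → LaurentSeries (nfSub A K₀)),
      ConjFamily (nfRes A K₀) (modularFunctionFieldFullC K₀ L) (fieldC K₀ L M H) S

end Interface

end Fermat.Agent.ES1
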