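import Fermat.Agent.ES1.ConjUse
import Fermat.Agent.ES1.ConjDeg
import Fermat.Agent.ES1.InjInstFin

/-!
# ES₁ / INJ₁ — the conjugate family in the number-field setting (captain helper36)

`stmtConjFamNF_of_diamond : StmtDiamondH → L ≠ 0 → M ∣ L → StmtConjFamNF L M H ℓ`
(the hypothesis `hconj` of `stmtInjNFH_j`, `ES1/InjInstJ.lean`).
-/

set_option autoImplicit false

noncomputable section

namespace Fermat.Agent.ES1

open Polynomial ModularCurve IntermediateField AlgebraicCurve Fermat.Agent.INJ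

theorem stmtConjFamNF_of_diamond (hD : StmtDiamondH) {L M : ℕ} (H : Subgroup (ZMod M)ˣ)
    (ℓ : ℕ) (hL : L ≠ 0) (hML : M ∣ L) : StmtConjFamNF L M H ℓ := by
  intro A hA K₀ hfin
  have hM0 : M ≠ 0 := fun h => hL (by rw [h] at hML; exact Nat.eq_zero_of_zero_dvd hML)
  obtain ⟨m, a, ha⟩ := exists_isRepFam hM0 H
  haveI : FiniteDimensional ℚ K₀ := hfin
  haveI : Algebra.IsAlgebraic ℚ K₀ := by
    have h : @Algebra.IsAlgebraic ℚ K₀ _ _ K₀.algebra' := Algebra.IsAlgebraic.of_finite ℚ K₀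
    convert h
    · exact Subsingleton.elim _ _
  exact ⟨m, fun i => sS (nfSub A K₀) M H (a i),
    conjFamily_of_diamond hD (nfRes A K₀) L M H a hL hML ha⟩

end Fermat.Agent.ES1
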