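import Fermat.Agent.ES1.ConjPlan

/-!
# ES₁ / F3-conj — consequences of `StmtDiamondH` (captain helper36)

* `es1cu_sS_injective` : `i ↦ S_{M,H,aᵢ}` is injective for a system of representatives.
* `conjFamily_of_diamond` : the `ConjFamily` instance consumed by INJ₁ (`StmtKDLift`).
* `es1cu_relfinrank` : `[fieldC K L M H : modularFunctionFieldFullC K L] = m + 1`.
-/

set_option autoImplicit false

noncomputable section

namespace Fermat.Agent.ES1

open Polynomial ModularCurve IntermediateField AlgebraicCurve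

section Rep

variable {M : ℕ} {H : Subgroup (ZMod M)ˣ} {m : ℕ} {a : Fin (m + 1) → (ZMod M)ˣ}

theorem es1cu_units_subsingleton (hM0 : M ≠ 0) (hM : ¬ 3 ≤ M) : Subsingleton (ZMod M)ˣ := by
  have h : M = 1 ∨ M = 2 := by omega
  rcases h with rfl | rfl
  · infer_instance
  · infer_instance

/-- the `S_{M,H,aᵢ}` are pairwise different, over every nontrivial ring -/
theorem es1cu_sS_injective (R : Type*) [CommRing R] [Nontrivial R] (hM0 : M ≠ 0)
    (ha : IsRepFam H a) : Function.Injective fun i => sS R M H (a i) := by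
  intro i j hij
  by_cases hM : 3 ≤ M
  · exact ha.inj i j ((es1f_sS_eq_iff R hM).mp hij)
  · have := es1cu_units_subsingleton hM0 hM
    refine ha.inj i j ?_
    rw [Subsingleton.elim (a j) (a i)]
    exact InPM.self _

end Rep

/-- **The conjugate family of INJ₁.** -/
theorem conjFamily_of_diamond (hD : StmtDiamondH)
    {A₀ E k : Type} [CommRing A₀] [Field E] [Algebra A₀ E] [CharZero E]
    [Algebra.IsAlgebraic ℚ E] [Field k] (r : A₀ →+* k) (L M : ℕ) (H : Subgroup (ZMod M)ˣ)
    {m : ℕ} (a : Fin (m + 1) → (ZMod M)ˣ) (hL : L ≠ 0) (hML : M ∣ L) (ha : IsRepFam H a) :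
    ConjFamily r (modularFunctionFieldFullC E L) (fieldC E L M H)
      (fun i => sS A₀ M H (a i)) := by
  obtain ⟨hgen, hpoly, haut⟩ := hD E L M H a hL hML ha
  have hM0 : M ≠ 0 := fun h => hL (by rw [h] at hML; exact Nat.eq_zero_of_zero_dvd hML)
  have h1 : (1 : ℕ) * M ∣ L := by rwa [one_mul]
  have hmem : ∀ c : (ZMod M)ˣ, sS E M H c ∈ fieldC E L M H := by
    intro c
    have := qExpand_sS_mem E L M H (e := 1) h1 c
    rwa [qExpand_one_apply] at this
  have hq1 : ∀ c : (ZMod M)ˣ, qExpand E 1 (sS E M H c) = sS E M H c :=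
    fun c => qExpand_one_apply _
  refine
    { le := full_le_fieldC E L M H
      mem := fun i => by rw [es1f_coeffMap_sS]; exact hmem _
      gen := by
        have : coeffMap (algebraMap A₀ E) (sS A₀ M H (a 0)) = sS E M H 1 := by
          rw [es1f_coeffMap_sS, ha.zero]
        rw [this]; exact hgen
      poly := by
        have : coeffMap (algebraMap A₀ E) (sS A₀ M H (a 0)) = sS E M H 1 := by
          rw [es1f_coeffMap_sS, ha.zero]
        rw [this]; exact hpoly
      aut := fun i => by
        obtain ⟨σ, hσ, hσS⟩ := haut (a i)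
        refine ⟨σ, hσ, ?_⟩
        have h2 := hσS 1 h1 1
        have h3 : (⟨coeffMap (algebraMap A₀ E) (sS A₀ M H (a 0)),
            (by rw [es1f_coeffMap_sS]; exact hmem _)⟩ : fieldC E L M H)
            = ⟨qExpand E 1 (sS E M H 1), qExpand_sS_mem E L M H h1 1⟩ := by
          apply Subtype.ext
          show coeffMap (algebraMap A₀ E) (sS A₀ M H (a 0)) = qExpand E 1 (sS E M H 1)
          rw [es1f_coeffMap_sS, ha.zero, hq1]
        rw [h3, h2, hq1, one_mul, es1f_coeffMap_sS]
      red_ne := fun i j hij h => by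
        rw [es1f_coeffMap_sS, es1f_coeffMap_sS] at h
        exact hij (es1cu_sS_injective k hM0 ha h) }

/-- a conjugate `σ s` of a root `s` of a polynomial over `F₀` is a root, for an automorphism
`σ` of `F ⊇ F₀` fixing `F₀` -/
theorem es1cu_root_conj {K Ω : Type*} [Field K] [Field Ω] [Algebra K Ω]
    {F₀ F : IntermediateField K Ω} (σ : F ≃ₐ[K] F)
    (hσ : ∀ f : F, (f : Ω) ∈ F₀ → σ f = f) (hle : F₀ ≤ F) (p : Polynomial F₀) (s : F)
    (hs : Polynomial.eval₂ (algebraMap F₀ Ω) (s : Ω) p = 0) :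
    Polynomial.eval₂ (algebraMap F₀ Ω) ((σ s : F) : Ω) p = 0 := by
  have h1 : Polynomial.eval₂ (IntermediateField.inclusion hle).toRingHom s p = 0 := by
    apply Subtype.ext
    have := Polynomial.hom_eval₂ p (IntermediateField.inclusion hle).toRingHom
      F.val.toRingHom s
    rw [ZeroMemClass.coe_zero]
    refine Eq.trans ?_ hs
    exact this
  have h3 := Polynomial.hom_eval₂ p (IntermediateField.inclusion hle).toRingHom
    (σ : F →+* F) s
  have h4 : ((σ : F →+* F).comp (IntermediateField.inclusion hle).toRingHom)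
      = (IntermediateField.inclusion hle).toRingHom := by
    ext x
    exact congrArg Subtype.val (hσ _ x.2)
  rw [h4, h1, map_zero] at h3
  have h6 := Polynomial.hom_eval₂ p (IntermediateField.inclusion hle).toRingHom
    F.val.toRingHom ((σ : F →+* F) s)
  rw [← h3, map_zero] at h6
  exact h6.symm

/-- degree of `F = F₀(s)` from a monic polynomial of degree `m + 1` and `m + 1` conjugates -/
theorem es1cu_relfinrank_generic {K Ω : Type*} [Field K] [Field Ω] [Algebra K Ω]
    {F₀ F : IntermediateField K Ω} (hle : F₀ ≤ F) (s : Ω) (hs : s ∈ F)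
    (hgen : F ≤ IntermediateField.adjoin K ((F₀ : Set Ω) ∪ {s}))
    (P : Polynomial F₀) (hPm : P.Monic) (hPr : Polynomial.eval₂ (algebraMap F₀ Ω) s P = 0)
    {m : ℕ} (hPd : P.natDegree = m + 1) (S : Fin (m + 1) → Ω) (hSinj : Function.Injective S)
    (haut : ∀ i, ∃ σ : F ≃ₐ[K] F, (∀ f : F, (f : Ω) ∈ F₀ → σ f = f) ∧
      ((σ ⟨s, hs⟩ : F) : Ω) = S i) :
    F₀.relfinrank F = m + 1 := by
  classical
  have hint : IsIntegral F₀ s := ⟨P, hPm, hPr⟩
  have hFeq : F = (F₀⟮s⟯).restrictScalars K := by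
    rw [IntermediateField.restrictScalars_adjoin]
    refine le_antisymm hgen ?_
    rw [IntermediateField.adjoin_le_iff]
    rintro x (hx | hx)
    · exact hle hx
    · rw [Set.mem_singleton_iff] at hx
      rw [hx]; exact hs
  have hext : IntermediateField.extendScalars hle = F₀⟮s⟯ := by
    apply IntermediateField.restrictScalars_injective K
    rw [IntermediateField.extendScalars_restrictScalars]
    exact hFeq
  rw [IntermediateField.relfinrank_eq_finrank_of_le hle, hext,
    IntermediateField.adjoin.finrank hint]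
  apply le_antisymm
  · have hdvd : minpoly F₀ s ∣ P := minpoly.dvd F₀ s hPr
    have := Polynomial.natDegree_le_of_dvd hdvd hPm.ne_zero
    rwa [hPd] at this
  · set Z : Finset Ω := Finset.univ.image S with hZ
    have hZcard : Z.card = m + 1 := by
      rw [hZ, Finset.card_image_of_injective _ hSinj]
      simp
    have hne : (minpoly F₀ s).map (algebraMap F₀ Ω) ≠ 0 :=
      Polynomial.map_ne_zero (minpoly.ne_zero hint)
    have hsub : Z.val ⊆ ((minpoly F₀ s).map (algebraMap F₀ Ω)).roots := by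
      intro x hx
      rw [Finset.mem_val, hZ, Finset.mem_image] at hx
      obtain ⟨i, -, rfl⟩ := hx
      rw [Polynomial.mem_roots hne, Polynomial.IsRoot, Polynomial.eval_map]
      obtain ⟨σ, hσ, hσS⟩ := haut i
      rw [← hσS]
      exact es1cu_root_conj σ hσ hle (minpoly F₀ s) ⟨s, hs⟩ (minpoly.aeval F₀ s)
    have := Polynomial.card_le_degree_of_subset_roots hsub
    rw [hZcard, Polynomial.natDegree_map] at this
    exact this

/-- **The degree** `[fieldC K L M H : modularFunctionFieldFullC K L] = #((ℤ/M)ˣ/±H)`. -/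
theorem es1cu_relfinrank (hD : StmtDiamondH)
    (K : Type) [Field K] [CharZero K] [Algebra.IsAlgebraic ℚ K] (L M : ℕ)
    (H : Subgroup (ZMod M)ˣ) {m : ℕ} (a : Fin (m + 1) → (ZMod M)ˣ)
    (hL : L ≠ 0) (hML : M ∣ L) (ha : IsRepFam H a) :
    (modularFunctionFieldFullC K L).relfinrank (fieldC K L M H) = m + 1 := by
  obtain ⟨hgen, ⟨P, hPm, hPd, hPr⟩, haut⟩ := hD K L M H a hL hML ha
  have hM0 : M ≠ 0 := fun h => hL (by rw [h] at hML; exact Nat.eq_zero_of_zero_dvd hML)
  have h1 : (1 : ℕ) * M ∣ L := by rwa [one_mul]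
  have hq1 : ∀ c : (ZMod M)ˣ, qExpand K 1 (sS K M H c) = sS K M H c :=
    fun c => qExpand_one_apply _
  have hmem : ∀ c : (ZMod M)ˣ, sS K M H c ∈ fieldC K L M H := by
    intro c
    have := qExpand_sS_mem K L M H (e := 1) h1 c
    rwa [qExpand_one_apply] at this
  refine es1cu_relfinrank_generic (full_le_fieldC K L M H) (sS K M H 1) (hmem 1) hgen P hPm hPr
    hPd (fun i => sS K M H (a i)) (es1cu_sS_injective K hM0 ha) fun i => ?_
  obtain ⟨σ, hσ, hσS⟩ := haut (a i)
  refine ⟨σ, hσ, ?_⟩
  have h2 := hσS 1 h1 1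
  have h3 : (⟨sS K M H 1, hmem 1⟩ : fieldC K L M H)
      = ⟨qExpand K 1 (sS K M H 1), qExpand_sS_mem K L M H h1 1⟩ := by
    apply Subtype.ext
    show sS K M H 1 = qExpand K 1 (sS K M H 1)
    rw [hq1]
  rw [h3, h2, hq1, one_mul]

end Fermat.Agent.ES1
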