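import Mathlib
import Fermat.Agent.S28.Defs
import Fermat.Prelude.Def_ModularCurve_ArithmeticGalois

/-!
# ES₁ — the function field of `X_H(L; M)` inside `K((q))` (definitions only; captain helper36)

`M ∣ L` levels, `H ≤ (ℤ/M)ˣ`.  `Γ = Γ_H(M) ∩ Γ₀(L) = {γ ∈ Γ₀(L) : γ₁₁ mod M ∈ ±H}`
(`H = 1`: `Γ₁(M) ∩ Γ₀(L)`; `H = ⊤`: `Γ₀(L)`).

Generators, all in `ℤ((q))` (classical `q`-expansions at `∞`):
* `j(q^d)`, `d ∣ L` (the prelude's generators of the function field of `X₀(L)`);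
* `S_{M,H,a}(q^e)`, `e · M ∣ L`, `a ∈ (ℤ/M)ˣ`, where
  `Y_{M,a} = Σ_{n ≥ 1} (Σ_{m ∣ n, n/m ≡ a (M)} m² − Σ_{m ∣ n, n/m ≡ −a (M)} m²) qⁿ`
  is the `q`-expansion of the weight 3 Eisenstein series
  `𝕐_a(τ) = c · Σ_{c ≡ a (M), d ∈ ℤ} (cτ + d)⁻³` on `Γ₁(M)` (`𝕐_a ∣ γ = 𝕐_{a·γ₀₀}` for `γ ∈ Γ₀(M)`),
  `G_{M,a} = Y_{M,a}⁴ / Δ` (weight `0`, holomorphic on `ℍ`), and
  `S_{M,H,a} = Σ_{a' ∈ [1, M/2], a' ∈ ±aH} G_{M,a'}`.
  For `a'` prime to `M`, `1 ≤ a' < M/2`: `G_{M,a'} = q^(4a'−1) (1 + …)`.  So the conjugates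
  `S_{M,H,a}` (`a ∈ (ℤ/M)ˣ/±H`) have pairwise different leading exponents and leading
  coefficient `1` IN EVERY CHARACTERISTIC.
-/

set_option autoImplicit false

noncomputable section

open HahnSeries ModularCurve AlgebraicCurve

namespace Fermat.Agent.ES1

/-- the `n`-th coefficient of the formal weight 3 Eisenstein series `Y_{M,a}` -/
def eisYCoeff (M : ℕ) (a : ZMod M) (n : ℕ) : ℤ :=
  ∑ m ∈ n.divisors, ((if ((n / m : ℕ) : ZMod M) = a then (m : ℤ) ^ 2 else 0) -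
    (if ((n / m : ℕ) : ZMod M) = -a then (m : ℤ) ^ 2 else 0))

/-- the formal weight 3 Eisenstein series `Y_{M,a} ∈ ℤ[[q]]` -/
def eisYZ (M : ℕ) (a : ZMod M) : PowerSeries ℤ := PowerSeries.mk (eisYCoeff M a)

/-- `G_{M,a} = Y_{M,a}⁴ / Δ ∈ ℤ((q))` -/
def gZ (M : ℕ) (a : ZMod M) : LaurentSeries ℤ :=
  HahnSeries.ofPowerSeries ℤ ℤ (eisYZ M a ^ 4) * Fermat.Agent.S28.deltaInvZ

open Classical in
/-- the `a' ∈ [1, M/2]` whose class mod `M` lies in `± a H` -/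
def cosetReps (M : ℕ) (H : Subgroup (ZMod M)ˣ) (a : (ZMod M)ˣ) : Finset ℕ :=
  (Finset.Icc 1 (M / 2)).filter fun a' =>
    ∃ h ∈ H, (a' : ZMod M) = ((a * h : (ZMod M)ˣ) : ZMod M) ∨
      (a' : ZMod M) = -((a * h : (ZMod M)ˣ) : ZMod M)

/-- `S_{M,H,a} = Σ_{a' ∈ ± a H} G_{M,a'} ∈ ℤ((q))` -/
def sZ (M : ℕ) (H : Subgroup (ZMod M)ˣ) (a : (ZMod M)ˣ) : LaurentSeries ℤ :=
  ∑ a' ∈ cosetReps M H a, gZ M (a' : ZMod M)

/-- `S_{M,H,a}` with coefficients in a commutative ring `R` -/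
def sS (R : Type*) [CommRing R] (M : ℕ) (H : Subgroup (ZMod M)ˣ) (a : (ZMod M)ˣ) :
    LaurentSeries R :=
  coeffMap (Int.castRingHom R) (sZ M H a)

section Field

variable (K : Type*) [Field K] (L M : ℕ) (H : Subgroup (ZMod M)ˣ)

/-- the new generators `S_{M,H,a}(q^e)`, `e · M ∣ L` -/
def diamondExpansionsC : Set (LaurentSeries K) :=
  {x | ∃ (e : ℕ) (_ : NeZero e) (a : (ZMod M)ˣ), e * M ∣ L ∧ x = qExpand K e (sS K M H a)}

/-- **The function field of `X_H(L; M)` over `K`**, inside `K((q))`. -/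
def fieldC : IntermediateField K (LaurentSeries K) :=
  IntermediateField.adjoin K (divisorExpansionsC K L ∪ diamondExpansionsC K L M H)

theorem full_le_fieldC : modularFunctionFieldFullC K L ≤ fieldC K L M H :=
  IntermediateField.adjoin.mono K _ _ Set.subset_union_left

theorem qExpand_sS_mem {e : ℕ} [NeZero e] (he : e * M ∣ L) (a : (ZMod M)ˣ) :
    qExpand K e (sS K M H a) ∈ fieldC K L M H :=
  IntermediateField.subset_adjoin K _ (Or.inr ⟨e, ‹_›, a, he, rfl⟩)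

theorem jd_mem_fieldC {d : ℕ} [NeZero d] (hd : d ∣ L) :
    qExpand K d (jqModC K) ∈ fieldC K L M H :=
  full_le_fieldC K L M H (jqModCd_mem_full K L hd)

theorem fieldC_mono {L L' : ℕ} (h : L ∣ L') : fieldC K L M H ≤ fieldC K L' M H := by
  refine IntermediateField.adjoin.mono K _ _ ?_
  rintro x (⟨d, hne, hd, rfl⟩ | ⟨e, hne, a, he, rfl⟩)
  · exact Or.inl ⟨d, hne, hd.trans h, rfl⟩
  · exact Or.inr ⟨e, hne, a, he.trans h, rfl⟩

end Field

section Rational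

variable (L M : ℕ) (H : Subgroup (ZMod M)ˣ)

/-- the function field over `ℚ` -/
def fieldQ : IntermediateField ℚ (LaurentSeries ℚ) := fieldC ℚ L M H

/-- the function field over `ℚ̄` (in the prelude's base change form) -/
abbrev fieldBar : IntermediateField (AlgebraicClosure ℚ) (LaurentSeries (AlgebraicClosure ℚ)) :=
  laurentBaseChange (AlgebraicClosure ℚ) (fieldQ L M H)

/-- **The Jacobian `J_H(L; M)(ℚ̄)`** `= Pic⁰` of the function field; it carries the prelude's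
action of `Gal(ℚ̄/ℚ)` (coefficientwise on `ℚ̄((q))`). -/
abbrev JH : Type _ := Pic0 (AlgebraicClosure ℚ) (fieldBar L M H)

example : DistribMulAction (AlgebraicClosure ℚ ≃ₐ[ℚ] AlgebraicClosure ℚ) (JH L M H) :=
  inferInstance

end Rational

end Fermat.Agent.ES1
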