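import Fermat.Agent.ES1.Defs
import Fermat.Agent.S24.Defs
import Fermat.Prelude.Def_ModularCurve_HeckeOperator
import Fermat.Prelude.Thm_ModularCurve_coeffMap_qExpand

/-!
# ES₁, piece (H), part 1: the degeneracy maps `α`, `β : fieldBar L M H → fieldBar (L ℓ) M H`

* `es1h_qExpand_mem_fieldC` : `q ↦ q^ℓ` maps `fieldC K L M H` into `fieldC K (L ℓ) M H`;
* `es1hAlphaC`, `es1hBetaC` : the two degeneracy maps over any field `K` (inclusion, `qExpand ℓ`);
* `es1hAlpha`, `es1hBeta` : the same on the prelude's base change form `fieldBar` (over `ℚ̄`),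
  the function field of `JH L M H`.
-/

set_option autoImplicit false

noncomputable section

open HahnSeries ModularCurve AlgebraicCurve IntermediateField

namespace Fermat.Agent.ES1

section Generic

variable (Lf : Type*) [Field Lf] [Algebra ℚ Lf]

/-- `laurentBaseChange` is monotone (public copy of the prelude's private lemma). -/
theorem es1h_laurentBaseChange_mono {F₀ F₁ : IntermediateField ℚ (LaurentSeries ℚ)}
    (h : F₀ ≤ F₁) : laurentBaseChange Lf F₀ ≤ laurentBaseChange Lf F₁ := by
  rw [laurentBaseChange, IntermediateField.adjoin_le_iff]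
  rintro _ ⟨y, hy, rfl⟩
  exact coeffEmb_mem_laurentBaseChange Lf (h hy)

variable {Lf}

/-- `q ↦ q^n` on base changes (public copy of the prelude's private lemma). -/
theorem es1h_qExpand_mem_laurentBaseChange {F₀ : IntermediateField ℚ (LaurentSeries ℚ)} (n : ℕ)
    [NeZero n] {F₁ : IntermediateField ℚ (LaurentSeries ℚ)} (hF : ∀ y ∈ F₀, qExpand ℚ n y ∈ F₁)
    {x : LaurentSeries Lf} (hx : x ∈ laurentBaseChange Lf F₀) :
    qExpand Lf n x ∈ laurentBaseChange Lf F₁ := by
  rw [mem_laurentBaseChange_iff] at hx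
  induction hx using Subfield.closure_induction with
  | mem y hy =>
      rcases hy with ⟨a, rfl⟩ | ⟨z, hz, rfl⟩
      · rw [algebraMap_laurentSeries_eq_single, qExpand_single, mul_zero,
          ← algebraMap_laurentSeries_eq_single]
        exact (laurentBaseChange Lf F₁).algebraMap_mem _
      · have h1 : qExpand Lf n (coeffEmb Lf z) = coeffEmb Lf (qExpand ℚ n z) :=
          (coeffMap_qExpand (algebraMap ℚ Lf) n z).symm
        rw [h1]
        exact coeffEmb_mem_laurentBaseChange Lf (hF z hz)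
  | one => simp
  | add x y _ _ hx hy => simpa using add_mem hx hy
  | neg x _ hx => simpa using neg_mem hx
  | inv x _ hx => simpa using inv_mem hx
  | mul x y _ _ hx hy => simpa using mul_mem hx hy

end Generic

section FieldC

variable (K : Type*) [Field K] (L M : ℕ) (H : Subgroup (ZMod M)ˣ) (ℓ : ℕ) [NeZero ℓ]

/-- `q ↦ q^ℓ` maps the function field of level `L` into the one of level `L ℓ`. -/
theorem es1h_qExpand_mem_fieldC {y : LaurentSeries K} (hy : y ∈ fieldC K L M H) :
    qExpand K ℓ y ∈ fieldC K (L * ℓ) M H := by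
  have hy' : y ∈ Subfield.closure
      (Set.range (algebraMap K (LaurentSeries K)) ∪
        (divisorExpansionsC K L ∪ diamondExpansionsC K L M H)) := hy
  clear hy
  induction hy' using Subfield.closure_induction with
  | mem y hy =>
      rcases hy with ⟨c, rfl⟩ | ⟨d, hd, hdN, rfl⟩ | ⟨e, he, a, heL, rfl⟩
      · rw [algebraMap_laurentSeries_eq_single, qExpand_single, mul_zero,
          ← algebraMap_laurentSeries_eq_single]
        exact (fieldC K (L * ℓ) M H).algebraMap_mem _
      · have : NeZero (ℓ * d) := ⟨Nat.mul_ne_zero (NeZero.ne ℓ) (NeZero.ne d)⟩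
        rw [qExpand_qExpand]
        exact jd_mem_fieldC K (L * ℓ) M H
          ((mul_dvd_mul_left ℓ hdN).trans (dvd_of_eq (mul_comm ℓ L)))
      · have : NeZero (ℓ * e) := ⟨Nat.mul_ne_zero (NeZero.ne ℓ) (NeZero.ne e)⟩
        rw [qExpand_qExpand]
        refine qExpand_sS_mem K (L * ℓ) M H ?_ a
        rw [mul_assoc]
        exact (mul_dvd_mul_left ℓ heL).trans (dvd_of_eq (mul_comm ℓ L))
  | one => simp
  | add x y _ _ hx hy => simpa using add_mem hx hy
  | neg x _ hx => simpa using neg_mem hx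
  | inv x _ hx => simpa using inv_mem hx
  | mul x y _ _ hx hy => simpa using mul_mem hx hy

/-- the degeneracy map `α` (inclusion) over `K` -/
def es1hAlphaC : fieldC K L M H →ₐ[K] fieldC K (L * ℓ) M H :=
  IntermediateField.inclusion (fieldC_mono K M H (dvd_mul_right L ℓ))

omit [NeZero ℓ] in
@[simp]
theorem coe_es1hAlphaC (x : fieldC K L M H) :
    (es1hAlphaC K L M H ℓ x : LaurentSeries K) = (x : LaurentSeries K) :=
  IntermediateField.coe_inclusion _ x

/-- the degeneracy map `β` (`q ↦ q^ℓ`) over `K`, as a ring homomorphism -/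
def es1hBetaCRingHom : fieldC K L M H →+* fieldC K (L * ℓ) M H where
  toFun x := ⟨qExpand K ℓ (x : LaurentSeries K), es1h_qExpand_mem_fieldC K L M H ℓ x.2⟩
  map_one' := Subtype.ext (map_one (qExpand K ℓ))
  map_mul' _ _ := Subtype.ext (map_mul (qExpand K ℓ) _ _)
  map_zero' := Subtype.ext (map_zero (qExpand K ℓ))
  map_add' _ _ := Subtype.ext (map_add (qExpand K ℓ) _ _)

/-- the degeneracy map `β` (`q ↦ q^ℓ`) over `K` -/
def es1hBetaC : fieldC K L M H →ₐ[K] fieldC K (L * ℓ) M H :=
  { es1hBetaCRingHom K L M H ℓ with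
    commutes' := fun a => Subtype.ext <| by
      show qExpand K ℓ (algebraMap K (LaurentSeries K) a) = algebraMap K (LaurentSeries K) a
      rw [algebraMap_laurentSeries_eq_single, qExpand_single, mul_zero] }

@[simp]
theorem coe_es1hBetaC (x : fieldC K L M H) :
    (es1hBetaC K L M H ℓ x : LaurentSeries K) = qExpand K ℓ (x : LaurentSeries K) :=
  rfl

end FieldC

section Bar

variable (L M : ℕ) (H : Subgroup (ZMod M)ˣ) (ℓ : ℕ) [NeZero ℓ]

omit [NeZero ℓ] in
theorem es1h_fieldBar_mono {L L' : ℕ} (h : L ∣ L') : fieldBar L M H ≤ fieldBar L' M H :=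
  es1h_laurentBaseChange_mono _ (fieldC_mono ℚ M H h)

/-- **the degeneracy map `α`** (inclusion) `fieldBar L M H → fieldBar (L ℓ) M H` -/
def es1hAlpha : fieldBar L M H →ₐ[AlgebraicClosure ℚ] fieldBar (L * ℓ) M H :=
  IntermediateField.inclusion (es1h_fieldBar_mono M H (dvd_mul_right L ℓ))

omit [NeZero ℓ] in
@[simp]
theorem coe_es1hAlpha (x : fieldBar L M H) :
    (es1hAlpha L M H ℓ x : LaurentSeries (AlgebraicClosure ℚ)) = x :=
  IntermediateField.coe_inclusion _ x

/-- the degeneracy map `β` as a ring homomorphism -/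
def es1hBetaRingHom : fieldBar L M H →+* fieldBar (L * ℓ) M H where
  toFun x := ⟨qExpand (AlgebraicClosure ℚ) ℓ (x : LaurentSeries (AlgebraicClosure ℚ)),
    es1h_qExpand_mem_laurentBaseChange ℓ
      (fun _ hy => es1h_qExpand_mem_fieldC ℚ L M H ℓ hy) x.2⟩
  map_one' := Subtype.ext (map_one (qExpand (AlgebraicClosure ℚ) ℓ))
  map_mul' _ _ := Subtype.ext (map_mul (qExpand (AlgebraicClosure ℚ) ℓ) _ _)
  map_zero' := Subtype.ext (map_zero (qExpand (AlgebraicClosure ℚ) ℓ))
  map_add' _ _ := Subtype.ext (map_add (qExpand (AlgebraicClosure ℚ) ℓ) _ _)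

/-- **the degeneracy map `β`** (`q ↦ q^ℓ`) `fieldBar L M H → fieldBar (L ℓ) M H` -/
def es1hBeta : fieldBar L M H →ₐ[AlgebraicClosure ℚ] fieldBar (L * ℓ) M H :=
  { es1hBetaRingHom L M H ℓ with
    commutes' := fun a => Subtype.ext <| by
      show qExpand (AlgebraicClosure ℚ) ℓ (algebraMap (AlgebraicClosure ℚ)
        (LaurentSeries (AlgebraicClosure ℚ)) a) = algebraMap (AlgebraicClosure ℚ)
        (LaurentSeries (AlgebraicClosure ℚ)) a
      rw [algebraMap_laurentSeries_eq_single, qExpand_single, mul_zero] }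

@[simp]
theorem coe_es1hBeta (x : fieldBar L M H) :
    (es1hBeta L M H ℓ x : LaurentSeries (AlgebraicClosure ℚ)) =
      qExpand (AlgebraicClosure ℚ) ℓ (x : LaurentSeries (AlgebraicClosure ℚ)) :=
  rfl

/-- `j(q) ∈ fieldBar L M H` -/
theorem es1h_jBar_mem : Fermat.Agent.S24.jBar ∈ fieldBar L M H := by
  refine coeffEmb_mem_laurentBaseChange _ ?_
  have h := jd_mem_fieldC ℚ L M H (one_dvd L)
  rwa [qExpand_one_apply] at h

/-- `j` as an element of `fieldBar L M H` -/
def es1hJ : fieldBar L M H := ⟨Fermat.Agent.S24.jBar, es1h_jBar_mem L M H⟩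

@[simp]
theorem coe_es1hJ : ((es1hJ L M H : fieldBar L M H) : LaurentSeries (AlgebraicClosure ℚ)) =
    Fermat.Agent.S24.jBar := rfl

end Bar

end Fermat.Agent.ES1
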