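import Fermat.Agent.INJ.TSStmt
import Fermat.Agent.INJ.GaussRep
import Fermat.Agent.INJ.StmtNF
import Fermat.Agent.ES1.Defs

/-!
# ES₁ / INJ₁ — interface (statements only; captain helper36)

* `ConjFamily r F₀ F S` : `F = F₀(S 0) ⊂ E((q))`, the `S i ∈ A₀((q))` are the conjugates of `S 0`
  over `F₀` (automorphisms of `F / F₀`), with pairwise different reductions modulo `π`.
  (For `F₀ = modularFunctionFieldFullC E L`, `F = fieldC E L M H`, `S i = S_{M,H,aᵢ}`: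
  `mem` by definition, `gen`, `aut`, `poly` from piece F3, `red_ne` from piece F1.)
* `StmtKDLift` (piece INJ₁-KD, helper98): Gauss key data for `F₀` + a conjugate family + the
  hypotheses of the tame specialization theorem for `F` ⇒ Gauss key data for `F`
  ("Igusa for `Γ_H`" with no new modular input).
* `StmtINJH L M H ℓ p`, `StmtINJHAll` : (INJ) for `fieldBar L M H` (the goal of INJ₁).
* `StmtInjNFH` : its number-field form (fork of `INJ.StmtInjNF`).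
-/

set_option autoImplicit false

namespace Fermat.Agent.ES1

open Polynomial ModularCurve IntermediateField AlgebraicCurve Fermat.Agent.INJ

/-- A family of conjugate generators of `F / F₀` with Gauss-distinct reductions. -/
structure ConjFamily {A₀ E k : Type} [CommRing A₀] [Field E] [Algebra A₀ E] [Field k]
    (r : A₀ →+* k) (F₀ F : IntermediateField E (LaurentSeries E)) {m : ℕ}
    (S : Fin (m + 1) → LaurentSeries A₀) : Prop where
  /-- `F₀ ⊆ F` -/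
  le : F₀ ≤ F
  /-- the conjugates lie in `F` -/
  mem : ∀ i, coeffMap (algebraMap A₀ E) (S i) ∈ F
  /-- `F = F₀(S 0)` -/
  gen : F ≤ IntermediateField.adjoin E
    ((F₀ : Set (LaurentSeries E)) ∪ {coeffMap (algebraMap A₀ E) (S 0)})
  /-- `S 0` is a root of a monic polynomial of degree `m + 1` over `F₀` -/
  poly : ∃ P : Polynomial F₀, P.Monic ∧ P.natDegree = m + 1 ∧
    Polynomial.eval₂ F₀.val.toRingHom (coeffMap (algebraMap A₀ E) (S 0)) P = 0
  /-- the `S i` are conjugate to `S 0` by automorphisms of `F` over `F₀` -/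
  aut : ∀ i, ∃ σ : F ≃ₐ[E] F, (∀ f : F, (f : LaurentSeries E) ∈ F₀ → σ f = f) ∧
    ((σ ⟨coeffMap (algebraMap A₀ E) (S 0), mem 0⟩ : F) : LaurentSeries E)
      = coeffMap (algebraMap A₀ E) (S i)
  /-- the reductions are pairwise different -/
  red_ne : ∀ i j, i ≠ j → coeffMap r (S i) ≠ coeffMap r (S j)

/-- **(INJ₁-KD)** Gauss key data for `F = F₀(S)` from Gauss key data for `F₀`, a conjugate
family and the hypotheses of the tame specialization theorem for `F`. -/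
def StmtKDLift : Prop :=
  ∀ {A₀ E k : Type} [CommRing A₀] [IsDomain A₀] [IsDiscreteValuationRing A₀]
    [Field E] [Algebra A₀ E] [IsFractionRing A₀ E] [CharZero E]
    [Field k] (r : A₀ →+* k) (F₀ F : IntermediateField E (LaurentSeries E))
    {π : A₀} (_ : Irreducible π) (_ : r π = 0) (_ : ∀ a, r a = 0 → π ∣ a)
    {t₀ : LaurentSeries A₀} {n : ℕ} {x : Fin n → LaurentSeries A₀}
    (kd : GaussKD r F₀ t₀ x)
    (_ : (coeffMap (algebraMap A₀ E) t₀).order = -1)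
    {m : ℕ} (S : Fin (m + 1) → LaurentSeries A₀) (hS : ConjFamily r F₀ F S)
    (_ : ∀ [Algebra A₀ F₀] [IsScalarTower A₀ E F₀],
      TSGoodBasis (A₀ := A₀) (E := E) (Lf := F₀) π
        ⟨coeffMap (algebraMap A₀ E) t₀, kd.t_mem⟩)
    (_ : FiniteDimensional
      E⟮(⟨coeffMap (algebraMap A₀ E) t₀, hS.le kd.t_mem⟩ : F)⟯ F)
    (Sg : Finset A₀) (_ : ∀ c ∈ Sg, ∀ c' ∈ Sg, c ≠ c' → ¬ π ∣ c - c')
    (e : ℕ) (_ : IsUnit (e : A₀)) (_ : ∃ ζ : A₀, IsPrimitiveRoot ζ e)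
    (_ : ∀ [Algebra A₀ F] [IsScalarTower A₀ E F],
      TSUnramified (A₀ := A₀) (E := E) (Lf := F)
        ⟨coeffMap (algebraMap A₀ E) t₀, hS.le kd.t_mem⟩ Sg ∧
      TSTame (A₀ := A₀) (E := E) (Lf := F)
        ⟨coeffMap (algebraMap A₀ E) t₀, hS.le kd.t_mem⟩ Sg e),
    ∃ (n' : ℕ) (x' : Fin n' → LaurentSeries A₀), GaussKD r F t₀ x'

/-- **(INJ₁)** at level `(L; M, H)`, residue characteristic `ℓ`, exponent `p`
(= `INJ.StmtINJ` with `fieldBar L M H` in place of `modularFunctionFieldBar N`). -/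
def StmtINJH (L M : ℕ) (H : Subgroup (ZMod M)ˣ) (ℓ p : ℕ) : Prop :=
  ∀ A : ValuationSubring (AlgebraicClosure ℚ), A.LiesOverPrime ℓ →
    ∀ (Y₁ Y₂ : LaurentSeries A)
      (h₁ : coeffMap A.subtype Y₁ ∈ fieldBar L M H)
      (h₂ : coeffMap A.subtype Y₂ ∈ fieldBar L M H),
      coeffMap (IsLocalRing.residue A) Y₁ = coeffMap (IsLocalRing.residue A) Y₂ →
      coeffMap (IsLocalRing.residue A) Y₂ ≠ 0 →
      (∀ P : Place (AlgebraicClosure ℚ) (fieldBar L M H),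
        (p : ℤ) ∣ P.ord (⟨coeffMap A.subtype Y₁, h₁⟩ : fieldBar L M H)
          - P.ord (⟨coeffMap A.subtype Y₂, h₂⟩ : fieldBar L M H)) →
      ∃ h : fieldBar L M H,
        h ^ p * (⟨coeffMap A.subtype Y₂, h₂⟩ : fieldBar L M H)
          = ⟨coeffMap A.subtype Y₁, h₁⟩

/-- The goal of INJ₁. -/
def StmtINJHAll : Prop :=
  ∀ (L M : ℕ) (H : Subgroup (ZMod M)ˣ) (ℓ p : ℕ), L ≠ 0 → M ∣ L → ℓ.Prime → p.Prime →
    ¬ ℓ ∣ L → ℓ ≠ p → StmtINJH L M H ℓ p

/-- **(INJ₁), number-field form** (fork of `INJ.StmtInjNF`). -/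
def StmtInjNFH (L M : ℕ) (H : Subgroup (ZMod M)ˣ) (ℓ p : ℕ) : Prop :=
  ∀ A : ValuationSubring NfQb, A.LiesOverPrime ℓ →
  ∀ K₀ : IntermediateField ℚ NfQb, FiniteDimensional ℚ K₀ →
    (∃ ζ : K₀, IsPrimitiveRoot ζ p) → (∃ ζ : K₀, IsPrimitiveRoot ζ (6 * L)) →
    ∀ (Y₁ Y₂ : LaurentSeries (nfSub A K₀)) (h : LaurentSeries K₀)
      (h₁ : coeffMap (algebraMap (nfSub A K₀) K₀) Y₁ ∈ fieldC K₀ L M H)
      (h₂ : coeffMap (algebraMap (nfSub A K₀) K₀) Y₂ ∈ fieldC K₀ L M H),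
      coeffMap (nfRes A K₀) Y₁ = coeffMap (nfRes A K₀) Y₂ →
      coeffMap (nfRes A K₀) Y₂ ≠ 0 →
      h ^ p * coeffMap (algebraMap (nfSub A K₀) K₀) Y₂
        = coeffMap (algebraMap (nfSub A K₀) K₀) Y₁ →
      (∀ Q : Place K₀ (fieldC K₀ L M H),
        (p : ℤ) ∣ Q.ord (⟨_, h₁⟩ : fieldC K₀ L M H)
          - Q.ord (⟨_, h₂⟩ : fieldC K₀ L M H)) →
      h ∈ fieldC K₀ L M H

end Fermat.Agent.ES1
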