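import Fermat.Agent.ES1.ConjDeg
import Fermat.Agent.ES1.InjPlan
import Fermat.Agent.ES1.HMaps
import Fermat.Agent.INJ.DescentLevel

/-!
# ES₁ / INJ₁-DL: descent of `StmtINJH` along `F_H(L) ⊆ F_H(L')`
(fork of `INJ/DescentLevel.lean`)

* `dlh_bar_le_fieldBar` : `F₀(L) ≤ F_H(L)`;
* `dlh_relfinrank` : `StmtRelDegH → [F_H(L ℓ') : F_H(L)] = ℓ' + 1` (`ℓ' ∤ L` prime, `M ∣ L`);
* `stmtINJH_descent_of_le`, `_mul_prime`, `_lcm`, `stmtINJH_descent_three`,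
  `stmtINJH_descent_two`.
-/

set_option autoImplicit false

namespace Fermat.Agent.ES1

open ModularCurve AlgebraicCurve IntermediateField Fermat.Agent.INJ

/-- `F₀(L) ≤ F_H(L)` -/
theorem dlh_bar_le_fieldBar (L M : ℕ) (H : Subgroup (ZMod M)ˣ) :
    modularFunctionFieldBar L ≤ fieldBar L M H := by
  refine es1h_laurentBaseChange_mono _ ?_
  have h := full_le_fieldC ℚ L M H
  rwa [modularFunctionFieldFullC_rat] at h

/-- **the relative degree of `F_H(L ℓ')` over `F_H(L)`** is `ℓ' + 1`. -/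
theorem dlh_relfinrank (hdeg : StmtRelDegH) (L M : ℕ) (H : Subgroup (ZMod M)ˣ) (ℓ' : ℕ)
    (hL : L ≠ 0) (hML : M ∣ L) (hℓ' : ℓ'.Prime) (hℓ'L : ¬ ℓ' ∣ L) :
    (fieldBar L M H).relfinrank (fieldBar (L * ℓ') M H) = ℓ' + 1 := by
  have : NeZero L := ⟨hL⟩
  have : NeZero ℓ' := ⟨hℓ'.ne_zero⟩
  obtain ⟨d, hd0, hd⟩ := hdeg M H
  have h1 := hd L hL hML
  have h2 := hd (L * ℓ') (Nat.mul_ne_zero hL hℓ'.ne_zero) (Dvd.dvd.mul_right hML ℓ')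
  have h0 := Fermat.Agent.ES.G2.hdeg_relfinrank L ℓ' hℓ' hℓ'L
  have t1 := IntermediateField.relfinrank_mul_relfinrank
    (Fermat.Agent.ES.G2.hdeg_bar_le L ℓ') (dlh_bar_le_fieldBar (L * ℓ') M H)
  have t2 := IntermediateField.relfinrank_mul_relfinrank
    (dlh_bar_le_fieldBar L M H) (es1h_fieldBar_mono M H (dvd_mul_right L ℓ'))
  rw [h0, h2] at t1
  rw [h1, ← t1, mul_comm] at t2
  exact Nat.eq_of_mul_eq_mul_right (Nat.pos_of_ne_zero hd0) t2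

/-- **DESCENT-LEVEL**, generic form. -/
theorem stmtINJH_descent_of_le (L L' M : ℕ) (H : Subgroup (ZMod M)ˣ) (ℓ p : ℕ)
    (hle : fieldBar L M H ≤ fieldBar L' M H)
    (hfin : (fieldBar L M H).relfinrank (fieldBar L' M H) ≠ 0)
    (hcop : Nat.Coprime ((fieldBar L M H).relfinrank (fieldBar L' M H)) p)
    (h : StmtINJH L' M H ℓ p) : StmtINJH L M H ℓ p := by
  intro A hA Y₁ Y₂ h₁ h₂ hred hne hpl
  have h₁' : coeffMap A.subtype Y₁ ∈ fieldBar L' M H := hle h₁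
  have h₂' : coeffMap A.subtype Y₂ ∈ fieldBar L' M H := hle h₂
  have hy₂ : coeffMap A.subtype Y₂ ≠ 0 := dl_coeffMap_subtype_ne_zero A hne
  have hy₁ : coeffMap A.subtype Y₁ ≠ 0 := dl_coeffMap_subtype_ne_zero A (by rw [hred]; exact hne)
  obtain ⟨h', hh'⟩ := h A hA Y₁ Y₂ h₁' h₂' hred hne (fun P' => by
    obtain ⟨P, ε, -, hP⟩ := dl_place_restrict hle hfin P'
    rw [hP _ h₁ hy₁, hP _ h₂ hy₂, ← mul_sub]
    exact Dvd.dvd.mul_left (hpl P) ε)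
  have hval : (h' : LaurentSeries (AlgebraicClosure ℚ)) ^ p * coeffMap A.subtype Y₂
      = coeffMap A.subtype Y₁ := by
    have := congrArg Subtype.val hh'
    simpa using this
  have hu : coeffMap A.subtype Y₁ * (coeffMap A.subtype Y₂)⁻¹
      = (h' : LaurentSeries (AlgebraicClosure ℚ)) ^ p := by
    rw [← hval, mul_assoc, mul_inv_cancel₀ hy₂, mul_one]
  obtain ⟨g, hg, hug⟩ := dl_descent_pow hle hfin hcop
    (coeffMap A.subtype Y₁ * (coeffMap A.subtype Y₂)⁻¹) (h' : LaurentSeries (AlgebraicClosure ℚ))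
    (mul_mem h₁ (inv_mem h₂)) h'.2 hu
  refine ⟨⟨g, hg⟩, ?_⟩
  apply Subtype.ext
  show g ^ p * coeffMap A.subtype Y₂ = coeffMap A.subtype Y₁
  rw [← hug, mul_assoc, inv_mul_cancel₀ hy₂, mul_one]

/-- **DESCENT-LEVEL** along `L ∣ L * ℓ'`, `ℓ'` a prime not dividing `L`, `p` prime to `ℓ' + 1`. -/
theorem stmtINJH_descent_mul_prime (hdeg : StmtRelDegH) (L M : ℕ) (H : Subgroup (ZMod M)ˣ)
    (ℓ' ℓ p : ℕ) (hL : L ≠ 0) (hML : M ∣ L) (hℓ' : ℓ'.Prime) (hℓ'L : ¬ ℓ' ∣ L)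
    (hcop : Nat.Coprime (ℓ' + 1) p) (h : StmtINJH (L * ℓ') M H ℓ p) : StmtINJH L M H ℓ p := by
  have hd := dlh_relfinrank hdeg L M H ℓ' hL hML hℓ' hℓ'L
  refine stmtINJH_descent_of_le L (L * ℓ') M H ℓ p
    (es1h_fieldBar_mono M H (dvd_mul_right L ℓ')) ?_ ?_ h
  · rw [hd]; exact Nat.succ_ne_zero ℓ'
  · rw [hd]; exact hcop

/-- **DESCENT-LEVEL** along `L ∣ lcm ℓ' L`, `ℓ'` prime, `p` prime to `ℓ' + 1`. -/
theorem stmtINJH_descent_lcm (hdeg : StmtRelDegH) (L M : ℕ) (H : Subgroup (ZMod M)ˣ)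
    (ℓ' ℓ p : ℕ) (hL : L ≠ 0) (hML : M ∣ L) (hℓ' : ℓ'.Prime)
    (hcop : Nat.Coprime (ℓ' + 1) p) (h : StmtINJH (Nat.lcm ℓ' L) M H ℓ p) :
    StmtINJH L M H ℓ p := by
  by_cases hd : ℓ' ∣ L
  · rwa [Nat.lcm_eq_right hd] at h
  · have hc : Nat.Coprime ℓ' L := (Nat.Prime.coprime_iff_not_dvd hℓ').mpr hd
    rw [hc.lcm_eq_mul, Nat.mul_comm] at h
    exact stmtINJH_descent_mul_prime hdeg L M H ℓ' ℓ p hL hML hℓ' hd hcop h

/-- **DESCENT-LEVEL for `ℓ = 3`**: the auxiliary level `lcm 2 L`. -/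
theorem stmtINJH_descent_three (hdeg : StmtRelDegH) (L M : ℕ) (H : Subgroup (ZMod M)ˣ) (p : ℕ)
    (hL : L ≠ 0) (hML : M ∣ L) (hp : p.Prime) (hp3 : 3 ≠ p)
    (h : StmtINJH (Nat.lcm 2 L) M H 3 p) : StmtINJH L M H 3 p := by
  refine stmtINJH_descent_lcm hdeg L M H 2 3 p hL hML Nat.prime_two ?_ h
  exact (Nat.coprime_primes Nat.prime_three hp).mpr hp3

/-- **DESCENT-LEVEL for `ℓ = 2`**: the auxiliary level `lcm 3 L`. -/
theorem stmtINJH_descent_two (hdeg : StmtRelDegH) (L M : ℕ) (H : Subgroup (ZMod M)ˣ) (p : ℕ)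
    (hL : L ≠ 0) (hML : M ∣ L) (hp : p.Prime) (hp2 : 2 ≠ p)
    (h : StmtINJH (Nat.lcm 3 L) M H 2 p) : StmtINJH L M H 2 p := by
  refine stmtINJH_descent_lcm hdeg L M H 3 2 p hL hML Nat.prime_three ?_ h
  have h2 : Nat.Coprime 2 p := (Nat.coprime_primes Nat.prime_two hp).mpr hp2
  have : (3 + 1 : ℕ) = 2 ^ 2 := by norm_num
  rw [this]
  exact Nat.Coprime.pow_left 2 h2

end Fermat.Agent.ES1
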