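import Mathlib

/-!
# ES₁ — the group `Γ = Γ_H(M) ∩ Γ₀(L)` (definitions + basic lemmas; helper38)

`M`, `L` levels (in the applications `M ∣ L`), `H ≤ (ℤ/M)ˣ`.

* `diamHom M : Γ₀(M) →* (ℤ/M)ˣ`, `γ ↦ γ₀₀ mod M` (the upper left entry; its inverse is `γ₁₁`);
* `gammaH L M H = {γ ∈ Γ₀(L) ∩ Γ₀(M) : γ₀₀ mod M ∈ ±H}` as a subgroup of `SL(2, ℤ)`
  (`H = ⊥`: `±Γ₁(M) ∩ Γ₀(L)`; `H = ⊤`: `Γ₀(L) ∩ Γ₀(M)`).

This is the group of the function field `fieldC ℂ L M H` of `ES1/Defs.lean`: the weight 3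
Eisenstein series `𝕐_a(τ) = Σ_{c ≡ a (M), d} (cτ + d)⁻³` satisfies `𝕐_a ∣ γ = 𝕐_{a γ₀₀}` for
`γ ∈ Γ₀(M)`.
-/

set_option autoImplicit false

namespace Fermat.Agent.ES1

open CongruenceSubgroup Matrix Matrix.SpecialLinearGroup
open scoped MatrixGroups

/-- `γ ↦ γ₀₀ mod M` on `Γ₀(M)`, as a monoid hom to `ZMod M` -/
def diamMap (M : ℕ) : Gamma0 M →* ZMod M where
  toFun g := (((g : SL(2, ℤ)) 0 0 : ℤ) : ZMod M)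
  map_one' := by simp
  map_mul' := by
    rintro ⟨A, _⟩ ⟨B, hB⟩
    have h := (two_mul_expl A.1 B.1).1
    have hB' : ((B 1 0 : ℤ) : ZMod M) = 0 := Gamma0_mem.mp hB
    have : (A * B) 0 0 = A 0 0 * B 0 0 + A 0 1 * B 1 0 := by
      simpa using h
    show (((A * B) 0 0 : ℤ) : ZMod M) = ((A 0 0 : ℤ) : ZMod M) * ((B 0 0 : ℤ) : ZMod M)
    rw [this, Int.cast_add, Int.cast_mul, Int.cast_mul, hB', mul_zero, add_zero]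

@[simp] theorem diamMap_apply (M : ℕ) (g : Gamma0 M) :
    diamMap M g = (((g : SL(2, ℤ)) 0 0 : ℤ) : ZMod M) := rfl

/-- **the diamond character** `Γ₀(M) → (ℤ/M)ˣ`, `γ ↦ γ₀₀ mod M` -/
def diamHom (M : ℕ) : Gamma0 M →* (ZMod M)ˣ := (diamMap M).toHomUnits

@[simp] theorem coe_diamHom (M : ℕ) (g : Gamma0 M) :
    ((diamHom M g : (ZMod M)ˣ) : ZMod M) = (((g : SL(2, ℤ)) 0 0 : ℤ) : ZMod M) := rfl

/-- the lower right entry is the inverse of the upper left one -/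
theorem coe_inv_diamHom (M : ℕ) (g : Gamma0 M) :
    (((diamHom M g)⁻¹ : (ZMod M)ˣ) : ZMod M) = (((g : SL(2, ℤ)) 1 1 : ℤ) : ZMod M) := by
  have hg : (((g : SL(2, ℤ)) 1 0 : ℤ) : ZMod M) = 0 := Gamma0_mem.mp g.2
  have hdet : (g : SL(2, ℤ)) 0 0 * (g : SL(2, ℤ)) 1 1 - (g : SL(2, ℤ)) 0 1 * (g : SL(2, ℤ)) 1 0
      = 1 := by
    have := (g : SL(2, ℤ)).det_coe
    rwa [Matrix.det_fin_two] at this
  have h1 : (((g : SL(2, ℤ)) 0 0 : ℤ) : ZMod M) * (((g : SL(2, ℤ)) 1 1 : ℤ) : ZMod M) = 1 := by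
    have := congrArg (Int.cast : ℤ → ZMod M) hdet
    simpa [hg] using this
  rw [Units.inv_eq_of_mul_eq_one_right]
  rw [coe_diamHom]
  exact h1

/-- `±H` -/
def pmH {M : ℕ} (H : Subgroup (ZMod M)ˣ) : Subgroup (ZMod M)ˣ := H ⊔ Subgroup.zpowers (-1)

theorem le_pmH {M : ℕ} (H : Subgroup (ZMod M)ˣ) : H ≤ pmH H := le_sup_left

theorem neg_one_mem_pmH {M : ℕ} (H : Subgroup (ZMod M)ˣ) : (-1 : (ZMod M)ˣ) ∈ pmH H :=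
  (le_sup_right : Subgroup.zpowers (-1) ≤ pmH H) (Subgroup.mem_zpowers _)

/-- **The group `Γ_H(M) ∩ Γ₀(L)`**, `= {γ ∈ Γ₀(L) ∩ Γ₀(M) : γ₀₀ mod M ∈ ±H}`. -/
def gammaH (L M : ℕ) (H : Subgroup (ZMod M)ˣ) : Subgroup SL(2, ℤ) where
  carrier := {γ | γ ∈ Gamma0 L ∧ ∃ hγ : γ ∈ Gamma0 M, diamHom M ⟨γ, hγ⟩ ∈ pmH H}
  one_mem' := ⟨one_mem _, one_mem _, by
    have : (⟨1, one_mem _⟩ : Gamma0 M) = 1 := rfl
    rw [this, map_one]; exact one_mem _⟩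
  mul_mem' := by
    rintro a b ⟨haL, haM, ha⟩ ⟨hbL, hbM, hb⟩
    refine ⟨mul_mem haL hbL, mul_mem haM hbM, ?_⟩
    have : (⟨a * b, mul_mem haM hbM⟩ : Gamma0 M) = ⟨a, haM⟩ * ⟨b, hbM⟩ := rfl
    rw [this, map_mul]; exact mul_mem ha hb
  inv_mem' := by
    rintro a ⟨haL, haM, ha⟩
    refine ⟨inv_mem haL, inv_mem haM, ?_⟩
    have : (⟨a⁻¹, inv_mem haM⟩ : Gamma0 M) = (⟨a, haM⟩ : Gamma0 M)⁻¹ := rfl
    rw [this, map_inv]; exact inv_mem ha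

theorem mem_gammaH {L M : ℕ} {H : Subgroup (ZMod M)ˣ} {γ : SL(2, ℤ)} :
    γ ∈ gammaH L M H ↔ γ ∈ Gamma0 L ∧ ∃ hγ : γ ∈ Gamma0 M, diamHom M ⟨γ, hγ⟩ ∈ pmH H := Iff.rfl

theorem gammaH_le_gamma0 (L M : ℕ) (H : Subgroup (ZMod M)ˣ) : gammaH L M H ≤ Gamma0 L :=
  fun _ h => h.1

theorem gammaH_le_gamma0' (L M : ℕ) (H : Subgroup (ZMod M)ˣ) : gammaH L M H ≤ Gamma0 M :=
  fun _ h => h.2.1

theorem gammaH_mono_level {L L' : ℕ} (h : L ∣ L') (M : ℕ) (H : Subgroup (ZMod M)ˣ) :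
    gammaH L' M H ≤ gammaH L M H := by
  rintro γ ⟨hL, hM, hH⟩
  refine ⟨?_, hM, hH⟩
  rw [Gamma0_mem] at hL ⊢
  rw [ZMod.intCast_zmod_eq_zero_iff_dvd] at hL ⊢
  exact (Int.natCast_dvd_natCast.mpr h).trans hL

theorem gammaH_mono {L M : ℕ} {H H' : Subgroup (ZMod M)ˣ} (h : H ≤ H') :
    gammaH L M H ≤ gammaH L M H' := by
  rintro γ ⟨hL, hM, hH⟩
  exact ⟨hL, hM, (sup_le_sup_right h _ : pmH H ≤ pmH H') hH⟩

/-- `H = ⊤` gives `Γ₀(L) ∩ Γ₀(M)` -/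
theorem gammaH_top (L M : ℕ) : gammaH L M ⊤ = Gamma0 L ⊓ Gamma0 M := by
  ext γ
  constructor
  · rintro ⟨hL, hM, -⟩; exact ⟨hL, hM⟩
  · rintro ⟨hL, hM⟩; exact ⟨hL, hM, le_pmH ⊤ (Subgroup.mem_top _)⟩

theorem gammaH_top_of_dvd {L M : ℕ} (h : M ∣ L) : gammaH L M ⊤ = Gamma0 L := by
  rw [gammaH_top]
  refine inf_eq_left.mpr fun γ hγ => ?_
  rw [Gamma0_mem] at hγ ⊢
  rw [ZMod.intCast_zmod_eq_zero_iff_dvd] at hγ ⊢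
  exact (Int.natCast_dvd_natCast.mpr h).trans hγ

/-- `T ∈ Γ` : the expansions at `∞` are in `q`. -/
theorem T_mem_gammaH (L M : ℕ) (H : Subgroup (ZMod M)ˣ) : ModularGroup.T ∈ gammaH L M H := by
  have hT0 : ∀ N : ℕ, ModularGroup.T ∈ Gamma0 N := fun N => by
    rw [Gamma0_mem]; simp [ModularGroup.T]
  refine ⟨hT0 L, hT0 M, ?_⟩
  have : diamHom M ⟨ModularGroup.T, hT0 M⟩ = 1 := by
    ext
    rw [coe_diamHom]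
    simp [ModularGroup.T]
  rw [this]; exact one_mem _

theorem neg_one_mem_gammaH (L M : ℕ) (H : Subgroup (ZMod M)ˣ) :
    (-1 : SL(2, ℤ)) ∈ gammaH L M H := by
  have h0 : ∀ N : ℕ, (-1 : SL(2, ℤ)) ∈ Gamma0 N := fun N => by
    rw [Gamma0_mem]; simp
  refine ⟨h0 L, h0 M, ?_⟩
  have : diamHom M ⟨-1, h0 M⟩ = -1 := by
    ext
    rw [coe_diamHom]
    simp
  rw [this]; exact neg_one_mem_pmH H

/-- `Γ₁(M) ∩ Γ₀(L) ≤ Γ` -/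
theorem gamma1_inf_gamma0_le (L M : ℕ) (H : Subgroup (ZMod M)ˣ) :
    Gamma1 M ⊓ Gamma0 L ≤ gammaH L M H := by
  rintro γ ⟨h1, hL⟩
  have h1' := (Gamma1_mem M γ).mp h1
  have hM : γ ∈ Gamma0 M := Gamma0_mem.mpr h1'.2.2
  refine ⟨hL, hM, ?_⟩
  have : diamHom M ⟨γ, hM⟩ = 1 := by
    ext
    rw [coe_diamHom]
    simpa using h1'.1
  rw [this]; exact one_mem _

/-- `Γ` is normalised by `Γ₀(L) ∩ Γ₀(M)` (the quotient is abelian). -/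
theorem conj_mem_gammaH {L M : ℕ} {H : Subgroup (ZMod M)ˣ} {g γ : SL(2, ℤ)}
    (hgL : g ∈ Gamma0 L) (hgM : g ∈ Gamma0 M) (hγ : γ ∈ gammaH L M H) :
    g * γ * g⁻¹ ∈ gammaH L M H := by
  obtain ⟨hL, hM, hH⟩ := hγ
  refine ⟨mul_mem (mul_mem hgL hL) (inv_mem hgL), mul_mem (mul_mem hgM hM) (inv_mem hgM), ?_⟩
  have : (⟨g * γ * g⁻¹, mul_mem (mul_mem hgM hM) (inv_mem hgM)⟩ : Gamma0 M)
      = ⟨g, hgM⟩ * ⟨γ, hM⟩ * (⟨g, hgM⟩ : Gamma0 M)⁻¹ := rfl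
  rw [this, map_mul, map_mul, map_inv, mul_comm, inv_mul_cancel_left]
  exact hH

/-- the value of the diamond character on `Γ`, for `γ ∈ Γ₀(L) ∩ Γ₀(M)` -/
def diamOf (M : ℕ) (γ : SL(2, ℤ)) (hγ : γ ∈ Gamma0 M) : (ZMod M)ˣ := diamHom M ⟨γ, hγ⟩

end Fermat.Agent.ES1
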