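/-
ES₁ / G1, piece A3 for a GENERIC group `Γ ≤ SL(2, ℤ)` (port of helper83's `ES/EisChar.lean`).

`IsEisLevel Γ` : `-1 ∈ Γ` and, for some `N > 0` (`eisPeriod Γ`), `δ T^n δ⁻¹ ∈ Γ` for all
`δ ∈ SL(2,ℤ)` and `N ∣ n`  (true for every `Γ ⊇ Γ(N)` containing `-1`: `isEisLevel_of_Gamma_le`;
instances for `Γ₀(M)` and `gammaH L M H`).

For a character `χ : Γ → ℂˣ` of absolute value one which is trivial on parabolic elements
(`tr² = 4`), the series `eisCharG χ k z = ∑_{(c,d)} χ(γ_{c,d})⁻¹ (c z + d)^{-k}` (sum over the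
bottom rows of elements of `Γ`) is holomorphic on `ℍ`, satisfies
`eisCharG χ k ∣[k] γ = χ γ • eisCharG χ k` for `γ ∈ Γ`, all its `SL(2,ℤ)`-translates are bounded
at `i∞`, and it tends to `2` at `i∞` (for even `k ≥ 4`).
-/
import Fermat.Agent.ES.EisChar
import Fermat.Agent.ES1.Group

set_option autoImplicit false
set_option linter.unusedSectionVars false

open EisensteinSeries UpperHalfPlane ModularForm CongruenceSubgroup Matrix Filter Topology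
open scoped MatrixGroups Manifold

noncomputable section

namespace Fermat.Agent.ES1

open Fermat.Agent.ES

/-- `Γ` contains `-1` and, for some period `N > 0`, all `δ T^n δ⁻¹` with `N ∣ n`. -/
class IsEisLevel (Γ : Subgroup SL(2, ℤ)) : Prop where
  neg_one_mem : (-1 : SL(2, ℤ)) ∈ Γ
  exists_period : ∃ N : ℕ, 0 < N ∧
    ∀ (δ : SL(2, ℤ)) (n : ℤ), (N : ℤ) ∣ n → δ * ModularGroup.T ^ n * δ⁻¹ ∈ Γ

/-- a period of `Γ` -/
def eisPeriod (Γ : Subgroup SL(2, ℤ)) [IsEisLevel Γ] : ℕ :=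
  (IsEisLevel.exists_period (Γ := Γ)).choose

theorem eisPeriod_pos (Γ : Subgroup SL(2, ℤ)) [IsEisLevel Γ] : 0 < eisPeriod Γ :=
  (IsEisLevel.exists_period (Γ := Γ)).choose_spec.1

instance eisPeriod_neZero (Γ : Subgroup SL(2, ℤ)) [IsEisLevel Γ] : NeZero (eisPeriod Γ) :=
  ⟨(eisPeriod_pos Γ).ne'⟩

theorem eis_conj_T_zpow_memG {Γ : Subgroup SL(2, ℤ)} [IsEisLevel Γ] (δ : SL(2, ℤ)) (n : ℤ)
    (hn : (eisPeriod Γ : ℤ) ∣ n) : δ * ModularGroup.T ^ n * δ⁻¹ ∈ Γ :=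
  (IsEisLevel.exists_period (Γ := Γ)).choose_spec.2 δ n hn

theorem eis_neg_one_memG {Γ : Subgroup SL(2, ℤ)} [IsEisLevel Γ] : (-1 : SL(2, ℤ)) ∈ Γ :=
  IsEisLevel.neg_one_mem

/-- every `Γ ⊇ Γ(N)` (`N > 0`) containing `-1` is an Eisenstein level -/
theorem isEisLevel_of_Gamma_le {Γ : Subgroup SL(2, ℤ)} {N : ℕ} (hN : 0 < N) (h : Gamma N ≤ Γ)
    (h1 : (-1 : SL(2, ℤ)) ∈ Γ) : IsEisLevel Γ := by
  refine ⟨h1, N, hN, fun δ n hn => h ?_⟩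
  have h1 : ModularGroup.T ^ n ∈ Gamma N := by
    have := ModularGroup_T_pow_mem_Gamma (N : ℤ) n hn
    simpa using this
  exact (Gamma_normal N).conj_mem _ h1 δ

instance isEisLevel_gamma0 (M : ℕ) [NeZero M] : IsEisLevel (Gamma0 M) := by
  refine isEisLevel_of_Gamma_le (Nat.pos_of_ne_zero (NeZero.ne M)) (fun γ hγ => ?_)
    Fermat.Agent.ES.eis_neg_one_mem_Gamma0
  rw [Gamma_mem] at hγ
  rw [Gamma0_mem]
  exact hγ.2.2.1

theorem eis_intCast_eq_one_of_dvd {N M : ℕ} (h : M ∣ N) {a : ℤ} (ha : ((a : ℤ) : ZMod N) = 1) :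
    ((a : ℤ) : ZMod M) = 1 := by
  have h1 : ((a : ℤ) : ZMod N) = ((1 : ℤ) : ZMod N) := by rw [ha, Int.cast_one]
  rw [ZMod.intCast_eq_intCast_iff_dvd_sub] at h1
  have h2 : ((a : ℤ) : ZMod M) = ((1 : ℤ) : ZMod M) := by
    rw [ZMod.intCast_eq_intCast_iff_dvd_sub]
    exact (Int.natCast_dvd_natCast.mpr h).trans h1
  rw [h2, Int.cast_one]

theorem eis_intCast_eq_zero_of_dvd {N M : ℕ} (h : M ∣ N) {a : ℤ} (ha : ((a : ℤ) : ZMod N) = 0) :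
    ((a : ℤ) : ZMod M) = 0 := by
  rw [ZMod.intCast_zmod_eq_zero_iff_dvd] at ha ⊢
  exact (Int.natCast_dvd_natCast.mpr h).trans ha

/-- `Γ(L M) ≤ Γ_H(M) ∩ Γ₀(L)` -/
theorem gamma_le_gammaH (L M : ℕ) (H : Subgroup (ZMod M)ˣ) : Gamma (L * M) ≤ gammaH L M H := by
  intro γ hγ
  rw [Gamma_mem] at hγ
  apply gamma1_inf_gamma0_le
  have h1 : γ ∈ Gamma1 M := by
    rw [Gamma1_mem]
    exact ⟨eis_intCast_eq_one_of_dvd (Dvd.intro_left L rfl) hγ.1,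
      eis_intCast_eq_one_of_dvd (Dvd.intro_left L rfl) hγ.2.2.2,
      eis_intCast_eq_zero_of_dvd (Dvd.intro_left L rfl) hγ.2.2.1⟩
  have h2 : γ ∈ Gamma0 L := by
    rw [Gamma0_mem]
    exact eis_intCast_eq_zero_of_dvd (Dvd.intro M rfl) hγ.2.2.1
  exact ⟨h1, h2⟩

instance isEisLevel_gammaH (L M : ℕ) [NeZero L] [NeZero M] (H : Subgroup (ZMod M)ˣ) :
    IsEisLevel (gammaH L M H) :=
  isEisLevel_of_Gamma_le (Nat.pos_of_ne_zero (mul_ne_zero (NeZero.ne L) (NeZero.ne M)))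
    (gamma_le_gammaH L M H) (neg_one_mem_gammaH L M H)

instance finiteIndex_gammaH (L M : ℕ) [NeZero L] [NeZero M] (H : Subgroup (ZMod M)ˣ) :
    (gammaH L M H).FiniteIndex := by
  have : NeZero (L * M) := ⟨mul_ne_zero (NeZero.ne L) (NeZero.ne M)⟩
  exact Subgroup.finiteIndex_of_le (gamma_le_gammaH L M H)

variable {Γ : Subgroup SL(2, ℤ)}

open scoped Classical in
/-- The coefficient function of the Eisenstein series with character. -/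
def kapG (χ : Γ →* ℂˣ) (v : Fin 2 → ℤ) : ℂ :=
  if h : ∃ γ : Γ, brow γ = v then (((χ h.choose)⁻¹ : ℂˣ) : ℂ) else 0

variable (χ : Γ →* ℂˣ)

lemma kap_eqG (hpar : ∀ γ : Γ, IsPar γ → χ γ = 1) (γ : Γ) :
    kapG χ (brow γ) = (((χ γ)⁻¹ : ℂˣ) : ℂ) := by
  have h : ∃ γ' : Γ, brow γ' = brow γ := ⟨γ, rfl⟩
  unfold kapG
  rw [dif_pos h]
  have h1 : IsPar ((h.choose * γ⁻¹ : Γ) : SL(2, ℤ)) := by
    have := isPar_mul_inv_of_brow_eq h.choose_spec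
    simpa using this
  have h2 := hpar _ h1
  rw [map_mul, map_inv, mul_inv_eq_one] at h2
  rw [h2]

lemma kap_of_not_existsG {v : Fin 2 → ℤ} (h : ¬ ∃ γ : Γ, brow γ = v) : kapG χ v = 0 := by
  unfold kapG
  rw [dif_neg h]

lemma norm_kap_leG (hχ : ∀ γ : Γ, ‖((χ γ : ℂˣ) : ℂ)‖ = 1) (v : Fin 2 → ℤ) :
    ‖kapG χ v‖ ≤ 1 := by
  unfold kapG
  split_ifs with h
  · rw [Units.val_inv_eq_inv_val, norm_inv, hχ, inv_one]
  · simp

lemma kap_vecMulG (hpar : ∀ γ : Γ, IsPar γ → χ γ = 1) (γ : Γ) (v : Fin 2 → ℤ) :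
    kapG χ (v ᵥ* ((γ : SL(2, ℤ)) : Matrix (Fin 2) (Fin 2) ℤ)) = kapG χ v * (((χ γ)⁻¹ : ℂˣ) : ℂ) := by
  by_cases h : ∃ γ' : Γ, brow γ' = v
  · obtain ⟨γ', rfl⟩ := h
    have : brow γ' ᵥ* ((γ : SL(2, ℤ)) : Matrix (Fin 2) (Fin 2) ℤ) = brow ((γ' * γ : Γ)) := by
      rw [Subgroup.coe_mul, brow_mul]
    rw [this, kap_eqG χ hpar, kap_eqG χ hpar, map_mul, mul_inv, Units.val_mul]
  · have h' : ¬ ∃ γ' : Γ,
        brow γ' = v ᵥ* ((γ : SL(2, ℤ)) : Matrix (Fin 2) (Fin 2) ℤ) := by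
      rintro ⟨γ', hγ'⟩
      apply h
      refine ⟨γ' * γ⁻¹, ?_⟩
      rw [Subgroup.coe_mul, brow_mul, hγ', Subgroup.coe_inv, vecMul_vecMul, eis_coe_mul_coe_inv,
        vecMul_one]
    rw [kap_of_not_existsG χ h, kap_of_not_existsG χ h', zero_mul]

/-! ### The series -/

/-- The Eisenstein series of weight `k` with character `χ` on `Γ`. -/
def eisCharG (χ : Γ →* ℂˣ) (k : ℤ) : ℍ → ℂ := eisC (kapG χ) k

variable {k : ℤ}

/-- `eisCharG χ k` is holomorphic. -/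
theorem eisChar_mdiffG (hχ : ∀ γ : Γ, ‖((χ γ : ℂˣ) : ℂ)‖ = 1) (hk : 3 ≤ k) :
    MDiff (eisCharG χ k) :=
  eisC_mdiff (norm_kap_leG χ hχ) hk

/-- The automorphy of `eisCharG χ k` under `Γ`. -/
theorem eisChar_slashG (hpar : ∀ γ : Γ, IsPar γ → χ γ = 1) (γ : Γ) :
    eisCharG χ k ∣[k] (γ : SL(2, ℤ)) = ((χ γ : ℂˣ) : ℂ) • eisCharG χ k := by
  unfold eisCharG
  rw [eisC_slash, ← eisC_const_mul]
  congr 1
  funext v
  have := kap_vecMulG χ hpar γ⁻¹ v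
  rw [Subgroup.coe_inv] at this
  rw [this, map_inv, inv_inv, mul_comm]

/-- The coefficient function of a translate is invariant under `T^n` whenever
`δ T^n δ⁻¹ ∈ Γ`. -/
lemma kap_translate_periodicG' (hpar : ∀ γ : Γ, IsPar γ → χ γ = 1) (δ : SL(2, ℤ))
    (n : ℤ) (hn : δ * ModularGroup.T ^ n * δ⁻¹ ∈ Γ) (v : Fin 2 → ℤ) :
    kapG χ ((v ᵥ* (((ModularGroup.T ^ n)⁻¹ : SL(2, ℤ)) : Matrix (Fin 2) (Fin 2) ℤ)) ᵥ*
        ((δ⁻¹ : SL(2, ℤ)) : Matrix (Fin 2) (Fin 2) ℤ))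
      = kapG χ (v ᵥ* ((δ⁻¹ : SL(2, ℤ)) : Matrix (Fin 2) (Fin 2) ℤ)) := by
  have hmem : δ * ModularGroup.T ^ (-n) * δ⁻¹ ∈ Γ := by
    have := (Γ).inv_mem hn
    have e : (δ * ModularGroup.T ^ n * δ⁻¹)⁻¹ = δ * ModularGroup.T ^ (-n) * δ⁻¹ := by
      rw [_root_.zpow_neg]
      group
    rwa [e] at this
  have hγpar : IsPar (δ * ModularGroup.T ^ (-n) * δ⁻¹) := isPar_conj_T_zpow δ _
  have h1 := kap_vecMulG χ hpar ⟨_, hmem⟩
    (v ᵥ* ((δ⁻¹ : SL(2, ℤ)) : Matrix (Fin 2) (Fin 2) ℤ))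
  rw [hpar ⟨_, hmem⟩ hγpar, inv_one, Units.val_one, mul_one] at h1
  rw [← h1]
  have key : ((ModularGroup.T ^ n)⁻¹ * δ⁻¹ : SL(2, ℤ))
      = δ⁻¹ * (δ * ModularGroup.T ^ (-n) * δ⁻¹) := by
    rw [_root_.zpow_neg]
    group
  rw [vecMul_vecMul, vecMul_vecMul, eis_coe_mul_coe, eis_coe_mul_coe, key]

variable [IsEisLevel Γ]

/-- The coefficient function of a translate is invariant under `T^N`. -/
lemma kap_translate_periodicG (hpar : ∀ γ : Γ, IsPar γ → χ γ = 1) (δ : SL(2, ℤ))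
    (v : Fin 2 → ℤ) :
    kapG χ ((v ᵥ* (((ModularGroup.T ^ (eisPeriod Γ : ℤ))⁻¹ : SL(2, ℤ)) : Matrix (Fin 2) (Fin 2) ℤ)) ᵥ*
        ((δ⁻¹ : SL(2, ℤ)) : Matrix (Fin 2) (Fin 2) ℤ))
      = kapG χ (v ᵥ* ((δ⁻¹ : SL(2, ℤ)) : Matrix (Fin 2) (Fin 2) ℤ)) :=
  kap_translate_periodicG' χ hpar δ (eisPeriod Γ : ℤ) (eis_conj_T_zpow_memG δ _ dvd_rfl) v

/-- A translate of `eisCharG χ k` by `δ ∈ SL(2,ℤ)` is `n`-periodic whenever `δ T^n δ⁻¹ ∈ Γ`. -/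
theorem eisChar_slash_periodicG' (hpar : ∀ γ : Γ, IsPar γ → χ γ = 1) (δ : SL(2, ℤ))
    (n : ℤ) (hn : δ * ModularGroup.T ^ n * δ⁻¹ ∈ Γ) (z : ℍ) :
    (eisCharG χ k ∣[k] δ) ((n : ℝ) +ᵥ z) = (eisCharG χ k ∣[k] δ) z := by
  have h := eis_slash_T_zpow_apply (eisCharG χ k ∣[k] δ) k n z
  rw [← h]
  unfold eisCharG
  rw [eisC_slash, eisC_slash]
  congr 2
  funext v
  exact kap_translate_periodicG' χ hpar δ n hn v

/-- Every `SL(2,ℤ)`-translate of `eisCharG χ k` is `N`-periodic. -/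
theorem eisChar_slash_periodicG (hpar : ∀ γ : Γ, IsPar γ → χ γ = 1) (δ : SL(2, ℤ))
    (z : ℍ) : (eisCharG χ k ∣[k] δ) ((eisPeriod Γ : ℝ) +ᵥ z) = (eisCharG χ k ∣[k] δ) z := by
  have h := eisChar_slash_periodicG' (k := k) χ hpar δ (eisPeriod Γ : ℤ)
    (eis_conj_T_zpow_memG δ _ dvd_rfl) z
  rwa [show ((eisPeriod Γ : ℤ) : ℝ) = (eisPeriod Γ : ℝ) by simp] at h

/-- Every `SL(2,ℤ)`-translate of `eisCharG χ k` is bounded at `i∞`. -/
theorem eisChar_slash_isBoundedAtImInftyG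
    (hχ : ∀ γ : Γ, ‖((χ γ : ℂˣ) : ℂ)‖ = 1)
    (hpar : ∀ γ : Γ, IsPar γ → χ γ = 1) (hk : 3 ≤ k) (δ : SL(2, ℤ)) :
    IsBoundedAtImInfty (eisCharG χ k ∣[k] δ) := by
  have hper := eisChar_slash_periodicG (k := k) χ hpar δ
  unfold eisCharG at hper ⊢
  rw [eisC_slash] at hper ⊢
  exact eisC_isBoundedAtImInfty (C := 1) (fun v => norm_kap_leG χ hχ _) hk
    (eisPeriod_pos Γ) hper

lemma eisChar_periodicG (hpar : ∀ γ : Γ, IsPar γ → χ γ = 1) (z : ℍ) :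
    eisCharG χ k ((eisPeriod Γ : ℝ) +ᵥ z) = eisCharG χ k z := by
  have := eisChar_slash_periodicG (k := k) χ hpar 1 z
  simpa using this

/-! ### The limit at `i∞` -/

lemma kap_zero_oneG (hpar : ∀ γ : Γ, IsPar γ → χ γ = 1) : kapG χ ![0, 1] = 1 := by
  have := kap_eqG χ hpar 1
  rw [map_one, inv_one, Units.val_one] at this
  rw [← this]
  congr 1
  exact brow_one.symm

lemma kap_zero_neg_oneG (hpar : ∀ γ : Γ, IsPar γ → χ γ = 1) : kapG χ ![0, -1] = 1 := by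
  have := kap_eqG χ hpar ⟨-1, eis_neg_one_memG⟩
  rw [hpar ⟨-1, eis_neg_one_memG⟩ isPar_neg_one, inv_one, Units.val_one] at this
  rw [← this]
  congr 1
  exact brow_neg_one.symm

lemma kap_eq_zero_of_neG {v : Fin 2 → ℤ} (h0 : v 0 = 0) (h1 : v ≠ ![0, 1]) (h2 : v ≠ ![0, -1]) :
    kapG χ v = 0 := by
  apply kap_of_not_existsG
  rintro ⟨γ, hγ⟩
  have hcop := ModularGroup.bottom_row_coprime (γ : SL(2, ℤ))
  have e0 : ((γ : SL(2, ℤ)) : Matrix (Fin 2) (Fin 2) ℤ) 1 0 = v 0 := congrFun hγ 0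
  have e1 : ((γ : SL(2, ℤ)) : Matrix (Fin 2) (Fin 2) ℤ) 1 1 = v 1 := congrFun hγ 1
  rw [e0, e1, h0, isCoprime_zero_left, Int.isUnit_iff] at hcop
  rcases hcop with h | h
  · apply h1
    funext i
    fin_cases i <;> simp [h0, h]
  · apply h2
    funext i
    fin_cases i <;> simp [h0, h]

lemma tsum_kap_eq_twoG (hpar : ∀ γ : Γ, IsPar γ → χ γ = 1) (hk2 : Even k) :
    (∑' v : Fin 2 → ℤ, kapG χ v * (if v 0 = 0 then ((v 1 : ℂ)) ^ (-k) else 0)) = 2 := by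
  classical
  have hne : (![0, 1] : Fin 2 → ℤ) ≠ ![0, -1] := by
    intro h
    have := congrFun h 1
    simp at this
  rw [tsum_eq_sum (s := {![0, 1], ![0, -1]})]
  · rw [Finset.sum_pair hne, kap_zero_oneG χ hpar, kap_zero_neg_oneG χ hpar]
    have h1 : ((-1 : ℂ)) ^ (-k) = 1 := by
      rw [_root_.zpow_neg, Even.neg_one_zpow hk2, inv_one]
    simp [h1]
    norm_num
  · intro v hv
    simp only [Finset.mem_insert, Finset.mem_singleton, not_or] at hv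
    by_cases h0 : v 0 = 0
    · rw [kap_eq_zero_of_neG χ h0 hv.1 hv.2, zero_mul]
    · rw [if_neg h0, mul_zero]

/-- `eisCharG χ k` tends to `2` at `i∞` (even weight `k ≥ 4`). -/
theorem eisChar_tendstoG (hχ : ∀ γ : Γ, ‖((χ γ : ℂˣ) : ℂ)‖ = 1)
    (hpar : ∀ γ : Γ, IsPar γ → χ γ = 1) (hk : 3 ≤ k) (hk2 : Even k) :
    Tendsto (eisCharG χ k) atImInfty (𝓝 2) := by
  have h := eisC_tendsto_atImInfty (norm_kap_leG χ hχ) hk (eisPeriod_pos Γ)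
    (eisChar_periodicG (k := k) χ hpar)
  rw [tsum_kap_eq_twoG χ hpar hk2] at h
  exact h

/-- `eisCharG χ k` is not identically zero. -/
theorem eisChar_ne_zeroG (hχ : ∀ γ : Γ, ‖((χ γ : ℂˣ) : ℂ)‖ = 1)
    (hpar : ∀ γ : Γ, IsPar γ → χ γ = 1) (hk : 3 ≤ k) (hk2 : Even k) :
    ∃ z : ℍ, eisCharG χ k z ≠ 0 := by
  by_contra hne
  push Not at hne
  have h0 : Tendsto (eisCharG χ k) atImInfty (𝓝 0) := by
    have : eisCharG χ k = fun _ => 0 := funext hne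
    rw [this]
    exact tendsto_const_nhds
  have := tendsto_nhds_unique (eisChar_tendstoG χ hχ hpar hk hk2) h0
  norm_num at this

/-! ### Powers: genuine modular forms on `Γ` -/

/-- If `χ ^ n = 1`, the `n`-th power of `eisCharG χ k` is a modular form of weight `n k` on
`Γ`. -/
def eisCharPowG [Γ.FiniteIndex] (hχ : ∀ γ : Γ, ‖((χ γ : ℂˣ) : ℂ)‖ = 1)
    (hpar : ∀ γ : Γ, IsPar γ → χ γ = 1) (hk : 3 ≤ k) (n : ℕ)
    (hn : ∀ γ : Γ, χ γ ^ n = 1) :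
    ModularForm ((Γ).map (Matrix.SpecialLinearGroup.mapGL ℝ)) ((n : ℤ) * k) where
  toFun := eisCharG χ k ^ n
  slash_action_eq' := by
    rintro _ ⟨γ, hγ, rfl⟩
    change (eisCharG χ k ^ n) ∣[(n : ℤ) * k] γ = _
    rw [eis_pow_slash, eisChar_slashG χ hpar ⟨γ, hγ⟩, smul_pow, ← Units.val_pow_eq_pow_val,
      hn ⟨γ, hγ⟩, Units.val_one, one_smul]
  holo' := by
    have h := eisChar_mdiffG χ hχ hk
    have : MDiff (fun z => eisCharG χ k z ^ n) := h.pow n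
    exact this
  bdd_at_cusps' := by
    intro c hc
    rw [Subgroup.IsArithmetic.isCusp_iff_isCusp_SL2Z] at hc
    rw [OnePoint.isBoundedAt_iff_forall_SL2Z hc]
    intro δ _
    rw [eis_pow_slash]
    have hb := eisChar_slash_isBoundedAtImInftyG χ hχ hpar hk δ
    have key : ∀ m : ℕ, IsBoundedAtImInfty ((eisCharG χ k ∣[k] δ) ^ m) := by
      intro m
      induction m with
      | zero =>
        simp only [pow_zero]
        exact Filter.const_boundedAtFilter _ (1 : ℂ)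
      | succ m ih =>
        rw [pow_succ]
        exact ih.mul hb
    exact key n

@[simp] lemma eisCharPow_applyG [Γ.FiniteIndex] (hχ : ∀ γ : Γ, ‖((χ γ : ℂˣ) : ℂ)‖ = 1)
    (hpar : ∀ γ : Γ, IsPar γ → χ γ = 1) (hk : 3 ≤ k) (n : ℕ)
    (hn : ∀ γ : Γ, χ γ ^ n = 1) (z : ℍ) :
    eisCharPowG χ hχ hpar hk n hn z = eisCharG χ k z ^ n := rfl

end Fermat.Agent.ES1
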