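/-
ES₁ / G1, piece A3 for a GENERIC `Γ` (port of helper83's ES₀ file): the `χ`-automorphic function `hChiG χ = eisCharG χ 12 / Δ`.

`hChiG χ` is holomorphic on `ℍ`, not identically zero, `hChiG χ (γ • z) = χ γ * hChiG χ z` for
`γ ∈ Γ`; for every `δ ∈ SL(2,ℤ)`: `hChiG χ (δ • z) = (eisCharG χ 12 ∣[12] δ) z / Δ z`, where the
numerator is holomorphic, bounded at `i∞`, and `n`-periodic whenever `δ T^n δ⁻¹ ∈ Γ`.
-/
import Fermat.Agent.ES.EisCharFun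
import Fermat.Agent.ES1.EisCharG

set_option autoImplicit false
set_option linter.unusedSectionVars false

open EisensteinSeries UpperHalfPlane ModularForm CongruenceSubgroup Matrix Filter Topology
open scoped MatrixGroups Manifold

noncomputable section

namespace Fermat.Agent.ES1

open Fermat.Agent.ES

variable {Γ : Subgroup SL(2, ℤ)} [IsEisLevel Γ] (χ : Γ →* ℂˣ)

local notation "Δ" => ModularForm.discriminant

/-- The `χ`-automorphic function `E₁₂^χ / Δ`. -/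
def hChiG (χ : Γ →* ℂˣ) (z : ℍ) : ℂ := eisCharG χ 12 z / Δ z

lemma hChi_applyG (z : ℍ) : hChiG χ z = eisCharG χ 12 z / Δ z := rfl

theorem hChi_mdiffG (hχ : ∀ γ : Γ, ‖((χ γ : ℂˣ) : ℂ)‖ = 1) : MDiff (hChiG χ) :=
  (eisChar_mdiffG χ hχ (by norm_num)).div eis_discriminant_mdiff discriminant_ne_zero

/-- The translates of `hChiG χ`. -/
theorem hChi_smul_SLG (δ : SL(2, ℤ)) (z : ℍ) :
    hChiG χ (δ • z) = (eisCharG χ 12 ∣[(12 : ℤ)] δ) z / Δ z := by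
  have hd : denom δ z ^ 12 ≠ 0 := pow_ne_zero _ (denom_ne_zero _ z)
  have hΔ : Δ z ≠ 0 := discriminant_ne_zero z
  have h5 : denom δ z ^ (-(12 : ℤ)) = (denom δ z ^ 12)⁻¹ := by
    rw [_root_.zpow_neg]
    norm_cast
  rw [hChi_applyG, eis_discriminant_smul, SL_slash_apply, h5]
  field_simp

/-- The automorphy of `hChiG χ`. -/
theorem hChi_smulG (hpar : ∀ γ : Γ, IsPar γ → χ γ = 1) (γ : Γ) (z : ℍ) :
    hChiG χ ((γ : SL(2, ℤ)) • z) = ((χ γ : ℂˣ) : ℂ) * hChiG χ z := by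
  rw [hChi_smul_SLG, eisChar_slashG χ hpar γ, hChi_applyG, Pi.smul_apply, smul_eq_mul, mul_div_assoc]

/-- `hChiG χ ^ n` is `Γ`-invariant if `χ ^ n = 1`. -/
theorem hChi_pow_smulG (hpar : ∀ γ : Γ, IsPar γ → χ γ = 1) (n : ℕ)
    (hn : ∀ γ : Γ, χ γ ^ n = 1) (γ : Γ) (z : ℍ) :
    hChiG χ ((γ : SL(2, ℤ)) • z) ^ n = hChiG χ z ^ n := by
  rw [hChi_smulG χ hpar, mul_pow, ← Units.val_pow_eq_pow_val, hn, Units.val_one, one_mul]

/-- `hChiG χ · Δ` tends to `2` at `i∞`; in particular `hChiG χ` has a simple pole at `i∞`. -/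
theorem hChi_mul_discriminant_tendstoG (hχ : ∀ γ : Γ, ‖((χ γ : ℂˣ) : ℂ)‖ = 1)
    (hpar : ∀ γ : Γ, IsPar γ → χ γ = 1) :
    Tendsto (fun z => hChiG χ z * Δ z) atImInfty (𝓝 2) := by
  have h := eisChar_tendstoG (k := 12) χ hχ hpar (by norm_num) ⟨6, by norm_num⟩
  refine h.congr fun z => ?_
  rw [hChi_applyG, div_mul_cancel₀ _ (discriminant_ne_zero z)]

theorem hChi_ne_zeroG (hχ : ∀ γ : Γ, ‖((χ γ : ℂˣ) : ℂ)‖ = 1)
    (hpar : ∀ γ : Γ, IsPar γ → χ γ = 1) : ∃ z : ℍ, hChiG χ z ≠ 0 := by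
  obtain ⟨z, hz⟩ := eisChar_ne_zeroG (k := 12) χ hχ hpar (by norm_num) ⟨6, by norm_num⟩
  exact ⟨z, div_ne_zero hz (discriminant_ne_zero z)⟩

/-- At every cusp: `z ↦ hChiG χ (δ • z) · Δ z` is holomorphic, bounded at `i∞` and `n`-periodic
whenever `δ T^n δ⁻¹ ∈ Γ`. -/
theorem hChi_cuspG (hχ : ∀ γ : Γ, ‖((χ γ : ℂˣ) : ℂ)‖ = 1)
    (hpar : ∀ γ : Γ, IsPar γ → χ γ = 1) (δ : SL(2, ℤ)) :
    MDiff (fun z => hChiG χ (δ • z) * Δ z) ∧
    IsBoundedAtImInfty (fun z => hChiG χ (δ • z) * Δ z) ∧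
    ∀ n : ℤ, δ * ModularGroup.T ^ n * δ⁻¹ ∈ Γ → ∀ z : ℍ,
      hChiG χ (δ • ((n : ℝ) +ᵥ z)) * Δ ((n : ℝ) +ᵥ z) = hChiG χ (δ • z) * Δ z := by
  have hfun : (fun z => hChiG χ (δ • z) * Δ z) = eisCharG χ 12 ∣[(12 : ℤ)] δ := by
    funext z
    rw [hChi_smul_SLG, div_mul_cancel₀ _ (discriminant_ne_zero z)]
  refine ⟨?_, ?_, fun n hn z => ?_⟩
  · rw [hfun]
    have h := eisChar_mdiffG (k := 12) χ hχ (by norm_num)
    unfold eisCharG at h ⊢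
    rw [eisC_slash]
    exact eisC_mdiff (C := 1) (fun v => norm_kap_leG χ hχ _) (by norm_num)
  · rw [hfun]
    exact eisChar_slash_isBoundedAtImInftyG χ hχ hpar (by norm_num) δ
  · have h1 := congrFun hfun ((n : ℝ) +ᵥ z)
    have h2 := congrFun hfun z
    rw [h1, h2]
    exact eisChar_slash_periodicG' χ hpar δ n hn z

end Fermat.Agent.ES1
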