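/-
ESpkg-G1, piece A3 → A2 glue (helper83): the multiplier map is ONTO.

For `χ : Γ →* ℂˣ` with `χ ^ p = 1`, trivial on parabolic elements, the holomorphic function
`hChiG χ = E₁₂^χ / Δ` (resp. the pair `(E₁₂^χ, Δ)`) is a `RootData (Γ) p` whose multiplier
character (helper34's `RootData.mult`) is `χ`.
-/
import Fermat.Agent.ES.EisCharMult
import Fermat.Agent.ES1.EisCharFunG

set_option autoImplicit false
set_option linter.unusedSectionVars false

open EisensteinSeries UpperHalfPlane ModularForm CongruenceSubgroup Matrix Filter Topology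
open scoped MatrixGroups Manifold

noncomputable section

namespace Fermat.Agent.ES1

open Fermat.Agent.ES

variable {Γ : Subgroup SL(2, ℤ)} [IsEisLevel Γ] (χ : Γ →* ℂˣ)

local notation "Δ" => ModularForm.discriminant

/-- a character with values in the `p`-th roots of unity has absolute value one. -/
lemma eis_norm_eq_one_of_powG {p : ℕ} (hp : p ≠ 0) (hχp : ∀ γ : Γ, χ γ ^ p = 1)
    (γ : Γ) : ‖((χ γ : ℂˣ) : ℂ)‖ = 1 := by
  have h1 : ((χ γ : ℂˣ) : ℂ) ^ p = 1 := by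
    have := congrArg (fun u : ℂˣ => (u : ℂ)) (hχp γ)
    simpa using this
  exact Complex.norm_eq_one_of_pow_eq_one h1 hp

/-- `hChiG χ` has multiplier `χ γ` at `γ ∈ Γ` (as the "fraction" `hChiG χ / 1`). -/
theorem hChi_isMultiplierG (hpar : ∀ γ : Γ, IsPar γ → χ γ = 1) (γ : Γ) :
    IsMultiplier (γ : SL(2, ℤ)) (hChiG χ) (fun _ => 1) ((χ γ : ℂˣ) : ℂ) := by
  intro τ
  have h := hChi_smulG χ hpar γ τ
  simp only [mul_one]
  exact h

/-- the pair `(E₁₂^χ, Δ)` has multiplier `χ γ` at `γ ∈ Γ`. -/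
theorem eisChar_isMultiplierG (hpar : ∀ γ : Γ, IsPar γ → χ γ = 1) (γ : Γ) :
    IsMultiplier (γ : SL(2, ℤ)) (eisCharG χ 12) (fun z => Δ z) ((χ γ : ℂˣ) : ℂ) := by
  intro τ
  have h := hChi_smulG χ hpar γ τ
  rw [hChi_applyG, hChi_applyG] at h
  have h1 : Δ ((γ : SL(2, ℤ)) • τ) ≠ 0 := discriminant_ne_zero _
  have h2 : Δ τ ≠ 0 := discriminant_ne_zero _
  show eisCharG χ 12 ((γ : SL(2, ℤ)) • τ) * Δ τ
      = ((χ γ : ℂˣ) : ℂ) * (eisCharG χ 12 τ * Δ ((γ : SL(2, ℤ)) • τ))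
  field_simp at h
  linear_combination h

/-- The root datum of `hChiG χ` (denominator `1`). -/
def hChiRootDataG {p : ℕ} (hp : p ≠ 0) (hχp : ∀ γ : Γ, χ γ ^ p = 1)
    (hpar : ∀ γ : Γ, IsPar γ → χ γ = 1) : RootData (Γ) p where
  a := hChiG χ
  g := fun _ => 1
  p_ne_zero := hp
  mdiff_a := hChi_mdiffG χ (eis_norm_eq_one_of_powG χ hp hχp)
  mdiff_g := mdifferentiable_const
  a_ne_zero := fun h => by
    obtain ⟨z, hz⟩ := hChi_ne_zeroG χ (eis_norm_eq_one_of_powG χ hp hχp) hpar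
    exact hz (congrFun h z)
  g_ne_zero := fun h => one_ne_zero (congrFun h UpperHalfPlane.I)
  pow_inv := by
    intro γ hγ τ
    have h := hChi_isMultiplierG χ hpar ⟨γ, hγ⟩ τ
    have h1 : ((χ ⟨γ, hγ⟩ : ℂˣ) : ℂ) ^ p = 1 := by
      have := congrArg (fun u : ℂˣ => (u : ℂ)) (hχp ⟨γ, hγ⟩)
      simpa using this
    rw [h, mul_pow, h1, one_mul]

/-- **The multiplier map is onto**: the multiplier character of `hChiG χ` is `χ`. -/
theorem hChiRootData_multG {p : ℕ} (hp : p ≠ 0) (hχp : ∀ γ : Γ, χ γ ^ p = 1)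
    (hpar : ∀ γ : Γ, IsPar γ → χ γ = 1) :
    (hChiRootDataG χ hp hχp hpar).mult = χ := by
  ext γ
  exact congrArg (fun u : ℂˣ => (u : ℂ))
    (((hChiRootDataG χ hp hχp hpar).mult_eq_iff γ (χ γ)).2 (hChi_isMultiplierG χ hpar γ))

/-- The root datum of the pair `(E₁₂^χ, Δ)`. -/
def eisCharRootDataG {p : ℕ} (hp : p ≠ 0) (hχp : ∀ γ : Γ, χ γ ^ p = 1)
    (hpar : ∀ γ : Γ, IsPar γ → χ γ = 1) : RootData (Γ) p where
  a := eisCharG χ 12
  g := fun z => Δ z
  p_ne_zero := hp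
  mdiff_a := eisChar_mdiffG χ (eis_norm_eq_one_of_powG χ hp hχp) (by norm_num)
  mdiff_g := eis_discriminant_mdiff
  a_ne_zero := fun h => by
    obtain ⟨z, hz⟩ := eisChar_ne_zeroG (k := 12) χ (eis_norm_eq_one_of_powG χ hp hχp) hpar
      (by norm_num) (by decide)
    exact hz (congrFun h z)
  g_ne_zero := fun h => discriminant_ne_zero UpperHalfPlane.I (congrFun h UpperHalfPlane.I)
  pow_inv := by
    intro γ hγ τ
    have h := eisChar_isMultiplierG χ hpar ⟨γ, hγ⟩ τ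
    have h1 : ((χ ⟨γ, hγ⟩ : ℂˣ) : ℂ) ^ p = 1 := by
      have := congrArg (fun u : ℂˣ => (u : ℂ)) (hχp ⟨γ, hγ⟩)
      simpa using this
    rw [h, mul_pow, h1, one_mul]

theorem eisCharRootData_multG {p : ℕ} (hp : p ≠ 0) (hχp : ∀ γ : Γ, χ γ ^ p = 1)
    (hpar : ∀ γ : Γ, IsPar γ → χ γ = 1) :
    (eisCharRootDataG χ hp hχp hpar).mult = χ := by
  ext γ
  exact congrArg (fun u : ℂˣ => (u : ℂ))
    (((eisCharRootDataG χ hp hχp hpar).mult_eq_iff γ (χ γ)).2 (eisChar_isMultiplierG χ hpar γ))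

/-- **Surjectivity of the multiplier map, existence form.**  Every character
`χ : Γ → μ_p` that is trivial on parabolic elements is the multiplier of a root datum `D`
whose `p`-th power `D.a ^ p / D.g ^ p` is (the restriction to `ℍ` of) a modular function. -/
theorem exists_rootData_mult_eqG {p : ℕ} (hp : p ≠ 0)
    (hχp : ∀ γ : Γ, χ γ ^ p = 1) (hpar : ∀ γ : Γ, IsPar γ → χ γ = 1) :
    ∃ D : RootData (Γ) p, D.mult = χ ∧ (∀ z, D.g z = 1) ∧ D.a = hChiG χ :=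
  ⟨hChiRootDataG χ hp hχp hpar, hChiRootData_multG χ hp hχp hpar, fun _ => rfl, rfl⟩

end Fermat.Agent.ES1
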