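/-
ES₁ / G1, piece A3 for a GENERIC `Γ` (port of helper83's ES₀ file): orders of `hChiG χ` at fixed points (elliptic points).

For `γ ∈ Γ` fixing `τ₀`, with `ν = 1 / denom γ τ₀ ^ 2` (the derivative of `γ` at `τ₀`):
`χ γ = ν ^ ord_τ₀ (hChiG χ)`.  Hence, if `χ γ = 1` and `ν` is a primitive `e`-th root of unity,
`e ∣ ord_τ₀ (hChiG χ)`, i.e. `p * e ∣ ord_τ₀ (hChiG χ ^ p)`: the `p`-divisibility of the order of
`u_χ = hChiG χ ^ p` in the local parameter at the elliptic point.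
-/
import Fermat.Agent.ES.EisCharOrd
import Fermat.Agent.ES1.EisCharMultG

set_option autoImplicit false
set_option linter.unusedSectionVars false

open EisensteinSeries UpperHalfPlane ModularForm CongruenceSubgroup Matrix Filter Topology
open scoped MatrixGroups Manifold

noncomputable section

namespace Fermat.Agent.ES1

open Fermat.Agent.ES

open Fermat.Agent.S24

variable {Γ : Subgroup SL(2, ℤ)} [IsEisLevel Γ] (χ : Γ →* ℂˣ)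

/-- the function `hChiG χ` is not the zero function. -/
lemma hChi_ne_zero_funG (hχ : ∀ γ : Γ, ‖((χ γ : ℂˣ) : ℂ)‖ = 1)
    (hpar : ∀ γ : Γ, IsPar γ → χ γ = 1) : hChiG χ ≠ 0 := fun h => by
  obtain ⟨z, hz⟩ := hChi_ne_zeroG χ hχ hpar
  exact hz (congrFun h z)

/-- **The multiplier at a fixed point**: `χ γ = ν ^ ord_τ₀ (hChiG χ)`, `ν = 1 / denom γ τ₀ ^ 2`. -/
theorem hChi_mult_at_fixedG (hχ : ∀ γ : Γ, ‖((χ γ : ℂˣ) : ℂ)‖ = 1)
    (hpar : ∀ γ : Γ, IsPar γ → χ γ = 1) (γ : Γ) {τ₀ : ℍ}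
    (hfix : (γ : SL(2, ℤ)) • τ₀ = τ₀) :
    ((χ γ : ℂˣ) : ℂ) = (1 / denom (γ : SL(2, ℤ)) τ₀ ^ 2) ^ (ordAt τ₀ (hChiG χ)).toNat := by
  have h := (hChi_isMultiplierG χ hpar γ).mul_pow_eq_of_fixed (hChi_mdiffG χ hχ)
    mdifferentiable_const (hChi_ne_zero_funG χ hχ hpar)
    (fun h => one_ne_zero (congrFun h UpperHalfPlane.I)) hfix
  rw [ordAt_const one_ne_zero] at h
  simpa using h

/-- If `χ γ = 1` and the derivative of `γ` at its fixed point `τ₀` is a primitive `e`-th root of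
unity, then `e ∣ ord_τ₀ (hChiG χ)`. -/
theorem hChi_dvd_ordAt_of_fixedG (hχ : ∀ γ : Γ, ‖((χ γ : ℂˣ) : ℂ)‖ = 1)
    (hpar : ∀ γ : Γ, IsPar γ → χ γ = 1) (γ : Γ) {τ₀ : ℍ}
    (hfix : (γ : SL(2, ℤ)) • τ₀ = τ₀) {e : ℕ}
    (hprim : IsPrimitiveRoot (1 / denom (γ : SL(2, ℤ)) τ₀ ^ 2 : ℂ) e) (h1 : χ γ = 1) :
    e ∣ (ordAt τ₀ (hChiG χ)).toNat := by
  have h := hChi_mult_at_fixedG χ hχ hpar γ hfix
  rw [h1] at h
  exact (hprim.pow_eq_one_iff_dvd _).1 (by simpa using h.symm)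

/-- the order of a power. -/
theorem ordAt_hChi_powG (hχ : ∀ γ : Γ, ‖((χ γ : ℂˣ) : ℂ)‖ = 1) (n : ℕ) (τ₀ : ℍ) :
    ordAt τ₀ (fun z => hChiG χ z ^ n) = n • ordAt τ₀ (hChiG χ) := by
  have h : (fun z => hChiG χ z ^ n) ∘ ofComplex = (hChiG χ ∘ ofComplex) ^ n := by
    funext z; rfl
  rw [ordAt, h, analyticOrderAt_pow (ordAt_analyticAt (hChi_mdiffG χ hχ) τ₀)]
  rfl

/-- **`p`-divisibility at an elliptic point, in the local parameter.**  If `χ γ = 1` and the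
derivative of `γ` at its fixed point `τ₀` is a primitive `e`-th root of unity, then
`p * e ∣ ord_τ₀ (hChiG χ ^ p)`. -/
theorem hChi_pow_ordAt_dvdG (hχ : ∀ γ : Γ, ‖((χ γ : ℂˣ) : ℂ)‖ = 1)
    (hpar : ∀ γ : Γ, IsPar γ → χ γ = 1) (γ : Γ) {τ₀ : ℍ}
    (hfix : (γ : SL(2, ℤ)) • τ₀ = τ₀) {e : ℕ}
    (hprim : IsPrimitiveRoot (1 / denom (γ : SL(2, ℤ)) τ₀ ^ 2 : ℂ) e) (h1 : χ γ = 1) (p : ℕ) :
    p * e ∣ (ordAt τ₀ (fun z => hChiG χ z ^ p)).toNat := by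
  rw [ordAt_hChi_powG χ hχ]
  have hne : ordAt τ₀ (hChiG χ) ≠ ⊤ :=
    ordAt_ne_top (hChi_mdiffG χ hχ) (hChi_ne_zero_funG χ hχ hpar) τ₀
  obtain ⟨m, hm⟩ := ENat.ne_top_iff_exists.1 hne
  rw [← hm]
  have h2 := hChi_dvd_ordAt_of_fixedG χ hχ hpar γ hfix hprim h1
  rw [← hm] at h2
  have h3 : (p • (m : ℕ∞)).toNat = p * m := by
    rw [nsmul_eq_mul]
    have : ((p : ℕ∞) * (m : ℕ∞)) = ((p * m : ℕ) : ℕ∞) := by push_cast; rfl
    rw [this, ENat.toNat_natCast]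
  rw [h3]
  rw [ENat.toNat_natCast] at h2
  exact Nat.mul_dvd_mul_left p h2

/-- At a point whose stabiliser acts trivially on the character (`χ γ = 1`), with NO
assumption on `γ`: the order of `hChiG χ ^ p` is divisible by `p`. -/
theorem hChi_pow_ordAt_dvd_selfG (hχ : ∀ γ : Γ, ‖((χ γ : ℂˣ) : ℂ)‖ = 1) (p : ℕ) (τ₀ : ℍ)
    (hne : ordAt τ₀ (hChiG χ) ≠ ⊤) :
    p ∣ (ordAt τ₀ (fun z => hChiG χ z ^ p)).toNat := by
  rw [ordAt_hChi_powG χ hχ]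
  obtain ⟨m, hm⟩ := ENat.ne_top_iff_exists.1 hne
  rw [← hm]
  have h3 : (p • (m : ℕ∞)).toNat = p * m := by
    rw [nsmul_eq_mul]
    have : ((p : ℕ∞) * (m : ℕ∞)) = ((p * m : ℕ) : ℕ∞) := by push_cast; rfl
    rw [this, ENat.toNat_natCast]
  rw [h3]
  exact dvd_mul_right p m

end Fermat.Agent.ES1
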