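/-
ES₁ / G1, piece A3 for a GENERIC `Γ` (port of helper83's ES₀ file): `hChiG χ` at the cusps, in the language of S24's `cuspFn`.

For `δ ∈ SL(2,ℤ)` and `h > 0` with `δ T^h δ⁻¹ ∈ Γ` (e.g. `h` = the width of the cusp `δ∞`),
`W := hChiG χ ∘ δ` is `h`-periodic, its cusp function `cuspFn h W` (a function of
`q_h = exp(2πi z / h)`) is meromorphic at `0` of finite order, and the order of
`cuspFn h (W ^ p)` is `p` times the order of `cuspFn h W`: the `p`-divisibility of the order of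
`u_χ = hChiG χ ^ p` at the cusp `δ∞` in the local parameter `q_h`.
-/
import Fermat.Agent.ES.EisCharCusp
import Fermat.Agent.ES1.EisCharOrdG

set_option autoImplicit false
set_option linter.unusedSectionVars false

open EisensteinSeries UpperHalfPlane ModularForm CongruenceSubgroup Matrix Filter Topology
open scoped MatrixGroups Manifold

noncomputable section

namespace Fermat.Agent.ES1

open Fermat.Agent.ES

open Fermat.Agent.S24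

variable {Γ : Subgroup SL(2, ℤ)} [IsEisLevel Γ] (χ : Γ →* ℂˣ)

local notation "Δ" => ModularForm.discriminant



/-- the numerator `z ↦ hChiG χ (δ • z) · Δ z` at the cusp `δ∞`. -/
def hChiNumG (δ : SL(2, ℤ)) (z : ℍ) : ℂ := hChiG χ (δ • z) * Δ z

lemma hChiNum_mdiffG (hχ : ∀ γ : Γ, ‖((χ γ : ℂˣ) : ℂ)‖ = 1)
    (hpar : ∀ γ : Γ, IsPar γ → χ γ = 1) (δ : SL(2, ℤ)) : MDiff (hChiNumG χ δ) :=
  (hChi_cuspG χ hχ hpar δ).1

lemma hChiNum_boundedG (hχ : ∀ γ : Γ, ‖((χ γ : ℂˣ) : ℂ)‖ = 1)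
    (hpar : ∀ γ : Γ, IsPar γ → χ γ = 1) (δ : SL(2, ℤ)) :
    IsBoundedAtImInfty (hChiNumG χ δ) :=
  (hChi_cuspG χ hχ hpar δ).2.1

lemma hChiNum_isPerG (hχ : ∀ γ : Γ, ‖((χ γ : ℂˣ) : ℂ)‖ = 1)
    (hpar : ∀ γ : Γ, IsPar γ → χ γ = 1) (δ : SL(2, ℤ)) {h : ℕ}
    (hh : δ * ModularGroup.T ^ (h : ℤ) * δ⁻¹ ∈ Γ) : IsPer h (hChiNumG χ δ) := by
  intro z
  have := (hChi_cuspG χ hχ hpar δ).2.2 (h : ℤ) hh z
  simpa [hChiNumG] using this

lemma hChiNum_ne_zeroG (hχ : ∀ γ : Γ, ‖((χ γ : ℂˣ) : ℂ)‖ = 1)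
    (hpar : ∀ γ : Γ, IsPar γ → χ γ = 1) (δ : SL(2, ℤ)) : hChiNumG χ δ ≠ 0 := by
  intro h
  obtain ⟨z, hz⟩ := hChi_ne_zeroG χ hχ hpar
  have h1 := congrFun h (δ⁻¹ • z)
  simp only [hChiNumG, Pi.zero_apply, smul_inv_smul] at h1
  rcases mul_eq_zero.1 h1 with h2 | h2
  · exact hz h2
  · exact discriminant_ne_zero _ h2

/-- `hChiG χ ∘ δ` is `h`-periodic when `δ T^h δ⁻¹ ∈ Γ`. -/
theorem hChi_comp_isPerG (hχ : ∀ γ : Γ, ‖((χ γ : ℂˣ) : ℂ)‖ = 1)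
    (hpar : ∀ γ : Γ, IsPar γ → χ γ = 1) (δ : SL(2, ℤ)) {h : ℕ}
    (hh : δ * ModularGroup.T ^ (h : ℤ) * δ⁻¹ ∈ Γ) :
    IsPer h (fun z => hChiG χ (δ • z)) := by
  intro z
  have h1 := hChiNum_isPerG χ hχ hpar δ hh z
  have h2 := eis_isPer_discriminant h z
  simp only [hChiNumG] at h1
  simp only at h2
  rw [h2] at h1
  exact mul_right_cancel₀ (discriminant_ne_zero z) h1


/-- pointwise: `cuspFn h (hChiG χ ∘ δ) = cuspFn h (hChiNumG χ δ) / cuspFn h Δ`. -/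
lemma cuspFn_hChi_compG (δ : SL(2, ℤ)) (h : ℕ) (q : ℂ) :
    cuspFn h (fun z => hChiG χ (δ • z)) q
      = cuspFn h (hChiNumG χ δ) q / cuspFn h (fun z => Δ z) q := by
  simp only [cuspFn_apply, hChiNumG]
  rw [mul_div_assoc, div_self (discriminant_ne_zero _), mul_one]

/-- **Meromorphy at the cusp `δ∞`** (in `q_h`). -/
theorem hChi_comp_meromorphicAtG (hχ : ∀ γ : Γ, ‖((χ γ : ℂˣ) : ℂ)‖ = 1)
    (hpar : ∀ γ : Γ, IsPar γ → χ γ = 1) (δ : SL(2, ℤ)) {h : ℕ} (hpos : 0 < h)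
    (hh : δ * ModularGroup.T ^ (h : ℤ) * δ⁻¹ ∈ Γ) :
    MeromorphicAt (cuspFn h (fun z => hChiG χ (δ • z))) 0 := by
  have h1 : MeromorphicAt (cuspFn h (hChiNumG χ δ)) 0 :=
    eis_meromorphicAt_cuspFn hpos (hChiNum_mdiffG χ hχ hpar δ) (hChiNum_isPerG χ hχ hpar δ hh)
      (hChiNum_boundedG χ hχ hpar δ)
  have h2 : MeromorphicAt (cuspFn h (fun z => Δ z)) 0 :=
    eis_meromorphicAt_cuspFn hpos eis_discriminant_mdiff (eis_isPer_discriminant h)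
      eis_isBoundedAtImInfty_discriminant
  have h3 : cuspFn h (fun z => hChiG χ (δ • z))
      = cuspFn h (hChiNumG χ δ) / cuspFn h (fun z => Δ z) := by
    funext q
    exact cuspFn_hChi_compG χ δ h q
  rw [h3]
  exact h1.div h2

/-- the order at the cusp is finite. -/
theorem hChi_comp_order_ne_topG (hχ : ∀ γ : Γ, ‖((χ γ : ℂˣ) : ℂ)‖ = 1)
    (hpar : ∀ γ : Γ, IsPar γ → χ γ = 1) (δ : SL(2, ℤ)) {h : ℕ} (hpos : 0 < h)
    (hh : δ * ModularGroup.T ^ (h : ℤ) * δ⁻¹ ∈ Γ) :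
    meromorphicOrderAt (cuspFn h (fun z => hChiG χ (δ • z))) 0 ≠ ⊤ := by
  have h1 : MeromorphicAt (cuspFn h (hChiNumG χ δ)) 0 :=
    eis_meromorphicAt_cuspFn hpos (hChiNum_mdiffG χ hχ hpar δ) (hChiNum_isPerG χ hχ hpar δ hh)
      (hChiNum_boundedG χ hχ hpar δ)
  have h2 : MeromorphicAt (cuspFn h (fun z => Δ z)) 0 :=
    eis_meromorphicAt_cuspFn hpos eis_discriminant_mdiff (eis_isPer_discriminant h)
      eis_isBoundedAtImInfty_discriminant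
  have h3 : cuspFn h (fun z => hChiG χ (δ • z))
      = cuspFn h (hChiNumG χ δ) / cuspFn h (fun z => Δ z) := by
    funext q
    exact cuspFn_hChi_compG χ δ h q
  have e1 := eis_meromorphicOrderAt_cuspFn_ne_top hpos (hChiNum_mdiffG χ hχ hpar δ)
    (hChiNum_isPerG χ hχ hpar δ hh) (hChiNum_ne_zeroG χ hχ hpar δ)
  have e2 := eis_meromorphicOrderAt_cuspFn_ne_top hpos eis_discriminant_mdiff
    (eis_isPer_discriminant h) eis_discriminant_ne_zero_fun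
  rw [h3, meromorphicOrderAt_div h1 h2]
  obtain ⟨a, ha⟩ := WithTop.ne_top_iff_exists.1 e1
  obtain ⟨b, hb⟩ := WithTop.ne_top_iff_exists.1 e2
  rw [← ha, ← hb]
  exact WithTop.coe_ne_top (a := a - b)

/-- **`p`-divisibility at the cusp `δ∞`**, in the local parameter `q_h`:
`ord_{q_h} ((hChiG χ) ^ p ∘ δ) = p · ord_{q_h} (hChiG χ ∘ δ)`. -/
theorem hChi_pow_comp_orderG (hχ : ∀ γ : Γ, ‖((χ γ : ℂˣ) : ℂ)‖ = 1)
    (hpar : ∀ γ : Γ, IsPar γ → χ γ = 1) (δ : SL(2, ℤ)) {h : ℕ} (hpos : 0 < h)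
    (hh : δ * ModularGroup.T ^ (h : ℤ) * δ⁻¹ ∈ Γ) (p : ℕ) :
    meromorphicOrderAt (cuspFn h (fun z => hChiG χ (δ • z) ^ p)) 0
      = (p : WithTop ℤ) * meromorphicOrderAt (cuspFn h (fun z => hChiG χ (δ • z))) 0 := by
  have h3 : cuspFn h (fun z => hChiG χ (δ • z) ^ p)
      = (cuspFn h (fun z => hChiG χ (δ • z))) ^ p := by
    funext q
    rfl
  rw [h3, meromorphicOrderAt_pow (hChi_comp_meromorphicAtG χ hχ hpar δ hpos hh)]

/-- existence form: the order of `u_χ ∘ δ` in `q_h` is `p * n` for an integer `n`. -/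
theorem hChi_pow_comp_order_eqG (hχ : ∀ γ : Γ, ‖((χ γ : ℂˣ) : ℂ)‖ = 1)
    (hpar : ∀ γ : Γ, IsPar γ → χ γ = 1) (δ : SL(2, ℤ)) {h : ℕ} (hpos : 0 < h)
    (hh : δ * ModularGroup.T ^ (h : ℤ) * δ⁻¹ ∈ Γ) (p : ℕ) :
    ∃ n : ℤ, meromorphicOrderAt (cuspFn h (fun z => hChiG χ (δ • z) ^ p)) 0
      = (((p : ℤ) * n : ℤ) : WithTop ℤ) := by
  obtain ⟨n, hn⟩ := WithTop.ne_top_iff_exists.1 (hChi_comp_order_ne_topG χ hχ hpar δ hpos hh)
  refine ⟨n, ?_⟩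
  rw [hChi_pow_comp_orderG χ hχ hpar δ hpos hh, ← hn]
  push_cast
  rfl

end Fermat.Agent.ES1
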