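import Fermat.Agent.ES.RootModFun

/-!
# ES₁ / G1, piece A2 (kernel), for an ARBITRARY arithmetic subgroup `Γ ≤ SL(2, ℤ)`

Generic version of `Fermat/Agent/ES/RootModFun.lean` (which is written for `Γ₀(M)`).

* `IsModFunG Γ f` : `f : ℍ → ℂ` is a holomorphic modular function for `Γ`, meromorphic at the
  cusps: `f · Δ ^ m` is a modular form of weight `12 m` for `Γ`, for some `m`.
  (`IsModFunG (Gamma0 N) f ↔ S28.IsModFun N f` by `Iff.rfl`: `isModFunG_gamma0_iff`.)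
* `isModFunG_of_pow` : `a` holomorphic on `ℍ`, `Γ`-invariant, `a ^ p` a modular function for `Γ`
  ⟹ `a` is a modular function for `Γ`.
* `RootData.isModFunG_a_of_mult_eq_one`, `RootData.isModFunG_a_of_pow_eq` : the kernel of the
  multiplier map, for `Γ`.
* the algebra `modFunAlgG Γ` and the calculus `IsModFunG.add/.mul/.pow/.const/…`,
  `IsModFunG.mono` (smaller group), `IsModFunG.comp_smul` (invariance), `IsModFunG.mdiff`.
-/

set_option autoImplicit false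

noncomputable section

open UpperHalfPlane ModularForm CongruenceSubgroup Filter Topology
open scoped MatrixGroups Manifold

namespace Fermat.Agent.ES1

open Fermat.Agent.S23 Fermat.Agent.S28 Fermat.Agent.ES

local notation "Δ" => ModularForm.discriminant

/-- `Γ ≤ SL(2, ℤ)` as a subgroup of `GL(2, ℝ)` -/
abbrev gGL (Γ : Subgroup SL(2, ℤ)) : Subgroup (GL (Fin 2) ℝ) :=
  Subgroup.map (Matrix.SpecialLinearGroup.mapGL ℝ) Γ

/-- `f` is a holomorphic modular function for `Γ`, meromorphic at the cusps. -/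
def IsModFunG (Γ : Subgroup SL(2, ℤ)) (f : ℍ → ℂ) : Prop :=
  ∃ m : ℕ, IsMF (gGL Γ) (12 * (m : ℤ)) (fun z => f z * Δ z ^ m)

theorem isModFunG_gamma0_iff (N : ℕ) (f : ℍ → ℂ) : IsModFunG (Gamma0 N) f ↔ IsModFun N f :=
  Iff.rfl

variable {Γ : Subgroup SL(2, ℤ)}

theorem gGL_le_SL (Γ : Subgroup SL(2, ℤ)) : gGL Γ ≤ 𝒮ℒ := by
  rintro _ ⟨γ, -, rfl⟩
  exact ⟨γ, rfl⟩

theorem gGL_mono {Γ Γ' : Subgroup SL(2, ℤ)} (h : Γ ≤ Γ') : gGL Γ ≤ gGL Γ' :=
  Subgroup.map_mono h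

/-- restriction of the level -/
theorem isMF_mono {Γ Γ' : Subgroup SL(2, ℤ)} (h : Γ ≤ Γ') {κ : ℤ} {f : ℍ → ℂ}
    (hf : IsMF (gGL Γ') κ f) : IsMF (gGL Γ) κ f := by
  obtain ⟨F, rfl⟩ := hf
  exact ⟨{ toFun := F
           slash_action_eq' := fun A hA => F.slash_action_eq' A (gGL_mono h hA)
           holo' := F.holo'
           bdd_at_cusps' := fun hc => F.bdd_at_cusps' (hc.mono (gGL_mono h)) }, rfl⟩

/-- level one ⇒ level `Γ` -/
theorem isMF_of_levelOneG (Γ : Subgroup SL(2, ℤ)) {κ : ℤ} {f : ℍ → ℂ} (hf : IsMF 𝒮ℒ κ f) :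
    IsMF (gGL Γ) κ f := by
  obtain ⟨F, rfl⟩ := hf
  exact ⟨{ toFun := F
           slash_action_eq' := fun A hA => F.slash_action_eq' A (gGL_le_SL Γ hA)
           holo' := F.holo'
           bdd_at_cusps' := fun hc => F.bdd_at_cusps' (hc.mono (gGL_le_SL Γ)) }, rfl⟩

/-- `Δ` as a form of level `Γ`. -/
theorem isMF_discriminantG (Γ : Subgroup SL(2, ℤ)) : IsMF (gGL Γ) 12 (Δ : ℍ → ℂ) :=
  isMF_of_levelOneG Γ ⟨(CuspForm.discriminant : CuspForm 𝒮ℒ 12), by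
    ext z; simp [CuspForm.coe_discriminant]⟩

theorem IsModFunG.mono {Γ Γ' : Subgroup SL(2, ℤ)} (h : Γ ≤ Γ') {f : ℍ → ℂ}
    (hf : IsModFunG Γ' f) : IsModFunG Γ f := by
  obtain ⟨m, hm⟩ := hf
  exact ⟨m, isMF_mono h hm⟩

theorem IsModFunG.succ {f : ℍ → ℂ} {m : ℕ}
    (h : IsMF (gGL Γ) (12 * (m : ℤ)) (fun z => f z * Δ z ^ m)) :
    IsMF (gGL Γ) (12 * ((m + 1 : ℕ) : ℤ)) (fun z => f z * Δ z ^ (m + 1)) := by
  have h1 := (h.mul (isMF_discriminantG Γ)).of_weight_eq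
    (show 12 * (m : ℤ) + 12 = 12 * ((m + 1 : ℕ) : ℤ) by push_cast; ring)
  convert h1 using 1
  ext z
  simp only [Pi.mul_apply, pow_succ]
  ring

theorem IsModFunG.raise {f : ℍ → ℂ} {m : ℕ}
    (h : IsMF (gGL Γ) (12 * (m : ℤ)) (fun z => f z * Δ z ^ m)) (k : ℕ) :
    IsMF (gGL Γ) (12 * ((m + k : ℕ) : ℤ)) (fun z => f z * Δ z ^ (m + k)) := by
  induction k with
  | zero => simpa using h
  | succ k ih => exact IsModFunG.succ ih

theorem IsModFunG.raise_le {f : ℍ → ℂ} {m m' : ℕ}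
    (h : IsMF (gGL Γ) (12 * (m : ℤ)) (fun z => f z * Δ z ^ m)) (hm : m ≤ m') :
    IsMF (gGL Γ) (12 * (m' : ℤ)) (fun z => f z * Δ z ^ m') := by
  obtain ⟨k, rfl⟩ := Nat.exists_eq_add_of_le hm
  exact IsModFunG.raise h k

theorem isModFunG_const (Γ : Subgroup SL(2, ℤ)) (c : ℂ) : IsModFunG Γ (fun _ => c) := by
  refine ⟨0, ?_⟩
  have h : IsMF (gGL Γ) 0 (c • (1 : ℍ → ℂ)) := IsMF.const_smul c IsMF.one
  have h2 := h.of_weight_eq (show (0 : ℤ) = 12 * ((0 : ℕ) : ℤ) by simp)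
  convert h2 using 1
  ext z
  simp

theorem IsModFunG.add {f g : ℍ → ℂ} (hf : IsModFunG Γ f) (hg : IsModFunG Γ g) :
    IsModFunG Γ (f + g) := by
  obtain ⟨m, hm⟩ := hf
  obtain ⟨n, hn⟩ := hg
  refine ⟨max m n, ?_⟩
  have h1 := IsModFunG.raise_le hm (le_max_left m n)
  have h2 := IsModFunG.raise_le hn (le_max_right m n)
  convert h1.add h2 using 1
  ext z
  simp only [Pi.add_apply]
  ring

theorem IsModFunG.mul {f g : ℍ → ℂ} (hf : IsModFunG Γ f) (hg : IsModFunG Γ g) :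
    IsModFunG Γ (f * g) := by
  obtain ⟨m, hm⟩ := hf
  obtain ⟨n, hn⟩ := hg
  refine ⟨m + n, ?_⟩
  have h := (hm.mul hn).of_weight_eq
    (show 12 * (m : ℤ) + 12 * (n : ℤ) = 12 * ((m + n : ℕ) : ℤ) by push_cast; ring)
  convert h using 1
  ext z
  simp only [Pi.mul_apply, pow_add]
  ring

/-- The `ℂ`-algebra of holomorphic modular functions for `Γ`, meromorphic at the cusps. -/
def modFunAlgG (Γ : Subgroup SL(2, ℤ)) : Subalgebra ℂ (ℍ → ℂ) where
  carrier := {f | IsModFunG Γ f}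
  mul_mem' := fun hf hg => IsModFunG.mul hf hg
  add_mem' := fun hf hg => IsModFunG.add hf hg
  algebraMap_mem' := fun c => isModFunG_const Γ c

theorem mem_modFunAlgG {f : ℍ → ℂ} : f ∈ modFunAlgG Γ ↔ IsModFunG Γ f := Iff.rfl

theorem IsModFunG.neg {f : ℍ → ℂ} (hf : IsModFunG Γ f) : IsModFunG Γ (-f) :=
  (modFunAlgG Γ).neg_mem hf

theorem IsModFunG.sub {f g : ℍ → ℂ} (hf : IsModFunG Γ f) (hg : IsModFunG Γ g) :
    IsModFunG Γ (f - g) :=
  (modFunAlgG Γ).sub_mem hf hg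

theorem IsModFunG.pow {f : ℍ → ℂ} (hf : IsModFunG Γ f) (n : ℕ) : IsModFunG Γ (f ^ n) :=
  (modFunAlgG Γ).pow_mem hf n

theorem IsModFunG.smul {f : ℍ → ℂ} (c : ℂ) (hf : IsModFunG Γ f) : IsModFunG Γ (c • f) :=
  (modFunAlgG Γ).smul_mem hf c

theorem IsModFunG.sum {ι : Type*} (s : Finset ι) (F : ι → ℍ → ℂ)
    (hF : ∀ i ∈ s, IsModFunG Γ (F i)) : IsModFunG Γ (∑ i ∈ s, F i) :=
  (modFunAlgG Γ).sum_mem hF

theorem IsModFunG.prod {ι : Type*} (s : Finset ι) (F : ι → ℍ → ℂ)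
    (hF : ∀ i ∈ s, IsModFunG Γ (F i)) : IsModFunG Γ (∏ i ∈ s, F i) :=
  (modFunAlgG Γ).prod_mem hF

/-- A quotient `G / Δ ^ m` of a modular form of weight `12 m` is a modular function. -/
theorem isModFunG_div {G : ℍ → ℂ} {m : ℕ} (hG : IsMF (gGL Γ) (12 * (m : ℤ)) G) :
    IsModFunG Γ (fun z => G z / Δ z ^ m) := by
  refine ⟨m, ?_⟩
  convert hG using 1
  ext z
  rw [div_mul_cancel₀ _ (pow_ne_zero m (discriminant_ne_zero z))]

/-- a modular function is holomorphic on `ℍ` -/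
theorem IsModFunG.mdiff {f : ℍ → ℂ} (hf : IsModFunG Γ f) : MDiff f := by
  obtain ⟨m, F, hF⟩ := hf
  have h1 : MDiff (fun z => f z * Δ z ^ m) := hF ▸ F.holo'
  have h2 : MDiff (fun z : ℍ => Δ z ^ m) := by
    have h : MDiff (CuspForm.discriminant : ℍ → ℂ) := CuspForm.discriminant.holo'
    exact h.pow m
  rw [UpperHalfPlane.mdifferentiable_iff] at h1 h2 ⊢
  refine (h1.div h2 ?_).congr ?_
  · intro z hz
    simp only [Function.comp_apply]
    exact pow_ne_zero m (discriminant_ne_zero _)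
  · intro z hz
    simp only [Function.comp_apply, Pi.div_apply]
    rw [mul_div_assoc, div_self (pow_ne_zero m (discriminant_ne_zero _)), mul_one]

/-- **A `p`-th root of a modular function is a modular function.**  If `a` is holomorphic on
`ℍ` and `Γ`-invariant and `a ^ p` is a modular function for `Γ` (meromorphic at the cusps),
then so is `a`. -/
theorem isModFunG_of_pow [Γ.FiniteIndex] {p : ℕ} (hp : p ≠ 0) {a : ℍ → ℂ} (ha : MDiff a)
    (hinv : ∀ γ ∈ Γ, ∀ τ : ℍ, a (γ • τ) = a τ)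
    (hpow : IsModFunG Γ (fun z => a z ^ p)) : IsModFunG Γ a := by
  obtain ⟨m, F, hF⟩ := hpow
  have hΔ : MDiff (fun z : ℍ => Δ z ^ m) := by
    have h : MDiff (CuspForm.discriminant : ℍ → ℂ) := CuspForm.discriminant.holo'
    exact h.pow m
  refine ⟨m, ⟨{ toFun := fun z => a z * Δ z ^ m
                slash_action_eq' := ?_
                holo' := ha.mul hΔ
                bdd_at_cusps' := ?_ }, rfl⟩⟩
  · rintro _ ⟨γ, hγ, rfl⟩
    have h1 := slash_mul_discPow a m γ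
    rw [SL_slash] at h1
    refine h1.trans ?_
    funext τ
    rw [hinv γ hγ τ]
  · intro c hc
    rw [Subgroup.IsArithmetic.isCusp_iff_isCusp_SL2Z] at hc
    rw [OnePoint.isBoundedAt_iff_forall_SL2Z hc]
    intro γ _
    rw [slash_mul_discPow]
    apply isBoundedAtImInfty_of_pow hp
    have h1 : IsBoundedAtImInfty ((F : ℍ → ℂ) ∣[(12 * (m : ℤ))] γ) :=
      ModularFormClass.bdd_at_infty_slash F γ
    rw [hF, slash_mul_discPow] at h1
    have h2 := h1.mul (isBoundedAtImInfty_discPow ((p - 1) * m))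
    refine h2.congr_left fun z => ?_
    obtain ⟨n, rfl⟩ : ∃ n, p = n + 1 := Nat.exists_eq_succ_of_ne_zero hp
    simp only [Pi.mul_apply, Nat.add_sub_cancel]
    ring

/-- A modular function for `Γ` is `Γ`-invariant. -/
theorem IsModFunG.comp_smul {f : ℍ → ℂ} (hf : IsModFunG Γ f) {γ : SL(2, ℤ)}
    (hγ : γ ∈ Γ) (τ : ℍ) : f (γ • τ) = f τ := by
  obtain ⟨m, F, hF⟩ := hf
  have h1 : (F : ℍ → ℂ) ∣[(12 * (m : ℤ))] (Matrix.SpecialLinearGroup.mapGL ℝ γ) = F :=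
    F.slash_action_eq' _ ⟨γ, hγ, rfl⟩
  have h2 := slash_mul_discPow f m γ
  rw [SL_slash, ← hF] at h2
  have h3 : (F : ℍ → ℂ) τ = f (γ • τ) * Δ τ ^ m := by
    have := congrFun (h1.symm.trans h2) τ
    exact this
  rw [hF] at h3
  exact (mul_right_cancel₀ (pow_ne_zero m (discriminant_ne_zero τ)) h3).symm

end Fermat.Agent.ES1

namespace Fermat.Agent.ES.RootData

open Fermat.Agent.ES1

variable {Γ : Subgroup SL(2, ℤ)} {p : ℕ}

/-- **Kernel of the multiplier map**, for `Γ`. -/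
theorem isModFunG_a_of_mult_eq_one [Γ.FiniteIndex] (D : RootData Γ p) (hmult : D.mult = 1)
    (hg : IsModFunG Γ D.g) (hpow : IsModFunG Γ (fun z => D.a z ^ p)) : IsModFunG Γ D.a := by
  refine isModFunG_of_pow D.p_ne_zero D.mdiff_a (fun γ hγ => ?_) hpow
  have h1 := (D.mult_eq_one_iff_invariant).mp hmult γ hγ
  have hgγ : MDiff (fun τ => D.g (γ • τ)) := mdiff_comp_SL D.mdiff_g γ
  refine mdiff_mul_right_cancel (mdiff_comp_SL D.mdiff_a γ) D.mdiff_a D.mdiff_g D.g_ne_zero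
    fun τ => ?_
  rw [h1 τ, hg.comp_smul hγ τ]

/-- The same, for the root datum of `u = f / g` with `a ^ p = f * g ^ (p - 1)`. -/
theorem isModFunG_a_of_pow_eq [Γ.FiniteIndex] (D : RootData Γ p) (hmult : D.mult = 1)
    {f : ℍ → ℂ} (hf : IsModFunG Γ f) (hg : IsModFunG Γ D.g)
    (hpow : ∀ τ, D.a τ ^ p = f τ * D.g τ ^ (p - 1)) : IsModFunG Γ D.a := by
  refine D.isModFunG_a_of_mult_eq_one hmult hg ?_
  have h1 : IsModFunG Γ (f * D.g ^ (p - 1)) := hf.mul (hg.pow (p - 1))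
  have e : (fun z => D.a z ^ p) = f * D.g ^ (p - 1) := by
    funext z
    simpa using hpow z
  rw [e]
  exact h1

end Fermat.Agent.ES.RootData
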