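/-
ES₁ / G1, piece A3 for a GENERIC `Γ` (port of helper83's ES₀ file): `u_χ = (E₁₂^χ / Δ)^p` is a modular function for `Γ`
(in the sense `IsModFunG` of ES1/RootModFunG).
-/
import Fermat.Agent.ES1.EisCharFunG
import Fermat.Agent.ES1.RootModFunG

set_option autoImplicit false
set_option linter.unusedSectionVars false

open UpperHalfPlane ModularForm CongruenceSubgroup Matrix Filter Topology
open scoped MatrixGroups Manifold

noncomputable section

namespace Fermat.Agent.ES1

open Fermat.Agent.ES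

variable {Γ : Subgroup SL(2, ℤ)} [IsEisLevel Γ] (χ : Γ →* ℂˣ)

local notation "Δ" => ModularForm.discriminant

/-- `u_χ = hChiG χ ^ n` is a modular function for `Γ` when `χ ^ n = 1`. -/
theorem isModFun_hChi_powG [Γ.FiniteIndex] (hχ : ∀ γ : Γ, ‖((χ γ : ℂˣ) : ℂ)‖ = 1)
    (hpar : ∀ γ : Γ, IsPar γ → χ γ = 1) (n : ℕ) (hn : ∀ γ : Γ, χ γ ^ n = 1) :
    IsModFunG Γ (fun z => hChiG χ z ^ n) := by
  refine ⟨n, ModularForm.mcast (by ring) (eisCharPowG χ hχ hpar (k := 12) (by norm_num) n hn), ?_⟩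
  funext z
  show eisCharG χ 12 z ^ n = hChiG χ z ^ n * Δ z ^ n
  rw [hChi_applyG, div_pow, div_mul_cancel₀ _ (pow_ne_zero _ (discriminant_ne_zero z))]

end Fermat.Agent.ES1
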