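import Fermat.Agent.ES1.RootOfKummerG

/-!
# ES₁ / F3 = RC-Γ, interface: places of `F = Frac (modFunAlgG Γ)` ↔ analytic orders

`Γ ≤ SL(2, ℤ)` of finite index, `F` any field of fractions of `modFunAlgG Γ` (for
`Γ = gammaH L M H` this is `fieldC ℂ L M H`, file `ES1/RCGamma.lean`).  These are the
`Γ`-versions of the statements of `ES/RC/PlacePlan.lean` (`StmtPtG` is in
`ES1/RootOfKummerG.lean`).  Each statement is proved in its own file, see `NOTES/ES1-RC.md`.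

* `IsCuspPeriodG Γ h g` : `0 < h` and `g T^h g⁻¹ ∈ Γ`;
* `StmtPtExactG Γ F`, `StmtCuspG Γ F`, `StmtCuspExactG Γ F`, `StmtAllG Γ F`;
* `StmtNormPolyG Γ` : every modular function for `Γ` is a root of a monic polynomial of degree
  `Γ.index` over `ℂ[J]`.
-/

set_option autoImplicit false

noncomputable section

namespace Fermat.Agent.ES1

open UpperHalfPlane AlgebraicCurve Polynomial
open Fermat.Agent.S24 Fermat.Agent.S28 Fermat.Agent.ES.RC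
open scoped MatrixGroups

/-- `h` is a period of the cusp `g∞` of `Γ`. -/
def IsCuspPeriodG (Γ : Subgroup SL(2, ℤ)) (h : ℕ) (g : SL(2, ℤ)) : Prop :=
  0 < h ∧ g * ModularGroup.T ^ h * g⁻¹ ∈ Γ

theorem isCuspPeriodG_gamma0_iff (M h : ℕ) (g : SL(2, ℤ)) :
    IsCuspPeriodG (CongruenceSubgroup.Gamma0 M) h g ↔ IsCuspPeriod M h g := Iff.rfl

theorem IsCuspPeriodG.mono {Γ Γ' : Subgroup SL(2, ℤ)} (hΓ : Γ ≤ Γ') {h : ℕ} {g : SL(2, ℤ)}
    (hp : IsCuspPeriodG Γ h g) : IsCuspPeriodG Γ' h g :=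
  ⟨hp.1, hΓ hp.2⟩

/-- Every modular function for `Γ` is a root of a monic polynomial of degree `[SL(2,ℤ) : Γ]`
with coefficients in `ℂ[J]`. -/
def StmtNormPolyG (Γ : Subgroup SL(2, ℤ)) : Prop :=
  ∀ f : ℍ → ℂ, IsModFunG Γ f →
    ∃ Φ : (ℂ[X])[X], Φ.Monic ∧ Φ.natDegree = Γ.index ∧
      ∀ τ : ℍ, Φ.eval₂ (evalRingHom (Jfun τ)) (f τ) = 0

section Statements

variable (Γ : Subgroup SL(2, ℤ)) (F : Type) [Field F] [Algebra ℂ F] [Algebra (modFunAlgG Γ) F]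

/-- Exact form of `StmtPtG`: the ramification index `e` is the order of the multiplier
`denom ε τ ^ 2` of an element `ε ∈ Γ` fixing `τ`. -/
def StmtPtExactG : Prop :=
  ∀ τ : ℍ, ∃ (v : Place ℂ F) (e : ℕ) (ε : SL(2, ℤ)), ε ∈ Γ ∧
    ε • τ = τ ∧ IsPrimitiveRoot (denom ε τ ^ 2) e ∧ ∀ f : modFunAlgG Γ, f ≠ 0 →
      ordPt τ (f : ℍ → ℂ) = (e : ℤ) * v.ord (algebraMap (modFunAlgG Γ) F f)

/-- The order at a cusp, in `q_h` for a period `h`, is a positive multiple of the order at a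
place of `F`. -/
def StmtCuspG : Prop :=
  ∀ (g : SL(2, ℤ)) (h : ℕ), IsCuspPeriodG Γ h g → ∃ (v : Place ℂ F) (e : ℕ), 0 < e ∧
    ∀ f : modFunAlgG Γ, f ≠ 0 →
      ordCusp h g (f : ℍ → ℂ) = (e : ℤ) * v.ord (algebraMap (modFunAlgG Γ) F f)

/-- Exact form: for the right period `h` (the width of the cusp), `q_h` is a uniformiser. -/
def StmtCuspExactG : Prop :=
  ∀ g : SL(2, ℤ), ∃ (v : Place ℂ F) (h : ℕ), IsCuspPeriodG Γ h g ∧
    ∀ f : modFunAlgG Γ, f ≠ 0 →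
      ordCusp h g (f : ℍ → ℂ) = v.ord (algebraMap (modFunAlgG Γ) F f)

/-- Every place of `F` over `ℂ` is the order at a point of `ℍ` or at a cusp. -/
def StmtAllG : Prop :=
  ∀ v : Place ℂ F,
    (∃ (τ : ℍ) (e : ℕ), 0 < e ∧ ∀ f : modFunAlgG Γ, f ≠ 0 →
      ordPt τ (f : ℍ → ℂ) = (e : ℤ) * v.ord (algebraMap (modFunAlgG Γ) F f)) ∨
    (∃ (g : SL(2, ℤ)) (h e : ℕ), IsCuspPeriodG Γ h g ∧ 0 < e ∧ ∀ f : modFunAlgG Γ, f ≠ 0 →
      ordCusp h g (f : ℍ → ℂ) = (e : ℤ) * v.ord (algebraMap (modFunAlgG Γ) F f))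

end Statements

end Fermat.Agent.ES1
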