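/-
ES₁ / F3 = RC-Γ, piece RC-pt (helper81): the place of `Frac (modFunAlgG Γ)` at a point `τ ∈ ℍ`,
for an arbitrary subgroup `Γ ≤ SL(2, ℤ)`.  Fork of `Fermat/Agent/ES/RC/PlacePt.lean`.

* `es1rcpt_isDomain` : `modFunAlgG Γ` is a domain;
* `es1rcpt_isOrdFun_ordPt` : `f ↦ ordPt τ f` is an order function on `modFunAlgG Γ`;
* `es1rcptVal Γ F τ` : the corresponding valuation of `F`;
* `es1rcpt_exists_place` : the place at `τ`, with its valuation ring;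
* `stmtPtG Γ F : StmtPtG Γ F`.
-/
import Fermat.Agent.ES1.RCPlan
import Fermat.Agent.ES.RC.OrdVal

set_option autoImplicit false

noncomputable section

namespace Fermat.Agent.ES1

open UpperHalfPlane AlgebraicCurve ModularForm WithZero
open Fermat.Agent.S23 Fermat.Agent.S24 Fermat.Agent.S28 Fermat.Agent.ES.RC
open scoped MatrixGroups Manifold ModularForm

local notation "Δ" => ModularForm.discriminant

variable (Γ : Subgroup SL(2, ℤ))

/-- `J` is a modular function of every level. -/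
theorem es1rcpt_isModFunG_Jfun : IsModFunG Γ Jfun := by
  refine ⟨1, ?_⟩
  have h4 : IsMF (gGL Γ) 4 (E₄ : ℍ → ℂ) := isMF_of_levelOneG Γ ⟨E₄, rfl⟩
  have h := (h4.pow 3).of_weight_eq (show ((3 : ℕ) : ℤ) * 4 = 12 * ((1 : ℕ) : ℤ) by norm_num)
  convert h using 1
  ext z
  simp only [Pi.pow_apply, pow_one, Jfun_def]
  rw [div_mul_cancel₀ _ (discriminant_ne_zero z)]

theorem es1rcpt_mdiff (f : modFunAlgG Γ) : MDiff (f : ℍ → ℂ) := IsModFunG.mdiff f.2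

variable {Γ} in
theorem es1rcpt_coe_ne_zero {f : modFunAlgG Γ} (hf : f ≠ 0) : (f : ℍ → ℂ) ≠ 0 :=
  fun h => hf (Subtype.ext h)

instance es1rcpt_noZeroDivisors : NoZeroDivisors (modFunAlgG Γ) where
  eq_zero_or_eq_zero_of_mul_eq_zero := by
    rintro ⟨f, hf⟩ ⟨g, hg⟩ h
    have h' : f * g = 0 := congrArg Subtype.val h
    rcases (UpperHalfPlane.mul_eq_zero_iff (IsModFunG.mdiff hf)
      (IsModFunG.mdiff hg)).mp h' with h0 | h0
    · exact Or.inl (Subtype.ext h0)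
    · exact Or.inr (Subtype.ext h0)

instance es1rcpt_nontrivial : Nontrivial (modFunAlgG Γ) :=
  ⟨⟨0, 1, fun h => by
    have h' : (0 : ℍ → ℂ) = 1 := congrArg Subtype.val h
    have := congrFun h' UpperHalfPlane.I
    simp at this⟩⟩

instance es1rcpt_isDomain : IsDomain (modFunAlgG Γ) := NoZeroDivisors.to_isDomain _

/-! ### The order at a point as an order function -/

variable {Γ} in
theorem es1rcpt_coe_ordPt (τ : ℍ) {f : modFunAlgG Γ} (hf : f ≠ 0) :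
    (((ordAt τ (f : ℍ → ℂ)).toNat : ℕ) : ℕ∞) = ordAt τ (f : ℍ → ℂ) :=
  ENat.natCast_toNat (ordAt_ne_top (es1rcpt_mdiff Γ f) (es1rcpt_coe_ne_zero hf) τ)

theorem es1rcpt_isOrdFun_ordPt (τ : ℍ) :
    IsOrdFun (fun f : modFunAlgG Γ => ordPt τ (f : ℍ → ℂ)) where
  one := by
    have h1 : ((1 : modFunAlgG Γ) : ℍ → ℂ) = fun _ => (1 : ℂ) := rfl
    simp only [ordPt, h1, ordAt_const one_ne_zero]
    rfl
  mul f g hf hg := by
    refine ⟨mul_ne_zero hf hg, ?_⟩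
    have h := ordAt_mul (es1rcpt_mdiff Γ f) (es1rcpt_mdiff Γ g) τ
    have h1 : ((f * g : modFunAlgG Γ) : ℍ → ℂ) = (f : ℍ → ℂ) * (g : ℍ → ℂ) := rfl
    rw [← h1, ← es1rcpt_coe_ordPt τ hf, ← es1rcpt_coe_ordPt τ hg,
      ← es1rcpt_coe_ordPt τ (mul_ne_zero hf hg)] at h
    simp only [ordPt]
    exact_mod_cast h
  add f g hf hg hfg := by
    have h := le_ordAt_add (f : ℍ → ℂ) (g : ℍ → ℂ) τ
    have h1 : ((f + g : modFunAlgG Γ) : ℍ → ℂ) = (f : ℍ → ℂ) + (g : ℍ → ℂ) := rfl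
    rw [← h1, ← es1rcpt_coe_ordPt τ hf, ← es1rcpt_coe_ordPt τ hg,
      ← es1rcpt_coe_ordPt τ hfg] at h
    simp only [ordPt]
    rw [min_le_iff] at h ⊢
    rcases h with h | h
    · exact Or.inl (by exact_mod_cast h)
    · exact Or.inr (by exact_mod_cast h)

theorem es1rcpt_ordPt_algebraMap (τ : ℍ) (a : ℂ) :
    ordPt τ ((algebraMap ℂ (modFunAlgG Γ) a : modFunAlgG Γ) : ℍ → ℂ) = 0 := by
  rcases eq_or_ne a 0 with rfl | ha
  · simp only [map_zero, ordPt]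
    have : ((0 : modFunAlgG Γ) : ℍ → ℂ) = fun _ => (0 : ℂ) := rfl
    rw [this, ordAt, analyticOrderAt_eq_top.mpr (by simp)]
    rfl
  · have h1 : ((algebraMap ℂ (modFunAlgG Γ) a : modFunAlgG Γ) : ℍ → ℂ) = fun _ => a := rfl
    rw [ordPt, h1, ordAt_const ha]
    rfl

/-- `J` as an element of `modFunAlgG Γ`. -/
def es1rcptJ : modFunAlgG Γ := ⟨Jfun, es1rcpt_isModFunG_Jfun Γ⟩

@[simp] theorem es1rcptJ_coe : ((es1rcptJ Γ : modFunAlgG Γ) : ℍ → ℂ) = Jfun := rfl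

/-- `J - c` as an element of `modFunAlgG Γ`. -/
def es1rcptJSub (c : ℂ) : modFunAlgG Γ :=
  es1rcptJ Γ - algebraMap ℂ (modFunAlgG Γ) c

theorem es1rcptJSub_apply (c : ℂ) (z : ℍ) : (es1rcptJSub Γ c : ℍ → ℂ) z = Jfun z - c := rfl

theorem es1rcptJSub_ne_zero (c : ℂ) : es1rcptJSub Γ c ≠ 0 := by
  intro h
  obtain ⟨z, hz⟩ := Jfun_surjective (c + 1)
  have h1 := congrFun (congrArg Subtype.val h) z
  rw [es1rcptJSub_apply, hz] at h1
  simp at h1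

theorem es1rcpt_ordPt_jSub_pos (τ : ℍ) : 0 < ordPt τ (es1rcptJSub Γ (Jfun τ) : ℍ → ℂ) := by
  have hne : ordAt τ (es1rcptJSub Γ (Jfun τ) : ℍ → ℂ) ≠ 0 := by
    rw [ordAt, Ne, analyticOrderAt_eq_zero]
    push Not
    refine ⟨ordAt_analyticAt (es1rcpt_mdiff Γ _) τ, ?_⟩
    simp [es1rcptJSub_apply]
  have h2 := es1rcpt_coe_ordPt τ (es1rcptJSub_ne_zero Γ (Jfun τ))
  rw [ordPt]
  have h3 : (ordAt τ (es1rcptJSub Γ (Jfun τ) : ℍ → ℂ)).toNat ≠ 0 := by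
    intro h0
    rw [h0] at h2
    exact hne h2.symm
  exact_mod_cast Nat.pos_of_ne_zero h3

section Place

variable (F : Type*) [Field F] [Algebra ℂ F] [Algebra (modFunAlgG Γ) F]
  [IsScalarTower ℂ (modFunAlgG Γ) F] [IsFractionRing (modFunAlgG Γ) F]

/-- The valuation of `F` given by the order at `τ`. -/
def es1rcptVal (τ : ℍ) : Valuation F ℤᵐ⁰ :=
  ordFrac F (fun f : modFunAlgG Γ => ordPt τ (f : ℍ → ℂ)) (es1rcpt_isOrdFun_ordPt Γ τ)

/-- The place of `F` at `τ`. -/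
theorem es1rcpt_exists_place (τ : ℍ) :
    ∃ (w : Place ℂ F) (e : ℕ), 0 < e ∧
      w.toValuationSubring = (es1rcptVal Γ F τ).valuationSubring ∧
      ∀ f : modFunAlgG Γ, f ≠ 0 →
        ordPt τ (f : ℍ → ℂ) = (e : ℤ) * w.ord (algebraMap (modFunAlgG Γ) F f) :=
  exists_place_of_ordFun (K := ℂ) F (fun f : modFunAlgG Γ => ordPt τ (f : ℍ → ℂ))
    (es1rcpt_isOrdFun_ordPt Γ τ) (fun a _ => (es1rcpt_ordPt_algebraMap Γ τ a).ge)
    ⟨es1rcptJSub Γ (Jfun τ), es1rcptJSub_ne_zero Γ _, es1rcpt_ordPt_jSub_pos Γ τ⟩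

end Place

/-- **RC-pt.** -/
theorem stmtPtG (F : Type) [Field F] [Algebra ℂ F] [Algebra (modFunAlgG Γ) F]
    [IsScalarTower ℂ (modFunAlgG Γ) F] [IsFractionRing (modFunAlgG Γ) F] : StmtPtG Γ F := by
  intro τ
  obtain ⟨w, e, he, -, h⟩ := es1rcpt_exists_place Γ F τ
  exact ⟨w, e, he, h⟩

end Fermat.Agent.ES1
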