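/-
ES₁ / G1, piece A3 consumer for a GENERIC `Γ` (port of helper83's ES/RC/EisCharPlace.lean): `u_χ = (E₁₂^χ / Δ)^p ∈ U_ℂ`.

From helper8's (RC)(ii) statements `StmtAll`, `StmtPtExact`, `StmtCuspExact` (places of
`F = Frac (modFunAlgG Γ)` are the analytic orders at points / cusps, with exact ramification):
for every place `v` of `F / ℂ`, `p ∣ v.ord u_χ`.

Contents:
* `eis_isModFun_smul`          : a modular function for `Γ` is `Γ`-invariant;
* `eis_modFun_comp_isPerG`, `eis_modFun_comp_meromorphicAtG`, `eis_modFun_comp_order_ne_topG` :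
  `f ∘ g` at the cusp `g∞`, in `q_h`;
* `eis_cuspFn_change_period`   : `ord_{q_{hk}} = k · ord_{q_h}`;
* `eis_ordCusp_mul_periodG`     : `ordCusp h g f * h' = ordCusp h' g f * h`;
* `eis_place_ord_eq_of_prop`   : two places with proportional orders on a ring of fractions
  have equal orders;
* `uChiG`, `uChi_dvd_ordG`       : the main statement.
-/
import Fermat.Agent.ES.RC.EisCharPlace
import Fermat.Agent.ES1.EisCharCuspG
import Fermat.Agent.ES1.EisCharModFunG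
import Fermat.Agent.ES1.RCPt

set_option autoImplicit false
set_option linter.unusedSectionVars false

open EisensteinSeries UpperHalfPlane ModularForm CongruenceSubgroup Matrix Filter Topology
open scoped MatrixGroups Manifold

noncomputable section

namespace Fermat.Agent.ES1

open Fermat.Agent.ES

open Fermat.Agent.S23 Fermat.Agent.S24 Fermat.Agent.S28 Fermat.Agent.ES.RC AlgebraicCurve

local notation "Δ" => ModularForm.discriminant

variable {Γ : Subgroup SL(2, ℤ)} [Γ.FiniteIndex]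

/-! ### Modular functions: invariance and behaviour at the cusps -/

/-- the numerator of `f ∘ g` at the cusp `g∞` is holomorphic and bounded at `i∞`. -/
theorem eis_modFun_numG {f : ℍ → ℂ} {m : ℕ}
    (hm : IsMF (gGL Γ) (12 * (m : ℤ)) (fun z => f z * Δ z ^ m)) (g : SL(2, ℤ)) :
    MDiff (fun z => f (g • z) * Δ z ^ m) ∧
      IsBoundedAtImInfty (fun z => f (g • z) * Δ z ^ m) := by
  obtain ⟨Φ, hΦ⟩ := hm
  have hfun : (fun z => f (g • z) * Δ z ^ m) = (⇑Φ : ℍ → ℂ) ∣[(12 * (m : ℤ))] g := by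
    funext z
    rw [hΦ, eis_slash_mul_disc_pow]
  rw [hfun]
  refine ⟨?_, ?_⟩
  · rw [SL_slash]
    exact Φ.holo'.slash _ _
  · exact ModularFormClass.bdd_at_infty_slash Φ g

/-- `f ∘ g` is `h`-periodic for a period `h` of the cusp `g∞`. -/
theorem eis_modFun_comp_isPerG {f : ℍ → ℂ} (hf : IsModFunG Γ f) {g : SL(2, ℤ)} {h : ℕ}
    (hh : IsCuspPeriodG Γ h g) : IsPer h (fun z => f (g • z)) := by
  intro z
  have h1 := hf.comp_smul hh.2 (g • z)
  show f (g • (((h : ℕ) : ℝ) +ᵥ z)) = f (g • z)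
  rw [← h1]
  congr 1
  rw [← mul_smul, inv_mul_cancel_right, mul_smul]
  congr 1
  have := modular_T_zpow_smul z (h : ℤ)
  rw [zpow_natCast] at this
  rw [this]
  push_cast
  rfl

/-- **Meromorphy of a modular function at the cusp `g∞`** (in `q_h`). -/
theorem eis_modFun_comp_meromorphicAtG {f : ℍ → ℂ} (hf : IsModFunG Γ f)
    {g : SL(2, ℤ)} {h : ℕ} (hh : IsCuspPeriodG Γ h g) :
    MeromorphicAt (cuspFn h (fun z => f (g • z))) 0 := by
  have hper := eis_modFun_comp_isPerG hf hh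
  obtain ⟨m, hm⟩ := hf
  obtain ⟨h1, h2⟩ := eis_modFun_numG hm g
  have hpn : IsPer h (fun z => f (g • z) * Δ z ^ m) := by
    intro z
    have a := hper z
    have b := eis_isPer_disc_pow h m z
    simp only at a b ⊢
    rw [a, b]
  rw [eis_cuspFn_modFun_comp f m g h]
  exact (eis_meromorphicAt_cuspFn hh.1 h1 hpn h2).div
    (eis_meromorphicAt_cuspFn hh.1 (eis_mdiff_disc_pow m) (eis_isPer_disc_pow h m)
      (eis_bounded_disc_pow m))

/-- the order of a nonzero modular function at a cusp is finite. -/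
theorem eis_modFun_comp_order_ne_topG {f : ℍ → ℂ} (hf : IsModFunG Γ f) (hf0 : f ≠ 0)
    {g : SL(2, ℤ)} {h : ℕ} (hh : IsCuspPeriodG Γ h g) :
    meromorphicOrderAt (cuspFn h (fun z => f (g • z))) 0 ≠ ⊤ := by
  have hper := eis_modFun_comp_isPerG hf hh
  have hmd : MDiff (fun z => f (g • z)) := mdiff_comp_SL (hf.mdiff) g
  refine eis_meromorphicOrderAt_cuspFn_ne_top hh.1 hmd hper ?_
  intro h0
  apply hf0
  funext z
  have := congrFun h0 (g⁻¹ • z)
  simpa using this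

/-! ### Change of period -/

/-- **Comparison of two periods**: `ordCusp h g f * h' = ordCusp h' g f * h`. -/
theorem eis_ordCusp_mul_periodG {f : ℍ → ℂ} (hf : IsModFunG Γ f) (hf0 : f ≠ 0)
    {g : SL(2, ℤ)} {h h' : ℕ} (hh : IsCuspPeriodG Γ h g) (hh' : IsCuspPeriodG Γ h' g) :
    ordCusp h g f * (h' : ℤ) = ordCusp h' g f * (h : ℤ) := by
  have e1 := eis_cuspFn_change_period hh.1 hh'.1 (eis_modFun_comp_isPerG hf hh)
    (eis_modFun_comp_meromorphicAtG hf hh)
  have e2 := eis_cuspFn_change_period hh'.1 hh.1 (eis_modFun_comp_isPerG hf hh')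
    (eis_modFun_comp_meromorphicAtG hf hh')
  rw [Nat.mul_comm h' h] at e2
  rw [e1] at e2
  obtain ⟨a, ha⟩ := WithTop.ne_top_iff_exists.1 (eis_modFun_comp_order_ne_topG hf hf0 hh)
  obtain ⟨b, hb⟩ := WithTop.ne_top_iff_exists.1 (eis_modFun_comp_order_ne_topG hf hf0 hh')
  unfold ordCusp
  rw [← ha, ← hb] at e2 ⊢
  have e3 : ((a * (h' : ℤ) : ℤ) : WithTop ℤ) = ((b * (h : ℤ) : ℤ) : WithTop ℤ) := by
    push_cast
    exact e2
  have e4 := WithTop.coe_injective e3
  simpa using e4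

/-! ### Places with proportional orders -/

/-! ### The main statement: `u_χ ∈ U_ℂ` -/

section Main

variable [IsEisLevel Γ] (χ : Γ →* ℂˣ)

/-- `u_χ = hChiG χ ^ p` as an element of `modFunAlgG Γ`. -/
def uChiG {p : ℕ} (hp : p ≠ 0) (hχp : ∀ γ : Γ, χ γ ^ p = 1)
    (hpar : ∀ γ : Γ, IsPar γ → χ γ = 1) : modFunAlgG Γ :=
  ⟨fun z => hChiG χ z ^ p,
    isModFun_hChi_powG χ (eis_norm_eq_one_of_powG χ hp hχp) hpar p hχp⟩

lemma uChi_coeG {p : ℕ} (hp : p ≠ 0) (hχp : ∀ γ : Γ, χ γ ^ p = 1)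
    (hpar : ∀ γ : Γ, IsPar γ → χ γ = 1) :
    ((uChiG χ hp hχp hpar : modFunAlgG Γ) : ℍ → ℂ) = fun z => hChiG χ z ^ p := rfl

lemma uChi_ne_zeroG {p : ℕ} (hp : p ≠ 0) (hχp : ∀ γ : Γ, χ γ ^ p = 1)
    (hpar : ∀ γ : Γ, IsPar γ → χ γ = 1) : uChiG χ hp hχp hpar ≠ 0 := by
  intro h
  obtain ⟨z, hz⟩ := hChi_ne_zeroG χ (eis_norm_eq_one_of_powG χ hp hχp) hpar
  have h1 := congrFun (congrArg Subtype.val h) z
  rw [uChi_coeG] at h1
  exact pow_ne_zero p hz h1

/-- **`u_χ ∈ U_ℂ`**: at every place `v` of `F = Frac (modFunAlgG Γ)` over `ℂ`, the order of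
`u_χ = (E₁₂^χ / Δ)^p` is divisible by `p`.  Inputs: helper8's (RC)(ii) statements, and the
triviality of `χ` on elliptic stabilisers (automatic when `p` is prime to `6`). -/
theorem uChi_dvd_ordG (F : Type) [Field F] [Algebra ℂ F] [Algebra (modFunAlgG Γ) F]
    [IsFractionRing (modFunAlgG Γ) F]
    (hAll : StmtAllG Γ F) (hPt : StmtPtExactG Γ F) (hCusp : StmtCuspExactG Γ F)
    {p : ℕ} (hp : p ≠ 0) (hχp : ∀ γ : Γ, χ γ ^ p = 1)
    (hpar : ∀ γ : Γ, IsPar γ → χ γ = 1)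
    (hell : ∀ (γ : Γ) (τ : ℍ), (γ : SL(2, ℤ)) • τ = τ → χ γ = 1)
    (v : Place ℂ F) :
    (p : ℤ) ∣ v.ord (algebraMap (modFunAlgG Γ) F (uChiG χ hp hχp hpar)) := by
  have hχ := eis_norm_eq_one_of_powG χ hp hχp
  have hu0 := uChi_ne_zeroG χ hp hχp hpar
  rcases hAll v with ⟨τ, e, he, hv⟩ | ⟨g, h, e, hh, he, hv⟩
  · -- a point of `ℍ`
    obtain ⟨v', e', ε, hε, hfix, hprim, hv'⟩ := hPt τ
    have he' : 0 < e' := by
      rcases Nat.eq_zero_or_pos e' with h0 | h0
      · exfalso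
        subst h0
        -- a primitive `0`-th root: impossible since `denom ^ 2` has finite order ... use `hv'`
        have h1 := hv' (es1rcptJSub Γ (Jfun τ)) (es1rcptJSub_ne_zero Γ _)
        have h2 := es1rcpt_ordPt_jSub_pos Γ τ
        rw [h1] at h2
        simp at h2
      · exact h0
    have hprop : ∀ f : modFunAlgG Γ, f ≠ 0 →
        (e : ℤ) * v.ord (algebraMap (modFunAlgG Γ) F f)
          = (e' : ℤ) * v'.ord (algebraMap (modFunAlgG Γ) F f) := fun f hf => by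
      rw [← hv f hf, ← hv' f hf]
    obtain ⟨-, hvv⟩ := eis_place_ord_eq_of_prop v v' he he' hprop
    rw [hvv]
    have h1 := hv' _ hu0
    rw [uChi_coeG] at h1
    have h2 : e' ∣ (ordAt τ (hChiG χ)).toNat :=
      hChi_dvd_ordAt_of_fixedG χ hχ hpar ⟨ε, hε⟩ hfix
        (by simpa [one_div] using hprim.inv) (hell ⟨ε, hε⟩ τ hfix)
    obtain ⟨m, hm⟩ := h2
    have hne : ordAt τ (hChiG χ) ≠ ⊤ :=
      ordAt_ne_top (hChi_mdiffG χ hχ) (hChi_ne_zero_funG χ hχ hpar) τ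
    obtain ⟨n, hn⟩ := ENat.ne_top_iff_exists.1 hne
    have h3 : ordPt τ (fun z => hChiG χ z ^ p) = (p : ℤ) * ((e' : ℤ) * m) := by
      unfold ordPt
      rw [ordAt_hChi_powG χ hχ]
      rw [← hn] at hm ⊢
      rw [ENat.toNat_natCast] at hm
      have : (p • (n : ℕ∞)).toNat = p * n := by
        rw [nsmul_eq_mul]
        have : ((p : ℕ∞) * (n : ℕ∞)) = ((p * n : ℕ) : ℕ∞) := by push_cast; rfl
        rw [this, ENat.toNat_natCast]
      rw [this, hm]
      push_cast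
      ring
    rw [h3] at h1
    have he'0 : (e' : ℤ) ≠ 0 := by exact_mod_cast he'.ne'
    refine ⟨m, ?_⟩
    have h4 : (e' : ℤ) * v'.ord (algebraMap (modFunAlgG Γ) F (uChiG χ hp hχp hpar))
        = (e' : ℤ) * ((p : ℤ) * m) := by
      rw [← h1]; ring
    exact mul_left_cancel₀ he'0 h4
  · -- a cusp
    obtain ⟨v', h', hh', hv'⟩ := hCusp g
    have hprop : ∀ f : modFunAlgG Γ, f ≠ 0 →
        ((e * h' : ℕ) : ℤ) * v.ord (algebraMap (modFunAlgG Γ) F f)
          = ((h : ℕ) : ℤ) * v'.ord (algebraMap (modFunAlgG Γ) F f) := fun f hf => by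
      have e1 := hv f hf
      have e2 := hv' f hf
      have e3 := eis_ordCusp_mul_periodG f.2 (es1rcpt_coe_ne_zero hf) hh hh'
      rw [e1, e2] at e3
      push_cast
      linear_combination e3
    obtain ⟨-, hvv⟩ := eis_place_ord_eq_of_prop v v' (Nat.mul_pos he hh'.1) hh.1 hprop
    rw [hvv, ← hv' _ hu0, uChi_coeG]
    obtain ⟨n, hn⟩ := hChi_pow_comp_order_eqG χ hχ hpar g hh'.1 (by
      have := hh'.2
      simpa using this) p
    unfold ordCusp
    rw [hn]
    exact ⟨n, rfl⟩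

/-- A character of `p`-power-torsion order with `p` prime to `6` is trivial on every element
with a fixed point in `ℍ`. -/
theorem eis_hell_of_coprimeG {p : ℕ} (hχp : ∀ γ : Γ, χ γ ^ p = 1)
    (hp6 : Nat.Coprime p 6) (γ : Γ) (τ : ℍ) (hfix : (γ : SL(2, ℤ)) • τ = τ) :
    χ γ = 1 := by
  have h12 : γ ^ 12 = 1 := by
    apply Subtype.ext
    rw [Subgroup.coe_pow, Subgroup.coe_one]
    exact pow_twelve_eq_one_of_fixed _ τ hfix
  have h1 : χ γ ^ 12 = 1 := by rw [← map_pow, h12, map_one]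
  have h3 : χ γ ^ Nat.gcd p 12 = 1 := pow_gcd_eq_one.mpr ⟨hχp γ, h1⟩
  have hcop : Nat.gcd p 12 = 1 := by
    have : Nat.Coprime p (2 * 6) := Nat.Coprime.mul_right (hp6.coprime_dvd_right (by norm_num)) hp6
    exact this
  rwa [hcop, pow_one] at h3

/-- **`u_χ ∈ U_ℂ` for `p` prime to `6`** (no condition at the elliptic points). -/
theorem uChi_dvd_ord_of_coprimeG (F : Type) [Field F] [Algebra ℂ F] [Algebra (modFunAlgG Γ) F]
    [IsFractionRing (modFunAlgG Γ) F]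
    (hAll : StmtAllG Γ F) (hPt : StmtPtExactG Γ F) (hCusp : StmtCuspExactG Γ F)
    {p : ℕ} (hp : p ≠ 0) (hp6 : Nat.Coprime p 6) (hχp : ∀ γ : Γ, χ γ ^ p = 1)
    (hpar : ∀ γ : Γ, IsPar γ → χ γ = 1) (v : Place ℂ F) :
    (p : ℤ) ∣ v.ord (algebraMap (modFunAlgG Γ) F (uChiG χ hp hχp hpar)) :=
  uChi_dvd_ordG χ F hAll hPt hCusp hp hχp hpar (eis_hell_of_coprimeG χ hχp hp6) v

end Main

end Fermat.Agent.ES1
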