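import Fermat.Agent.ES1.F2Series
import Fermat.Agent.ES1.Defs

/-!
# ES₁ / F2: the analytic weight `3` Eisenstein series `𝕐_λ`, `𝕐_a`

* `f2Y M lam` (`lam : Fin 2 → ZMod M` a functional on `(ℤ/M)²`):
  `𝕐_λ(z) = c⁻¹ · ∑_{v ∈ ℤ²} w(λ(v)) (v₀ z + v₁)⁻³`, `w = 1_{1} - 1_{-1}`, `c = 2·(-2πi)³/2!`.
  Holomorphic, `𝕐_λ ∣[3] γ = 𝕐_{γ·λ}` for all `γ ∈ SL(2,ℤ)` (`f2Act`), every translate bounded
  at `i∞`.
* `f2Ya M a` (`a : ZMod M`): `𝕐_a(z) = c⁻¹ · ∑_{v} (1_{v₀ ≡ a} - 1_{v₀ ≡ -a}) (v₀ z + v₁)⁻³`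
  `= ∑_{n ≥ 1} eisYCoeff M a n · qⁿ`; `𝕐_a ∣[3] γ = 𝕐_{a·γ₀₀}` for `γ ∈ Γ₀(M)`;
  `𝕐_a = 𝕐_λ` for `λ = (a⁻¹, 0)`, `a` a unit.
* `f2Form M a : ModularForm (Gamma1 M) 3` with `q`-expansion `eisYZ M a`.
-/

set_option autoImplicit false

open EisensteinSeries UpperHalfPlane ModularForm CongruenceSubgroup Matrix Filter Topology
open Fermat.Agent.ES Fermat.Agent.S48
open scoped MatrixGroups Manifold Real

noncomputable section

namespace Fermat.Agent.ES1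

variable (M : ℕ)

/-! ## Periodic coefficient functions -/

/-- `κ` only depends on `v` modulo `M` -/
def F2Per (κ : (Fin 2 → ℤ) → ℂ) : Prop :=
  ∀ v v' : Fin 2 → ℤ, (∀ i, ((v i : ℤ) : ZMod M) = ((v' i : ℤ) : ZMod M)) → κ v = κ v'

variable {M}

theorem F2Per.vecMul {κ : (Fin 2 → ℤ) → ℂ} (h : F2Per M κ) (A : Matrix (Fin 2) (Fin 2) ℤ) :
    F2Per M (fun v => κ (v ᵥ* A)) := by
  intro v v' hv
  refine h _ _ fun i => ?_
  simp only [Matrix.vecMul, dotProduct, Fin.sum_univ_two]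
  push_cast
  rw [hv 0, hv 1]

theorem f2_slash_T_vecMul {κ : (Fin 2 → ℤ) → ℂ} (h : F2Per M κ) (v : Fin 2 → ℤ) :
    κ (v ᵥ* (((ModularGroup.T ^ (M : ℤ))⁻¹ : SL(2, ℤ)) : Matrix (Fin 2) (Fin 2) ℤ)) = κ v := by
  refine h _ _ fun i => ?_
  rw [← _root_.zpow_neg, ModularGroup.coe_T_zpow]
  fin_cases i <;>
    simp [Matrix.vecMul, dotProduct, Fin.sum_univ_two]

/-- a periodic bounded series is bounded at `i∞`, as are all its translates -/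
theorem f2_isBoundedAtImInfty [NeZero M] {κ : (Fin 2 → ℤ) → ℂ} {C : ℝ} (hκ : ∀ v, ‖κ v‖ ≤ C)
    (h : F2Per M κ) (δ : SL(2, ℤ)) : IsBoundedAtImInfty (eisC κ 3 ∣[(3 : ℤ)] δ) := by
  rw [eisC_slash]
  have h' := h.vecMul ((δ⁻¹ : SL(2, ℤ)) : Matrix (Fin 2) (Fin 2) ℤ)
  refine eisC_isBoundedAtImInfty (C := C) (fun v => hκ _) (le_refl _)
    (Nat.pos_of_ne_zero (NeZero.ne M)) ?_
  intro z
  have h1 := eis_slash_T_zpow_apply
    (eisC (fun v => κ (v ᵥ* ((δ⁻¹ : SL(2, ℤ)) : Matrix (Fin 2) (Fin 2) ℤ))) 3) 3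
    (M : ℤ) z
  rw [show (((M : ℤ) : ℝ)) = (M : ℝ) by simp] at h1
  rw [← h1, eisC_slash]
  congr 2
  funext v
  exact f2_slash_T_vecMul h' v

variable (M)

/-! ## The weights -/

/-- the normalising constant `2 (-2πi)³ / 2!` -/
def f2Const : ℂ := eisOddConst 3

theorem f2Const_ne_zero : f2Const ≠ 0 := eisOddConst_ne_zero 3

/-- the odd indicator of `{a, -a} ⊂ ℤ/M` -/
def f2Wa (a x : ZMod M) : ℂ := (if x = a then 1 else 0) - (if x = -a then 1 else 0)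

theorem f2Wa_neg (a x : ZMod M) : f2Wa M a (-x) = -f2Wa M a x := by
  unfold f2Wa
  have h1 : (-x = a) ↔ (x = -a) := neg_eq_iff_eq_neg
  have h2 : (-x = -a) ↔ (x = a) := neg_inj
  simp only [h1, h2]
  ring

theorem norm_f2Wa_le (a x : ZMod M) : ‖f2Wa M a x‖ ≤ 1 := by
  unfold f2Wa
  split_ifs <;> simp

/-- the value of the functional `λ` at `v` -/
def f2Lam (lam : Fin 2 → ZMod M) (v : Fin 2 → ℤ) : ZMod M :=
  lam 0 * ((v 0 : ℤ) : ZMod M) + lam 1 * ((v 1 : ℤ) : ZMod M)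

/-- the coefficient function of `𝕐_λ` (normalised) -/
def f2Kap (lam : Fin 2 → ZMod M) (v : Fin 2 → ℤ) : ℂ :=
  f2Const⁻¹ * f2Wa M 1 (f2Lam M lam v)

/-- the coefficient function of `𝕐_a` (normalised) -/
def f2KapA (a : ZMod M) (v : Fin 2 → ℤ) : ℂ :=
  f2Const⁻¹ * f2KapW (f2Wa M a) v

theorem norm_f2Kap_le (lam : Fin 2 → ZMod M) (v : Fin 2 → ℤ) :
    ‖f2Kap M lam v‖ ≤ ‖f2Const⁻¹‖ := by
  rw [f2Kap, norm_mul]
  exact mul_le_of_le_one_right (norm_nonneg _) (norm_f2Wa_le M _ _)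

theorem norm_f2KapA_le (a : ZMod M) (v : Fin 2 → ℤ) : ‖f2KapA M a v‖ ≤ ‖f2Const⁻¹‖ := by
  rw [f2KapA, norm_mul]
  exact mul_le_of_le_one_right (norm_nonneg _) (norm_f2Wa_le M _ _)

theorem f2Per_f2Kap (lam : Fin 2 → ZMod M) : F2Per M (f2Kap M lam) := by
  intro v v' hv
  unfold f2Kap f2Lam
  rw [hv 0, hv 1]

theorem f2Per_f2KapA (a : ZMod M) : F2Per M (f2KapA M a) := by
  intro v v' hv
  unfold f2KapA f2KapW
  rw [hv 0]

/-! ## The functions -/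

/-- `𝕐_λ` -/
def f2Y (lam : Fin 2 → ZMod M) : ℍ → ℂ := eisC (f2Kap M lam) 3

/-- `𝕐_a` -/
def f2Ya (a : ZMod M) : ℍ → ℂ := eisC (f2KapA M a) 3

theorem f2Y_mdiff (lam : Fin 2 → ZMod M) : MDiff (f2Y M lam) :=
  eisC_mdiff (norm_f2Kap_le M lam) (le_refl _)

theorem f2Ya_mdiff (a : ZMod M) : MDiff (f2Ya M a) :=
  eisC_mdiff (norm_f2KapA_le M a) (le_refl _)

/-- the action of `SL(2,ℤ)` on functionals: `(γ·λ)(v) = λ(v γ⁻¹)` -/
def f2Act (A : SL(2, ℤ)) (lam : Fin 2 → ZMod M) : Fin 2 → ZMod M :=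
  ![((A 1 1 : ℤ) : ZMod M) * lam 0 - ((A 0 1 : ℤ) : ZMod M) * lam 1,
    -((A 1 0 : ℤ) : ZMod M) * lam 0 + ((A 0 0 : ℤ) : ZMod M) * lam 1]

theorem f2Lam_vecMul_inv (A : SL(2, ℤ)) (lam : Fin 2 → ZMod M) (v : Fin 2 → ℤ) :
    f2Lam M lam (v ᵥ* ((A⁻¹ : SL(2, ℤ)) : Matrix (Fin 2) (Fin 2) ℤ)) =
      f2Lam M (f2Act M A lam) v := by
  rw [Matrix.SpecialLinearGroup.coe_inv, Matrix.adjugate_fin_two]
  simp only [f2Lam, f2Act, Matrix.vecMul, dotProduct, Fin.sum_univ_two, Matrix.of_apply,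
    Matrix.cons_val_zero, Matrix.cons_val_one]
  push_cast
  ring

/-- `𝕐_λ ∣[3] γ = 𝕐_{γ·λ}` for all `γ ∈ SL(2,ℤ)` -/
theorem f2Y_slash (lam : Fin 2 → ZMod M) (A : SL(2, ℤ)) :
    f2Y M lam ∣[(3 : ℤ)] A = f2Y M (f2Act M A lam) := by
  unfold f2Y
  rw [eisC_slash]
  congr 1
  funext v
  unfold f2Kap
  rw [f2Lam_vecMul_inv]

theorem f2Y_slash_isBoundedAtImInfty [NeZero M] (lam : Fin 2 → ZMod M) (δ : SL(2, ℤ)) :
    IsBoundedAtImInfty (f2Y M lam ∣[(3 : ℤ)] δ) :=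
  f2_isBoundedAtImInfty (norm_f2Kap_le M lam) (f2Per_f2Kap M lam) δ

theorem f2Ya_slash_isBoundedAtImInfty [NeZero M] (a : ZMod M) (δ : SL(2, ℤ)) :
    IsBoundedAtImInfty (f2Ya M a ∣[(3 : ℤ)] δ) :=
  f2_isBoundedAtImInfty (norm_f2KapA_le M a) (f2Per_f2KapA M a) δ

/-- `𝕐_a = 𝕐_λ` for `λ = (a⁻¹, 0)` -/
theorem f2Ya_eq_f2Y (a : (ZMod M)ˣ) :
    f2Ya M (a : ZMod M) = f2Y M ![((a⁻¹ : (ZMod M)ˣ) : ZMod M), 0] := by
  unfold f2Ya f2Y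
  congr 1
  funext v
  unfold f2KapA f2Kap f2KapW f2Lam f2Wa
  simp only [Matrix.cons_val_zero, Matrix.cons_val_one, zero_mul, add_zero]
  have h1 : ∀ x : ZMod M, (((a⁻¹ : (ZMod M)ˣ) : ZMod M) * x = 1) ↔ (x = (a : ZMod M)) := by
    intro x
    constructor
    · intro h
      have := congrArg (fun y => (a : ZMod M) * y) h
      simpa [← mul_assoc] using this
    · rintro rfl
      simp
  have h2 : ∀ x : ZMod M, (((a⁻¹ : (ZMod M)ˣ) : ZMod M) * x = -1) ↔ (x = -(a : ZMod M)) := by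
    intro x
    constructor
    · intro h
      have := congrArg (fun y => (a : ZMod M) * y) h
      simpa [← mul_assoc] using this
    · rintro rfl
      simp
  simp only [h1, h2]

/-- `𝕐_a ∣[3] γ = 𝕐_{a·γ₀₀}` for `γ ∈ Γ₀(M)` -/
theorem f2Ya_slash (a : ZMod M) (A : SL(2, ℤ)) (hA : A ∈ Gamma0 M) :
    f2Ya M a ∣[(3 : ℤ)] A = f2Ya M (a * ((A 0 0 : ℤ) : ZMod M)) := by
  have hA' : ((A 1 0 : ℤ) : ZMod M) = 0 := Gamma0_mem.mp hA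
  have hdet : ((A 0 0 : ℤ) : ZMod M) * ((A 1 1 : ℤ) : ZMod M) = 1 := by
    have h := A.2
    rw [Matrix.det_fin_two] at h
    have h2 : (((A 0 0 * A 1 1 - A 0 1 * A 1 0 : ℤ)) : ZMod M) = 1 := by
      have h3 : (A 0 0 * A 1 1 - A 0 1 * A 1 0 : ℤ) = 1 := h
      rw [h3, Int.cast_one]
    push_cast at h2
    rw [hA', mul_zero, sub_zero] at h2
    exact h2
  unfold f2Ya
  rw [eisC_slash]
  congr 1
  funext v
  unfold f2KapA f2KapW f2Wa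
  rw [Matrix.SpecialLinearGroup.coe_inv, Matrix.adjugate_fin_two]
  simp only [Matrix.vecMul, dotProduct, Fin.sum_univ_two, Matrix.of_apply,
    Matrix.cons_val_zero, Matrix.cons_val_one]
  push_cast
  rw [hA']
  have h1 : ∀ x b : ZMod M, (x * ((A 1 1 : ℤ) : ZMod M) + 0 = b) ↔
      (x = b * ((A 0 0 : ℤ) : ZMod M)) := by
    intro x b
    rw [add_zero]
    constructor
    · intro h
      rw [← h, mul_assoc, mul_comm ((A 1 1 : ℤ) : ZMod M), hdet, mul_one]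
    · intro h
      rw [h, mul_assoc, hdet, mul_one]
  simp only [mul_zero, neg_zero, h1, neg_mul]

end Fermat.Agent.ES1
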