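import Fermat.Agent.ES1.F2Q
import Fermat.Agent.S28.ModUnit
import Fermat.Agent.S23.ThetaMatrix

/-!
# ES₁ / F2 (part 4): the modular functions `G_λ = 𝕐_λ⁴ / Δ`

* `f2Ya_isHPB` : `𝕐_a` is holomorphic, `1`-periodic and bounded at `i∞`;
* `f2G M lam`, `f2Ga M a` : the weight `0` functions `𝕐_λ⁴/Δ`, `𝕐_a⁴/Δ`; holomorphic on `ℍ`;
* `f2G_smul` : `G_λ(γ z) = G_{γ·λ}(z)` for all `γ ∈ SL(2,ℤ)`;
  `f2Ga_smul` : `G_a(γ z) = G_{a·γ₀₀}(z)` for `γ ∈ Γ₀(M)`;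
* `f2Ga_isMerInf`, `laurentOf_f2Ga` : the Laurent expansion of `G_a` at `i∞` is the formal
  `gZ M a` of `ES1/Defs.lean` (with complex coefficients).
-/

set_option autoImplicit false

open EisensteinSeries UpperHalfPlane ModularForm CongruenceSubgroup Matrix Filter Topology
open Fermat.Agent.ES Fermat.Agent.S48 Fermat.Agent.S23 Fermat.Agent.S28 ModularCurve
open scoped MatrixGroups Manifold Real

noncomputable section

namespace Fermat.Agent.ES1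

local notation "Δ" => ModularForm.discriminant

variable (M : ℕ)

/-- `𝕐_a` is holomorphic, `1`-periodic and bounded at `i∞` -/
theorem f2Ya_isHPB [NeZero M] (a : ZMod M) : IsHPB (f2Ya M a) := by
  refine ⟨f2Ya_mdiff M a, ?_, ?_⟩
  · exact SlashInvariantFormClass.periodic_comp_ofComplex (f2Form M a)
      (eisOdd_one_mem_strictPeriods M)
  · have h := f2Ya_slash_isBoundedAtImInfty M a 1
    rwa [SlashAction.slash_one] at h

theorem f2Ya_qExpansion [NeZero M] (a : ZMod M) :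
    UpperHalfPlane.qExpansion 1 (f2Ya M a) = (eisYZ M a).map (Int.castRingHom ℂ) :=
  f2Form_qExpansion M a

/-- `G_λ = 𝕐_λ⁴ / Δ` -/
def f2G (lam : Fin 2 → ZMod M) : ℍ → ℂ := fun z => f2Y M lam z ^ 4 / Δ z

/-- `G_a = 𝕐_a⁴ / Δ` -/
def f2Ga (a : ZMod M) : ℍ → ℂ := fun z => f2Ya M a z ^ 4 / Δ z

theorem f2_mdiff_pow_div {f : ℍ → ℂ} (hf : MDiff f) : MDiff (fun z => f z ^ 4 / Δ z) := by
  have hΔ : MDiff (CuspForm.discriminant : ℍ → ℂ) :=
    ModularFormClass.holo CuspForm.discriminant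
  rw [UpperHalfPlane.mdifferentiable_iff] at hf hΔ ⊢
  have : ((fun z => f z ^ 4 / Δ z) ∘ ofComplex) =
      fun z => (f ∘ ofComplex) z ^ 4 /
        ((CuspForm.discriminant : ℍ → ℂ) ∘ ofComplex) z := by
    ext z; simp [CuspForm.coe_discriminant]
  rw [this]
  refine DifferentiableOn.div (hf.pow 4) hΔ (fun z _ => ?_)
  exact ModularForm.discriminant_ne_zero _

theorem f2G_mdiff (lam : Fin 2 → ZMod M) : MDiff (f2G M lam) :=
  f2_mdiff_pow_div (f2Y_mdiff M lam)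

theorem f2Ga_mdiff (a : ZMod M) : MDiff (f2Ga M a) :=
  f2_mdiff_pow_div (f2Ya_mdiff M a)

/-- pointwise form of a weight `3` slash identity -/
theorem f2_smul_of_slash {f g : ℍ → ℂ} (A : SL(2, ℤ)) (h : f ∣[(3 : ℤ)] A = g) (z : ℍ) :
    f (A • z) = denom A z ^ (3 : ℕ) * g z := by
  have h1 := congrFun h z
  rw [SL_slash_apply] at h1
  have hne : denom A z ≠ 0 := denom_ne_zero _ z
  have h2 : denom A z ^ (-(3 : ℤ)) * denom A z ^ (3 : ℕ) = 1 := by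
    rw [← zpow_natCast (denom A z) 3, ← zpow_add₀ hne]
    norm_num
  calc f (A • z) = (f (A • z) * denom A z ^ (-(3 : ℤ))) * denom A z ^ (3 : ℕ) := by
        rw [mul_assoc, h2, mul_one]
    _ = denom A z ^ (3 : ℕ) * g z := by rw [h1, mul_comm]

theorem f2_G_smul_of_slash {f g : ℍ → ℂ} (A : SL(2, ℤ)) (h : f ∣[(3 : ℤ)] A = g) (z : ℍ) :
    f (A • z) ^ 4 / Δ (A • z) = g z ^ 4 / Δ z := by
  rw [f2_smul_of_slash A h z, thetaMatrix_discriminant_smul A z]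
  have hne : denom A z ≠ 0 := denom_ne_zero _ z
  have hΔ : Δ z ≠ 0 := discriminant_ne_zero z
  field_simp

theorem f2Y_smul (lam : Fin 2 → ZMod M) (A : SL(2, ℤ)) (z : ℍ) :
    f2Y M lam (A • z) = denom A z ^ (3 : ℕ) * f2Y M (f2Act M A lam) z :=
  f2_smul_of_slash A (f2Y_slash M lam A) z

/-- `G_λ(γ z) = G_{γ·λ}(z)` for all `γ ∈ SL(2,ℤ)` -/
theorem f2G_smul (lam : Fin 2 → ZMod M) (A : SL(2, ℤ)) (z : ℍ) :
    f2G M lam (A • z) = f2G M (f2Act M A lam) z :=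
  f2_G_smul_of_slash A (f2Y_slash M lam A) z

/-- `G_a(γ z) = G_{a·γ₀₀}(z)` for `γ ∈ Γ₀(M)` -/
theorem f2Ga_smul (a : ZMod M) (A : SL(2, ℤ)) (hA : A ∈ Gamma0 M) (z : ℍ) :
    f2Ga M a (A • z) = f2Ga M (a * ((A 0 0 : ℤ) : ZMod M)) z :=
  f2_G_smul_of_slash A (f2Ya_slash M a A hA) z

theorem f2Ga_eq_f2G (a : (ZMod M)ˣ) :
    f2Ga M (a : ZMod M) = f2G M ![((a⁻¹ : (ZMod M)ˣ) : ZMod M), 0] := by
  unfold f2Ga f2G
  rw [f2Ya_eq_f2Y]

theorem f2Ga_mul_discriminant (a : ZMod M) (z : ℍ) :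
    f2Ga M a z * Δ z ^ 1 = f2Ya M a z ^ 4 := by
  rw [pow_one, f2Ga, div_mul_cancel₀ _ (discriminant_ne_zero z)]

theorem f2Ga_isHPB_mul [NeZero M] (a : ZMod M) :
    IsHPB (fun z => f2Ga M a z * Δ z ^ 1) := by
  have h := bridge_isHPB_pow (f2Ya_isHPB M a) 4
  convert h using 1
  funext z
  exact f2Ga_mul_discriminant M a z

/-- `G_a` is meromorphic at `i∞` -/
theorem f2Ga_isMerInf [NeZero M] (a : ZMod M) : IsMerInf (f2Ga M a) :=
  ⟨1, f2Ga_isHPB_mul M a⟩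

/-- the formal `G_{M,a}` with complex coefficients -/
theorem f2_coeffMap_gZ (a : ZMod M) :
    coeffMap (Int.castRingHom ℂ) (gZ M a) =
      HahnSeries.ofPowerSeries ℤ ℂ ((eisYZ M a).map (Int.castRingHom ℂ)) ^ 4 * deltaL⁻¹ := by
  rw [gZ, map_mul, coeffMap_ofPowerSeries, map_pow, map_pow, ← deltaInvS_complex]
  rfl

/-- **the Laurent expansion of `G_a` at `i∞` is the formal `G_{M,a}`** -/
theorem laurentOf_f2Ga [NeZero M] (a : ZMod M) :
    laurentOf (f2Ga M a) = coeffMap (Int.castRingHom ℂ) (gZ M a) := by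
  rw [laurentOf_eq (f2Ga_isHPB_mul M a), f2_coeffMap_gZ, pow_one]
  congr 1
  have h2 : (fun z => f2Ga M a z * Δ z ^ 1) = fun z => f2Ya M a z ^ 4 := by
    funext z
    exact f2Ga_mul_discriminant M a z
  rw [h2, bridge_ofPowerSeries_pow (f2Ya_isHPB M a), f2Ya_qExpansion]

end Fermat.Agent.ES1
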