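import Fermat.Agent.ES1.F2

/-!
# ES₁ / F2 (part 3): the `q`-expansion of `𝕐_a` and the modular form `f2Form M a`

* `f2Ya_hasSum` : `𝕐_a(τ) = ∑_{n} eisYCoeff M a n · qⁿ`, `q = e^{2πiτ}`;
* `f2Form M a : ModularForm (Gamma1 M) 3`, `f2Form_qExpansion`: its `q`-expansion is the formal
  series `eisYZ M a` of `ES1/Defs.lean`.
-/

set_option autoImplicit false

open EisensteinSeries UpperHalfPlane ModularForm CongruenceSubgroup Matrix Filter Topology
open Fermat.Agent.ES Fermat.Agent.S48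
open scoped MatrixGroups Manifold Real

noncomputable section

namespace Fermat.Agent.ES1

variable (M : ℕ)

/-- summability of the rearranged Lambert series -/
theorem f2_summable_divisor_sum (k : ℕ) {r : ℂ} (hr : ‖r‖ < 1) (a : ℕ → ℂ)
    (ha : ∀ n, ‖a n‖ ≤ 1) :
    Summable fun e : ℕ+ =>
      (∑ d ∈ (e : ℕ).divisors, a d * ((e / d : ℕ) : ℂ) ^ k) * r ^ (e : ℕ) := by
  have hs := eisOdd_summable_twist k hr a ha
  have hs' := sigmaAntidiagonalEquivProd.summable_iff.mpr hs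
  have h3 := hs'.sigma
  refine h3.congr fun n => ?_
  rw [tsum_fintype, Finset.univ_eq_attach]
  have h1 : ∀ x : Nat.divisorsAntidiagonal n,
      ((fun c : ℕ+ × ℕ+ => a c.1 * ((c.2 : ℂ) ^ k * r ^ (c.1 * c.2 : ℕ))) ∘
          sigmaAntidiagonalEquivProd) ⟨n, x⟩ =
      (fun y : ℕ × ℕ => a y.1 * ((y.2 : ℂ) ^ k * r ^ (y.1 * y.2))) x.1 := by
    intro x
    simp [sigmaAntidiagonalEquivProd, divisorsAntidiagonalFactors]
  simp_rw [h1]
  rw [(n : ℕ).divisorsAntidiagonal.sum_attach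
    (fun y : ℕ × ℕ => a y.1 * ((y.2 : ℂ) ^ k * r ^ (y.1 * y.2)))]
  rw [Nat.sum_divisorsAntidiagonal (fun x y => a x * ((y : ℂ) ^ k * r ^ (x * y)))]
  rw [Finset.sum_mul]
  refine Finset.sum_congr rfl fun i hi => ?_
  rw [Nat.mul_div_cancel' (Nat.dvd_of_mem_divisors hi)]
  ring

/-- the coefficients of `ES1/Defs.lean` -/
theorem f2_coeff_eq (a : ZMod M) (e : ℕ) :
    ∑ d ∈ e.divisors, f2Wa M a (d : ZMod M) * ((e / d : ℕ) : ℂ) ^ 2 = (eisYCoeff M a e : ℂ) := by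
  unfold eisYCoeff
  rw [← Nat.sum_div_divisors e (fun d => f2Wa M a (d : ZMod M) * ((e / d : ℕ) : ℂ) ^ 2)]
  push_cast
  refine Finset.sum_congr rfl fun m hm => ?_
  have hdvd := Nat.dvd_of_mem_divisors hm
  have hne : e ≠ 0 := (Nat.mem_divisors.mp hm).2
  rw [Nat.div_div_self hdvd hne]
  unfold f2Wa
  split_ifs <;> simp

theorem f2Ya_eq_smul (a : ZMod M) :
    f2Ya M a = f2Const⁻¹ • eisC (f2KapW (f2Wa M a)) 3 := by
  unfold f2Ya
  rw [← eisC_const_mul]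
  rfl

open Complex in
/-- the `q`-expansion of `𝕐_a` -/
theorem f2Ya_hasSum (a : ZMod M) (τ : ℍ) :
    HasSum (fun n : ℕ => (eisYCoeff M a n : ℂ) • Function.Periodic.qParam 1 τ ^ n)
      (f2Ya M a τ) := by
  have hq : Function.Periodic.qParam 1 (τ : ℂ) = cexp (2 * π * Complex.I * τ) := by
    simp [Function.Periodic.qParam]
  rw [f2Ya_eq_smul, Pi.smul_apply, smul_eq_mul,
    f2_eisC_tsum (f2Wa M a) (norm_f2Wa_le M a) (f2Wa_neg M a) τ]
  have hc : (2 : ℂ) * ((-2 * π * Complex.I) ^ 3 / ((3 - 1).factorial : ℕ)) = f2Const := rfl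
  rw [hc, ← mul_assoc, inv_mul_cancel₀ f2Const_ne_zero, one_mul, hq]
  have hr := norm_exp_two_pi_I_lt_one τ
  have hsum := f2_summable_divisor_sum (3 - 1) hr (fun n => f2Wa M a (n : ZMod M))
    (fun n => norm_f2Wa_le M a _)
  have hF : HasSum (fun e : ℕ+ => (eisYCoeff M a (e : ℕ) : ℂ) •
        cexp (2 * π * Complex.I * τ) ^ (e : ℕ))
      (∑' e : ℕ+, (∑ d ∈ (e : ℕ).divisors, f2Wa M a (d : ZMod M) *
        ((e / d : ℕ) : ℂ) ^ (3 - 1)) * cexp (2 * π * Complex.I * τ) ^ (e : ℕ)) := by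
    have h3 := hsum.hasSum
    refine h3.congr_fun ?_
    intro e
    rw [smul_eq_mul, ← f2_coeff_eq]
  refine (Function.Injective.hasSum_iff PNat.coe_injective ?_).mp hF
  intro x hx
  have hx0 : x = 0 := by
    by_contra h
    exact hx ⟨⟨x, Nat.pos_of_ne_zero h⟩, rfl⟩
  simp [hx0, eisYCoeff]

/-- `𝕐_a` as a modular form on `Γ₁(M)` -/
def f2Form [NeZero M] (a : ZMod M) : ModularForm (Gamma1 M) 3 where
  toFun := f2Ya M a
  slash_action_eq' := by
    rintro _ ⟨γ, hγ, rfl⟩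
    change f2Ya M a ∣[(3 : ℤ)] γ = _
    rw [f2Ya_slash M a γ (Gamma1_in_Gamma0 M hγ)]
    have h1 : ((γ 0 0 : ℤ) : ZMod M) = 1 := ((Gamma1_mem M γ).mp hγ).1
    rw [h1, mul_one]
  holo' := f2Ya_mdiff M a
  bdd_at_cusps' := by
    intro c hc
    rw [Subgroup.IsArithmetic.isCusp_iff_isCusp_SL2Z] at hc
    rw [OnePoint.isBoundedAt_iff_forall_SL2Z hc]
    intro δ _
    exact f2Ya_slash_isBoundedAtImInfty M a δ

@[simp] theorem f2Form_apply [NeZero M] (a : ZMod M) (z : ℍ) : f2Form M a z = f2Ya M a z := rfl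

theorem f2Form_coe [NeZero M] (a : ZMod M) : (⇑(f2Form M a) : ℍ → ℂ) = f2Ya M a := rfl

/-- the `q`-coefficients of `𝕐_a` -/
theorem f2Form_qCoeff [NeZero M] (a : ZMod M) (n : ℕ) :
    ModularFormClass.qCoeff (f2Form M a) n = (eisYCoeff M a n : ℂ) := by
  have := ModularFormClass.qExpansion_coeff_unique (f := f2Form M a)
    (c := fun n => (eisYCoeff M a n : ℂ)) one_pos (eisOdd_one_mem_strictPeriods M)
    (fun τ => f2Ya_hasSum M a τ) n
  exact this.symm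

/-- the `q`-expansion of `𝕐_a` is the formal series `Y_{M,a}` -/
theorem f2Form_qExpansion [NeZero M] (a : ZMod M) :
    UpperHalfPlane.qExpansion 1 (⇑(f2Form M a)) = (eisYZ M a).map (Int.castRingHom ℂ) := by
  ext n
  have h := f2Form_qCoeff M a n
  rw [ModularFormClass.qCoeff] at h
  rw [h, PowerSeries.coeff_map, eisYZ, PowerSeries.coeff_mk]
  rfl

end Fermat.Agent.ES1
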