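import Fermat.Agent.S48.EisOdd

/-!
# ES₁ / F2 (part 1): the `q`-expansion of an odd Eisenstein series of weight `3`

For an odd bounded weight `w : ℤ/M → ℂ` (`w (-x) = - w x`, `‖w x‖ ≤ 1`) the series
`∑_{(c,d) ∈ ℤ²} w(c) (c z + d)⁻³` equals
`2 · ((-2πi)³/2!) · ∑_{e ≥ 1} (∑_{d ∣ e} w(d) (e/d)²) qᵉ`, `q = e^{2πiz}`.
(Same proof as `S48/EisOdd.lean` `eisOddFun_tsum`, with a general weight.)
-/

set_option autoImplicit false

open EisensteinSeries UpperHalfPlane ModularForm CongruenceSubgroup Matrix Filter Topology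
open Fermat.Agent.ES Fermat.Agent.S48
open scoped MatrixGroups Manifold Real

noncomputable section

namespace Fermat.Agent.ES1

variable {M : ℕ}

/-- the coefficient `κ(c, d) = w(c)` -/
def f2KapW (w : ZMod M → ℂ) (v : Fin 2 → ℤ) : ℂ := w ((v 0 : ℤ) : ZMod M)

theorem f2_w_zero {w : ZMod M → ℂ} (hodd : ∀ x, w (-x) = -w x) : w 0 = 0 := by
  have h := hodd 0
  rw [neg_zero] at h
  have h2 : (2 : ℂ) * w 0 = 0 := by linear_combination h
  rcases mul_eq_zero.mp h2 with h3 | h3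
  · exact absurd h3 two_ne_zero
  · exact h3

open Complex Nat in
/-- the `q`-expansion, as an identity of functions -/
theorem f2_eisC_tsum (w : ZMod M → ℂ) (hw : ∀ x, ‖w x‖ ≤ 1) (hodd : ∀ x, w (-x) = -w x)
    (z : ℍ) :
    eisC (f2KapW w) 3 z = 2 * ((-2 * π * Complex.I) ^ 3 / (3 - 1)!) *
      ∑' e : ℕ+, (∑ d ∈ (e : ℕ).divisors, w (d : ZMod M) * ((e / d : ℕ) : ℂ) ^ (3 - 1)) *
        cexp (2 * π * Complex.I * z) ^ (e : ℕ) := by
  have hk' : (3 : ℤ) ≤ ((3 : ℕ) : ℤ) := le_refl _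
  have hsumv := eisC_summable (κ := f2KapW w) (C := 1) (fun v => hw _) (k := 3) (le_refl _) z
  have hsum : Summable fun x : ℤ × ℤ =>
      w ((x.1 : ℤ) : ZMod M) * eisSummand 3 ![x.1, x.2] z := by
    refine (finTwoArrowEquiv ℤ).summable_iff.mp (hsumv.congr fun v => ?_)
    simp [f2KapW, show ![v 0, v 1] = v from List.ofFn_inj.mp rfl]
  have hG : eisC (f2KapW w) 3 z = ∑' x : ℤ × ℤ,
      w ((x.1 : ℤ) : ZMod M) * eisSummand 3 ![x.1, x.2] z := by
    unfold eisC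
    rw [← (finTwoArrowEquiv ℤ).symm.tsum_eq]
    refine tsum_congr fun x => ?_
    simp [f2KapW]
  rw [hG, Summable.tsum_prod hsum]
  -- evenness in `c`
  have heven : Function.Even fun c : ℤ =>
      ∑' d : ℤ, w ((c : ℤ) : ZMod M) * eisSummand 3 ![c, d] z := by
    intro c
    simp only
    rw [← tsum_comp_neg (fun d : ℤ => w (((-c : ℤ) : ℤ) : ZMod M) * eisSummand 3 ![-c, d] z)]
    refine tsum_congr fun d => ?_
    have h1 : w (((-c : ℤ) : ℤ) : ZMod M) = -w ((c : ℤ) : ZMod M) := by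
      rw [Int.cast_neg, hodd]
    have h2 : eisSummand 3 ![-c, -d] z = -eisSummand 3 ![c, d] z := by
      simp only [eisSummand, Matrix.cons_val_zero, Matrix.cons_val_one, Int.cast_neg]
      have : (-(c : ℂ) * (z : ℂ) + -(d : ℂ)) = -1 * ((c : ℂ) * z + d) := by ring
      rw [this, mul_zpow]
      have h3 : ((-1 : ℂ)) ^ (-(3 : ℤ)) = -1 := by
        rw [_root_.zpow_neg]
        norm_num [zpow_ofNat]
      rw [h3]
      ring
    rw [h1, h2]
    ring
  rw [tsum_int_eq_zero_add_two_mul_tsum_pnat heven hsum.prod]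
  -- the term `c = 0` vanishes
  have h0 : (∑' d : ℤ, w ((0 : ℤ) : ZMod M) * eisSummand 3 ![0, d] z) = 0 := by
    rw [Int.cast_zero, f2_w_zero hodd]
    simp
  rw [h0, zero_add, nsmul_eq_mul, Nat.cast_ofNat, mul_assoc]
  congr 1
  -- the inner sums
  have H (b : ℕ+) := qExpansion_identity_pnat (k := 3 - 1) (by omega)
    ⟨b * z, by simpa using z.2⟩
  simp_rw [show 3 - 1 + 1 = 3 by omega, one_div] at H
  have hin : ∀ b : ℕ+, ∑' d : ℤ, w (((b : ℕ) : ℤ) : ZMod M) * eisSummand 3 ![((b : ℕ) : ℤ), d] z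
      = ((-2 * π * Complex.I) ^ 3 / (3 - 1)!) *
        ∑' n : ℕ+, w ((b : ℕ) : ZMod M) *
          (((n : ℕ) : ℂ) ^ (3 - 1) * cexp (2 * π * Complex.I * z) ^ ((b : ℕ) * (n : ℕ))) := by
    intro b
    have hb : ((((b : ℕ) : ℤ) : ZMod M)) = ((b : ℕ) : ZMod M) := by push_cast; rfl
    have h1 : ∑' d : ℤ, eisSummand 3 ![((b : ℕ) : ℤ), d] z
        = ∑' d : ℤ, ((((b : ℕ) : ℂ) * (z : ℂ) + d) ^ 3)⁻¹ := by
      refine tsum_congr fun d => ?_
      simp [eisSummand]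
    have h2 : ∑' n : ℕ+, ((n : ℕ) : ℂ) ^ (3 - 1) *
          cexp (2 * π * Complex.I * (((b : ℕ) : ℂ) * (z : ℂ))) ^ (n : ℕ)
        = ∑' n : ℕ+, ((n : ℕ) : ℂ) ^ (3 - 1) *
          cexp (2 * π * Complex.I * z) ^ ((b : ℕ) * (n : ℕ)) := by
      refine tsum_congr fun n => ?_
      congr 1
      rw [← Complex.exp_nat_mul, ← Complex.exp_nat_mul]
      congr 1
      push_cast
      ring
    rw [tsum_mul_left, tsum_mul_left, hb, h1, H b, h2]
    ring
  simp_rw [hin]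
  rw [tsum_mul_left]
  congr 1
  have := eisOdd_tsum_twist (3 - 1) (norm_exp_two_pi_I_lt_one z) (fun n => w (n : ZMod M))
    (fun n => hw _)
  simpa using this

end Fermat.Agent.ES1
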