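import Fermat.Agent.ES.HInputs

/-!
# ES₁, piece (H), part 2: the inputs of `Pic0.correspondence` for ANY homomorphism of function
fields of one variable over an algebraically closed field of characteristic `0`

`Es1hFF1 K F` : `F` is finite over `K(x)` for some transcendental `x : F`.  For `K` algebraically
closed of characteristic `0` and `φ : F →ₐ[K] F'` with `Es1hFF1 K F`, `Es1hFF1 K F'`:
principal divisors, residue fields `= K`, `φ` finite and integral, the fundamental identity and the
norm formula along `φ`.  (Generic glue over the ES₀ bricks `ES/HFinite`, `HPrincipal`, `Hb`.)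
-/

set_option autoImplicit false

noncomputable section

open AlgebraicCurve IntermediateField

namespace Fermat.Agent.ES1

open Fermat.Agent.S24 Fermat.Agent.ES.H

/-- `F` is a function field of one variable over `K`: finite over `K(x)`, `x` transcendental. -/
def Es1hFF1 (K F : Type*) [Field K] [Field F] [Algebra K F] : Prop :=
  ∃ x : F, Transcendental K x ∧ FiniteDimensional K⟮x⟯ F

variable {K F F' : Type*} [Field K] [Field F] [Field F'] [Algebra K F] [Algebra K F']

theorem Es1hFF1.intro (x : F) (hx : Transcendental K x) [h : FiniteDimensional K⟮x⟯ F] :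
    Es1hFF1 K F := ⟨x, hx, h⟩

/-- any transcendental element works -/
theorem Es1hFF1.finiteDimensional (h : Es1hFF1 K F) (g : F) (hg : Transcendental K g) :
    FiniteDimensional K⟮g⟯ F := by
  obtain ⟨x, hx, hfin⟩ := h
  exact pd_finiteDimensional_adjoin_of_transcendental x hx g hg

/-- every homomorphism into a function field of one variable is finite -/
theorem es1h_gen_finiteAlong (φ : F →ₐ[K] F') (h : Es1hFF1 K F) (h' : Es1hFF1 K F') :
    FiniteAlong K φ := by
  obtain ⟨x, hx, -⟩ := h
  obtain ⟨x', hx', hfin'⟩ := h'
  exact finiteAlong_of_transcendental φ x' hx' x hx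

/-- every homomorphism into a function field of one variable is integral -/
theorem es1h_gen_integral (φ : F →ₐ[K] F') (h : Es1hFF1 K F) (h' : Es1hFF1 K F') :
    φ.toRingHom.IsIntegral :=
  isIntegral_of_finiteAlong φ (es1h_gen_finiteAlong φ h h')

/-- every place has residue field `K` -/
theorem es1h_gen_residue_bijective [IsAlgClosed K] (h : Es1hFF1 K F) (v : Place K F) :
    Function.Bijective (algebraMap K v.ResidueField) := by
  obtain ⟨x, hx, hfin⟩ := h
  exact algebraMap_residueField_bijective x hx (Algebra.IsAlgebraic.of_finite _ _) v

variable [IsAlgClosed K] [CharZero K]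

/-- principal divisors exist and have degree `0` -/
theorem es1h_gen_hasPrincipalDivisors (h : Es1hFF1 K F) : HasPrincipalDivisors K F := by
  obtain ⟨x, hx, hfin⟩ := h
  exact hasPrincipalDivisors_of_transcendental x hx

/-- **the fundamental identity** along any homomorphism -/
theorem es1h_gen_fundamentalIdentityAlong (φ : F →ₐ[K] F') (h : Es1hFF1 K F)
    (h' : Es1hFF1 K F') :
    haveI := es1h_gen_hasPrincipalDivisors h'
    FundamentalIdentityAlong K φ (es1h_gen_integral φ h h') := by
  have hP := es1h_gen_hasPrincipalDivisors h'
  refine fundamentalIdentityAlong_of_sumRamificationInertia φ (es1h_gen_integral φ h h') ?_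
  let _ := algebraAlong φ
  have := isScalarTower_along φ
  have : FiniteDimensional F F' := es1h_gen_finiteAlong φ h h'
  exact sumRamificationInertia (es1h_gen_residue_bijective h) (es1h_gen_residue_bijective h')

/-- **the norm formula** along any homomorphism -/
theorem es1h_gen_normFormulaAlong (φ : F →ₐ[K] F') (h : Es1hFF1 K F) (h' : Es1hFF1 K F') :
    NormFormulaAlong K φ (es1h_gen_finiteAlong φ h h') := by
  let _ := algebraAlong φ
  have := isScalarTower_along φ
  have : FiniteDimensional F F' := es1h_gen_finiteAlong φ h h'
  exact pushforwardNormFormula (es1h_gen_residue_bijective h) (es1h_gen_residue_bijective h')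

end Fermat.Agent.ES1
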