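import Fermat.Agent.ES1.HMaps
import Fermat.Agent.ES1.HGen

/-!
# ES₁, piece (H): the Hecke operator `T_ℓ` on `JH L M H` and its inputs

* `Es1hFin L M H` : `fieldBar L M H` is finite over `ℚ̄(j)` (THE only modular input; it is
  delivered by the Realization of piece F4, exactly as `finiteDimensional_adjoin_jF` in ES₀);
* `Es1hFin.ff1`, `es1h_hasPrincipalDivisors`, `es1h_residue_bijective`;
* for every `ℚ̄`-homomorphism `φ : fieldBar L M H → fieldBar L' M' H'` (degeneracy maps `α`, `β`,
  diamond automorphisms, …): `es1h_finiteAlong`, `es1h_integral`,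
  `es1h_fundamentalIdentityAlong`, `es1h_normFormulaAlong`;
* `Es1hInputs L M H ℓ`, `es1hHecke L M H ℓ : JH L M H →+ JH L M H` (push-pull along `β`, `α`,
  the analogue of the prelude's `heckeOperatorAlong`), `es1h_inputs`, `es1hHecke_eq`.
-/

set_option autoImplicit false

noncomputable section

open AlgebraicCurve ModularCurve IntermediateField

namespace Fermat.Agent.ES1

open Fermat.Agent.S24

section Fin

variable (L M : ℕ) (H : Subgroup (ZMod M)ˣ)

/-- `j` is transcendental over `ℚ̄`. -/
theorem es1h_transcendental_J : Transcendental Kb (es1hJ L M H) := by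
  intro halg
  apply transcendental_jBar
  have := (isAlgebraic_algHom_iff (fieldBar L M H).val Subtype.val_injective).mpr halg
  exact this

/-- **Finiteness**: the function field of `X_H(L; M)` over `ℚ̄` is finite over `ℚ̄(j)`. -/
def Es1hFin : Prop := FiniteDimensional Kb⟮es1hJ L M H⟯ (fieldBar L M H)

variable {L M H}

theorem Es1hFin.ff1 (h : Es1hFin L M H) : Es1hFF1 Kb (fieldBar L M H) :=
  ⟨es1hJ L M H, es1h_transcendental_J L M H, h⟩

theorem es1hFin_of_ff1 (h : Es1hFF1 Kb (fieldBar L M H)) : Es1hFin L M H :=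
  h.finiteDimensional _ (es1h_transcendental_J L M H)

/-- principal divisors on `X_H(L; M)` -/
theorem es1h_hasPrincipalDivisors (h : Es1hFin L M H) :
    HasPrincipalDivisors Kb (fieldBar L M H) :=
  es1h_gen_hasPrincipalDivisors h.ff1

/-- every place of `X_H(L; M)` over `ℚ̄` has residue field `ℚ̄` -/
theorem es1h_residue_bijective (h : Es1hFin L M H) (v : Place Kb (fieldBar L M H)) :
    Function.Bijective (algebraMap Kb v.ResidueField) :=
  es1h_gen_residue_bijective h.ff1 v

variable {L' M' : ℕ} {H' : Subgroup (ZMod M')ˣ}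

/-- every `ℚ̄`-homomorphism between the function fields is finite -/
theorem es1h_finiteAlong (φ : fieldBar L M H →ₐ[Kb] fieldBar L' M' H') (h : Es1hFin L M H)
    (h' : Es1hFin L' M' H') : FiniteAlong Kb φ :=
  es1h_gen_finiteAlong φ h.ff1 h'.ff1

/-- every `ℚ̄`-homomorphism between the function fields is integral -/
theorem es1h_integral (φ : fieldBar L M H →ₐ[Kb] fieldBar L' M' H') (h : Es1hFin L M H)
    (h' : Es1hFin L' M' H') : φ.toRingHom.IsIntegral :=
  es1h_gen_integral φ h.ff1 h'.ff1

/-- the fundamental identity along every `ℚ̄`-homomorphism between the function fields -/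
theorem es1h_fundamentalIdentityAlong (φ : fieldBar L M H →ₐ[Kb] fieldBar L' M' H')
    (h : Es1hFin L M H) (h' : Es1hFin L' M' H') :
    haveI := es1h_hasPrincipalDivisors h'
    FundamentalIdentityAlong Kb φ (es1h_integral φ h h') :=
  es1h_gen_fundamentalIdentityAlong φ h.ff1 h'.ff1

/-- the norm formula along every `ℚ̄`-homomorphism between the function fields -/
theorem es1h_normFormulaAlong (φ : fieldBar L M H →ₐ[Kb] fieldBar L' M' H')
    (h : Es1hFin L M H) (h' : Es1hFin L' M' H') :
    NormFormulaAlong Kb φ (es1h_finiteAlong φ h h') :=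
  es1h_gen_normFormulaAlong φ h.ff1 h'.ff1

end Fin

section Hecke

variable (L M : ℕ) (H : Subgroup (ZMod M)ˣ) (ℓ : ℕ) [NeZero ℓ]

/-- the inputs of the push-pull correspondence `T_ℓ` (analogue of the prelude's
`ModularCurve.HeckeInputsAlong`) -/
def Es1hInputs : Prop :=
  ∃ (_ : (es1hAlpha L M H ℓ).toRingHom.IsIntegral)
    (hβ : (es1hBeta L M H ℓ).toRingHom.IsIntegral)
    (_ : HasPrincipalDivisors Kb (fieldBar (L * ℓ) M H))
    (hfin : FiniteAlong Kb (es1hAlpha L M H ℓ)),
    FundamentalIdentityAlong Kb (es1hBeta L M H ℓ) hβ ∧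
      NormFormulaAlong Kb (es1hAlpha L M H ℓ) hfin

open Classical in
/-- **The Hecke operator `T_ℓ` on `JH L M H`**: pull back along `β = (q ↦ q^ℓ)`, push forward
along the inclusion `α` (analogue of the prelude's `ModularCurve.heckeOperatorAlong`). -/
def es1hHecke : JH L M H →+ JH L M H :=
  if h : Es1hInputs L M H ℓ then
    haveI := h.snd.snd.fst
    Pic0.correspondence (es1hBeta L M H ℓ) (es1hAlpha L M H ℓ) h.snd.fst h.fst
      h.snd.snd.snd.snd.1 h.snd.snd.snd.fst h.snd.snd.snd.snd.2
  else 0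

variable {L M H ℓ}

theorem es1hHecke_eq (hα : (es1hAlpha L M H ℓ).toRingHom.IsIntegral)
    (hβ : (es1hBeta L M H ℓ).toRingHom.IsIntegral)
    [hP : HasPrincipalDivisors Kb (fieldBar (L * ℓ) M H)]
    (hFI : FundamentalIdentityAlong Kb (es1hBeta L M H ℓ) hβ)
    (hfin : FiniteAlong Kb (es1hAlpha L M H ℓ))
    (hN : NormFormulaAlong Kb (es1hAlpha L M H ℓ) hfin) :
    es1hHecke L M H ℓ =
      Pic0.correspondence (es1hBeta L M H ℓ) (es1hAlpha L M H ℓ) hβ hα hFI hfin hN := by
  have h : Es1hInputs L M H ℓ := ⟨hα, hβ, hP, hfin, hFI, hN⟩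
  rw [es1hHecke, dif_pos h]

theorem es1hHecke_of_not (h : ¬ Es1hInputs L M H ℓ) : es1hHecke L M H ℓ = 0 := by
  rw [es1hHecke, dif_neg h]

/-- **Piece (H)**: all inputs of `T_ℓ` on `JH L M H` hold, given finiteness over `ℚ̄(j)` at the
levels `L` and `L ℓ`. -/
theorem es1h_inputs (h : Es1hFin L M H) (h' : Es1hFin (L * ℓ) M H) : Es1hInputs L M H ℓ :=
  ⟨es1h_integral _ h h', es1h_integral _ h h', es1h_hasPrincipalDivisors h',
    es1h_finiteAlong _ h h', es1h_fundamentalIdentityAlong _ h h', es1h_normFormulaAlong _ h h'⟩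

/-- `T_ℓ` is the genuine push-pull correspondence. -/
theorem es1hHecke_eq_of_fin (h : Es1hFin L M H) (h' : Es1hFin (L * ℓ) M H) :
    haveI := es1h_hasPrincipalDivisors h'
    es1hHecke L M H ℓ =
      Pic0.correspondence (es1hBeta L M H ℓ) (es1hAlpha L M H ℓ) (es1h_integral _ h h')
        (es1h_integral _ h h') (es1h_fundamentalIdentityAlong _ h h')
        (es1h_finiteAlong _ h h') (es1h_normFormulaAlong _ h h') :=
  haveI := es1h_hasPrincipalDivisors h'
  es1hHecke_eq _ _ _ _ _

end Hecke

end Fermat.Agent.ES1
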