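import Mathlib
import Fermat.Prelude.Def_ModularCurve_LaurentCoeff

/-!
# ES₁ / F4, piece P5 (F4-FIN), generic part: finiteness descends along a constant field
extension

`k ⊆ C` fields, `K ⊆ k((q))`, `K' ⊆ C((q))` intermediate fields, `ι : K → K'` the coefficientwise
embedding, `x : K` transcendental over `k`.

* `es1r_fin_ld` : **linear disjointness, coefficientwise**: `k`-linearly independent Laurent
  series stay `C`-linearly independent after `coeffMap (algebraMap k C)`.
* `es1r_fin_monomial_indep`, `es1r_fin_indep_of_monomial` : `(y_i)` is linearly independent over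
  `k[x]` iff the family `(x^m y_i)` is linearly independent over `k` (`x` transcendental).
* `es1r_fin_linearIndependent` : `k(x)`-linearly independent families of `K` map to
  `C(ι x)`-linearly independent families of `K'`.
* `es1r_fin_descent` : `K'` finite over `C(ι x)` ⟹ `K` finite over `k(x)`, and
  `es1r_fin_finrank_le` : `[K : k(x)] ≤ [K' : C(ι x)]`.
-/

set_option autoImplicit false

noncomputable section

namespace Fermat.Agent.ES1

open ModularCurve IntermediateField Polynomial

section LD

variable {k C : Type*} [Field k] [Field C] [Algebra k C]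

/-- the coefficientwise scalar multiplication of `k((q))` is the one of the algebra structure -/
theorem es1r_fin_smul_eq (c : k) (z : LaurentSeries k) :
    c • z = algebraMap k (LaurentSeries k) c * z := by
  rw [algebraMap_laurentSeries_eq_single, ← HahnSeries.C_apply, HahnSeries.C_mul_eq_smul]

/-- **Linear disjointness, coefficientwise**, multiplicative form. -/
theorem es1r_fin_ld_core {ι : Type*} {y : ι → LaurentSeries k}
    (hy : ∀ (s : Finset ι) (c : ι → k),
      ∑ j ∈ s, algebraMap k (LaurentSeries k) (c j) * y j = 0 → ∀ j ∈ s, c j = 0)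
    (s : Finset ι) (g : ι → C)
    (hg : ∑ j ∈ s, algebraMap C (LaurentSeries C) (g j) * coeffMap (algebraMap k C) (y j) = 0) :
    ∀ j ∈ s, g j = 0 := by
  classical
  intro i hi
  rw [← Module.forall_dual_apply_eq_zero_iff k (g i)]
  intro l
  have h1 : ∑ j ∈ s, algebraMap k (LaurentSeries k) (l (g j)) * y j = 0 := by
    ext m
    have h2 := congrArg (fun z : LaurentSeries C => l (z.coeff m)) hg
    simp only [← es1r_fin_smul_eq, HahnSeries.coeff_sum, HahnSeries.coeff_smul, coeffMap_coeff,
      map_sum, HahnSeries.coeff_zero, map_zero] at h2 ⊢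
    rw [← h2]
    refine Finset.sum_congr rfl fun j _ => ?_
    rw [smul_eq_mul, smul_eq_mul,
      show g j * algebraMap k C ((y j).coeff m) = (y j).coeff m • g j by
        rw [Algebra.smul_def, mul_comm],
      map_smul, smul_eq_mul, mul_comm]
  exact hy s (fun j => l (g j)) h1 i hi

/-- **Linear disjointness, coefficientwise** (for the coefficientwise module structures). -/
theorem es1r_fin_ld {ι : Type*} {y : ι → LaurentSeries k} (hy : LinearIndependent k y) :
    LinearIndependent C (fun i => coeffMap (algebraMap k C) (y i)) := by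
  rw [linearIndependent_iff'] at hy ⊢
  intro s g hg
  refine es1r_fin_ld_core (y := y) (fun s c hc => hy s c ?_) s g ?_
  · simpa only [es1r_fin_smul_eq] using hc
  · simpa only [es1r_fin_smul_eq] using hg

/-- **Linear disjointness, coefficientwise** (for the module structures of the algebras). -/
theorem es1r_fin_ld' {ι : Type*} {y : ι → LaurentSeries k}
    (hy : @LinearIndependent ι k (LaurentSeries k) y _ _ Algebra.toModule) :
    @LinearIndependent ι C (LaurentSeries C) (fun i => coeffMap (algebraMap k C) (y i)) _ _
      Algebra.toModule := by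
  let _ : Module k (LaurentSeries k) := Algebra.toModule
  let _ : Module C (LaurentSeries C) := Algebra.toModule
  rw [linearIndependent_iff'] at hy ⊢
  intro s g hg
  refine es1r_fin_ld_core (y := y) (fun s c hc => hy s c ?_) s g ?_
  · simpa only [Algebra.smul_def] using hc
  · simpa only [Algebra.smul_def] using hg

end LD

section Monomial

variable {k F : Type*} [Field k] [Field F] [Algebra k F]

/-- if the family `(x^m y_i)` is linearly independent over `k`, then `(y_i)` is linearly
independent over `k[x]` -/
theorem es1r_fin_indep_of_monomial (x : F) {ι : Type*} {y : ι → F}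
    (h : LinearIndependent k (fun p : ι × ℕ => x ^ p.2 * y p.1)) :
    LinearIndependent (Algebra.adjoin k {x}) y := by
  classical
  rw [linearIndependent_iff']
  intro s g hg i hi
  have hR : ∀ j, ∃ R : k[X], aeval x R = (g j : F) := fun j => by
    have h1 : (g j : F) ∈ (aeval x : k[X] →ₐ[k] F).range := by
      rw [← Algebra.adjoin_singleton_eq_range_aeval]
      exact (g j).2
    exact h1
  choose R hR using hR
  set D : ℕ := (s.sup fun j => (R j).natDegree) + 1 with hD
  have hdeg : ∀ j ∈ s, (R j).natDegree < D := fun j hj =>
    Nat.lt_succ_of_le (Finset.le_sup (f := fun j => (R j).natDegree) hj)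
  have key : ∑ p ∈ s ×ˢ Finset.range D, (R p.1).coeff p.2 • (x ^ p.2 * y p.1) = 0 := by
    rw [Finset.sum_product, ← hg]
    refine Finset.sum_congr rfl fun j hj => ?_
    rw [show g j • y j = (g j : F) * y j from rfl, ← hR j,
      aeval_eq_sum_range' (hdeg j hj), Finset.sum_mul]
    refine Finset.sum_congr rfl fun m _ => ?_
    rw [smul_mul_assoc]
  have h0 := (linearIndependent_iff'.mp h) _ _ key
  have hRi : R i = 0 := by
    ext m
    rw [coeff_zero]
    by_cases hm : m < D
    · exact h0 (i, m) (Finset.mem_product.mpr ⟨hi, Finset.mem_range.mpr hm⟩)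
    · exact coeff_eq_zero_of_natDegree_lt (lt_of_lt_of_le (hdeg i hi) (not_lt.mp hm))
  apply Subtype.ext
  rw [← hR i, hRi]
  simp

/-- if `x` is transcendental and `(y_i)` is linearly independent over `k[x]`, then the family
`(x^m y_i)` is linearly independent over `k` -/
theorem es1r_fin_monomial_indep {x : F} (hx : Transcendental k x) {ι : Type*} {y : ι → F}
    (h : LinearIndependent (Algebra.adjoin k {x}) y) :
    LinearIndependent k (fun p : ι × ℕ => x ^ p.2 * y p.1) := by
  classical
  rw [linearIndependent_iff']
  intro t c hc p hp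
  set c' : ι × ℕ → k := fun q => if q ∈ t then c q else 0 with hc'
  have hc'q : ∀ q, c' q = if q ∈ t then c q else 0 := fun q => rfl
  set s : Finset ι := t.image Prod.fst with hs
  set D : ℕ := (t.sup Prod.snd) + 1 with hD
  have hsub : t ⊆ s ×ˢ Finset.range D := by
    intro q hq
    refine Finset.mem_product.mpr ⟨Finset.mem_image_of_mem _ hq, Finset.mem_range.mpr ?_⟩
    exact Nat.lt_succ_of_le (Finset.le_sup (f := Prod.snd) hq)
  set R : ι → k[X] := fun j => ∑ m ∈ Finset.range D, Polynomial.monomial m (c' (j, m)) with hR
  have hRcoeff : ∀ j m, m < D → (R j).coeff m = c' (j, m) := by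
    intro j m hm
    rw [hR]
    simp only [Polynomial.finsetSum_coeff, Polynomial.coeff_monomial]
    rw [Finset.sum_eq_single m]
    · simp
    · intro b _ hb
      simp [hb]
    · intro hm'
      exact absurd (Finset.mem_range.mpr hm) hm'
  have haev : ∀ j, aeval x (R j) = ∑ m ∈ Finset.range D, c' (j, m) • x ^ m := by
    intro j
    rw [hR, map_sum]
    refine Finset.sum_congr rfl fun m _ => ?_
    rw [Polynomial.aeval_monomial, Algebra.smul_def]
  set a : ι → Algebra.adjoin k {x} := fun j =>
    ⟨aeval x (R j), by
      rw [Algebra.adjoin_singleton_eq_range_aeval]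
      exact ⟨R j, rfl⟩⟩ with ha
  have hsum : ∑ j ∈ s, a j • y j = 0 := by
    have h1 : ∑ j ∈ s, a j • y j =
        ∑ q ∈ s ×ˢ Finset.range D, c' q • (x ^ q.2 * y q.1) := by
      rw [Finset.sum_product]
      refine Finset.sum_congr rfl fun j _ => ?_
      rw [show a j • y j = aeval x (R j) * y j from rfl, haev j, Finset.sum_mul]
      refine Finset.sum_congr rfl fun m _ => ?_
      rw [smul_mul_assoc]
    rw [h1, ← Finset.sum_subset hsub]
    · rw [← hc]
      refine Finset.sum_congr rfl fun q hq => ?_
      rw [hc'q, if_pos hq]
    · intro q _ hq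
      rw [hc'q, if_neg hq, zero_smul]
  have h0 := (linearIndependent_iff'.mp h) s a hsum p.1 (Finset.mem_image_of_mem _ hp)
  have h1 : aeval x (R p.1) = 0 := congrArg Subtype.val h0
  have h2 : R p.1 = 0 := by
    by_contra hne
    exact hx ⟨R p.1, hne, h1⟩
  have h3 := hRcoeff p.1 p.2
    (Nat.lt_succ_of_le (Finset.le_sup (f := Prod.snd) hp))
  rw [h2, coeff_zero, hc'q, if_pos hp] at h3
  exact h3.symm

end Monomial

section Descent

open scoped IntermediateField.algebraAdjoinAdjoin

variable {k C : Type*} [Field k] [Field C] [Algebra k C]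
variable {K : IntermediateField k (LaurentSeries k)}
  {K' : IntermediateField C (LaurentSeries C)}
variable (ι : K →+* K')
  (hι : ∀ x : K, ((ι x : K') : LaurentSeries C) =
    coeffMap (algebraMap k C) (x : LaurentSeries k))

include hι in
/-- `k`-linearly independent families of `K` map to `C`-linearly independent families of
`K'`. -/
theorem es1r_fin_ld_field {J : Type*} {v : J → K} (hv : LinearIndependent k v) :
    LinearIndependent C (fun p => ι (v p)) := by
  rw [linearIndependent_iff'] at hv ⊢
  intro s g hg
  refine es1r_fin_ld_core (y := fun p : J => ((v p : K) : LaurentSeries k)) ?_ s g ?_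
  · intro t c hc
    refine hv t c (Subtype.ext ?_)
    rw [ZeroMemClass.coe_zero, ← hc]
    simp only [Algebra.smul_def, AddSubmonoidClass.coe_finsetSum, MulMemClass.coe_mul]
    rfl
  · have h1 := congrArg (fun z : K' => (z : LaurentSeries C)) hg
    simp only [Algebra.smul_def, AddSubmonoidClass.coe_finsetSum, MulMemClass.coe_mul,
      ZeroMemClass.coe_zero] at h1
    rw [← h1]
    refine Finset.sum_congr rfl fun p _ => ?_
    rw [← hι]
    rfl

include hι in
/-- `k[x]`-linearly independent families of `K` map to `C[ι x]`-linearly independent families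
of `K'`. -/
theorem es1r_fin_linearIndependent_adjoin {x : K} (hx : Transcendental k x) {J : Type*}
    {y : J → K} (hy : LinearIndependent (Algebra.adjoin k {x}) y) :
    LinearIndependent (Algebra.adjoin C {ι x}) (fun i => ι (y i)) := by
  have hy2 := es1r_fin_monomial_indep hx hy
  have hy5 := es1r_fin_ld_field ι hι hy2
  refine es1r_fin_indep_of_monomial (ι x) ?_
  have hfun : (fun p : J × ℕ => ι (x ^ p.2 * y p.1)) =
      fun p : J × ℕ => (ι x) ^ p.2 * ι (y p.1) := by
    funext p
    rw [map_mul, map_pow]
  rw [← hfun]
  exact hy5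

include hι in
/-- `k(x)`-linearly independent families of `K` map to `C(ι x)`-linearly independent families
of `K'`. -/
theorem es1r_fin_linearIndependent {x : K} (hx : Transcendental k x) {J : Type*} {y : J → K}
    (hy : LinearIndependent k⟮x⟯ y) : LinearIndependent C⟮ι x⟯ (fun i => ι (y i)) := by
  have hy1 : LinearIndependent (Algebra.adjoin k {x}) y :=
    (LinearIndependent.iff_fractionRing (Algebra.adjoin k {x}) k⟮x⟯).mpr hy
  have hy6 := es1r_fin_linearIndependent_adjoin ι hι hx hy1
  exact (LinearIndependent.iff_fractionRing (Algebra.adjoin C {ι x}) C⟮ι x⟯).mp hy6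

include hι in
/-- **F4-FIN, generic**: finiteness descends. -/
theorem es1r_fin_descent {x : K} (hx : Transcendental k x) [FiniteDimensional C⟮ι x⟯ K'] :
    FiniteDimensional k⟮x⟯ K := by
  classical
  have hle : Module.rank k⟮x⟯ K ≤ (Module.finrank C⟮ι x⟯ K' : ℕ) := by
    refine rank_le fun s hs => ?_
    have h1 := es1r_fin_linearIndependent ι hι hx hs
    have h2 := h1.fintype_card_le_finrank
    simpa using h2
  have : Module.Free k⟮x⟯ K := Module.Free.of_divisionRing _ _
  exact Module.rank_lt_aleph0_iff.mp (lt_of_le_of_lt hle Cardinal.natCast_lt_aleph0)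

include hι in
/-- the degree does not grow -/
theorem es1r_fin_finrank_le {x : K} (hx : Transcendental k x) [FiniteDimensional C⟮ι x⟯ K'] :
    Module.finrank k⟮x⟯ K ≤ Module.finrank C⟮ι x⟯ K' := by
  classical
  have := es1r_fin_descent ι hι hx
  have hle : Module.rank k⟮x⟯ K ≤ (Module.finrank C⟮ι x⟯ K' : ℕ) := by
    refine rank_le fun s hs => ?_
    have h1 := es1r_fin_linearIndependent ι hι hx hs
    have h2 := h1.fintype_card_le_finrank
    simpa using h2
  rw [← Module.finrank_eq_rank] at hle
  exact_mod_cast hle

end Descent

end Fermat.Agent.ES1
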