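import Fermat.Agent.ES1.RealDefs
import Fermat.Agent.ES1.RealFin
import Fermat.Agent.ES.BaseChangeUpCore
import Fermat.Agent.S24.Residue
import Fermat.Agent.S24.Transc

/-!
# ES₁ / F4, pieces P4 (F4-BCU) and P5 (F4-FIN)

`ι = iotaH L M H : fieldBar L M H → fieldC ℂ L M H` the coefficientwise embedding.

* `stmtRealFin : StmtRealFin` — finiteness over `ℂ(j)` descends to `ℚ̄(j)` (generic core
  `ES1/RealFin.lean`: coefficientwise linear disjointness);
  `es1r_fin_finrank_jFH_le` : `[fieldBar : ℚ̄(j)] ≤ [fieldC ℂ : ℂ(j)]`.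
* `stmtRealBCu : StmtRealBCu` — every place of `fieldBar L M H` extends to a place of
  `fieldC ℂ L M H` with the same orders (generic core `ES/BaseChangeUpCore.lean`);
  `es1r_bcu_dvd` : divisibility of orders descends.
-/

set_option autoImplicit false

noncomputable section

namespace Fermat.Agent.ES1

open AlgebraicCurve ModularCurve IntermediateField Fermat.Agent.S24 Fermat.Agent.ES

attribute [local instance] algKbC

variable (L M : ℕ) (H : Subgroup (ZMod M)ˣ)

/-- `j` is transcendental over `ℚ̄` in `fieldBar L M H`. -/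
theorem es1r_transcendental_jFH [NeZero L] : Transcendental Kb (jFH L M H) := by
  intro halg
  apply transcendental_jBar
  have := (isAlgebraic_algHom_iff (fieldBar L M H).val Subtype.val_injective).mpr halg
  exact this

/-- `ι` is the coefficientwise embedding (in the form used by the generic cores) -/
theorem es1r_iotaH_coe (x : fieldBar L M H) :
    ((iotaH L M H x : fieldC ℂ L M H) : LaurentSeries ℂ) =
      coeffMap (algebraMap Kb ℂ) (x : LaurentSeries Kb) := rfl

/-- **(P5 = F4-FIN)** finiteness over `ℂ(j)` descends to `ℚ̄(j)`. -/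
theorem stmtRealFin : StmtRealFin := by
  intro L M H _ _ hfin
  have hfin' : FiniteDimensional ℂ⟮iotaH L M H (jFH L M H)⟯ (fieldC ℂ L M H) := by
    rw [iotaH_jFH]
    exact hfin
  exact es1r_fin_descent (iotaH L M H) (es1r_iotaH_coe L M H) (es1r_transcendental_jFH L M H)

/-- the degree over the `j`-line does not grow from `ℂ` to `ℚ̄` -/
theorem es1r_fin_finrank_jFH_le [NeZero L]
    [hfin : FiniteDimensional ℂ⟮jFC L M H⟯ (fieldC ℂ L M H)] :
    Module.finrank Kb⟮jFH L M H⟯ (fieldBar L M H) ≤
      Module.finrank ℂ⟮jFC L M H⟯ (fieldC ℂ L M H) := by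
  have hfin' : FiniteDimensional ℂ⟮iotaH L M H (jFH L M H)⟯ (fieldC ℂ L M H) := by
    rw [iotaH_jFH]
    exact hfin
  have h := es1r_fin_finrank_le (iotaH L M H) (es1r_iotaH_coe L M H)
    (es1r_transcendental_jFH L M H)
  rw [iotaH_jFH] at h
  exact h

/-- `fieldC ℂ L M H` is generated, as a field, by `ℂ` and `ι (fieldBar L M H)`. -/
theorem es1r_iotaH_generates (y : fieldC ℂ L M H) :
    y ∈ Subfield.closure
      (Set.range (algebraMap ℂ (fieldC ℂ L M H)) ∪ Set.range (iotaH L M H)) := by
  set S : Subfield (LaurentSeries ℂ) := (Subfield.closure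
    (Set.range (algebraMap ℂ (fieldC ℂ L M H)) ∪ Set.range (iotaH L M H))).map
      (fieldC ℂ L M H).val.toRingHom with hS
  have key : ∀ x : LaurentSeries ℂ, x ∈ fieldC ℂ L M H → x ∈ S := by
    intro x hx
    unfold fieldC at hx
    induction hx using IntermediateField.adjoin_induction with
    | mem x hx =>
      rcases hx with ⟨d, hne, hd, rfl⟩ | ⟨e, hne, a, he, rfl⟩
      · have h1 : qExpand Kb d (jqModC Kb) ∈ fieldBar L M H := by
          rw [es1f_fieldBar_eq]
          exact jd_mem_fieldC Kb L M H hd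
        have h2 : ((iotaH L M H ⟨_, h1⟩ : fieldC ℂ L M H) : LaurentSeries ℂ) =
            qExpand ℂ d (jqModC ℂ) := by
          rw [iotaH_coe]
          exact coeffMap_jqNModC embC d
        rw [hS, Subfield.mem_map]
        exact ⟨iotaH L M H ⟨_, h1⟩, Subfield.subset_closure (Or.inr ⟨_, rfl⟩), h2⟩
      · have h1 : qExpand Kb e (sS Kb M H a) ∈ fieldBar L M H := by
          rw [es1f_fieldBar_eq]
          exact qExpand_sS_mem Kb L M H he a
        have h2 : ((iotaH L M H ⟨_, h1⟩ : fieldC ℂ L M H) : LaurentSeries ℂ) =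
            qExpand ℂ e (sS ℂ M H a) := by
          rw [iotaH_coe]
          exact es1f_coeffMap_qExpand_sS embC M H a e
        rw [hS, Subfield.mem_map]
        exact ⟨iotaH L M H ⟨_, h1⟩, Subfield.subset_closure (Or.inr ⟨_, rfl⟩), h2⟩
    | algebraMap c =>
      rw [hS, Subfield.mem_map]
      exact ⟨algebraMap ℂ (fieldC ℂ L M H) c,
        Subfield.subset_closure (Or.inl ⟨c, rfl⟩), rfl⟩
    | add x y _ _ ihx ihy => exact S.add_mem ihx ihy
    | inv x _ ih => exact S.inv_mem ih
    | mul x y _ _ ihx ihy => exact S.mul_mem ihx ihy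
  have hy := key y y.2
  rw [hS, Subfield.mem_map] at hy
  obtain ⟨z, hz, hzy⟩ := hy
  have : z = y := Subtype.ext hzy
  rwa [this] at hz

/-- **(P4 = F4-BCU)** every place of `fieldBar L M H` extends to a place of `fieldC ℂ L M H`
with the same orders. -/
theorem stmtRealBCu : StmtRealBCu := by
  intro L M H _ _ halg v
  exact bcu_exists_place_extends (iotaH L M H) (es1r_iotaH_coe L M H) v
    (algebraMap_residueField_bijective (jFH L M H) (es1r_transcendental_jFH L M H) halg
      v).surjective (es1r_iotaH_generates L M H)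

/-- Divisibility of orders descends from `fieldC ℂ L M H` to `fieldBar L M H`. -/
theorem es1r_bcu_dvd [NeZero L] (hML : M ∣ L)
    (halg : Algebra.IsAlgebraic Kb⟮jFH L M H⟯ (fieldBar L M H)) (n : ℤ) (u : fieldBar L M H)
    (h : ∀ w : Place ℂ (fieldC ℂ L M H), n ∣ w.ord (iotaH L M H u))
    (v : Place Kb (fieldBar L M H)) : n ∣ v.ord u := by
  obtain ⟨w, hw⟩ := stmtRealBCu L M H hML halg v
  rw [← hw u]
  exact h w

end Fermat.Agent.ES1
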