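import Fermat.Agent.ES1.RootModFunG
import Fermat.Agent.S28.Bridge

/-!
# ES₁ / F3 (RC-Γ), generic part: the Lagrange relation in a tower `Γ ◁ Γ'`

`Γ ≤ Γ' ≤ SL(2, ℤ)` of finite index.

* `IsModFunG.isMerInf` : a modular function for `Γ ∋ T` is meromorphic at `i∞` (period `1`),
  so `laurentOf` is defined on `modFunAlgG Γ`.
* `IsModFunG.comp_normalizer` : if `δ` normalises `Γ` (`δ γ δ⁻¹ ∈ Γ` for `γ ∈ Γ`), then
  `f ∘ δ` is a modular function for `Γ`.
* `IsModFunG.of_invariant` : a modular function for `Γ` that is invariant under `Γ' ≥ Γ` is a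
  modular function for `Γ'`.
* `es1rc_tower` : **the tower step.**  Representatives `δ_i` (`i : ι`) permuted by `Γ'`, a
  modular function `θ` for `Γ` whose conjugates `θ ∘ δ_i` (`i ≠ i₀`) have Laurent expansion
  different from that of `θ ∘ δ_{i₀} = θ`; `E ≤ E'` fields with `laurentOf g ∈ E` for the modular
  functions `g` of level `Γ'` and `laurentOf (θ ∘ δ_i) ∈ E'`.  Then `laurentOf f ∈ E'` for every
  modular function `f` of level `Γ`.
-/

set_option autoImplicit false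

noncomputable section

open UpperHalfPlane ModularForm CongruenceSubgroup Filter Topology Polynomial
open scoped MatrixGroups Manifold

namespace Fermat.Agent.ES1

open Fermat.Agent.S23 Fermat.Agent.S28 Fermat.Agent.ES

local notation "Δ" => ModularForm.discriminant

variable {Γ Γ' : Subgroup SL(2, ℤ)}

theorem one_mem_strictPeriods_gGL (hT : ModularGroup.T ∈ Γ) :
    (1 : ℝ) ∈ (gGL Γ).strictPeriods := by
  rw [Subgroup.strictPeriods_eq_zmultiples_one_of_T_mem hT]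
  exact AddSubgroup.mem_zmultiples (1 : ℝ)

theorem isHPB_of_isMF_gGL (hT : ModularGroup.T ∈ Γ) {κ : ℤ} {f : ℍ → ℂ}
    (hf : IsMF (gGL Γ) κ f) : IsHPB f := by
  obtain ⟨F, rfl⟩ := hf
  have h1 := one_mem_strictPeriods_gGL hT
  have : Fact (IsCusp OnePoint.infty (gGL Γ)) :=
    ⟨(gGL Γ).isCusp_of_mem_strictPeriods one_pos h1⟩
  exact ⟨ModularFormClass.holo F, SlashInvariantFormClass.periodic_comp_ofComplex F h1,
    ModularFormClass.bdd_at_infty F⟩

/-- a modular function for `Γ ∋ T` is meromorphic at `i∞` -/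
theorem IsModFunG.isMerInf (hT : ModularGroup.T ∈ Γ) {f : ℍ → ℂ} (hf : IsModFunG Γ f) :
    IsMerInf f := by
  obtain ⟨m, hm⟩ := hf
  exact ⟨m, isHPB_of_isMF_gGL hT hm⟩

theorem modFunAlgG_le_merInf (hT : ModularGroup.T ∈ Γ) : modFunAlgG Γ ≤ merInf :=
  fun _ hf => IsModFunG.isMerInf hT hf

/-- conjugation by an element normalising `Γ` -/
theorem IsModFunG.comp_normalizer [Γ.FiniteIndex] {f : ℍ → ℂ} (hf : IsModFunG Γ f)
    (δ : SL(2, ℤ)) (hδ : ∀ γ ∈ Γ, δ * γ * δ⁻¹ ∈ Γ) :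
    IsModFunG Γ (fun z => f (δ • z)) := by
  obtain ⟨m, F, hF⟩ := hf
  have hΔ : MDiff (fun z : ℍ => Δ z ^ m) := by
    have h : MDiff (CuspForm.discriminant : ℍ → ℂ) := CuspForm.discriminant.holo'
    exact h.pow m
  have hfm : MDiff f := IsModFunG.mdiff ⟨m, F, hF⟩
  refine ⟨m, ⟨{ toFun := fun z => f (δ • z) * Δ z ^ m
                slash_action_eq' := ?_
                holo' := (mdiff_comp_SL hfm δ).mul hΔ
                bdd_at_cusps' := ?_ }, rfl⟩⟩
  · rintro _ ⟨γ, hγ, rfl⟩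
    have h1 := slash_mul_discPow (fun z => f (δ • z)) m γ
    rw [SL_slash] at h1
    refine h1.trans ?_
    funext τ
    have h2 : IsModFunG Γ f := ⟨m, F, hF⟩
    have h3 := h2.comp_smul (hδ γ hγ) (δ • τ)
    have h4 : (δ * γ * δ⁻¹) • (δ • τ) = δ • (γ • τ) := by
      rw [← mul_smul, ← mul_smul]
      congr 1
      group
    rw [h4] at h3
    show f (δ • (γ • τ)) * Δ τ ^ m = f (δ • τ) * Δ τ ^ m
    rw [h3]
  · intro c hc
    rw [Subgroup.IsArithmetic.isCusp_iff_isCusp_SL2Z] at hc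
    rw [OnePoint.isBoundedAt_iff_forall_SL2Z hc]
    intro γ _
    rw [slash_mul_discPow]
    have h1 : IsBoundedAtImInfty ((F : ℍ → ℂ) ∣[(12 * (m : ℤ))] (δ * γ)) :=
      ModularFormClass.bdd_at_infty_slash F (δ * γ)
    rw [hF, slash_mul_discPow] at h1
    refine h1.congr_left fun z => ?_
    simp only [mul_smul]

/-- a `Γ'`-invariant modular function of level `Γ ≤ Γ'` is a modular function of level `Γ'` -/
theorem IsModFunG.of_invariant [Γ.FiniteIndex] [Γ'.FiniteIndex] {f : ℍ → ℂ}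
    (hf : IsModFunG Γ f) (hinv : ∀ γ ∈ Γ', ∀ τ : ℍ, f (γ • τ) = f τ) : IsModFunG Γ' f := by
  obtain ⟨m, F, hF⟩ := hf
  have hΔ : MDiff (fun z : ℍ => Δ z ^ m) := by
    have h : MDiff (CuspForm.discriminant : ℍ → ℂ) := CuspForm.discriminant.holo'
    exact h.pow m
  have hfm : MDiff f := IsModFunG.mdiff ⟨m, F, hF⟩
  refine ⟨m, ⟨{ toFun := fun z => f z * Δ z ^ m
                slash_action_eq' := ?_
                holo' := hfm.mul hΔ
                bdd_at_cusps' := ?_ }, rfl⟩⟩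
  · rintro _ ⟨γ, hγ, rfl⟩
    have h1 := slash_mul_discPow f m γ
    rw [SL_slash] at h1
    refine h1.trans ?_
    funext τ
    rw [hinv γ hγ τ]
  · intro c hc
    rw [Subgroup.IsArithmetic.isCusp_iff_isCusp_SL2Z] at hc
    rw [OnePoint.isBoundedAt_iff_forall_SL2Z hc]
    intro γ _
    have h1 : IsBoundedAtImInfty ((F : ℍ → ℂ) ∣[(12 * (m : ℤ))] γ) :=
      ModularFormClass.bdd_at_infty_slash F γ
    rw [hF] at h1
    exact h1

/-! ### The Lagrange polynomial -/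

section Lagrange

variable {R : Type*} [CommRing R] {ι : Type*} [Fintype ι] [DecidableEq ι]

/-- `Q = ∑_i F_i ∏_{i' ≠ i} (X - Θ_{i'})` -/
def lagPoly (F Θ : ι → R) : R[X] :=
  ∑ i, C (F i) * ∏ i' ∈ Finset.univ.erase i, (X - C (Θ i'))

theorem lagPoly_map {S : Type*} [CommRing S] (φ : R →+* S) (F Θ : ι → R) :
    (lagPoly F Θ).map φ = lagPoly (fun i => φ (F i)) (fun i => φ (Θ i)) := by
  simp only [lagPoly, Polynomial.map_sum, Polynomial.map_mul, Polynomial.map_prod,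
    Polynomial.map_sub, Polynomial.map_X, Polynomial.map_C]

theorem lagPoly_eval (F Θ : ι → R) (i₀ : ι) :
    (lagPoly F Θ).eval (Θ i₀) = F i₀ * ∏ i' ∈ Finset.univ.erase i₀, (Θ i₀ - Θ i') := by
  simp only [lagPoly, Polynomial.eval_finsetSum, Polynomial.eval_mul, Polynomial.eval_C,
    Polynomial.eval_prod, Polynomial.eval_sub, Polynomial.eval_X]
  rw [Finset.sum_eq_single i₀]
  · intro i _ hi
    rw [Finset.prod_eq_zero (i := i₀) (Finset.mem_erase.2 ⟨Ne.symm hi, Finset.mem_univ _⟩)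
      (sub_self _), mul_zero]
  · intro h
    exact absurd (Finset.mem_univ _) h

theorem lagPoly_perm (F Θ : ι → R) (σ : Equiv.Perm ι) :
    lagPoly (fun i => F (σ i)) (fun i => Θ (σ i)) = lagPoly F Θ := by
  simp only [lagPoly]
  rw [← Equiv.sum_comp σ (fun i => C (F i) * ∏ i' ∈ Finset.univ.erase i, (X - C (Θ i')))]
  refine Finset.sum_congr rfl fun i _ => ?_
  congr 1
  refine Finset.prod_equiv σ (fun k => ?_) (fun k _ => rfl)
  simp only [Finset.mem_erase, Finset.mem_univ, and_true, ne_eq, EmbeddingLike.apply_eq_iff_eq]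

end Lagrange

/-- precomposition with the action of `γ`, as a ring homomorphism on functions -/
def compSmul (γ : SL(2, ℤ)) : (ℍ → ℂ) →+* (ℍ → ℂ) :=
  RingHom.pi fun z => Pi.evalRingHom (fun _ : ℍ => ℂ) (γ • z)

@[simp]
theorem compSmul_apply (γ : SL(2, ℤ)) (g : ℍ → ℂ) (z : ℍ) : compSmul γ g z = g (γ • z) := rfl

/-- **The tower step.** -/
theorem es1rc_tower [Γ.FiniteIndex] [Γ'.FiniteIndex] (hT : ModularGroup.T ∈ Γ)
    {ι : Type*} [Fintype ι] [DecidableEq ι] (δ : ι → SL(2, ℤ)) (i₀ : ι) (hδ₀ : δ i₀ ∈ Γ)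
    (hnorm : ∀ i, ∀ γ ∈ Γ, δ i * γ * (δ i)⁻¹ ∈ Γ)
    (hperm : ∀ γ ∈ Γ', ∃ σ : Equiv.Perm ι, ∀ i, δ i * γ * (δ (σ i))⁻¹ ∈ Γ)
    (E E' : IntermediateField ℂ (LaurentSeries ℂ)) (hEE' : E ≤ E')
    (hE : ∀ g : ℍ → ℂ, IsModFunG Γ' g → laurentOf g ∈ E)
    (θ : ℍ → ℂ) (hθ : IsModFunG Γ θ)
    (hθE : ∀ i, laurentOf (fun z => θ (δ i • z)) ∈ E')
    (hθne : ∀ i, i ≠ i₀ →
      laurentOf (fun z => θ (δ i • z)) ≠ laurentOf (fun z => θ (δ i₀ • z)))
    {f : ℍ → ℂ} (hf : IsModFunG Γ f) : laurentOf f ∈ E' := by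
  -- the conjugates
  have hfi : ∀ i, IsModFunG Γ (fun z => f (δ i • z)) := fun i =>
    hf.comp_normalizer (δ i) (hnorm i)
  have hθi : ∀ i, IsModFunG Γ (fun z => θ (δ i • z)) := fun i =>
    hθ.comp_normalizer (δ i) (hnorm i)
  have hmer : ∀ {g : ℍ → ℂ}, IsModFunG Γ g → IsMerInf g := fun hg => hg.isMerInf hT
  let F : ι → modFunAlgG Γ := fun i => ⟨fun z => f (δ i • z), hfi i⟩
  let Θ : ι → modFunAlgG Γ := fun i => ⟨fun z => θ (δ i • z), hθi i⟩
  let Q : (modFunAlgG Γ)[X] := lagPoly F Θ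
  -- the coefficients are invariant under `Γ'`
  have hQinv : ∀ γ ∈ Γ', ∀ j : ℕ, ∀ z : ℍ,
      ((Q.coeff j : modFunAlgG Γ) : ℍ → ℂ) (γ • z) = ((Q.coeff j : modFunAlgG Γ) : ℍ → ℂ) z := by
    intro γ hγ j z
    obtain ⟨σ, hσ⟩ := hperm γ hγ
    have hconj : ∀ {g : ℍ → ℂ}, IsModFunG Γ g → ∀ i (w : ℍ),
        g (δ i • (γ • w)) = g (δ (σ i) • w) := by
      intro g hg i w
      have h1 := hg.comp_smul (hσ i) (δ (σ i) • w)
      have h2 : (δ i * γ * (δ (σ i))⁻¹) • (δ (σ i) • w) = δ i • (γ • w) := by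
        rw [← mul_smul, ← mul_smul]
        congr 1
        group
      rw [h2] at h1
      exact h1
    have h1 : (Q.map (modFunAlgG Γ).val.toRingHom).map (compSmul γ) =
        Q.map (modFunAlgG Γ).val.toRingHom := by
      rw [lagPoly_map, lagPoly_map]
      have h2 : (fun i => compSmul γ ((modFunAlgG Γ).val.toRingHom (F i))) =
          fun i => (modFunAlgG Γ).val.toRingHom (F (σ i)) := by
        funext i w
        exact hconj hf i w
      have h3 : (fun i => compSmul γ ((modFunAlgG Γ).val.toRingHom (Θ i))) =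
          fun i => (modFunAlgG Γ).val.toRingHom (Θ (σ i)) := by
        funext i w
        exact hconj hθ i w
      rw [h2, h3]
      exact lagPoly_perm (fun i => (modFunAlgG Γ).val.toRingHom (F i))
        (fun i => (modFunAlgG Γ).val.toRingHom (Θ i)) σ
    have h4 := congrArg (fun P : (ℍ → ℂ)[X] => P.coeff j) h1
    simp only [Polynomial.coeff_map] at h4
    exact congrFun h4 z
  -- hence they are modular functions of level `Γ'`
  have hQE : ∀ j : ℕ, laurentOf ((Q.coeff j : modFunAlgG Γ) : ℍ → ℂ) ∈ E' := fun j =>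
    hEE' (hE _ (IsModFunG.of_invariant (Q.coeff j).2 fun γ hγ z => hQinv γ hγ j z))
  -- the Laurent expansion as a ring homomorphism on `modFunAlgG Γ`
  let Λ : modFunAlgG Γ →+* LaurentSeries ℂ :=
    (laurentExp.comp (Subalgebra.inclusion (modFunAlgG_le_merInf hT))).toRingHom
  have hΛ : ∀ g : modFunAlgG Γ, Λ g = laurentOf (g : ℍ → ℂ) := fun g => rfl
  -- evaluate
  have hev := lagPoly_eval F Θ i₀
  have hev2 : Λ (Q.eval (Θ i₀)) = Λ (F i₀) * ∏ i' ∈ Finset.univ.erase i₀, (Λ (Θ i₀) - Λ (Θ i')) := by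
    rw [show Q.eval (Θ i₀) = _ from hev, map_mul, map_prod]
    simp only [map_sub]
  have hev3 : Λ (Q.eval (Θ i₀)) ∈ E' := by
    rw [Polynomial.eval_eq_sum_range, map_sum]
    refine E'.sum_mem fun j _ => ?_
    rw [map_mul, map_pow]
    have h1 : Λ (Q.coeff j) ∈ E' := by rw [hΛ]; exact hQE j
    have h2 : Λ (Θ i₀) ∈ E' := by rw [hΛ]; exact hθE i₀
    exact E'.mul_mem h1 (pow_mem h2 j)
  have hΘE : ∀ i, Λ (Θ i) ∈ E' := fun i => by rw [hΛ]; exact hθE i
  have hprod_mem : ∏ i' ∈ Finset.univ.erase i₀, (Λ (Θ i₀) - Λ (Θ i')) ∈ E' :=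
    E'.prod_mem fun i' _ => E'.sub_mem (hΘE i₀) (hΘE i')
  have hprod_ne : ∏ i' ∈ Finset.univ.erase i₀, (Λ (Θ i₀) - Λ (Θ i')) ≠ 0 := by
    rw [Finset.prod_ne_zero_iff]
    intro i' hi'
    rw [sub_ne_zero, hΛ, hΛ]
    exact (hθne i' (Finset.ne_of_mem_erase hi')).symm
  have hF0 : Λ (F i₀) ∈ E' := by
    have h1 : Λ (F i₀) = Λ (Q.eval (Θ i₀)) /
        ∏ i' ∈ Finset.univ.erase i₀, (Λ (Θ i₀) - Λ (Θ i')) := by
      rw [hev2, mul_div_assoc, div_self hprod_ne, mul_one]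
    rw [h1]
    exact E'.div_mem hev3 hprod_mem
  have hff : (fun z => f (δ i₀ • z)) = f := by
    funext z
    exact hf.comp_smul hδ₀ z
  rw [hΛ] at hF0
  have : ((F i₀ : modFunAlgG Γ) : ℍ → ℂ) = f := hff
  rwa [this] at hF0

end Fermat.Agent.ES1
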