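import Fermat.Agent.ES1.F2G
import Fermat.Agent.ES1.Formal
import Fermat.Agent.ES1.Group
import Fermat.Agent.ES1.RCTower
import Fermat.Agent.ES.RC.FracField

/-!
# ES₁ / F3 (RC-Γ), part A: the group `Γ = gammaH L M H` and the functions `θ_c = Σ G_{a'}`

* `es1rc_exists_rep` : every `c ∈ (ℤ/M)ˣ` is the diamond of some `γ ∈ Γ₀(L)` (`M ∣ L`);
* `es1rc_finiteIndex` : `gammaH L M H` has finite index;
* `es1rcTheta M H c = Σ_{a' ∈ cosetReps M H c} G_{a'}` : holomorphic, `laurentOf = sS ℂ M H c`,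
  `θ_c (γ z) = θ_{c · ⟨γ⟩} z` for `γ ∈ Γ₀(M)`; a modular function for `gammaH L M H`.
-/

set_option autoImplicit false

noncomputable section

open UpperHalfPlane ModularForm CongruenceSubgroup Matrix
open scoped MatrixGroups Manifold

namespace Fermat.Agent.ES1

open Fermat.Agent.S23 Fermat.Agent.S28 Fermat.Agent.ES ModularCurve

local notation "Δ" => ModularForm.discriminant

/-! ### Group theory -/

/-- every unit mod `M` is the upper left entry of some `γ ∈ Γ₀(L)` -/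
theorem es1rc_exists_rep {L M : ℕ} [NeZero L] (hML : M ∣ L) (c : (ZMod M)ˣ) :
    ∃ γ : SL(2, ℤ), γ ∈ Gamma0 L ∧ ((γ 0 0 : ℤ) : ZMod M) = (c : ZMod M) := by
  obtain ⟨u, hu⟩ := ZMod.unitsMap_surjective hML c
  have hcop : Nat.Coprime (u : ZMod L).val L := ZMod.val_coe_unit_coprime u
  have hgcd : IsCoprime (((u : ZMod L).val : ℕ) : ℤ) (L : ℤ) :=
    Nat.isCoprime_iff_coprime.mpr hcop
  obtain ⟨x, y, hxy⟩ := hgcd
  have hdet : (!![(((u : ZMod L).val : ℕ) : ℤ), -y; (L : ℤ), x]).det = 1 := by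
    rw [Matrix.det_fin_two_of]; linarith
  obtain ⟨γ, hγ⟩ : ∃ γ : SL(2, ℤ), (γ : Matrix (Fin 2) (Fin 2) ℤ) =
      !![(((u : ZMod L).val : ℕ) : ℤ), -y; (L : ℤ), x] := ⟨⟨_, hdet⟩, rfl⟩
  have h00 : γ 0 0 = (((u : ZMod L).val : ℕ) : ℤ) := by
    have := congrFun (congrFun hγ 0) 0
    simpa using this
  have h10 : γ 1 0 = (L : ℤ) := by
    have := congrFun (congrFun hγ 1) 0
    simpa using this
  refine ⟨γ, ?_, ?_⟩
  · rw [Gamma0_mem, h10]; simp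
  · have h1 : (c : ZMod M) = ZMod.castHom hML (ZMod M) (u : ZMod L) := by
      rw [← hu]; rfl
    rw [h1, ZMod.castHom_apply, ← ZMod.natCast_val, h00]
    simp

theorem es1rc_gamma1_le_gammaH {L M : ℕ} (hML : M ∣ L) (H : Subgroup (ZMod M)ˣ) :
    Gamma1 L ≤ gammaH L M H := by
  intro γ hγ
  have h1 := (Gamma1_mem L γ).mp hγ
  have hL : γ ∈ Gamma0 L := Gamma0_mem.mpr h1.2.2
  have hM : γ ∈ Gamma0 M := Fermat.Agent.ES.RC.rc_Gamma0_le_of_dvd hML hL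
  refine ⟨hL, hM, ?_⟩
  have : diamHom M ⟨γ, hM⟩ = 1 := by
    ext
    rw [coe_diamHom]
    have h2 : ((γ 0 0 : ℤ) : ZMod L) = 1 := h1.1
    have h3 := congrArg (ZMod.castHom hML (ZMod M)) h2
    rw [map_one, map_intCast] at h3
    exact h3
  rw [this]; exact one_mem _

/-- `gammaH L M H` has finite index -/
theorem es1rc_finiteIndex {L M : ℕ} [NeZero L] (hML : M ∣ L) (H : Subgroup (ZMod M)ˣ) :
    (gammaH L M H).FiniteIndex :=
  Subgroup.finiteIndex_of_le (es1rc_gamma1_le_gammaH hML H)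

/-! ### `±H` -/

theorem es1rc_exists_of_mem_pmH {M : ℕ} {H : Subgroup (ZMod M)ˣ} {u : (ZMod M)ˣ}
    (hu : u ∈ pmH H) : ∃ h ∈ H, u = h ∨ u = -h := by
  rw [pmH, Subgroup.mem_sup] at hu
  obtain ⟨h, hh, z, hz, rfl⟩ := hu
  obtain ⟨k, rfl⟩ := Subgroup.mem_zpowers_iff.mp hz
  refine ⟨h, hh, ?_⟩
  rcases Int.even_or_odd k with hk | hk
  · left; rw [hk.neg_one_zpow, mul_one]
  · right; rw [hk.neg_one_zpow, mul_neg, mul_one]

theorem es1rc_mem_pmH_of {M : ℕ} {H : Subgroup (ZMod M)ˣ} {u h : (ZMod M)ˣ} (hh : h ∈ H)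
    (hu : u = h ∨ u = -h) : u ∈ pmH H := by
  rcases hu with rfl | rfl
  · exact le_pmH H hh
  · have : -h = h * (-1) := by rw [mul_neg, mul_one]
    rw [this]
    exact mul_mem (le_pmH H hh) (neg_one_mem_pmH H)

/-- `u ∈ ±H ↔ u ∈ ± 1·H` in the sense of `InPM` -/
theorem es1rc_mem_pmH_iff {M : ℕ} {H : Subgroup (ZMod M)ˣ} {u : (ZMod M)ˣ} :
    u ∈ pmH H ↔ InPM H 1 (u : ZMod M) := by
  constructor
  · intro hu
    obtain ⟨h, hh, hu' | hu'⟩ := es1rc_exists_of_mem_pmH hu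
    · exact ⟨h, hh, Or.inl (by rw [one_mul, hu'])⟩
    · exact ⟨h, hh, Or.inr (by rw [one_mul, hu', Units.val_neg])⟩
  · rintro ⟨h, hh, hu | hu⟩
    · exact es1rc_mem_pmH_of hh (Or.inl (Units.ext (by rw [hu, one_mul])))
    · exact es1rc_mem_pmH_of hh (Or.inr (Units.ext (by rw [hu, one_mul, Units.val_neg])))

theorem es1rc_inPM_mul {M : ℕ} {H : Subgroup (ZMod M)ˣ} {c u : (ZMod M)ˣ} {x : ZMod M}
    (hx : InPM H c x) : InPM H (c * u) (x * (u : ZMod M)) := by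
  obtain ⟨h, hh, hx | hx⟩ := hx
  · exact ⟨h, hh, Or.inl (by rw [hx]; push_cast; ring)⟩
  · exact ⟨h, hh, Or.inr (by rw [hx]; push_cast; ring)⟩

theorem es1rc_inPM_mul_of_mem {M : ℕ} {H : Subgroup (ZMod M)ˣ} (c : (ZMod M)ˣ) {u : (ZMod M)ˣ}
    (hu : u ∈ pmH H) : InPM H c ((c * u : (ZMod M)ˣ) : ZMod M) := by
  obtain ⟨h, hh, hu' | hu'⟩ := es1rc_exists_of_mem_pmH hu
  · exact ⟨h, hh, Or.inl (by rw [hu'])⟩
  · exact ⟨h, hh, Or.inr (by rw [hu']; push_cast; ring)⟩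

/-! ### The representative in `[1, M/2]` -/

/-- the representative of `±x` in `[0, M/2]` -/
def es1rcRep (M : ℕ) (x : ZMod M) : ℕ := min x.val (M - x.val)

theorem es1rcRep_cast (M : ℕ) [NeZero M] (x : ZMod M) :
    ((es1rcRep M x : ℕ) : ZMod M) = x ∨ ((es1rcRep M x : ℕ) : ZMod M) = -x := by
  unfold es1rcRep
  rcases le_total x.val (M - x.val) with h | h
  · left; rw [min_eq_left h, ZMod.natCast_zmod_val]
  · right
    rw [min_eq_right h, Nat.cast_sub (ZMod.val_lt x).le, ZMod.natCast_self, zero_sub,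
      ZMod.natCast_zmod_val]

theorem es1rcRep_le (M : ℕ) (x : ZMod M) : es1rcRep M x ≤ M / 2 := by
  unfold es1rcRep
  rw [Nat.le_div_iff_mul_le two_pos]
  rcases le_total x.val (M - x.val) with h | h
  · rw [min_eq_left h]; omega
  · rw [min_eq_right h]; omega

theorem es1rcRep_pos {M : ℕ} [NeZero M] {x : ZMod M} (hx : x ≠ 0) : 1 ≤ es1rcRep M x := by
  unfold es1rcRep
  have h1 : 0 < x.val := Nat.pos_of_ne_zero fun h => hx ((ZMod.val_eq_zero x).mp h)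
  have h2 := ZMod.val_lt x
  rw [Nat.one_le_iff_ne_zero, Ne, Nat.min_eq_zero_iff]
  omega

theorem es1rcRep_natCast {M a' : ℕ} (h1 : 1 ≤ a') (h2 : a' ≤ M / 2) :
    es1rcRep M (a' : ZMod M) = a' := by
  have hM : a' < M := by
    have := Nat.div_mul_le_self M 2
    omega
  have h3 := Nat.div_mul_le_self M 2
  unfold es1rcRep
  rw [ZMod.val_natCast_of_lt hM]
  exact min_eq_left (by omega)

theorem es1rcRep_neg (M : ℕ) [NeZero M] (x : ZMod M) : es1rcRep M (-x) = es1rcRep M x := by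
  rcases eq_or_ne x 0 with rfl | hx
  · rw [neg_zero]
  · unfold es1rcRep
    have : NeZero x := ⟨hx⟩
    rw [ZMod.val_neg_of_ne_zero]
    have := ZMod.val_lt x
    rw [Nat.sub_sub_self this.le, min_comm]

theorem es1rcRep_natCast' {M a' : ℕ} [NeZero M] (h1 : 1 ≤ a') (h2 : a' ≤ M / 2) {x : ZMod M}
    (hx : x = (a' : ZMod M) ∨ x = -(a' : ZMod M)) : es1rcRep M x = a' := by
  rcases hx with rfl | rfl
  · exact es1rcRep_natCast h1 h2
  · rw [es1rcRep_neg, es1rcRep_natCast h1 h2]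

/-- reindexing a sum over `cosetReps` -/
theorem es1rc_sum_cosetReps_mul {M : ℕ} [NeZero M] (H : Subgroup (ZMod M)ˣ) (c u : (ZMod M)ˣ)
    {X : Type*} [AddCommMonoid X] (g : ZMod M → X) (hg : ∀ x, g (-x) = g x) :
    ∑ a' ∈ cosetReps M H c, g ((a' : ZMod M) * (u : ZMod M)) =
      ∑ a' ∈ cosetReps M H (c * u), g (a' : ZMod M) := by
  have key : ∀ (c u : (ZMod M)ˣ) (a' : ℕ), a' ∈ cosetReps M H c →
      es1rcRep M ((a' : ZMod M) * (u : ZMod M)) ∈ cosetReps M H (c * u) := by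
    intro c u a' ha'
    obtain ⟨⟨h1, h2⟩, h3⟩ := es1f_mem_cosetReps.mp ha'
    have hunit : IsUnit ((a' : ZMod M) * (u : ZMod M)) := h3.isUnit.mul u.isUnit
    have hM2 : 2 ≤ M := by
      have := Nat.div_mul_le_self M 2
      omega
    have : Fact (1 < M) := ⟨hM2⟩
    have hne : (a' : ZMod M) * (u : ZMod M) ≠ 0 := hunit.ne_zero
    refine es1f_mem_cosetReps.mpr ⟨⟨es1rcRep_pos hne, es1rcRep_le M _⟩, ?_⟩
    have h4 : InPM H (c * u) ((a' : ZMod M) * (u : ZMod M)) := es1rc_inPM_mul h3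
    rcases es1rcRep_cast M ((a' : ZMod M) * (u : ZMod M)) with h | h
    · rw [h]; exact h4
    · rw [h]; exact h4.neg
  have hg' : ∀ x : ZMod M, g ((es1rcRep M x : ℕ) : ZMod M) = g x := by
    intro x
    rcases es1rcRep_cast M x with h | h
    · rw [h]
    · rw [h, hg]
  have hinv : ∀ (c u : (ZMod M)ˣ) (a' : ℕ), a' ∈ cosetReps M H c →
      es1rcRep M (((es1rcRep M ((a' : ZMod M) * (u : ZMod M)) : ℕ) : ZMod M) *
        ((u⁻¹ : (ZMod M)ˣ) : ZMod M)) = a' := by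
    intro c u a' ha'
    obtain ⟨⟨h1, h2⟩, -⟩ := es1f_mem_cosetReps.mp ha'
    apply es1rcRep_natCast' h1 h2
    have hu : (u : ZMod M) * ((u⁻¹ : (ZMod M)ˣ) : ZMod M) = 1 := by
      rw [← Units.val_mul, mul_inv_cancel, Units.val_one]
    rcases es1rcRep_cast M ((a' : ZMod M) * (u : ZMod M)) with h | h
    · left; rw [h, mul_assoc, hu, mul_one]
    · right; rw [h, neg_mul, mul_assoc, hu, mul_one]
  refine Finset.sum_nbij' (fun a' => es1rcRep M ((a' : ZMod M) * (u : ZMod M)))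
    (fun a' => es1rcRep M ((a' : ZMod M) * ((u⁻¹ : (ZMod M)ˣ) : ZMod M)))
    (fun a' ha' => key c u a' ha') (fun a' ha' => ?_) (fun a' ha' => hinv c u a' ha')
    (fun a' ha' => ?_) (fun a' _ => (hg' _).symm)
  · have := key (c * u) u⁻¹ a' ha'
    rwa [mul_assoc, mul_inv_cancel, mul_one] at this
  · have := hinv (c * u) u⁻¹ a' ha'
    rwa [inv_inv] at this

/-! ### `V_e` on modular forms and modular functions of level `Γ` -/

/-- **`V_e`** for forms of level `Γ`: if the companion matrices of the elements of `Γ''` lie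
in `Γ`, then `τ ↦ F (e τ)` is a modular form for `Γ''`. -/
theorem es1rc_isMF_comp_scaleN (e : ℕ) [NeZero e] {Γ Γ'' : Subgroup SL(2, ℤ)} [Γ.FiniteIndex]
    [Γ''.FiniteIndex] {k : ℤ} {F : ℍ → ℂ} (hF : IsMF (gGL Γ) k F)
    (hconj : ∀ γ ∈ Γ'', ∃ hdvd : (e : ℤ) ∣ γ 1 0, P7_thetaCompanion e γ hdvd ∈ Γ) :
    IsMF (gGL Γ'') k (fun z => F (scaleN e z)) := by
  obtain ⟨F, rfl⟩ := hF
  refine ⟨{ toFun := fun z => F (scaleN e z)
            slash_action_eq' := ?_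
            holo' := mdiff_comp_scaleN e F.holo'
            bdd_at_cusps' := ?_ }, rfl⟩
  · rintro _ ⟨γ, hγ, rfl⟩
    obtain ⟨hdvd, hcomp⟩ := hconj γ hγ
    have h0 : ((fun z => F (scaleN e z)) ∣[k] γ) = fun z => F (scaleN e z) := by
      ext z
      rw [SL_slash_apply]
      have h1 : F (P7_thetaCompanion e γ hdvd • scaleN e z) =
          denom ((P7_thetaCompanion e γ hdvd : SL(2, ℤ)) : GL (Fin 2) ℝ) (scaleN e z) ^ k *
            F (scaleN e z) :=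
        SlashInvariantForm.slash_action_eqn'' F
          (Subgroup.mem_map_of_mem (Matrix.SpecialLinearGroup.mapGL ℝ) hcomp) (scaleN e z)
      have h2 := P7_thetaCompanion_denom e γ hdvd z
      have h3 := P7_thetaCompanion_smul e γ hdvd z
      have hd : denom (γ : GL (Fin 2) ℝ) z ≠ 0 := denom_ne_zero _ _
      rw [h3, h1]
      have h2' : denom ((P7_thetaCompanion e γ hdvd : SL(2, ℤ)) : GL (Fin 2) ℝ) (scaleN e z)
          = denom (γ : GL (Fin 2) ℝ) z := h2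
      rw [h2', _root_.zpow_neg]
      field_simp
    rw [SL_slash] at h0
    exact h0
  · intro c hc
    rw [Subgroup.IsArithmetic.isCusp_iff_isCusp_SL2Z] at hc
    rw [OnePoint.isBoundedAt_iff_forall_SL2Z hc]
    intro γ _
    obtain ⟨γ', A, B, D, hA, hD, hAD, h00, h01, h10, h11, -⟩ := P8_exists_hermite e γ
    have hD' : (D : ℂ) ≠ 0 := by exact_mod_cast hD.ne'
    have hform : ((fun z => F (scaleN e z)) ∣[k] γ) =
        fun z => ((D : ℂ) ^ k)⁻¹ * ((F : ℍ → ℂ) ∣[k] γ') (P8_betaPt A B D hA hD z) := by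
      ext z
      rw [SL_slash_apply, SL_slash_apply]
      rw [P8_scaleN_smul e γ γ' A B D hA hD h00 h01 h10 h11 z]
      have hd1 : denom (γ : GL (Fin 2) ℝ) z = (γ 1 0 : ℂ) * z + (γ 1 1 : ℂ) := by
        simp [UpperHalfPlane.denom]
      have hd2 : denom (γ' : GL (Fin 2) ℝ) (P8_betaPt A B D hA hD z) =
          (γ' 1 0 : ℂ) * (P8_betaPt A B D hA hD z : ℍ) + (γ' 1 1 : ℂ) := by
        simp [UpperHalfPlane.denom]
      rw [hd1, hd2, P8_denom_eq γ γ' A B D hA hD h10 h11 z, div_zpow, _root_.zpow_neg, _root_.zpow_neg]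
      have hne : ((γ 1 0 : ℂ) * z + (γ 1 1 : ℂ)) ^ k ≠ 0 := zpow_ne_zero _ (P8_denom_ne_zero γ z)
      have hDk : (D : ℂ) ^ k ≠ 0 := zpow_ne_zero _ hD'
      field_simp
    rw [hform]
    have hb : IsBoundedAtImInfty ((F : ℍ → ℂ) ∣[k] γ') :=
      ModularFormClass.bdd_at_infty_slash F γ'
    have hb2 : IsBoundedAtImInfty
        (fun z => ((F : ℍ → ℂ) ∣[k] γ') (P8_betaPt A B D hA hD z)) :=
      hb.comp_tendsto (P8_tendsto_betaPt A B D hA hD)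
    exact (Filter.const_boundedAtFilter _ (((D : ℂ) ^ k)⁻¹)).mul hb2

/-- **`V_e`** for modular functions of level `Γ`. -/
theorem es1rc_isModFunG_comp_scaleN (e : ℕ) [NeZero e] {Γ Γ'' : Subgroup SL(2, ℤ)}
    [Γ.FiniteIndex] [Γ''.FiniteIndex] {f : ℍ → ℂ} (hf : IsModFunG Γ f)
    (hconj : ∀ γ ∈ Γ'', ∃ hdvd : (e : ℤ) ∣ γ 1 0, P7_thetaCompanion e γ hdvd ∈ Γ) :
    IsModFunG Γ'' (fun z => f (scaleN e z)) := by
  obtain ⟨m, hm⟩ := hf
  have h1 : IsMF (gGL Γ'') (12 * (m : ℤ)) (fun z => f (scaleN e z) * Δ (scaleN e z) ^ m) :=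
    es1rc_isMF_comp_scaleN e hm hconj
  have hle : Γ'' ≤ Gamma0 e := by
    intro γ hγ
    obtain ⟨hdvd, -⟩ := hconj γ hγ
    rw [Gamma0_mem, ZMod.intCast_zmod_eq_zero_iff_dvd]
    exact hdvd
  have h2 : IsMF (gGL Γ'') (thetaWeight e) (thetaFun e) := isMF_mono hle (isMF_thetaFun e)
  have h3 := (h1.mul (h2.pow m)).of_weight_eq
    (show 12 * (m : ℤ) + (m : ℤ) * thetaWeight e = 12 * ((e * m : ℕ) : ℤ) by
      unfold thetaWeight; push_cast; ring)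
  refine ⟨e * m, ?_⟩
  convert h3 using 1
  funext z
  exact bridge_comp_scaleN_mul e f m z

/-! ### The functions `G_a` and `θ_c` -/

theorem es1rc_f2Ga_neg (M : ℕ) (a : ZMod M) : f2Ga M (-a) = f2Ga M a := by
  funext z
  have h := f2Ga_smul M a (-1) (by rw [Gamma0_mem]; simp) z
  rw [ModularGroup.SL_neg_smul, one_smul] at h
  rw [h]
  congr 1
  simp

/-- `G_a` is a modular function for `Γ₁(M)` -/
theorem es1rc_isModFunG_f2Ga (M : ℕ) [NeZero M] (a : ZMod M) :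
    IsModFunG (Gamma1 M) (f2Ga M a) := by
  have h3 : IsMF (gGL (Gamma1 M)) 3 (f2Ya M a) := ⟨f2Form M a, rfl⟩
  have h12 := (h3.pow 4).of_weight_eq
    (show ((4 : ℕ) : ℤ) * 3 = 12 * ((1 : ℕ) : ℤ) by norm_num)
  have := isModFunG_div h12
  convert this using 1
  funext z
  simp [f2Ga]

/-- `θ_c = Σ_{a' ∈ [1, M/2], a' ∈ ± c H} G_{a'}` -/
def es1rcTheta (M : ℕ) (H : Subgroup (ZMod M)ˣ) (c : (ZMod M)ˣ) : ℍ → ℂ :=
  ∑ a' ∈ cosetReps M H c, f2Ga M (a' : ZMod M)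

section Theta

variable {M : ℕ} (H : Subgroup (ZMod M)ˣ) (c : (ZMod M)ˣ)

theorem es1rcTheta_apply (z : ℍ) :
    es1rcTheta M H c z = ∑ a' ∈ cosetReps M H c, f2Ga M (a' : ZMod M) z := by
  unfold es1rcTheta
  rw [Finset.sum_apply]

theorem es1rcTheta_isModFunG1 [NeZero M] : IsModFunG (Gamma1 M) (es1rcTheta M H c) :=
  IsModFunG.sum _ _ fun a' _ => es1rc_isModFunG_f2Ga M a'

theorem es1rcTheta_isMerInf [NeZero M] : IsMerInf (es1rcTheta M H c) :=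
  Fermat.Agent.ES.RC.rc_isMerInf_sum _ _ fun a' _ => f2Ga_isMerInf M a'

theorem laurentOf_es1rcTheta [NeZero M] : laurentOf (es1rcTheta M H c) = sS ℂ M H c := by
  unfold es1rcTheta sS sZ
  rw [Fermat.Agent.ES.RC.rc_laurentOf_sum (cosetReps M H c)
    (fun a' : ℕ => f2Ga M (a' : ZMod M)) fun a' _ => f2Ga_isMerInf M a', map_sum]
  exact Finset.sum_congr rfl fun a' _ => laurentOf_f2Ga M a'

/-- `θ_c (γ z) = θ_{c ⟨γ⟩} (z)` for `γ ∈ Γ₀(M)` -/
theorem es1rcTheta_smul [NeZero M] (γ : SL(2, ℤ)) (hγ : γ ∈ Gamma0 M) (z : ℍ) :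
    es1rcTheta M H c (γ • z) = es1rcTheta M H (c * diamHom M ⟨γ, hγ⟩) z := by
  rw [es1rcTheta_apply, es1rcTheta_apply,
    ← es1rc_sum_cosetReps_mul H c (diamHom M ⟨γ, hγ⟩) (fun x => f2Ga M x z)
      (fun x => by rw [es1rc_f2Ga_neg])]
  refine Finset.sum_congr rfl fun a' _ => ?_
  rw [f2Ga_smul M a' γ hγ z, coe_diamHom]

theorem es1rcTheta_eq_of_mem {u : (ZMod M)ˣ} (hu : u ∈ pmH H) :
    es1rcTheta M H (c * u) = es1rcTheta M H c := by
  unfold es1rcTheta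
  rw [es1f_cosetReps_eq (es1rc_inPM_mul_of_mem c hu)]

/-- `θ_c (e τ)` -/
def es1rcThetaE (e : ℕ) [NeZero e] (H : Subgroup (ZMod M)ˣ) (c : (ZMod M)ˣ) : ℍ → ℂ :=
  fun z => es1rcTheta M H c (scaleN e z)

theorem es1rcThetaE_isMerInf (e : ℕ) [NeZero e] [NeZero M] : IsMerInf (es1rcThetaE e H c) :=
  isMerInf_comp_scaleN e (es1rcTheta_isMerInf H c)

/-- the Laurent expansion of `θ_c (e τ)` is `S_{M,H,c}(q^e)` -/
theorem laurentOf_es1rcThetaE (e : ℕ) [NeZero e] [NeZero M] :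
    laurentOf (es1rcThetaE e H c) = qExpand ℂ e (sS ℂ M H c) := by
  unfold es1rcThetaE
  rw [laurentOf_comp_scaleN e (es1rcTheta_isMerInf H c), laurentOf_es1rcTheta]

theorem es1rc_companion_mem_gamma0 (e : ℕ) [NeZero e] {γ : SL(2, ℤ)}
    (hγ : γ ∈ Gamma0 (e * M)) :
    ∃ hdvd : (e : ℤ) ∣ γ 1 0, P7_thetaCompanion e γ hdvd ∈ Gamma0 M ∧
      (P7_thetaCompanion e γ hdvd) 0 0 = γ 0 0 := by
  rw [Gamma0_mem, ZMod.intCast_zmod_eq_zero_iff_dvd] at hγ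
  have hdvd : (e : ℤ) ∣ γ 1 0 := (Dvd.intro _ (by push_cast; rfl)).trans hγ
  refine ⟨hdvd, ?_, ?_⟩
  · rw [Gamma0_mem, ZMod.intCast_zmod_eq_zero_iff_dvd]
    have he : (e : ℤ) ≠ 0 := by exact_mod_cast NeZero.ne e
    obtain ⟨t, ht⟩ := hγ
    have h1 : (P7_thetaCompanion e γ hdvd) 1 0 = γ 1 0 / e := by
      simp [P7_thetaCompanion]
    rw [h1, ht]
    push_cast
    rw [mul_assoc, Int.mul_ediv_cancel_left _ he]
    exact Dvd.intro _ rfl
  · simp [P7_thetaCompanion]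

theorem es1rc_gamma0_mul_le (e : ℕ) (M : ℕ) : Gamma0 (e * M) ≤ Gamma0 M :=
  Fermat.Agent.ES.RC.rc_Gamma0_le_of_dvd (Dvd.intro_left e rfl)

/-- `θ_c (e · γ z) = θ_{c ⟨γ⟩} (e z)` for `γ ∈ Γ₀(e M)` -/
theorem es1rcThetaE_smul (e : ℕ) [NeZero e] [NeZero M] (γ : SL(2, ℤ))
    (hγ : γ ∈ Gamma0 (e * M)) (z : ℍ) :
    es1rcThetaE e H c (γ • z) =
      es1rcThetaE e H (c * diamHom M ⟨γ, es1rc_gamma0_mul_le e M hγ⟩) z := by
  obtain ⟨hdvd, hM, h00⟩ := es1rc_companion_mem_gamma0 (M := M) e hγ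
  unfold es1rcThetaE
  rw [P7_thetaCompanion_smul e γ hdvd z, es1rcTheta_smul H c _ hM]
  congr 2
  ext
  rw [coe_diamHom, coe_diamHom, h00]

theorem es1rcThetaE_eq_of_mem (e : ℕ) [NeZero e] {u : (ZMod M)ˣ} (hu : u ∈ pmH H) :
    es1rcThetaE e H (c * u) = es1rcThetaE e H c := by
  unfold es1rcThetaE
  rw [es1rcTheta_eq_of_mem H c hu]

theorem es1rcThetaE_one [NeZero M] : es1rcThetaE 1 H c = es1rcTheta M H c := by
  funext z
  unfold es1rcThetaE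
  congr 1
  apply UpperHalfPlane.ext
  rw [coe_scaleN]
  simp

theorem es1rc_companion_mem_gamma1 (e : ℕ) [NeZero e] {γ : SL(2, ℤ)}
    (hγ : γ ∈ Gamma1 (e * M)) :
    ∃ hdvd : (e : ℤ) ∣ γ 1 0, P7_thetaCompanion e γ hdvd ∈ Gamma1 M := by
  have h1 := (Gamma1_mem (e * M) γ).mp hγ
  have hdvdM : M ∣ e * M := Dvd.intro_left e rfl
  have h0 : γ ∈ Gamma0 (e * M) := Gamma0_mem.mpr h1.2.2
  obtain ⟨hdvd, hM, h00⟩ := es1rc_companion_mem_gamma0 (M := M) e h0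
  refine ⟨hdvd, (Gamma1_mem M _).mpr ⟨?_, ?_, Gamma0_mem.mp hM⟩⟩
  · rw [h00]
    have h3 := congrArg (ZMod.castHom hdvdM (ZMod M)) h1.1
    rw [map_one, map_intCast] at h3
    exact h3
  · have h11 : (P7_thetaCompanion e γ hdvd) 1 1 = γ 1 1 := by simp [P7_thetaCompanion]
    rw [h11]
    have h3 := congrArg (ZMod.castHom hdvdM (ZMod M)) h1.2.1
    rw [map_one, map_intCast] at h3
    exact h3

/-- **(An-i)** `θ_c (e τ)` is a modular function for `Γ_H(M) ∩ Γ₀(L)` if `e M ∣ L`. -/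
theorem es1rcThetaE_isModFunG {L : ℕ} [NeZero L] (e : ℕ) [NeZero e] (he : e * M ∣ L) :
    IsModFunG (gammaH L M H) (es1rcThetaE e H c) := by
  have hML : M ∣ L := (Dvd.intro_left e rfl).trans he
  have hM0 : M ≠ 0 := fun h => NeZero.ne L (by rw [h] at hML; exact Nat.eq_zero_of_zero_dvd hML)
  have : NeZero M := ⟨hM0⟩
  have : NeZero (e * M) := ⟨mul_ne_zero (NeZero.ne e) hM0⟩
  have := es1rc_finiteIndex hML H
  have h1 : IsModFunG (Gamma1 (e * M)) (es1rcThetaE e H c) :=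
    es1rc_isModFunG_comp_scaleN e (es1rcTheta_isModFunG1 H c)
      (fun γ hγ => es1rc_companion_mem_gamma1 e hγ)
  refine h1.of_invariant fun γ hγ τ => ?_
  obtain ⟨hL, hM, hH⟩ := hγ
  have hγe : γ ∈ Gamma0 (e * M) := Fermat.Agent.ES.RC.rc_Gamma0_le_of_dvd he hL
  rw [es1rcThetaE_smul H c e γ hγe τ]
  exact congrFun (es1rcThetaE_eq_of_mem H c e hH) τ

/-- **(An-iii)** for `γ ∈ Γ₀(L)`, `e M ∣ L`: `θ_c (e · γ z) = θ_{c ⟨γ⟩} (e z)`. -/
theorem es1rcThetaE_smul_of_mem {L : ℕ} (e : ℕ) [NeZero e] [NeZero M] (he : e * M ∣ L)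
    (γ : SL(2, ℤ)) (hγ : γ ∈ Gamma0 L) (hγM : γ ∈ Gamma0 M) (z : ℍ) :
    es1rcThetaE e H c (γ • z) = es1rcThetaE e H (c * diamHom M ⟨γ, hγM⟩) z :=
  es1rcThetaE_smul H c e γ (Fermat.Agent.ES.RC.rc_Gamma0_le_of_dvd he hγ) z

end Theta

end Fermat.Agent.ES1
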