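import Fermat.Agent.ES1.RealDefs
import Fermat.Agent.ES1.RCGammaA
import Fermat.Agent.S24.BridgeAlg

/-!
# ES₁ / F4, piece P2: the embedding `fieldC ℂ L M H → realM L`

`A = modFunAlgG (gammaH L M H)`;  `Λ = laurentOf : A → ℂ((q))` and `Ψ : A → realB L → realM L`
are injective `ℂ`-algebra maps, and every generator `j(q^d)`, `S_{M,H,a}(q^e)` of
`fieldC ℂ L M H` is `Λ` of an element of `A` (`J(dτ)`, `θ_a(eτ)`; helper85's `RCGammaA`).
So the generators satisfy the same polynomial relations in `ℂ((q))` and in `realM L`.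

* `stmtRealEmb : StmtRealEmb`.
-/

set_option autoImplicit false

noncomputable section

open UpperHalfPlane ModularForm CongruenceSubgroup ModularCurve AlgebraicCurve IntermediateField
open scoped MatrixGroups Manifold

namespace Fermat.Agent.ES1

open Fermat.Agent.S23 Fermat.Agent.S24 Fermat.Agent.S28 Fermat.Agent.ES.RC

theorem es1r_gamma_le_gammaH {L M : ℕ} (hML : M ∣ L) (H : Subgroup (ZMod M)ˣ) :
    Gamma L ≤ gammaH L M H := by
  refine le_trans ?_ (es1rc_gamma1_le_gammaH hML H)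
  intro γ hγ
  rw [Gamma_mem] at hγ
  rw [Gamma1_mem]
  exact ⟨hγ.1, hγ.2.2.2, hγ.2.2.1⟩

/-- every generator of `fieldC ℂ L M H` is the Laurent expansion of a modular function for
`gammaH L M H` -/
theorem es1r_exists_gen {L M : ℕ} [NeZero L] (hML : M ∣ L) (H : Subgroup (ZMod M)ˣ)
    (x : LaurentSeries ℂ) (hx : x ∈ divisorExpansionsC ℂ L ∪ diamondExpansionsC ℂ L M H) :
    ∃ f : ℍ → ℂ, IsModFunG (gammaH L M H) f ∧ laurentOf f = x := by
  have hM0 : M ≠ 0 := fun h => NeZero.ne L (by rw [h] at hML; exact Nat.eq_zero_of_zero_dvd hML)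
  haveI : NeZero M := ⟨hM0⟩
  rcases hx with ⟨d, hd, hdL, rfl⟩ | ⟨e, he, a, heL, rfl⟩
  · refine ⟨fun z => Jfun (scaleN d z), ?_, ?_⟩
    · have h1 : IsModFunG (Gamma0 L) (fun z => Jfun (scaleN d z)) :=
        (isModFunG_gamma0_iff L _).mpr (rc_isModFun_Jfun_scaleN hdL)
      exact h1.mono (gammaH_le_gamma0 L M H)
    · rw [laurentOf_Jfun_scaleN]
      rfl
  · exact ⟨es1rcThetaE e H a, es1rcThetaE_isModFunG H a e heL, laurentOf_es1rcThetaE H a e⟩

/-- **(P2 = F4-EMB)** -/
theorem stmtRealEmb : StmtRealEmb := by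
  intro L M H _ hML
  have hT : ModularGroup.T ∈ gammaH L M H := T_mem_gammaH L M H
  have hle : modFunAlgG (gammaH L M H) ≤ realB L := fun f hf =>
    IsModFunG.mono (es1r_gamma_le_gammaH hML H) hf
  -- the Laurent expansion and the inclusion
  let Λ : modFunAlgG (gammaH L M H) →ₐ[ℂ] LaurentSeries ℂ :=
    laurentExp.comp (Subalgebra.inclusion (modFunAlgG_le_merInf hT))
  have hΛ : ∀ g : modFunAlgG (gammaH L M H), Λ g = laurentOf (g : ℍ → ℂ) := fun g => rfl
  have hΛinj : Function.Injective Λ :=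
    laurentExp_injective.comp (Subalgebra.inclusion_injective (modFunAlgG_le_merInf hT))
  let Ψ : modFunAlgG (gammaH L M H) →ₐ[ℂ] realM L :=
    (IsScalarTower.toAlgHom ℂ (realB L) (realM L)).comp (Subalgebra.inclusion hle)
  have hΨinj : Function.Injective Ψ :=
    (IsFractionRing.injective (realB L) (realM L)).comp (Subalgebra.inclusion_injective hle)
  -- the generators
  let S : Set (LaurentSeries ℂ) := divisorExpansionsC ℂ L ∪ diamondExpansionsC ℂ L M H
  have hgen : ∀ i : S, ∃ a : modFunAlgG (gammaH L M H), Λ a = (i : LaurentSeries ℂ) := by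
    rintro ⟨x, hx⟩
    obtain ⟨f, hf, hfx⟩ := es1r_exists_gen hML H x hx
    exact ⟨⟨f, hf⟩, hfx⟩
  choose a ha using hgen
  have hS : fieldC ℂ L M H =
      IntermediateField.adjoin ℂ (Set.range (fun i : S => (i : LaurentSeries ℂ))) := by
    rw [Subtype.range_coe]
    rfl
  have hrel : ∀ P : MvPolynomial S ℂ,
      MvPolynomial.aeval (fun i : S => (i : LaurentSeries ℂ)) P = 0 ↔
        MvPolynomial.aeval (fun i : S => Ψ (a i)) P = 0 := by
    intro P
    have h1 : MvPolynomial.aeval (fun i : S => (i : LaurentSeries ℂ)) P =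
        Λ (MvPolynomial.aeval a P) := by
      have := MvPolynomial.comp_aeval_apply a Λ P
      rw [this]
      congr 2
      funext i
      exact (ha i).symm
    have h2 : MvPolynomial.aeval (fun i : S => Ψ (a i)) P = Ψ (MvPolynomial.aeval a P) :=
      (MvPolynomial.comp_aeval_apply a Ψ P).symm
    rw [h1, h2, map_eq_zero_iff _ hΛinj, map_eq_zero_iff _ hΨinj]
  obtain ⟨φ, hφ⟩ := br_exists_algHom_of_eq_adjoin (fieldC ℂ L M H)
    (fun i : S => (i : LaurentSeries ℂ)) hS (fun i : S => Ψ (a i)) hrel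
  refine ⟨φ, ?_⟩
  -- the value at `j`
  have hjS : jqModC ℂ ∈ S := by
    left
    refine ⟨1, ⟨one_ne_zero⟩, one_dvd L, ?_⟩
    rw [qExpand_one_apply]
  have h1 := hφ ⟨jqModC ℂ, hjS⟩ (jqModC_mem_fieldC L M H ℂ)
  have h2 : a ⟨jqModC ℂ, hjS⟩ = ⟨Jfun, es1r_isModFunG_of_levelOne _ (isModFun_Jfun 1)⟩ := by
    apply hΛinj
    rw [ha, hΛ]
    exact laurentOf_Jfun.symm
  show φ ⟨jqModC ℂ, _⟩ = realJ L
  rw [h1, h2]
  rfl

end Fermat.Agent.ES1
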