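import Fermat.Agent.ES1.RealDefs

/-!
# ES₁ / F4 — glue: ramification over `ℂ` + base change ⇒ `StmtRamJH`

`stmtRamJH_of : StmtRamJC → StmtRealBCu → StmtRealFin → StmtRamJH`.
-/

set_option autoImplicit false

open AlgebraicCurve IntermediateField ModularCurve

namespace Fermat.Agent.ES1

open Fermat.Agent.S24

theorem stmtRamJH_of (hC : StmtRamJC) (hB : StmtRealBCu) (hF : StmtRealFin) : StmtRamJH := by
  intro L M H _ hML
  have hR := hC L M H hML
  have hfin : FiniteDimensional Kb⟮jFH L M H⟯ (fieldBar L M H) := hF L M H hML hR.finite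
  have halg : Algebra.IsAlgebraic Kb⟮jFH L M H⟯ (fieldBar L M H) :=
    Algebra.IsAlgebraic.of_finite _ _
  have hext := hB L M H hML halg
  have hj : iotaH L M H (jFH L M H) = jFC L M H := iotaH_jFH L M H
  have hsub : ∀ c : Kb, iotaH L M H (jFH L M H - algebraMap Kb (fieldBar L M H) c) =
      jFC L M H - algebraMap ℂ (fieldC ℂ L M H) (embC c) := fun c => by
    rw [map_sub, hj, iotaH_algebraMap]
  refine ⟨hfin, ?_, ?_, ?_, ?_⟩
  · intro v hv
    obtain ⟨w, hw⟩ := hext v
    have h1 := hw (jFH L M H)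
    rw [hj] at h1
    rw [← h1] at hv ⊢
    exact hR.zero w hv
  · intro v hv
    obtain ⟨w, hw⟩ := hext v
    have h1 := hw (jFH L M H - algebraMap Kb (fieldBar L M H) 1728)
    rw [hsub, map_ofNat] at h1
    rw [← h1] at hv ⊢
    exact hR.e1728 w hv
  · intro c hc0 hc v hv
    obtain ⟨w, hw⟩ := hext v
    have h1 := hw (jFH L M H - algebraMap Kb (fieldBar L M H) c)
    rw [hsub] at h1
    rw [← h1] at hv ⊢
    refine hR.gen (embC c) ?_ ?_ w hv
    · intro h
      exact hc0 (embC.injective (by rw [h, map_zero]))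
    · intro h
      exact hc (embC.injective (by rw [h, map_ofNat]))
  · intro v hv
    obtain ⟨w, hw⟩ := hext v
    have h1 := hw (jFH L M H)
    have h2 := hw (jFH L M H)⁻¹
    rw [hj] at h1
    rw [map_inv₀, hj] at h2
    rw [← h1] at hv
    rw [← h2]
    exact hR.inf w hv

end Fermat.Agent.ES1
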