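import Fermat.Agent.ES1.RealRam
import Fermat.Agent.ES1.RealEmb
import Fermat.Agent.ES1.RealGlue
import Fermat.Agent.ES1.RealBCuFin

/-!
# ES₁ / F4 — DONE: ramification of `fieldBar L M H` over the `j`-line

* `stmtRamJC : StmtRamJC` (over `ℂ`), `stmtRamJH : StmtRamJH` (over `ℚ̄`, the deliverable of F4).
-/

set_option autoImplicit false

namespace Fermat.Agent.ES1

/-- ramification of `fieldC ℂ L M H` over the `j`-line -/
theorem stmtRamJC : StmtRamJC := stmtRamJC_of stmtRealEmb

/-- **(F4)** ramification of `fieldBar L M H` over the `j`-line: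
finite over `ℚ̄(j)`; `e ∣ 3` over `0`; `e ∣ 2` over `1728`; `e = 1` elsewhere; `e ∣ L` over `∞`. -/
theorem stmtRamJH : StmtRamJH := stmtRamJH_of stmtRamJC stmtRealBCu stmtRealFin

end Fermat.Agent.ES1
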