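import Fermat.Agent.ES1.HBridge
import Fermat.Agent.ES1.RealFinal

/-!
# ES₁, piece (H), final form: all Hecke inputs, unconditionally

From F4 (`stmtRamJH`, `ES1/RealFinal.lean`):

* `es1hFin_all` : `Es1hFin L M H` for every `L ≠ 0`, `M ∣ L`;
* `es1h_inputs_all` : `Es1hInputs L M H ℓ`;
* `es1hHecke_eq_all` : `es1hHecke L M H ℓ` is the push-pull correspondence along `β`, `α`;
* `es1h_hasPrincipalDivisors_all`, `es1h_residue_bijective_all`.
-/

set_option autoImplicit false

noncomputable section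

open AlgebraicCurve ModularCurve IntermediateField

namespace Fermat.Agent.ES1

open Fermat.Agent.S24

variable {L M : ℕ} {H : Subgroup (ZMod M)ˣ}

/-- **Finiteness over `ℚ̄(j)`**, unconditionally. -/
theorem es1hFin_all (hL : L ≠ 0) (hML : M ∣ L) : Es1hFin L M H :=
  haveI : NeZero L := ⟨hL⟩
  es1hFin_of_ramJH (stmtRamJH L M H hML)

/-- principal divisors on `X_H(L; M)` -/
theorem es1h_hasPrincipalDivisors_all (hL : L ≠ 0) (hML : M ∣ L) :
    HasPrincipalDivisors Kb (fieldBar L M H) :=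
  es1h_hasPrincipalDivisors (es1hFin_all hL hML)

/-- every place of `X_H(L; M)` over `ℚ̄` has residue field `ℚ̄` -/
theorem es1h_residue_bijective_all (hL : L ≠ 0) (hML : M ∣ L) (v : Place Kb (fieldBar L M H)) :
    Function.Bijective (algebraMap Kb v.ResidueField) :=
  es1h_residue_bijective (es1hFin_all hL hML) v

variable {ℓ : ℕ} [NeZero ℓ]

/-- **Piece (H)**: all inputs of `T_ℓ` on `JH L M H`, unconditionally. -/
theorem es1h_inputs_all (hL : L ≠ 0) (hML : M ∣ L) : Es1hInputs L M H ℓ :=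
  es1h_inputs (es1hFin_all hL hML)
    (es1hFin_all (Nat.mul_ne_zero hL (NeZero.ne ℓ)) (hML.trans (dvd_mul_right L ℓ)))

/-- `T_ℓ` is the genuine push-pull correspondence. -/
theorem es1hHecke_eq_all (hL : L ≠ 0) (hML : M ∣ L) :
    haveI := es1h_hasPrincipalDivisors_all (H := H)
      (Nat.mul_ne_zero hL (NeZero.ne ℓ)) (hML.trans (dvd_mul_right L ℓ))
    es1hHecke L M H ℓ =
      Pic0.correspondence (es1hBeta L M H ℓ) (es1hAlpha L M H ℓ)
        (es1h_integral _ (es1hFin_all hL hML)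
          (es1hFin_all (Nat.mul_ne_zero hL (NeZero.ne ℓ)) (hML.trans (dvd_mul_right L ℓ))))
        (es1h_integral _ (es1hFin_all hL hML)
          (es1hFin_all (Nat.mul_ne_zero hL (NeZero.ne ℓ)) (hML.trans (dvd_mul_right L ℓ))))
        (es1h_fundamentalIdentityAlong _ (es1hFin_all hL hML)
          (es1hFin_all (Nat.mul_ne_zero hL (NeZero.ne ℓ)) (hML.trans (dvd_mul_right L ℓ))))
        (es1h_finiteAlong _ (es1hFin_all hL hML)
          (es1hFin_all (Nat.mul_ne_zero hL (NeZero.ne ℓ)) (hML.trans (dvd_mul_right L ℓ))))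
        (es1h_normFormulaAlong _ (es1hFin_all hL hML)
          (es1hFin_all (Nat.mul_ne_zero hL (NeZero.ne ℓ)) (hML.trans (dvd_mul_right L ℓ)))) :=
  es1hHecke_eq_of_fin (es1hFin_all hL hML)
    (es1hFin_all (Nat.mul_ne_zero hL (NeZero.ne ℓ)) (hML.trans (dvd_mul_right L ℓ)))

end Fermat.Agent.ES1
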