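import Mathlib
import Fermat.Agent.INJ.GaussRing
import Fermat.Agent.INJ.GaussRep
import Fermat.Agent.S28.RedDVR

/-!
# ES₁ / INJ₁-KD, part 3: the Gauss ring is integrally closed in `Λ_π[1/π]`

* `kdl_bdd` : an `E(t)`-combination of series over `A` lies in the Gauss ring after
  multiplication by a power of `π`;
* `kdl_mem_gaussRing_of_root` : a root `w` of a monic polynomial over the Gauss ring with
  `π ^ e w` in the Gauss ring lies in the Gauss ring.
-/

set_option autoImplicit false
set_option linter.style.haveILetI false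
set_option linter.unusedSectionVars false

noncomputable section

namespace Fermat.Agent.ES1

open Polynomial ModularCurve IntermediateField Fermat.Agent.S28 Fermat.Agent.INJ

section Bdd

variable {A E k : Type*} [CommRing A] [IsDomain A] [Field E] [Algebra A E] [IsFractionRing A E]
  [Field k] (r : A →+* k)

/-- the constant `π` of `E((q))` -/
theorem kdl_aeval_C_pow_mul (α : LaurentSeries E) (π : A) (e : ℕ) (a : A[X]) :
    aeval α (((C π) ^ e * a).map (algebraMap A E)) =
      (HahnSeries.C (algebraMap A E π) : LaurentSeries E) ^ e *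
        aeval α (a.map (algebraMap A E)) := by
  rw [Polynomial.map_mul, Polynomial.map_pow, Polynomial.map_C, map_mul, map_pow, aeval_C,
    algebraMap_laurentSeries_eq_single]
  rfl

/-- **Bounded denominators.** -/
theorem kdl_bdd [WfDvdMonoid A[X]] {π : A} (hπ : Prime π) (hr : ∀ a, r a = 0 → π ∣ a)
    (t₀ : LaurentSeries A) (ht : Transcendental k (coeffMap r t₀))
    {J : Type*} [Fintype J] (y : J → LaurentSeries A) (c : J → LaurentSeries E)
    (hc : ∀ j, c j ∈ adjoin E {coeffMap (algebraMap A E) t₀}) :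
    ∃ e : ℕ, (HahnSeries.C (algebraMap A E π) : LaurentSeries E) ^ e *
        ∑ j, c j * coeffMap (algebraMap A E) (y j) ∈ gaussRing (algebraMap A E) r := by
  classical
  obtain ⟨D, hD, hDP⟩ := redDVR_exists_common_denominator (A := A)
    (coeffMap (algebraMap A E) t₀) c hc Finset.univ
  choose P hP using fun j => hDP j (Finset.mem_univ j)
  have hD0 : D ≠ 0 := by
    rintro rfl
    apply hD
    rw [Polynomial.map_zero, map_zero]
  have hCπ : Irreducible (C π : A[X]) := ((Polynomial.prime_C_iff).2 hπ).irreducible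
  obtain ⟨e, a, ha, hDa⟩ := WfDvdMonoid.max_power_factor hD0 hCπ
  have har : a.map r ≠ 0 := by
    intro h0
    obtain ⟨g', hg'⟩ := exists_eq_C_mul_of_map_eq_zero hr h0
    exact ha ⟨g', hg'⟩
  refine ⟨e, ∑ j, aeval t₀ (P j) * y j, aeval t₀ a, ?_, ?_⟩
  · rw [redDVR_coeffMap_aeval]
    intro h0
    exact har (transcendental_iff.mp ht _ h0)
  · rw [redDVR_coeffMap_aeval, map_sum]
    simp_rw [map_mul, redDVR_coeffMap_aeval, ← hP]
    have h1 := kdl_aeval_C_pow_mul (coeffMap (algebraMap A E) t₀) π e a
    rw [← hDa] at h1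
    rw [h1, Finset.mul_sum, Finset.mul_sum]
    refine Finset.sum_congr rfl fun j _ => ?_
    ring

end Bdd

section Closed

variable {A E k : Type*} [CommRing A] [Field E] [Field k] {ι : A →+* E} (r : A →+* k)
  (hι : Function.Injective ι)

include hι in
/-- **The Gauss ring is integrally closed in its localisation at `π`.** -/
theorem kdl_mem_gaussRing_of_root {π : A} (hπ0 : π ≠ 0) (hπ : r π = 0)
    (hker : ∀ a, r a = 0 → π ∣ a) (p : Polynomial (gaussRing ι r)) (hp : p.Monic)
    (w : LaurentSeries E) (hpw : eval₂ (gaussRing ι r).subtype w p = 0) :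
    ∀ e : ℕ, (HahnSeries.C (ι π) : LaurentSeries E) ^ e * w ∈ gaussRing ι r →
      w ∈ gaussRing ι r := by
  have hC0 : (HahnSeries.C (ι π) : LaurentSeries E) ≠ 0 := by
    intro h0
    have h1 := congrArg (fun z : LaurentSeries E => z.coeff 0) h0
    simp only [HahnSeries.C_apply, HahnSeries.coeff_single_same, HahnSeries.coeff_zero] at h1
    exact hπ0 (hι (by rw [h1, map_zero]))
  have hred0 : gaussRed r hι ⟨HahnSeries.C (ι π), hahnC_mem_gaussRing r π⟩ = 0 := by
    have h3 := gaussRed_coeffMap r hι (HahnSeries.C π : LaurentSeries A)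
    have h4 : (⟨coeffMap ι (HahnSeries.C π), coeffMap_mem_gaussRing ι r _⟩ : gaussRing ι r) =
        ⟨HahnSeries.C (ι π), hahnC_mem_gaussRing r π⟩ := Subtype.ext (coeffMap_hahnC ι π)
    rw [h4] at h3
    rw [h3, coeffMap_hahnC r, hπ, map_zero]
  intro e
  induction e with
  | zero => intro h; simpa using h
  | succ e ih =>
    intro hu
    apply ih
    set s : gaussRing ι r := ⟨HahnSeries.C (ι π), hahnC_mem_gaussRing r π⟩ ^ (e + 1) with hs
    set u : gaussRing ι r := ⟨_, hu⟩ with hudef
    have hsu : (gaussRing ι r).subtype s * w = (gaussRing ι r).subtype u := by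
      rw [hs, map_pow]
      rfl
    have h1 : eval₂ (gaussRing ι r).subtype ((gaussRing ι r).subtype u) (scaleRoots p s) = 0 := by
      rw [← hsu, scaleRoots_eval₂_mul, hpw, mul_zero]
    rw [eval₂_at_apply] at h1
    have h2 : eval u (scaleRoots p s) = 0 := Subtype.ext h1
    have h3 := congrArg (gaussRed r hι) h2
    rw [map_zero, ← eval₂_at_apply, ← eval_map, map_scaleRoots _ _ _ (by
      rw [hp.leadingCoeff, map_one]; exact one_ne_zero)] at h3
    have hs0 : gaussRed r hι s = 0 := by
      rw [hs, map_pow, hred0, zero_pow (Nat.succ_ne_zero e)]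
    rw [hs0, scaleRoots_zero, (hp.map _).leadingCoeff, one_smul, eval_pow, eval_X] at h3
    have h4 : gaussRed r hι u = 0 := by
      refine (pow_eq_zero_iff ?_).mp h3
      rw [hp.natDegree_map]
      intro hnd
      have : p = 1 := hp.natDegree_eq_zero.mp hnd
      rw [this, eval₂_one] at hpw
      exact one_ne_zero hpw
    obtain ⟨y, hy⟩ := (gaussRed_eq_zero_iff_dvd r hι hπ hker u).mp h4
    have h5 : (HahnSeries.C (ι π) : LaurentSeries E) ^ e * w = (y : LaurentSeries E) := by
      have h6 : (HahnSeries.C (ι π) : LaurentSeries E) * ((HahnSeries.C (ι π)) ^ e * w) =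
          HahnSeries.C (ι π) * (y : LaurentSeries E) := by
        rw [← hy, ← mul_assoc, ← pow_succ']
      exact mul_left_cancel₀ hC0 h6
    rw [h5]
    exact y.2

end Closed

end Fermat.Agent.ES1
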