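import Mathlib
import Fermat.Agent.INJ.BGBasis

/-!
# ES₁ / INJ₁-KD, part 2: a simple extension with a full set of conjugates

`L = K(θ)`, `θ` a root of a monic polynomial of degree `m + 1` over `K`, and automorphisms
`σ b` (`b : Fin (m + 1)`) of `L / K` with pairwise different `σ b θ`.  Then `[L : K] = m + 1`, the
`σ b` are all the automorphisms, `L / K` is Galois, traces are sums over the `σ b` and the
discriminant of the power basis is the square of the Vandermonde determinant.
-/

set_option autoImplicit false
set_option linter.style.haveILetI false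

namespace Fermat.Agent.ES1

open Polynomial IntermediateField Module Matrix

section Conj

variable {K L : Type*} [Field K] [Field L] [Algebra K L] {m : ℕ}

theorem kdl_isIntegral_gen (θ : L) (P : K[X]) (hP : P.Monic) (hroot : aeval θ P = 0) :
    IsIntegral K θ := ⟨P, hP, hroot⟩

theorem kdl_finiteDimensional (θ : L) (hgen : K⟮θ⟯ = ⊤) (P : K[X]) (hP : P.Monic)
    (hroot : aeval θ P = 0) : FiniteDimensional K L := by
  have hint : IsIntegral K θ := ⟨P, hP, hroot⟩
  haveI : FiniteDimensional K K⟮θ⟯ := IntermediateField.adjoin.finiteDimensional hint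
  have h1 : FiniteDimensional K (⊤ : IntermediateField K L) := by
    rw [← hgen]; infer_instance
  exact LinearEquiv.finiteDimensional (IntermediateField.topEquiv (F := K) (E := L)).toLinearEquiv

theorem kdl_finrank_le (θ : L) (hgen : K⟮θ⟯ = ⊤) (P : K[X]) (hP : P.Monic)
    (hdeg : P.natDegree = m + 1) (hroot : aeval θ P = 0) : Module.finrank K L ≤ m + 1 := by
  have hint : IsIntegral K θ := ⟨P, hP, hroot⟩
  have h1 : Module.finrank K L = (minpoly K θ).natDegree := by
    rw [← IntermediateField.adjoin.finrank hint, hgen, IntermediateField.finrank_top']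
  rw [h1, ← hdeg]
  exact Polynomial.natDegree_le_natDegree (minpoly.min K θ hP hroot)

variable (θ : L) (hgen : K⟮θ⟯ = ⊤) (P : K[X]) (hP : P.Monic)
  (hdeg : P.natDegree = m + 1) (hroot : aeval θ P = 0)
  (σ : Fin (m + 1) → (L ≃ₐ[K] L)) (hσ : Function.Injective (fun b => σ b θ))

include hσ in
theorem kdl_sigma_injective : Function.Injective σ := by
  intro a b hab
  apply hσ
  show σ a θ = σ b θ
  rw [hab]

include hgen hP hdeg hroot hσ in
theorem kdl_card_finrank :
    haveI := kdl_finiteDimensional θ hgen P hP hroot
    Fintype.card (L ≃ₐ[K] L) = m + 1 ∧ Module.finrank K L = m + 1 := by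
  haveI := kdl_finiteDimensional θ hgen P hP hroot
  have h1 : Fintype.card (L ≃ₐ[K] L) ≤ Module.finrank K L := AlgEquiv.card_le
  have h2 : Module.finrank K L ≤ m + 1 := kdl_finrank_le θ hgen P hP hdeg hroot
  have h3 : m + 1 ≤ Fintype.card (L ≃ₐ[K] L) := by
    have := Fintype.card_le_of_injective σ (kdl_sigma_injective θ σ hσ)
    simpa using this
  omega

include hgen hP hdeg hroot hσ in
theorem kdl_finrank : Module.finrank K L = m + 1 :=
  (kdl_card_finrank θ hgen P hP hdeg hroot σ hσ).2

include hgen hP hdeg hroot hσ in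
theorem kdl_isGalois : IsGalois K L := by
  haveI := kdl_finiteDimensional θ hgen P hP hroot
  apply IsGalois.of_card_aut_eq_finrank
  rw [Nat.card_eq_fintype_card]
  have := kdl_card_finrank θ hgen P hP hdeg hroot σ hσ
  omega

include hgen hP hdeg hroot hσ in
theorem kdl_sigma_bijective : Function.Bijective σ := by
  haveI := kdl_finiteDimensional θ hgen P hP hroot
  rw [Fintype.bijective_iff_injective_and_card]
  refine ⟨kdl_sigma_injective θ σ hσ, ?_⟩
  rw [Fintype.card_fin, (kdl_card_finrank θ hgen P hP hdeg hroot σ hσ).1]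

include hgen hP hdeg hroot hσ in
/-- traces are sums over the conjugates -/
theorem kdl_trace_eq_sum (x : L) :
    algebraMap K L (Algebra.trace K L x) = ∑ b, σ b x := by
  haveI := kdl_finiteDimensional θ hgen P hP hroot
  haveI := kdl_isGalois θ hgen P hP hdeg hroot σ hσ
  rw [_root_.trace_eq_sum_automorphisms]
  exact (Fintype.sum_bijective σ (kdl_sigma_bijective θ hgen P hP hdeg hroot σ hσ) _ _
    (fun _ => rfl)).symm

include hgen hP hdeg hroot hσ in
/-- norms are products over the conjugates -/
theorem kdl_norm_eq_prod (x : L) :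
    algebraMap K L (Algebra.norm K x) = ∏ b, σ b x := by
  haveI := kdl_finiteDimensional θ hgen P hP hroot
  haveI := kdl_isGalois θ hgen P hP hdeg hroot σ hσ
  rw [Algebra.norm_eq_prod_automorphisms]
  exact (Fintype.prod_bijective σ (kdl_sigma_bijective θ hgen P hP hdeg hroot σ hσ) _ _
    (fun _ => rfl)).symm

include hgen hP hdeg hroot hσ in
/-- the discriminant of the powers of `θ` is the square of the Vandermonde determinant -/
theorem kdl_discr_pow :
    algebraMap K L (Algebra.discr K (fun k : Fin (m + 1) => θ ^ (k : ℕ))) =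
      (∏ i : Fin (m + 1), ∏ j ∈ Finset.Ioi i, (σ j θ - σ i θ)) ^ 2 := by
  classical
  have hV : (algebraMap K L).mapMatrix
      (Algebra.traceMatrix K (fun k : Fin (m + 1) => θ ^ (k : ℕ))) =
      (Matrix.vandermonde fun b => σ b θ)ᵀ * (Matrix.vandermonde fun b => σ b θ) := by
    ext k l
    rw [RingHom.mapMatrix_apply, Matrix.map_apply, Algebra.traceMatrix_apply,
      Algebra.traceForm_apply, kdl_trace_eq_sum θ hgen P hP hdeg hroot σ hσ, Matrix.mul_apply]
    refine Finset.sum_congr rfl fun b _ => ?_
    rw [Matrix.transpose_apply, Matrix.vandermonde_apply, Matrix.vandermonde_apply, map_mul,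
      map_pow, map_pow]
  rw [Algebra.discr_def, RingHom.map_det, hV, Matrix.det_mul, Matrix.det_transpose,
    Matrix.det_vandermonde, sq]

end Conj

end Fermat.Agent.ES1
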