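import Mathlib
import Fermat.Agent.INJ.BGInt
import Fermat.Agent.INJ.BGBasis
import Fermat.Agent.ES1.InjPlan
import Fermat.Agent.ES1.KDLiftGalois

/-!
# ES₁ / INJ₁-KD, part 6: the field theory of a conjugate family

`F₀ ≤ F ⊆ E((q))` with a conjugate family `S` (`ES1.ConjFamily`).  We translate the family into
the language of the extension `F / F₀` (automorphisms over `F₀`, generator, minimal polynomial),
identify the minimal polynomial with `∏ (X - S b)` and prove the integrality statements needed
for the good basis.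
-/

set_option autoImplicit false
set_option linter.style.haveILetI false
set_option linter.unusedSectionVars false

noncomputable section

namespace Fermat.Agent.ES1

open Polynomial ModularCurve IntermediateField Fermat.Agent.S28 Fermat.Agent.INJ

section Incl

variable {E Ω : Type*} [Field E] [Field Ω] [Algebra E Ω] {F₀ F : IntermediateField E Ω}

/-- the algebra structure of `F` over `F₀ ≤ F` -/
@[reducible] def kdlAlg (h : F₀ ≤ F) : Algebra F₀ F :=
  (IntermediateField.inclusion h).toRingHom.toAlgebra

theorem kdlAlg_coe (h : F₀ ≤ F) (x : F₀) :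
    letI := kdlAlg h
    ((algebraMap F₀ F x : F) : Ω) = (x : Ω) := rfl

theorem kdlAlg_isScalarTower (h : F₀ ≤ F) :
    letI := kdlAlg h
    IsScalarTower E F₀ F := by
  letI := kdlAlg h
  exact IsScalarTower.of_algebraMap_eq (fun x => by
    apply Subtype.ext
    rfl)

end Incl

section Comp

variable {A₀ F Lf : Type*} [CommRing A₀] [Field F] [Field Lf] [Algebra A₀ F] [Algebra A₀ Lf]
  [Algebra F Lf] [IsScalarTower A₀ F Lf]

/-- integrality over `A₀[t] ⊆ F` (composite structure) gives integrality over `A₀[t] ⊆ Lf` -/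
theorem kdl_isIntegral_of_comp (t : F) (x : Lf)
    (h : IsIntegral (Algebra.adjoin A₀ {t}) x) :
    IsIntegral (Algebra.adjoin A₀ {algebraMap F Lf t}) x := by
  let f : F →ₐ[A₀] Lf := IsScalarTower.toAlgHom A₀ F Lf
  have hmap : (Algebra.adjoin A₀ {t}).map f = Algebra.adjoin A₀ {algebraMap F Lf t} := by
    rw [AlgHom.map_adjoin, Set.image_singleton]
    rfl
  let φ : Algebra.adjoin A₀ {t} →+* Algebra.adjoin A₀ {algebraMap F Lf t} :=
    { toFun := fun y => ⟨f y, by rw [← hmap]; exact ⟨y, y.2, rfl⟩⟩
      map_one' := by ext; simp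
      map_mul' := fun a b => by ext; simp
      map_zero' := by ext; simp
      map_add' := fun a b => by ext; simp }
  have := IsIntegral.map_of_comp_eq φ (RingHom.id Lf) (by ext y; rfl) h
  simpa using this

/-- a root of a monic polynomial with integral coefficients: integrality of the root and of
the discriminant of its powers -/
theorem kdl_discr_integral [FiniteDimensional F Lf] {m : ℕ} (t : F) (θ : Lf) (P : F[X])
    (hP : P.Monic) (hdeg : P.natDegree = m + 1) (hroot : aeval θ P = 0)
    (hcoef : ∀ i, IsIntegral (Algebra.adjoin A₀ {t}) (P.coeff i)) :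
    IsIntegral (Algebra.adjoin A₀ {algebraMap F Lf t}) θ ∧
      IsIntegral (Algebra.adjoin A₀ {t})
        (Algebra.discr F (fun k : Fin (m + 1) => θ ^ (k : ℕ))) := by
  classical
  have hθ : IsIntegral (Algebra.adjoin A₀ {t}) θ := by
    refine IsIntegral.of_aeval_monic_of_isIntegral_coeff (p := P.map (algebraMap F Lf))
      (hP.map _) ?_ ?_ ?_
    · rw [hP.natDegree_map, hdeg]; exact Nat.succ_ne_zero m
    · rw [eval_map, ← aeval_def, hroot]; exact isIntegral_zero
    · intro i
      rw [coeff_map]
      exact (hcoef i).algebraMap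
  refine ⟨kdl_isIntegral_of_comp t θ hθ, ?_⟩
  rw [Algebra.discr_def]
  refine IsIntegral.det fun k l => ?_
  rw [Algebra.traceMatrix_apply, Algebra.traceForm_apply]
  exact Algebra.isIntegral_trace ((hθ.pow _).mul (hθ.pow _))

end Comp

section Gen

variable {K L : Type*} [Field K] [Field L] [Algebra K L]

/-- `K(c h) = K(h)` for a nonzero `c ∈ K` -/
theorem kdl_adjoin_mul (h : L) (c : K) (hc : c ≠ 0) (hgen : K⟮h⟯ = ⊤) :
    K⟮algebraMap K L c * h⟯ = ⊤ := by
  rw [eq_top_iff, ← hgen, IntermediateField.adjoin_le_iff]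
  rintro x (rfl : x = h)
  have h1 : algebraMap K L c * x ∈ K⟮algebraMap K L c * x⟯ :=
    IntermediateField.mem_adjoin_simple_self K _
  have h2 : algebraMap K L c⁻¹ ∈ K⟮algebraMap K L c * x⟯ :=
    IntermediateField.algebraMap_mem _ _
  have h3 := mul_mem h2 h1
  have hc' : algebraMap K L c ≠ 0 := by simpa using hc
  rwa [map_inv₀, ← mul_assoc, inv_mul_cancel₀ hc', one_mul] at h3

/-- a monic polynomial of degree `m + 1` with `m + 1` different roots is their product -/
theorem kdl_eq_prod {m : ℕ} (P : L[X]) (hP : P.Monic) (hdeg : P.natDegree = m + 1)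
    (v : Fin (m + 1) → L) (hv : Function.Injective v) (hroot : ∀ b, P.IsRoot (v b)) :
    P = ∏ b, (X - C (v b)) := by
  have hdvd : ∏ b, (X - C (v b)) ∣ P := by
    refine Finset.prod_dvd_of_coprime ?_ ?_
    · intro i _ j _ hij
      exact Polynomial.pairwise_coprime_X_sub_C hv hij
    · intro b _
      exact Polynomial.dvd_iff_isRoot.mpr (hroot b)
  have hmonic : (∏ b, (X - C (v b))).Monic := Polynomial.monic_prod_of_monic _ _
    (fun b _ => Polynomial.monic_X_sub_C (v b))
  have hdeg' : (∏ b, (X - C (v b))).natDegree = m + 1 := by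
    rw [Polynomial.natDegree_prod_of_monic _ _ (fun b _ => Polynomial.monic_X_sub_C (v b))]
    simp
  exact Polynomial.eq_of_monic_of_dvd_of_natDegree_le hmonic hP hdvd (by rw [hdeg, hdeg'])

end Gen

end Fermat.Agent.ES1
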