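import Mathlib
import Fermat.Agent.INJ.TSStmt
import Fermat.Agent.INJ.BGBasis

/-!
# ES₁ / INJ₁-KD, part 1: the discriminant of a tower and good bases

* `kdl_discr_tower` : for a basis `b` of `F / K` and a basis `c` of `L / F`,
  `discr K (b.smulTower' c) = (discr K b) ^ p * N_{F/K} (discr F c)`;
* `kdl_tsGoodBasis_tower` : `TSGoodBasis π t` for `F`, a basis `c` of `Lf / F` integral over
  `A₀[t]` and `N_{F/E(t)} (discr F c) = n(t)` with `π ∤ n` give `TSGoodBasis π t` for `Lf`.
-/

set_option autoImplicit false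

namespace Fermat.Agent.ES1

open Polynomial IntermediateField Module Matrix

section Tower

variable {K F L : Type*} [Field K] [Field F] [Field L] [Algebra K F] [Algebra F L] [Algebra K L]
  [IsScalarTower K F L] {n p : ℕ} (b : Basis (Fin n) K F) (c : Basis (Fin p) F L)

/-- the trace matrix of the tower basis -/
theorem kdl_traceMatrix_tower :
    Algebra.traceMatrix K (b.smulTower' c) =
      (Matrix.kroneckerMap (· * ·) (1 : Matrix (Fin p) (Fin p) K) (Algebra.traceMatrix K b)) *
        Matrix.comp (Fin p) (Fin p) (Fin n) (Fin n) K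
          ((Algebra.traceMatrix F c).map (Algebra.leftMulMatrix b)) := by
  classical
  ext ⟨k, i⟩ ⟨l, j⟩
  rw [Matrix.mul_apply, Fintype.sum_prod_type]
  have hsum : ∀ k' : Fin p, ∑ a : Fin n,
      (Matrix.kroneckerMap (· * ·) (1 : Matrix (Fin p) (Fin p) K) (Algebra.traceMatrix K b))
        (k, i) (k', a) *
      (Matrix.comp (Fin p) (Fin p) (Fin n) (Fin n) K
          ((Algebra.traceMatrix F c).map (Algebra.leftMulMatrix b))) (k', a) (l, j) =
      if k = k' then (Algebra.traceMatrix K b * Algebra.leftMulMatrix b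
        (Algebra.traceMatrix F c k l)) i j else 0 := by
    intro k'
    by_cases hk : k = k'
    · subst hk
      rw [if_pos rfl, Matrix.mul_apply]
      refine Finset.sum_congr rfl fun a _ => ?_
      rw [Matrix.kroneckerMap_apply, Matrix.one_apply_eq, one_mul, Matrix.comp_apply,
        Matrix.map_apply]
    · rw [if_neg hk]
      apply Finset.sum_eq_zero
      intro a _
      rw [Matrix.kroneckerMap_apply, Matrix.one_apply_ne hk, zero_mul, zero_mul]
  rw [Finset.sum_congr rfl (fun k' _ => hsum k'), Finset.sum_ite_eq, if_pos (Finset.mem_univ _),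
    Fermat.Agent.INJ.BGBasis.traceMatrix_mul_leftMulMatrix,
    Algebra.traceMatrix_apply, Algebra.traceForm_apply, Basis.smulTower'_apply,
    Basis.smulTower'_apply, smul_mul_smul_comm,
    ← Algebra.trace_trace_of_basis b c, map_smul, Algebra.traceMatrix_apply,
    Algebra.traceForm_apply, smul_eq_mul]

/-- **The discriminant of a tower.** -/
theorem kdl_discr_tower :
    Algebra.discr K (b.smulTower' c) =
      (Algebra.discr K b) ^ p * Algebra.norm K (Algebra.discr F c) := by
  classical
  rw [Algebra.discr_def, kdl_traceMatrix_tower b c, Matrix.det_mul, Matrix.det_kronecker,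
    Matrix.det_one, one_pow, one_mul, Fintype.card_fin, ← Algebra.discr_def,
    Algebra.norm_eq_matrix_det b, Algebra.discr_def]
  congr 1
  exact (Matrix.det_det (M := Algebra.traceMatrix F c)
    (Algebra.leftMulMatrix b).toRingHom).symm

end Tower

section Good

universe u

variable {A₀ E F Lf : Type u} [CommRing A₀] [Field E] [Algebra A₀ E]
  [Field F] [Algebra E F] [Algebra A₀ F]
  [Field Lf] [Algebra E Lf] [Algebra A₀ Lf]
  [Algebra F Lf] [IsScalarTower E F Lf] [IsScalarTower A₀ F Lf]

open Fermat.Agent.INJ Fermat.Agent.INJ.BGBasis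

/-- **Good bases in towers.**  A good basis of `F / E(t)`, a basis `c` of `Lf / F` consisting of
elements integral over `A₀[t]` and `N_{F/E(t)} (discr F c) = n(t)`, `π ∤ n`, give a good basis of
`Lf / E(t)`. -/
theorem kdl_tsGoodBasis_tower [IsDomain A₀] (π : A₀) (hπ : Prime π) (t : F) {p : ℕ}
    (c : Basis (Fin p) F Lf)
    (hc : ∀ k, IsIntegral (Algebra.adjoin A₀ {algebraMap F Lf t}) (c k))
    (nW : A₀[X]) (hnW : ¬ C π ∣ nW)
    (hnorm : algebraMap E⟮t⟯ F (Algebra.norm E⟮t⟯ (Algebra.discr F c)) = aeval t nW)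
    (hF : TSGoodBasis (E := E) (Lf := F) π t) :
    TSGoodBasis (E := E) (Lf := Lf) π (algebraMap F Lf t) := by
  classical
  obtain ⟨n, b, d, hli, hspan, hint, hd, hdisc⟩ := hF
  let bK : Basis (Fin n) E⟮t⟯ F := Basis.mk hli hspan.ge
  have hbK : ⇑bK = b := Basis.coe_mk _ _
  let BB : Basis (Fin (p * n)) E⟮t⟯ Lf := (bK.smulTower' c).reindex finProdFinEquiv
  have hBB : ∀ x, BB x = algebraMap F Lf (b (finProdFinEquiv.symm x).2) *
      c (finProdFinEquiv.symm x).1 := by
    intro x
    simp only [BB, Basis.reindex_apply, Basis.smulTower'_apply, hbK, Algebra.smul_def]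
  let e := adjoinEquiv (E := E) (Lf := Lf) t
  have he : ∀ (x : E⟮t⟯) (v : Lf), x • v = e x • v := by
    intro x v
    rw [Algebra.smul_def, Algebra.smul_def]
    rfl
  have he' : (algebraMap E⟮algebraMap F Lf t⟯ Lf).comp (e : E⟮t⟯ →+* E⟮algebraMap F Lf t⟯) =
      algebraMap E⟮t⟯ Lf := by
    ext x
    rfl
  refine ⟨p * n, BB, d ^ p * nW, ?_, ?_, ?_, ?_, ?_⟩
  · exact linearIndependent_of_ringEquiv e he _ BB.linearIndependent
  · exact span_eq_top_of_ringEquiv e he _ BB.span_eq
  · intro x
    rw [hBB]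
    exact IsIntegral.mul (isIntegral_adjoin_map t _ (hint _)) (hc _)
  · have hCπ : Prime (C π : A₀[X]) := (Polynomial.prime_C_iff).2 hπ
    intro hdvd
    rcases hCπ.dvd_or_dvd hdvd with h1 | h1
    · exact hd (hCπ.dvd_of_dvd_pow h1)
    · exact hnW h1
  · -- the discriminant
    have h1 : Algebra.discr E⟮t⟯ (⇑BB) = Algebra.discr E⟮t⟯ (⇑(bK.smulTower' c)) := by
      have := Algebra.discr_reindex E⟮t⟯ (bK.smulTower' c) finProdFinEquiv
      rw [← this]
      congr 1
      exact Basis.coe_reindex _ _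
    rw [← discr_of_ringEquiv e he' (⇑BB), h1, kdl_discr_tower bK c]
    have h2 : ∀ z : E⟮t⟯, algebraMap E⟮algebraMap F Lf t⟯ Lf (e z) =
        algebraMap F Lf (algebraMap E⟮t⟯ F z) := fun z => adjoinEquiv_coe t z
    rw [h2]
    simp only [map_mul, map_pow, hbK, hdisc, hnorm]
    rw [Polynomial.aeval_algebraMap_apply, Polynomial.aeval_algebraMap_apply]

end Good

end Fermat.Agent.ES1
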