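import Mathlib
import Fermat.Agent.INJ.InjCore
import Fermat.Agent.ES1.InjPlan
import Fermat.Agent.ES1.KDLiftSetup
import Fermat.Agent.ES1.KDLiftTower

/-!
# ES₁ / INJ₁-KD, part 7: the good basis of `F = F₀(S)`

`kdl_goodBasis` : Gauss key data for `F₀`, a good basis of `F₀` and a conjugate family give a
good basis of `F`, together with a scaling `s` (`s̄ ≠ 0`) making `s(t) S₀` integral over `A₀[t]`.
-/

set_option autoImplicit false
set_option linter.style.haveILetI false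
set_option linter.unusedSectionVars false

noncomputable section

namespace Fermat.Agent.ES1

open Polynomial ModularCurve IntermediateField Fermat.Agent.S28 Fermat.Agent.INJ

open ChartGB

section Scaling

variable {A₀ E k : Type} [CommRing A₀] [IsDomain A₀] [IsDiscreteValuationRing A₀]
  [Field E] [Algebra A₀ E] [IsFractionRing A₀ E] [CharZero E] [Field k] {r : A₀ →+* k}
  {F₀ : IntermediateField E (LaurentSeries E)} [Algebra A₀ F₀] [IsScalarTower A₀ E F₀]
  {t₀ : LaurentSeries A₀} {n : ℕ} {x : Fin n → LaurentSeries A₀}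

/-- a common scaling making finitely many Gauss-integral elements of `F₀` integral -/
theorem kdl_exists_scaling (kd : GaussKD r F₀ t₀ x) {π : A₀} (hπ : Irreducible π)
    (hr : ∀ a, r a = 0 → π ∣ a) {I : Type*} [Fintype I] (z : I → F₀)
    (hz : ∀ i, (z i : LaurentSeries E) ∈ gaussRing (algebraMap A₀ E) r) :
    ∃ s : A₀[X], s.map r ≠ 0 ∧ ∀ i, IsIntegral
      (Algebra.adjoin A₀ {(⟨coeffMap (algebraMap A₀ E) t₀, kd.t_mem⟩ : F₀)})
      (aeval (⟨coeffMap (algebraMap A₀ E) t₀, kd.t_mem⟩ : F₀) s * z i) := by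
  classical
  have hFF : ∀ f ∈ F₀, ∃ w : F₀, F₀.val w = f := fun f hf => ⟨⟨f, hf⟩, rfl⟩
  choose g hg hgint using fun i =>
    bgInt_exists_mul_isIntegral F₀.val kd hπ.ne_zero hπ.not_isUnit hr hFF
      (τ := (⟨coeffMap (algebraMap A₀ E) t₀, kd.t_mem⟩ : F₀)) rfl (z i) (z i).2 (hz i)
  refine ⟨∏ i, g i, ?_, fun i => ?_⟩
  · rw [Polynomial.map_prod]
    exact Finset.prod_ne_zero_iff.mpr fun i _ => hg i
  · rw [← Finset.prod_erase_mul _ _ (Finset.mem_univ i), map_mul, mul_assoc]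
    exact core_isIntegral_aeval_mul _ _ (hgint i)

end Scaling

section Field

variable {A₀ E k : Type} [CommRing A₀] [IsDomain A₀] [Field E] [Algebra A₀ E]
  [IsFractionRing A₀ E] [Field k] {r : A₀ →+* k}
  {F₀ F : IntermediateField E (LaurentSeries E)}
  [Algebra F₀ F] [IsScalarTower E F₀ F]
  {m : ℕ} {S : Fin (m + 1) → LaurentSeries A₀}

/-- the conjugates are pairwise different -/
theorem kdl_conj_injective (hS : ConjFamily r F₀ F S) :
    Function.Injective (fun b => (⟨coeffMap (algebraMap A₀ E) (S b), hS.mem b⟩ : F)) := by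
  intro a b hab
  by_contra hne
  apply hS.red_ne a b hne
  have h1 : coeffMap (algebraMap A₀ E) (S a) = coeffMap (algebraMap A₀ E) (S b) :=
    congrArg Subtype.val hab
  rw [coeffMap_inj_of_injective _ (IsFractionRing.injective A₀ E) h1]

/-- the automorphisms over `F₀` -/
theorem kdl_sigma
    (hcoe : ∀ x : F₀, ((algebraMap F₀ F x : F) : LaurentSeries E) = (x : LaurentSeries E))
    (hS : ConjFamily r F₀ F S) :
    ∃ σ : Fin (m + 1) → (F ≃ₐ[F₀] F), ∀ b,
      σ b ⟨coeffMap (algebraMap A₀ E) (S 0), hS.mem 0⟩ =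
        ⟨coeffMap (algebraMap A₀ E) (S b), hS.mem b⟩ := by
  choose τ hfix hτ using hS.aut
  refine ⟨fun b => AlgEquiv.ofRingEquiv (f := (τ b).toRingEquiv)
    (fun x => hfix b _ (by rw [hcoe]; exact x.2)), fun b => Subtype.ext (hτ b)⟩

/-- `F = F₀(S₀)` -/
theorem kdl_gen
    (hcoe : ∀ x : F₀, ((algebraMap F₀ F x : F) : LaurentSeries E) = (x : LaurentSeries E))
    (hS : ConjFamily r F₀ F S) :
    F₀⟮(⟨coeffMap (algebraMap A₀ E) (S 0), hS.mem 0⟩ : F)⟯ = ⊤ := by
  rw [eq_top_iff]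
  intro f _
  set K' : IntermediateField E (LaurentSeries E) :=
    ((F₀⟮(⟨coeffMap (algebraMap A₀ E) (S 0), hS.mem 0⟩ : F)⟯).restrictScalars E).map F.val
    with hK'
  have hle : IntermediateField.adjoin E ((F₀ : Set (LaurentSeries E)) ∪
      {coeffMap (algebraMap A₀ E) (S 0)}) ≤ K' := by
    rw [IntermediateField.adjoin_le_iff]
    rintro z (hz | hz)
    · exact SetLike.mem_coe.mpr ((IntermediateField.mem_map _).mpr
        ⟨algebraMap F₀ F ⟨z, hz⟩, (IntermediateField.mem_restrictScalars E).mpr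
          (IntermediateField.algebraMap_mem _ _), hcoe _⟩)
    · rw [Set.mem_singleton_iff] at hz
      exact SetLike.mem_coe.mpr ((IntermediateField.mem_map _).mpr
        ⟨⟨coeffMap (algebraMap A₀ E) (S 0), hS.mem 0⟩,
          (IntermediateField.mem_restrictScalars E).mpr
            (IntermediateField.mem_adjoin_simple_self F₀ _), hz.symm⟩)
  have hf := hle (hS.gen f.2)
  rw [hK', IntermediateField.mem_map] at hf
  obtain ⟨w, hw, hwf⟩ := hf
  have : w = f := Subtype.ext hwf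
  rw [← this]
  exact hw

/-- the polynomial of `S₀` -/
theorem kdl_poly
    (hcoe : ∀ x : F₀, ((algebraMap F₀ F x : F) : LaurentSeries E) = (x : LaurentSeries E))
    (hS : ConjFamily r F₀ F S) :
    ∃ P : F₀[X], P.Monic ∧ P.natDegree = m + 1 ∧
      aeval (⟨coeffMap (algebraMap A₀ E) (S 0), hS.mem 0⟩ : F) P = 0 := by
  obtain ⟨P, hP, hdeg, hroot⟩ := hS.poly
  refine ⟨P, hP, hdeg, ?_⟩
  apply F.val.injective
  rw [map_zero, aeval_def]
  have h1 := Polynomial.hom_eval₂ P (algebraMap F₀ F) F.val.toRingHom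
    (⟨coeffMap (algebraMap A₀ E) (S 0), hS.mem 0⟩ : F)
  have h2 : F.val.toRingHom.comp (algebraMap F₀ F) = F₀.val.toRingHom :=
    RingHom.ext (fun x => hcoe x)
  rw [h2] at h1
  exact h1.trans hroot

/-- the coefficients of the polynomial of `S₀` are series over `A₀` -/
theorem kdl_coeff
    (hcoe : ∀ x : F₀, ((algebraMap F₀ F x : F) : LaurentSeries E) = (x : LaurentSeries E))
    (hS : ConjFamily r F₀ F S) (σ : Fin (m + 1) → (F ≃ₐ[F₀] F))
    (hσ : ∀ b, σ b ⟨coeffMap (algebraMap A₀ E) (S 0), hS.mem 0⟩ =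
        ⟨coeffMap (algebraMap A₀ E) (S b), hS.mem b⟩)
    (P : F₀[X]) (hP : P.Monic) (hdeg : P.natDegree = m + 1)
    (hroot : aeval (⟨coeffMap (algebraMap A₀ E) (S 0), hS.mem 0⟩ : F) P = 0) (j : ℕ) :
    ((P.coeff j : F₀) : LaurentSeries E) =
      coeffMap (algebraMap A₀ E) ((∏ b, (X - C (S b))).coeff j) := by
  have h1 : P.map (algebraMap F₀ F) =
      ∏ b, (X - C (⟨coeffMap (algebraMap A₀ E) (S b), hS.mem b⟩ : F)) := by
    refine kdl_eq_prod _ (hP.map _) (by rw [hP.natDegree_map, hdeg]) _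
      (kdl_conj_injective hS) (fun b => ?_)
    rw [Polynomial.IsRoot, eval_map, ← aeval_def, ← hσ b, Polynomial.aeval_algEquiv,
      AlgHom.comp_apply, hroot]
    exact map_zero _
  have h2 := congrArg (fun q : F[X] => (q.map F.val.toRingHom).coeff j) h1
  simp only [Polynomial.map_map, Polynomial.coeff_map] at h2
  have h3 : (F.val.toRingHom.comp (algebraMap F₀ F)) (P.coeff j) =
      ((P.coeff j : F₀) : LaurentSeries E) := hcoe _
  rw [h3] at h2
  rw [h2, ← Polynomial.coeff_map F.val.toRingHom,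
    ← Polynomial.coeff_map (coeffMap (algebraMap A₀ E))]
  congr 1
  rw [Polynomial.map_prod, Polynomial.map_prod]
  refine Finset.prod_congr rfl fun b _ => ?_
  rw [Polynomial.map_sub, Polynomial.map_sub, Polynomial.map_X, Polynomial.map_X,
    Polynomial.map_C, Polynomial.map_C]
  rfl

end Field

section Vand

/-- ring homomorphisms commute with the square of the Vandermonde product -/
theorem kdl_map_vand {R R' : Type*} [CommRing R] [CommRing R'] (f : R →+* R') {m : ℕ}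
    (u : Fin (m + 1) → R) (v : Fin (m + 1) → R') (h : ∀ b, f (u b) = v b) :
    f ((∏ i : Fin (m + 1), ∏ j ∈ Finset.Ioi i, (u j - u i)) ^ 2) =
      (∏ i : Fin (m + 1), ∏ j ∈ Finset.Ioi i, (v j - v i)) ^ 2 := by
  rw [map_pow, map_prod]
  congr 1
  refine Finset.prod_congr rfl fun i _ => ?_
  rw [map_prod]
  refine Finset.prod_congr rfl fun j _ => ?_
  rw [map_sub, h, h]

end Vand

section GoodBasis

variable {A₀ E k : Type} [CommRing A₀] [IsDomain A₀] [IsDiscreteValuationRing A₀]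
  [Field E] [Algebra A₀ E] [IsFractionRing A₀ E] [CharZero E] [Field k] {r : A₀ →+* k}
  {F₀ F : IntermediateField E (LaurentSeries E)}
  [Algebra A₀ F₀] [IsScalarTower A₀ E F₀] [Algebra A₀ F] [IsScalarTower A₀ E F]
  [Algebra F₀ F] [IsScalarTower E F₀ F] [IsScalarTower A₀ F₀ F]
  {t₀ : LaurentSeries A₀} {n : ℕ} {x : Fin n → LaurentSeries A₀}
  {m : ℕ} {S : Fin (m + 1) → LaurentSeries A₀}

set_option maxHeartbeats 1000000 in
/-- **The good basis of `F = F₀(S)`.** -/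
theorem kdl_goodBasis
    (hcoe : ∀ x : F₀, ((algebraMap F₀ F x : F) : LaurentSeries E) = (x : LaurentSeries E))
    {π : A₀} (hπ : Irreducible π) (hrπ : r π = 0) (hr : ∀ a, r a = 0 → π ∣ a)
    (kd : GaussKD r F₀ t₀ x) (ht₀ : (coeffMap (algebraMap A₀ E) t₀).order = -1)
    (hS : ConjFamily r F₀ F S)
    (hgood : TSGoodBasis (A₀ := A₀) (E := E) (Lf := F₀) π
      ⟨coeffMap (algebraMap A₀ E) t₀, kd.t_mem⟩) :
    ∃ s : A₀[X], s.map r ≠ 0 ∧
      IsIntegral (Algebra.adjoin A₀ {(⟨coeffMap (algebraMap A₀ E) t₀, hS.le kd.t_mem⟩ : F)})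
        (aeval (⟨coeffMap (algebraMap A₀ E) t₀, hS.le kd.t_mem⟩ : F) s *
          ⟨coeffMap (algebraMap A₀ E) (S 0), hS.mem 0⟩) ∧
      TSGoodBasis (A₀ := A₀) (E := E) (Lf := F) π
        ⟨coeffMap (algebraMap A₀ E) t₀, hS.le kd.t_mem⟩ := by
  classical
  have hinj : Function.Injective (algebraMap A₀ E) := IsFractionRing.injective A₀ E
  set tF₀ : F₀ := ⟨coeffMap (algebraMap A₀ E) t₀, kd.t_mem⟩ with htF₀
  set tF : F := ⟨coeffMap (algebraMap A₀ E) t₀, hS.le kd.t_mem⟩ with htF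
  set S' : Fin (m + 1) → F := fun b => ⟨coeffMap (algebraMap A₀ E) (S b), hS.mem b⟩ with hS'
  have htFF : algebraMap F₀ F tF₀ = tF := Subtype.ext (hcoe _)
  have htrF₀ : Transcendental E tF₀ :=
    bgConst_transcendental F₀ tF₀ (by
      show (coeffMap (algebraMap A₀ E) t₀).order ≠ 0
      rw [ht₀]; norm_num)
  obtain ⟨σ, hσ⟩ := kdl_sigma hcoe hS
  have hgen := kdl_gen hcoe hS
  obtain ⟨P, hP, hdeg, hroot⟩ := kdl_poly hcoe hS
  -- the scaling
  have hz : ∀ j : Fin (m + 1),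
      ((P.coeff j : F₀) : LaurentSeries E) ∈ gaussRing (algebraMap A₀ E) r := by
    intro j
    rw [kdl_coeff hcoe hS σ hσ P hP hdeg hroot j]
    exact coeffMap_mem_gaussRing _ r _
  obtain ⟨s, hs, hsint⟩ := kdl_exists_scaling kd hπ hr (fun j : Fin (m + 1) => P.coeff j) hz
  have hs0 : s ≠ 0 := by
    rintro rfl
    exact hs (Polynomial.map_zero _)
  obtain ⟨c₀, hc₀⟩ : ∃ c₀ : F₀, c₀ = aeval tF₀ s := ⟨_, rfl⟩
  have hc₀0 : c₀ ≠ 0 := by
    intro h0
    exact hs0 (chart_aeval_injective htrF₀ (by rw [← hc₀, h0, map_zero]))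
  obtain ⟨θ, hθ⟩ : ∃ θ : F, θ = algebraMap F₀ F c₀ * S' 0 := ⟨_, rfl⟩
  obtain ⟨Pθ, hPθ⟩ : ∃ Pθ : F₀[X], Pθ = scaleRoots P c₀ := ⟨_, rfl⟩
  have hPθm : Pθ.Monic := by rw [hPθ]; exact (monic_scaleRoots_iff c₀).mpr hP
  have hPθd : Pθ.natDegree = m + 1 := by rw [hPθ, natDegree_scaleRoots, hdeg]
  have hPθr : aeval θ Pθ = 0 := by rw [hPθ, hθ]; exact scaleRoots_aeval_eq_zero hroot
  have hgenθ : F₀⟮θ⟯ = ⊤ := by rw [hθ]; exact kdl_adjoin_mul (S' 0) c₀ hc₀0 hgen
  have hc₀int : IsIntegral (Algebra.adjoin A₀ {tF₀}) c₀ := by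
    rw [hc₀]; exact core_isIntegral_aeval tF₀ s
  have hcoef : ∀ i, IsIntegral (Algebra.adjoin A₀ {tF₀}) (Pθ.coeff i) := by
    intro i
    rw [hPθ, coeff_scaleRoots, hdeg]
    rcases lt_trichotomy i (m + 1) with hi | hi | hi
    · have h1 : P.coeff i * c₀ ^ (m + 1 - i) = (c₀ * P.coeff i) * c₀ ^ (m - i) := by
        have h2 : m + 1 - i = (m - i) + 1 := by omega
        rw [h2, pow_succ]; ring
      rw [h1]
      have h3 : IsIntegral (Algebra.adjoin A₀ {tF₀}) (c₀ * P.coeff i) := by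
        rw [hc₀]; exact hsint ⟨i, hi⟩
      exact h3.mul (hc₀int.pow _)
    · rw [hi, Nat.sub_self, pow_zero, mul_one, ← hdeg, hP.coeff_natDegree]
      exact isIntegral_one
    · rw [coeff_eq_zero_of_natDegree_lt (by omega), zero_mul]
      exact isIntegral_zero
  haveI : FiniteDimensional F₀ F := kdl_finiteDimensional θ hgenθ Pθ hPθm hPθr
  obtain ⟨hθint, hδint⟩ := kdl_discr_integral (A₀ := A₀) tF₀ θ Pθ hPθm hPθd hPθr hcoef
  -- the conjugates of `θ`
  have hσθ : ∀ b, σ b θ = algebraMap F₀ F c₀ * S' b := by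
    intro b
    rw [hθ, map_mul, AlgEquiv.commutes]
    congr 1
    exact hσ b
  have hc₀' : algebraMap F₀ F c₀ ≠ 0 := by simpa using hc₀0
  have hσinj : Function.Injective (fun b => σ b θ) := by
    intro a b hab
    simp only [hσθ] at hab
    exact kdl_conj_injective hS (mul_left_cancel₀ hc₀' hab)
  have hfr := kdl_finrank θ hgenθ Pθ hPθm hPθd hPθr σ hσinj
  obtain ⟨c, hc⟩ : ∃ c : Module.Basis (Fin (m + 1)) F₀ F,
      ⇑c = fun k : Fin (m + 1) => θ ^ (k : ℕ) :=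
    ⟨BGBasis.kBasis (Nat.succ_pos m) θ hfr hgenθ, funext (BGBasis.kBasis_apply _ _ _ _)⟩
  have hdiscr := kdl_discr_pow θ hgenθ Pθ hPθm hPθd hPθr σ hσinj
  obtain ⟨δ, hδ⟩ : ∃ δ : F₀, δ = Algebra.discr F₀ (fun k : Fin (m + 1) => θ ^ (k : ℕ)) :=
    ⟨_, rfl⟩
  rw [← hδ] at hdiscr hδint
  obtain ⟨D, hD⟩ : ∃ D : LaurentSeries A₀, D = (∏ i : Fin (m + 1), ∏ j ∈ Finset.Ioi i,
    (aeval t₀ s * S j - aeval t₀ s * S i)) ^ 2 := ⟨_, rfl⟩
  have hc₀Ω : F.val (algebraMap F₀ F c₀) = coeffMap (algebraMap A₀ E) (aeval t₀ s) := by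
    show ((algebraMap F₀ F c₀ : F) : LaurentSeries E) = _
    rw [hcoe, hc₀]
    exact bgInt_map_aeval F₀.val (τ := tF₀) rfl s
  have hδΩ : (δ : LaurentSeries E) = coeffMap (algebraMap A₀ E) D := by
    have h1 : (δ : LaurentSeries E) =
        F.val ((∏ i : Fin (m + 1), ∏ j ∈ Finset.Ioi i, (σ j θ - σ i θ)) ^ 2) := by
      rw [← hdiscr]
      exact (hcoe δ).symm
    have h2 : ∀ b, F.val.toRingHom (σ b θ) =
        coeffMap (algebraMap A₀ E) (aeval t₀ s * S b) := by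
      intro b
      rw [hσθ b]
      have h5 : F.val (algebraMap F₀ F c₀ * S' b) =
          F.val (algebraMap F₀ F c₀) * F.val (S' b) := map_mul _ _ _
      have h6 : coeffMap (algebraMap A₀ E) (aeval t₀ s * S b) =
          coeffMap (algebraMap A₀ E) (aeval t₀ s) * coeffMap (algebraMap A₀ E) (S b) :=
        map_mul _ _ _
      rw [h6, ← hc₀Ω]
      exact h5
    have h3 := kdl_map_vand F.val.toRingHom (fun b => σ b θ) _ h2
    have h4 := kdl_map_vand (coeffMap (algebraMap A₀ E)) (fun b => aeval t₀ s * S b) _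
      (fun _ => rfl)
    rw [h1, hD]
    exact h3.trans h4.symm
  have hsred : coeffMap r (aeval t₀ s) ≠ 0 := by
    rw [redDVR_coeffMap_aeval]
    intro h0
    exact hs (transcendental_iff.mp kd.transc _ h0)
  have hDred : coeffMap r D ≠ 0 := by
    rw [hD, map_pow, map_prod]
    refine pow_ne_zero _ (Finset.prod_ne_zero_iff.mpr fun i _ => ?_)
    rw [map_prod]
    refine Finset.prod_ne_zero_iff.mpr fun j hj => ?_
    rw [map_sub, map_mul, map_mul, ← mul_sub]
    refine mul_ne_zero hsred (sub_ne_zero.mpr (hS.red_ne j i ?_))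
    exact (Finset.mem_Ioi.mp hj).ne'
  have hFF : ∀ f ∈ F₀, ∃ w : F₀, F₀.val w = f := fun f hf => ⟨⟨f, hf⟩, rfl⟩
  obtain ⟨hδg, hδred⟩ := core_gaussRed_ne_zero r hinj D hδΩ hDred
  obtain ⟨nW, -, hnW, hnorm⟩ := bgInt_norm F₀.val kd hπ hrπ hr hFF (τ := tF₀) rfl htrF₀ δ δ.2
    hδg hδred hδint
  have hcint : ∀ k, IsIntegral (Algebra.adjoin A₀ {algebraMap F₀ F tF₀}) (c k) := by
    intro k
    have hck : c k = θ ^ (k : ℕ) := congrFun hc k
    rw [hck]
    exact hθint.pow _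
  have hnorm' : algebraMap E⟮tF₀⟯ F₀ (Algebra.norm E⟮tF₀⟯ (Algebra.discr F₀ ⇑c)) =
      aeval tF₀ nW := by
    rw [hc, ← hδ]
    exact hnorm
  have hgoodF := kdl_tsGoodBasis_tower π hπ.prime tF₀ c hcint nW hnW hnorm' hgood
  rw [htFF] at hgoodF hθint
  refine ⟨s, hs, ?_, hgoodF⟩
  have h2 : aeval tF s = algebraMap F₀ F c₀ := by
    rw [hc₀, ← htFF, Polynomial.aeval_algebraMap_apply]
  rw [h2, ← hθ]
  exact hθint

end GoodBasis

end Fermat.Agent.ES1
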