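import Mathlib
import Fermat.Agent.ES1.KDLiftGauss
import Fermat.Agent.INJ.BGInt

/-!
# ES₁ / INJ₁-KD, part 4: the end game

`kdl_endgame` : let `F ⊆ E((q))` have bounded denominators, `π` prime in the integral closure `C₁`
of `A₀[t]` in `F`, `σ` an automorphism of `F` over `A₀[t]`.  If `Z ∈ A₀((q))` has image in `C₁`,
`σ Z = Z'` and `Z ≡ 0` modulo `π`, then `Z' ≡ 0` modulo `π`.
(The centre of the Gauss valuation on `C₁` is `π C₁`, by incomparability.)
-/

set_option autoImplicit false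
set_option linter.style.haveILetI false
set_option linter.unusedSectionVars false

noncomputable section

namespace Fermat.Agent.ES1

open Polynomial ModularCurve IntermediateField Fermat.Agent.S28 Fermat.Agent.INJ

section Aut

variable {A₀ Lf : Type*} [CommRing A₀] [Field Lf] [Algebra A₀ Lf]

/-- automorphisms over `A₀[t]` preserve integrality over `A₀[t]` -/
theorem kdl_isIntegral_map_ringEquiv (t : Lf) (σ : Lf ≃+* Lf)
    (hσA : ∀ a : A₀, σ (algebraMap A₀ Lf a) = algebraMap A₀ Lf a) (hσt : σ t = t)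
    (w : Lf) (hw : IsIntegral (Algebra.adjoin A₀ {t}) w) :
    IsIntegral (Algebra.adjoin A₀ {t}) (σ w) := by
  have hσR : ∀ x ∈ Algebra.adjoin A₀ {t}, σ x = x := by
    intro x hx
    induction hx using Algebra.adjoin_induction with
    | mem x hx =>
        rw [Set.mem_singleton_iff] at hx
        rw [hx, hσt]
    | algebraMap a => exact hσA a
    | add x y _ _ hx hy => rw [map_add, hx, hy]
    | mul x y _ _ hx hy => rw [map_mul, hx, hy]
  obtain ⟨P, hP, hPx⟩ := hw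
  refine ⟨P, hP, ?_⟩
  have h1 : Polynomial.eval₂ (algebraMap (Algebra.adjoin A₀ {t}) Lf) (σ w) P
      = σ (Polynomial.eval₂ (algebraMap (Algebra.adjoin A₀ {t}) Lf) w P) := by
    rw [Polynomial.eval₂_eq_sum_range, Polynomial.eval₂_eq_sum_range, map_sum]
    refine Finset.sum_congr rfl fun i _ => ?_
    rw [map_mul, map_pow]
    congr 1
    exact (hσR _ (P.coeff i).2).symm
  rw [h1, hPx, map_zero]

end Aut

section EndGame

variable {A₀ E k : Type*} [CommRing A₀] [IsDomain A₀] [Field E] [Algebra A₀ E]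
  [IsFractionRing A₀ E] [Field k] (r : A₀ →+* k)
  (F : IntermediateField E (LaurentSeries E)) [Algebra A₀ F] [IsScalarTower A₀ E F]


/-- the image of `π` in `E((q))` -/
theorem kdl_coe_algebraMap (a : A₀) :
    ((algebraMap A₀ F a : F) : LaurentSeries E) = HahnSeries.C ((algebraMap A₀ E) a) := by
  rw [IsScalarTower.algebraMap_apply A₀ E F]
  show algebraMap E (LaurentSeries E) ((algebraMap A₀ E) a) = _
  rw [algebraMap_laurentSeries_eq_single]
  rfl

variable {t₀ : LaurentSeries A₀} (ht_mem : coeffMap (algebraMap A₀ E) t₀ ∈ F)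

/-- elements of `A₀[t]` lie in the Gauss ring -/
theorem kdl_adjoin_mem_gaussRing (x : F)
    (hx : x ∈ Algebra.adjoin A₀ {(⟨coeffMap (algebraMap A₀ E) t₀, ht_mem⟩ : F)}) :
    ∃ g : A₀[X], x = aeval (⟨coeffMap (algebraMap A₀ E) t₀, ht_mem⟩ : F) g ∧
      (x : LaurentSeries E) = coeffMap (algebraMap A₀ E) (aeval t₀ g) := by
  rw [Algebra.adjoin_singleton_eq_range_aeval] at hx
  obtain ⟨g, rfl⟩ := hx
  refine ⟨g, rfl, ?_⟩
  exact bgInt_map_aeval (F.val) (τ := (⟨coeffMap (algebraMap A₀ E) t₀, ht_mem⟩ : F)) rfl g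

/-- integral elements lie in the Gauss ring -/
theorem kdl_integral_mem_gaussRing {π : A₀} (hπ0 : π ≠ 0) (hrπ : r π = 0)
    (hr : ∀ a, r a = 0 → π ∣ a)
    (hbdd : ∀ f ∈ F, ∃ e : ℕ,
      (HahnSeries.C ((algebraMap A₀ E) π) : LaurentSeries E) ^ e * f ∈ (gaussRing (algebraMap A₀ E) r))
    (w : F) (hw : IsIntegral (Algebra.adjoin A₀ {(⟨coeffMap (algebraMap A₀ E) t₀, ht_mem⟩ : F)}) w) :
    (w : LaurentSeries E) ∈ (gaussRing (algebraMap A₀ E) r) := by
  have hι : Function.Injective (algebraMap A₀ E) := IsFractionRing.injective A₀ E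
  set R₁ := Algebra.adjoin A₀ {(⟨coeffMap (algebraMap A₀ E) t₀, ht_mem⟩ : F)} with hR₁
  have hmem : ∀ x : R₁, (F.val.toRingHom.comp (algebraMap R₁ F)) x ∈ (gaussRing (algebraMap A₀ E) r) := by
    intro x
    obtain ⟨g, -, hg⟩ := kdl_adjoin_mem_gaussRing F ht_mem (x : F) x.2
    show ((x : F) : LaurentSeries E) ∈ (gaussRing (algebraMap A₀ E) r)
    rw [hg]
    exact coeffMap_mem_gaussRing _ r _
  let φ : R₁ →+* (gaussRing (algebraMap A₀ E) r) := RingHom.codRestrict (F.val.toRingHom.comp (algebraMap R₁ F)) (gaussRing (algebraMap A₀ E) r) hmem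
  obtain ⟨p₀, hp₀, hp₀w⟩ := hw
  obtain ⟨e, he⟩ := hbdd w w.2
  refine kdl_mem_gaussRing_of_root r hι hπ0 hrπ hr (p₀.map φ) (hp₀.map φ) _ ?_ e he
  rw [eval₂_map]
  have h1 : (gaussRing (algebraMap A₀ E) r).subtype.comp φ = F.val.toRingHom.comp (algebraMap R₁ F) := by
    ext x
    rfl
  rw [h1]
  have h2 := congrArg F.val hp₀w
  rw [map_zero] at h2
  rw [← h2]
  exact (Polynomial.hom_eval₂ p₀ (algebraMap R₁ F) F.val.toRingHom w).symm

/-- **End game.** -/
theorem kdl_endgame {π : A₀} (hrπ : r π = 0) (hr : ∀ a, r a = 0 → π ∣ a)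
    (htr : Transcendental k (coeffMap r t₀))
    (hbdd : ∀ f ∈ F, ∃ e : ℕ,
      (HahnSeries.C ((algebraMap A₀ E) π) : LaurentSeries E) ^ e * f ∈ (gaussRing (algebraMap A₀ E) r))
    (hprime : Prime (algebraMap A₀
      (integralClosure (Algebra.adjoin A₀ {(⟨coeffMap (algebraMap A₀ E) t₀, ht_mem⟩ : F)}) F) π))
    (σ : F ≃+* F) (hσA : ∀ a : A₀, σ (algebraMap A₀ F a) = algebraMap A₀ F a)
    (hσt : σ ⟨coeffMap (algebraMap A₀ E) t₀, ht_mem⟩ = ⟨coeffMap (algebraMap A₀ E) t₀, ht_mem⟩)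
    (Z Z' : LaurentSeries A₀) (hZ : coeffMap (algebraMap A₀ E) Z ∈ F)
    (hZint : IsIntegral (Algebra.adjoin A₀ {(⟨coeffMap (algebraMap A₀ E) t₀, ht_mem⟩ : F)})
      (⟨coeffMap (algebraMap A₀ E) Z, hZ⟩ : F))
    (hσZ : ((σ ⟨coeffMap (algebraMap A₀ E) Z, hZ⟩ : F) : LaurentSeries E) = coeffMap (algebraMap A₀ E) Z')
    (hred : coeffMap r Z = 0) : coeffMap r Z' = 0 := by
  classical
  have hι : Function.Injective (algebraMap A₀ E) := IsFractionRing.injective A₀ E
  set tF : F := ⟨coeffMap (algebraMap A₀ E) t₀, ht_mem⟩ with htF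
  set R₁ := Algebra.adjoin A₀ {tF} with hR₁
  set C₁ := integralClosure R₁ F with hC₁
  letI algRC : Algebra R₁ C₁ := Subalgebra.algebra (integralClosure R₁ F)
  have hπ0 : π ≠ 0 := by
    rintro rfl
    exact hprime.ne_zero (map_zero _)
  have hCG : ∀ w : F, IsIntegral R₁ w → (w : LaurentSeries E) ∈ (gaussRing (algebraMap A₀ E) r) :=
    fun w hw => kdl_integral_mem_gaussRing r F ht_mem hπ0 hrπ hr hbdd w hw
  -- the reduction on `C₁`
  have hmem : ∀ x : C₁, (F.val.toRingHom.comp (algebraMap C₁ F)) x ∈ (gaussRing (algebraMap A₀ E) r) := fun x => hCG x x.2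
  let ψ : C₁ →+* (gaussRing (algebraMap A₀ E) r) := RingHom.codRestrict (F.val.toRingHom.comp (algebraMap C₁ F)) (gaussRing (algebraMap A₀ E) r) hmem
  let ρ : C₁ →+* LaurentSeries k := (gaussRed r hι).comp ψ
  have hρ : ∀ (x : C₁) (T : LaurentSeries A₀), ((x : F) : LaurentSeries E) = coeffMap (algebraMap A₀ E) T →
      ρ x = coeffMap r T := by
    intro x T hx
    show gaussRed r hι (ψ x) = _
    have : ψ x = ⟨coeffMap (algebraMap A₀ E) T, coeffMap_mem_gaussRing _ r T⟩ := Subtype.ext hx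
    rw [this, gaussRed_coeffMap]
  -- the two ideals
  set I : Ideal C₁ := Ideal.span {algebraMap A₀ C₁ π} with hI
  set J : Ideal C₁ := RingHom.ker ρ with hJ
  haveI hIprime : I.IsPrime := (Ideal.span_singleton_prime hprime.ne_zero).mpr hprime
  have hπC : ((algebraMap A₀ C₁ π : C₁) : F) = algebraMap A₀ F π := rfl
  have hIJ : I ≤ J := by
    rw [hI, Ideal.span_le, Set.singleton_subset_iff]
    show ρ (algebraMap A₀ C₁ π) = 0
    rw [hρ _ (HahnSeries.C π) (by rw [hπC, kdl_coe_algebraMap, coeffMap_hahnC]),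
      coeffMap_hahnC, hrπ, map_zero]
  have hcomap : J.comap (algebraMap R₁ C₁) ≤ I.comap (algebraMap R₁ C₁) := by
    intro x hx
    rw [Ideal.mem_comap] at hx ⊢
    obtain ⟨g, hg, hgΩ⟩ := kdl_adjoin_mem_gaussRing F ht_mem (x : F) x.2
    have h1 : ρ (algebraMap R₁ C₁ x) = coeffMap r (aeval t₀ g) := hρ _ _ hgΩ
    have h2 : coeffMap r (aeval t₀ g) = 0 := by rw [← h1]; exact hx
    rw [redDVR_coeffMap_aeval] at h2
    have h3 : g.map r = 0 := transcendental_iff.mp htr _ h2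
    obtain ⟨g', hg'⟩ := exists_eq_C_mul_of_map_eq_zero hr h3
    have hg'mem : aeval tF g' ∈ R₁ := by
      rw [hR₁, Algebra.adjoin_singleton_eq_range_aeval]; exact ⟨g', rfl⟩
    have h4 : algebraMap R₁ C₁ x = algebraMap A₀ C₁ π * algebraMap R₁ C₁ ⟨aeval tF g', hg'mem⟩ := by
      apply Subtype.ext
      show (x : F) = algebraMap A₀ F π * aeval tF g'
      rw [hg, hg', map_mul, aeval_C]
    rw [h4, hI]
    exact Ideal.mul_mem_right _ _ (Ideal.subset_span rfl)
  have hJI : J ≤ I := by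
    intro z hz
    by_contra hzI
    have hlt := Ideal.comap_lt_comap_of_integral_mem_sdiff (R := R₁) hIJ
      (x := z) ⟨hz, hzI⟩ (integralClosure.isIntegral z)
    exact absurd hcomap (not_le_of_gt hlt)
  -- the element
  set z : C₁ := ⟨⟨coeffMap (algebraMap A₀ E) Z, hZ⟩, hZint⟩ with hz
  have hzJ : z ∈ J := by
    show ρ z = 0
    rw [hρ z Z rfl, hred]
  obtain ⟨w, hw⟩ := Ideal.mem_span_singleton.mp (hJI hzJ)
  have hwF : (⟨coeffMap (algebraMap A₀ E) Z, hZ⟩ : F) = algebraMap A₀ F π * (w : F) := by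
    have := congrArg (fun x : C₁ => (x : F)) hw
    exact this
  have hσw : IsIntegral R₁ (σ (w : F)) := kdl_isIntegral_map_ringEquiv tF σ hσA hσt _ w.2
  have hσwG := hCG _ hσw
  have h5 : coeffMap (algebraMap A₀ E) Z' = HahnSeries.C ((algebraMap A₀ E) π) * ((σ (w : F) : F) : LaurentSeries E) := by
    rw [← hσZ, hwF, map_mul, hσA, ← kdl_coe_algebraMap F π]
    rfl
  have h6 : gaussRed r hι ⟨coeffMap (algebraMap A₀ E) Z', coeffMap_mem_gaussRing _ r Z'⟩ = 0 :=
    (gaussRed_eq_zero_iff_dvd r hι hrπ hr _).mpr ⟨⟨_, hσwG⟩, h5⟩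
  rwa [gaussRed_coeffMap] at h6

end EndGame

end Fermat.Agent.ES1
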