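import Mathlib
import Fermat.Agent.INJ.InjCore
import Fermat.Agent.ES1.InjPlan
import Fermat.Agent.ES1.KDLiftGood
import Fermat.Agent.ES1.KDLiftEnd

/-!
# ES₁ / INJ₁-KD, part 8: span and integral independence of the family `x i * S₀ ^ k`
-/

set_option autoImplicit false
set_option linter.style.haveILetI false
set_option linter.unusedSectionVars false

noncomputable section

namespace Fermat.Agent.ES1

open Polynomial ModularCurve IntermediateField Fermat.Agent.S28 Fermat.Agent.INJ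

open ChartGB

section Span

variable {A₀ E k : Type} [CommRing A₀] [IsDomain A₀] [Field E] [Algebra A₀ E]
  [IsFractionRing A₀ E] [Field k] {r : A₀ →+* k}
  {F₀ F : IntermediateField E (LaurentSeries E)}
  [Algebra F₀ F] [IsScalarTower E F₀ F]
  {t₀ : LaurentSeries A₀} {n : ℕ} {x : Fin n → LaurentSeries A₀}
  {m : ℕ} {S : Fin (m + 1) → LaurentSeries A₀}

/-- the family `x i * S₀ ^ k` spans `F` over `E(t)` -/
theorem kdl_span
    (hcoe : ∀ x : F₀, ((algebraMap F₀ F x : F) : LaurentSeries E) = (x : LaurentSeries E))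
    (kd : GaussKD r F₀ t₀ x) (hS : ConjFamily r F₀ F S) :
    ∀ f ∈ F, ∃ c : Fin n × Fin (m + 1) → LaurentSeries E,
      (∀ j, c j ∈ adjoin E {coeffMap (algebraMap A₀ E) t₀}) ∧
        f = ∑ j, c j * coeffMap (algebraMap A₀ E) (x j.1 * S 0 ^ (j.2 : ℕ)) := by
  classical
  intro f hf
  obtain ⟨σ, hσ⟩ := kdl_sigma hcoe hS
  have hgen := kdl_gen hcoe hS
  obtain ⟨P, hP, hdeg, hroot⟩ := kdl_poly hcoe hS
  have hσinj : Function.Injective
      (fun b => σ b (⟨coeffMap (algebraMap A₀ E) (S 0), hS.mem 0⟩ : F)) := by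
    intro a b hab
    simp only [hσ] at hab
    exact kdl_conj_injective hS hab
  have hfr := kdl_finrank _ hgen P hP hdeg hroot σ hσinj
  obtain ⟨c, hc⟩ : ∃ c : Module.Basis (Fin (m + 1)) F₀ F, ∀ l : Fin (m + 1),
      c l = (⟨coeffMap (algebraMap A₀ E) (S 0), hS.mem 0⟩ : F) ^ (l : ℕ) :=
    ⟨BGBasis.kBasis (Nat.succ_pos m) _ hfr hgen, BGBasis.kBasis_apply _ _ _ _⟩
  have h1 : (⟨f, hf⟩ : F) = ∑ l, algebraMap F₀ F (c.repr ⟨f, hf⟩ l) *
      (⟨coeffMap (algebraMap A₀ E) (S 0), hS.mem 0⟩ : F) ^ (l : ℕ) := by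
    conv_lhs => rw [← c.sum_repr ⟨f, hf⟩]
    refine Finset.sum_congr rfl fun l _ => ?_
    rw [Algebra.smul_def, hc]
  choose d hd hdf using fun l : Fin (m + 1) =>
    kd.span ((c.repr ⟨f, hf⟩ l : F₀) : LaurentSeries E) (c.repr ⟨f, hf⟩ l).2
  refine ⟨fun j => d j.2 j.1, fun j => hd j.2 j.1, ?_⟩
  have h2 := congrArg F.val h1
  rw [map_sum] at h2
  have h3 : f = ∑ l : Fin (m + 1), (∑ i, d l i * coeffMap (algebraMap A₀ E) (x i)) *
      coeffMap (algebraMap A₀ E) (S 0) ^ (l : ℕ) := by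
    refine h2.trans (Finset.sum_congr rfl fun l _ => ?_)
    rw [map_mul, map_pow, ← hdf l]
    congr 1
    exact hcoe _
  rw [h3, Fintype.sum_prod_type, Finset.sum_comm]
  refine Finset.sum_congr rfl fun l _ => ?_
  rw [Finset.sum_mul]
  refine Finset.sum_congr rfl fun i _ => ?_
  rw [map_mul, map_pow]
  ring

end Span

section Ind

variable {A₀ E k : Type} [CommRing A₀] [IsDomain A₀] [IsDiscreteValuationRing A₀]
  [Field E] [Algebra A₀ E] [IsFractionRing A₀ E] [CharZero E] [Field k] {r : A₀ →+* k}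
  {F₀ F : IntermediateField E (LaurentSeries E)}
  [Algebra A₀ F₀] [IsScalarTower A₀ E F₀] [Algebra A₀ F] [IsScalarTower A₀ E F]
  [Algebra F₀ F] [IsScalarTower E F₀ F] [IsScalarTower A₀ F₀ F]
  {t₀ : LaurentSeries A₀} {n : ℕ} {x : Fin n → LaurentSeries A₀}
  {m : ℕ} {S : Fin (m + 1) → LaurentSeries A₀}

/-- the scaled relation is integral -/
theorem kdl_term_integral
    (hcoe : ∀ x : F₀, ((algebraMap F₀ F x : F) : LaurentSeries E) = (x : LaurentSeries E))
    (ht₀ : coeffMap (algebraMap A₀ E) t₀ ∈ F₀) (hle : F₀ ≤ F)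
    (s s' g : A₀[X]) (X₀ : F₀) (Y : F) (l : Fin (m + 1))
    (hX : IsIntegral (Algebra.adjoin A₀ {(⟨coeffMap (algebraMap A₀ E) t₀, ht₀⟩ : F₀)})
      (aeval (⟨coeffMap (algebraMap A₀ E) t₀, ht₀⟩ : F₀) s' * X₀))
    (hY : IsIntegral (Algebra.adjoin A₀ {(⟨coeffMap (algebraMap A₀ E) t₀, hle ht₀⟩ : F)})
      (aeval (⟨coeffMap (algebraMap A₀ E) t₀, hle ht₀⟩ : F) s * Y)) :
    IsIntegral (Algebra.adjoin A₀ {(⟨coeffMap (algebraMap A₀ E) t₀, hle ht₀⟩ : F)})
      (aeval (⟨coeffMap (algebraMap A₀ E) t₀, hle ht₀⟩ : F) (s' * s ^ m) *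
        (aeval (⟨coeffMap (algebraMap A₀ E) t₀, hle ht₀⟩ : F) g *
          (algebraMap F₀ F X₀ * Y ^ (l : ℕ)))) := by
  obtain ⟨tF₀, htF₀⟩ : ∃ tF₀ : F₀, tF₀ = ⟨coeffMap (algebraMap A₀ E) t₀, ht₀⟩ := ⟨_, rfl⟩
  obtain ⟨tF, htF⟩ : ∃ tF : F, tF = ⟨coeffMap (algebraMap A₀ E) t₀, hle ht₀⟩ := ⟨_, rfl⟩
  rw [← htF₀] at hX
  rw [← htF] at hY ⊢
  have htFF : algebraMap F₀ F tF₀ = tF := by
    rw [htF, htF₀]
    exact Subtype.ext (hcoe _)
  have h1 : aeval tF s' = algebraMap F₀ F (aeval tF₀ s') := by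
    rw [← htFF, Polynomial.aeval_algebraMap_apply]
  have hl : (l : ℕ) ≤ m := Nat.lt_succ_iff.mp l.2
  have h2 : aeval tF (s' * s ^ m) * (aeval tF g * (algebraMap F₀ F X₀ * Y ^ (l : ℕ))) =
      aeval tF g * algebraMap F₀ F (aeval tF₀ s' * X₀) * (aeval tF s) ^ (m - (l : ℕ)) *
        (aeval tF s * Y) ^ (l : ℕ) := by
    have h3 : (aeval tF s) ^ m = (aeval tF s) ^ (m - (l : ℕ)) * (aeval tF s) ^ (l : ℕ) := by
      rw [← pow_add, Nat.sub_add_cancel hl]
    rw [map_mul, map_pow, h3, map_mul, ← h1, mul_pow]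
    ring
  rw [h2]
  have h4 : IsIntegral (Algebra.adjoin A₀ {tF}) (algebraMap F₀ F (aeval tF₀ s' * X₀)) := by
    have := BGBasis.isIntegral_adjoin_map (Lf := F) tF₀ _ hX
    rwa [htFF] at this
  exact (((core_isIntegral_aeval tF g).mul h4).mul ((core_isIntegral_aeval tF s).pow _)).mul
    (hY.pow _)

set_option maxHeartbeats 1000000 in
/-- **Integral independence**: a relation modulo `π` with coefficients in `A₀[t]` between the
`x i * S₀ ^ k` is trivial modulo `π`. -/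
theorem kdl_int_indep
    (hcoe : ∀ x : F₀, ((algebraMap F₀ F x : F) : LaurentSeries E) = (x : LaurentSeries E))
    {π : A₀} (hπ : Irreducible π) (hrπ : r π = 0) (hr : ∀ a, r a = 0 → π ∣ a)
    (kd : GaussKD r F₀ t₀ x) (hS : ConjFamily r F₀ F S)
    (s : A₀[X]) (hs : s.map r ≠ 0)
    (hθint : IsIntegral
      (Algebra.adjoin A₀ {(⟨coeffMap (algebraMap A₀ E) t₀, hS.le kd.t_mem⟩ : F)})
      (aeval (⟨coeffMap (algebraMap A₀ E) t₀, hS.le kd.t_mem⟩ : F) s *
        ⟨coeffMap (algebraMap A₀ E) (S 0), hS.mem 0⟩))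
    (hbdd : ∀ f ∈ F, ∃ e : ℕ, (HahnSeries.C (algebraMap A₀ E π) : LaurentSeries E) ^ e * f ∈
      gaussRing (algebraMap A₀ E) r)
    (hprime : Prime (algebraMap A₀ (integralClosure
      (Algebra.adjoin A₀ {(⟨coeffMap (algebraMap A₀ E) t₀, hS.le kd.t_mem⟩ : F)}) F) π))
    (M : Fin n × Fin (m + 1) → A₀[X])
    (hM : coeffMap r (∑ j, aeval t₀ (M j) * (x j.1 * S 0 ^ (j.2 : ℕ))) = 0) :
    ∀ j, (M j).map r = 0 := by
  classical
  obtain ⟨σ, hσ⟩ := kdl_sigma hcoe hS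
  obtain ⟨s', hs', hs'int⟩ := kdl_exists_scaling kd hπ hr
    (fun i => (⟨coeffMap (algebraMap A₀ E) (x i), kd.mem i⟩ : F₀))
    (fun i => coeffMap_mem_gaussRing _ r _)
  obtain ⟨tF₀, htF₀⟩ : ∃ tF₀ : F₀, tF₀ = ⟨coeffMap (algebraMap A₀ E) t₀, kd.t_mem⟩ := ⟨_, rfl⟩
  obtain ⟨tF, htF⟩ : ∃ tF : F, tF = ⟨coeffMap (algebraMap A₀ E) t₀, hS.le kd.t_mem⟩ :=
    ⟨_, rfl⟩
  have htFF : algebraMap F₀ F tF₀ = tF := by
    rw [htF, htF₀]
    exact Subtype.ext (hcoe _)
  have htFΩ : F.val tF = coeffMap (algebraMap A₀ E) t₀ := by rw [htF]; rfl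
  -- the elements
  obtain ⟨W, hW⟩ : ∃ W : Fin (m + 1) → LaurentSeries A₀, ∀ b, W b =
      aeval t₀ (s' * s ^ m) * ∑ j : Fin n × Fin (m + 1),
        aeval t₀ (M j) * (x j.1 * S b ^ (j.2 : ℕ)) := ⟨_, fun _ => rfl⟩
  obtain ⟨w, hw⟩ : ∃ w : Fin (m + 1) → F, ∀ b, w b =
      ∑ j : Fin n × Fin (m + 1), aeval tF (s' * s ^ m) * (aeval tF (M j) *
        (algebraMap F₀ F ⟨coeffMap (algebraMap A₀ E) (x j.1), kd.mem j.1⟩ *
          (⟨coeffMap (algebraMap A₀ E) (S b), hS.mem b⟩ : F) ^ (j.2 : ℕ))) :=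
    ⟨_, fun _ => rfl⟩
  have haev : ∀ g : A₀[X], F.val (aeval tF g) = coeffMap (algebraMap A₀ E) (aeval t₀ g) :=
    fun g => bgInt_map_aeval F.val htFΩ g
  have hwΩ : ∀ b, F.val (w b) = coeffMap (algebraMap A₀ E) (W b) := by
    intro b
    have hR : coeffMap (algebraMap A₀ E) (aeval t₀ (s' * s ^ m) *
        ∑ j : Fin n × Fin (m + 1), aeval t₀ (M j) * (x j.1 * S b ^ (j.2 : ℕ))) =
        ∑ j : Fin n × Fin (m + 1), coeffMap (algebraMap A₀ E) (aeval t₀ (s' * s ^ m)) *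
          (coeffMap (algebraMap A₀ E) (aeval t₀ (M j)) *
            (coeffMap (algebraMap A₀ E) (x j.1) *
              coeffMap (algebraMap A₀ E) (S b) ^ (j.2 : ℕ))) := by
      rw [Finset.mul_sum, map_sum]
      refine Finset.sum_congr rfl fun j _ => ?_
      simp only [map_mul, map_pow]
    rw [hw, hW, map_sum, hR]
    refine Finset.sum_congr rfl fun j _ => ?_
    have h1 : ∀ (a c d e : F) (l : ℕ), F.val (a * (c * (d * e ^ l))) =
        F.val a * (F.val c * (F.val d * F.val e ^ l)) := by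
      intro a c d e l
      simp only [map_mul, map_pow]
    rw [h1, haev, haev]
    congr 3
    exact hcoe _
  -- integrality of `w 0`
  have hw0int : IsIntegral (Algebra.adjoin A₀ {tF}) (w 0) := by
    rw [hw]
    refine IsIntegral.sum _ fun j _ => ?_
    have := kdl_term_integral hcoe kd.t_mem hS.le s s' (M j)
      ⟨coeffMap (algebraMap A₀ E) (x j.1), kd.mem j.1⟩
      (⟨coeffMap (algebraMap A₀ E) (S 0), hS.mem 0⟩ : F) j.2 (hs'int j.1) hθint
    rw [← htF] at this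
    exact this
  -- the automorphisms
  have hσaev : ∀ b (g : A₀[X]), σ b (aeval tF g) = aeval tF g := by
    intro b g
    have h1 : aeval tF g = algebraMap F₀ F (aeval tF₀ g) := by
      rw [← htFF, Polynomial.aeval_algebraMap_apply]
    rw [h1, AlgEquiv.commutes]
  have hσw : ∀ b, σ b (w 0) = w b := by
    intro b
    rw [hw, hw, map_sum]
    refine Finset.sum_congr rfl fun j _ => ?_
    have h1 : ∀ (a c d e : F) (l : ℕ), σ b (a * (c * (d * e ^ l))) =
        σ b a * (σ b c * (σ b d * (σ b e) ^ l)) := by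
      intro a c d e l
      simp only [map_mul, map_pow]
    rw [h1, hσaev, hσaev, AlgEquiv.commutes, hσ b]
  have hσA : ∀ b (a : A₀), (σ b).toRingEquiv (algebraMap A₀ F a) = algebraMap A₀ F a := by
    intro b a
    rw [IsScalarTower.algebraMap_apply A₀ F₀ F]
    exact (σ b).commutes _
  have hσt : ∀ b, (σ b).toRingEquiv ⟨coeffMap (algebraMap A₀ E) t₀, hS.le kd.t_mem⟩ =
      ⟨coeffMap (algebraMap A₀ E) t₀, hS.le kd.t_mem⟩ := by
    intro b
    rw [← htF, ← htFF]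
    exact (σ b).commutes _
  -- the end game
  have hW0 : coeffMap r (W 0) = 0 := by rw [hW, map_mul, hM, mul_zero]
  have hZ : coeffMap (algebraMap A₀ E) (W 0) ∈ F := by rw [← hwΩ]; exact (w 0).2
  have hZw : (⟨coeffMap (algebraMap A₀ E) (W 0), hZ⟩ : F) = w 0 := Subtype.ext (hwΩ 0).symm
  have hWb : ∀ b, coeffMap r (W b) = 0 := by
    intro b
    refine kdl_endgame r F (hS.le kd.t_mem) hrπ hr kd.transc hbdd hprime (σ b).toRingEquiv
      (hσA b) (hσt b) (W 0) (W b) hZ ?_ ?_ hW0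
    · rw [hZw, ← htF]; exact hw0int
    · rw [hZw]
      show F.val (σ b (w 0)) = _
      rw [hσw, hwΩ]
  -- cancel the scaling
  have hG : coeffMap r (aeval t₀ (s' * s ^ m)) ≠ 0 := by
    rw [redDVR_coeffMap_aeval]
    intro h0
    have h1 := transcendental_iff.mp kd.transc _ h0
    rw [Polynomial.map_mul, Polynomial.map_pow] at h1
    exact (mul_ne_zero hs' (pow_ne_zero _ hs)) h1
  -- Vandermonde
  have hinjS : Function.Injective (fun b => coeffMap r (S b)) := by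
    intro a b hab
    by_contra hne
    exact hS.red_ne a b hne hab
  have hv : ∀ b : Fin (m + 1), ∑ l : Fin (m + 1),
      (∑ i : Fin n, coeffMap r (aeval t₀ (M (i, l))) * coeffMap r (x i)) *
        (coeffMap r (S b)) ^ (l : ℕ) = 0 := by
    intro b
    have h1 := hWb b
    rw [hW, map_mul] at h1
    have h2 := (mul_eq_zero.mp h1).resolve_left hG
    rw [map_sum, Fintype.sum_prod_type, Finset.sum_comm] at h2
    rw [← h2]
    refine Finset.sum_congr rfl fun l _ => ?_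
    rw [Finset.sum_mul]
    refine Finset.sum_congr rfl fun i _ => ?_
    rw [map_mul, map_mul, map_pow]
    ring
  have hv0 := Matrix.eq_zero_of_forall_index_sum_mul_pow_eq_zero hinjS hv
  rintro ⟨i, l⟩
  have h1 : ∑ i : Fin n, coeffMap r (aeval t₀ (M (i, l))) * coeffMap r (x i) = 0 :=
    congrFun hv0 l
  simp_rw [redDVR_coeffMap_aeval] at h1
  have h2 := kd.indep (fun i => aeval (coeffMap r t₀) ((M (i, l)).map r))
    (fun i => IntermediateField.algebra_adjoin_le_adjoin _ _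
      (Polynomial.aeval_mem_adjoin_singleton _ _)) h1 i
  exact transcendental_iff.mp kd.transc _ h2

end Ind

end Fermat.Agent.ES1
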