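import Mathlib
import Fermat.Agent.INJ.InjCore
import Fermat.Agent.INJ.TameSpec
import Fermat.Agent.ES1.InjPlan
import Fermat.Agent.ES1.KDLiftGood
import Fermat.Agent.ES1.KDLiftInd
import Fermat.Agent.ES1.KDLiftRes
import Fermat.Agent.ES1.KDLiftGauss

/-!
# ES₁ / INJ₁-KD: Gauss key data lift along a conjugate family

`stmtKDLift : StmtKDLift` : Gauss key data for `F₀`, a conjugate family `S` with `F = F₀(S₀)` and
the hypotheses of the tame specialization theorem for `F` give Gauss key data for `F`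
(family `x i * S₀ ^ k`).

Proof: the tower discriminant gives a good basis of `F` (`kdl_goodBasis`); the tame
specialization theorem makes `π` prime in the integral closure `C₁` of `A₀[t]` in `F`; by
incomparability the centre of the Gauss valuation on `C₁` is `π C₁`, so reduction modulo `π`
commutes with the automorphisms of `F / F₀` (`kdl_endgame`); a relation modulo `π` therefore
holds for all conjugates, and the Vandermonde determinant of the `S̄ b` is nonzero
(`kdl_int_indep`); finally coefficients in `k ⊋ κ` are reduced to `κ` by linear functionals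
(`kdl_indep_of_int'`).
-/

set_option autoImplicit false
set_option linter.style.haveILetI false
set_option linter.unusedSectionVars false

noncomputable section

namespace Fermat.Agent.ES1

open Polynomial ModularCurve IntermediateField Fermat.Agent.S28 Fermat.Agent.INJ

section Package

variable {A₀ E k : Type} [CommRing A₀] [IsDomain A₀] [Field E] [Algebra A₀ E]
  [IsFractionRing A₀ E] [Field k] {r : A₀ →+* k}
  {F : IntermediateField E (LaurentSeries E)} {t₀ : LaurentSeries A₀}

/-- key data indexed by a finite type -/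
theorem kdl_package {J : Type} [Fintype J] (y : J → LaurentSeries A₀)
    (ht : coeffMap (algebraMap A₀ E) t₀ ∈ F)
    (hmem : ∀ j, coeffMap (algebraMap A₀ E) (y j) ∈ F)
    (hspan : ∀ f ∈ F, ∃ c : J → LaurentSeries E,
      (∀ j, c j ∈ adjoin E {coeffMap (algebraMap A₀ E) t₀}) ∧
        f = ∑ j, c j * coeffMap (algebraMap A₀ E) (y j))
    (hindep : ∀ c : J → LaurentSeries k, (∀ j, c j ∈ adjoin k {coeffMap r t₀}) →
      ∑ j, c j * coeffMap r (y j) = 0 → ∀ j, c j = 0)
    (htr : Transcendental k (coeffMap r t₀)) :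
    ∃ (n' : ℕ) (x' : Fin n' → LaurentSeries A₀), GaussKD r F t₀ x' := by
  classical
  let e : J ≃ Fin (Fintype.card J) := Fintype.equivFin J
  refine ⟨Fintype.card J, fun i => y (e.symm i), ⟨ht, fun i => hmem _, ?_, ?_, htr⟩⟩
  · intro f hf
    obtain ⟨c, hc, hfc⟩ := hspan f hf
    refine ⟨fun i => c (e.symm i), fun i => hc _, ?_⟩
    rw [hfc]
    exact (Equiv.sum_comp e.symm (fun j => c j * coeffMap (algebraMap A₀ E) (y j))).symm
  · intro c hc hrel i
    have h1 : ∑ j, c (e j) * coeffMap r (y j) = 0 := by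
      rw [← hrel]
      rw [← Equiv.sum_comp e (fun i => c i * coeffMap r (y (e.symm i)))]
      refine Finset.sum_congr rfl fun j _ => ?_
      rw [Equiv.symm_apply_apply]
    have h2 := hindep (fun j => c (e j)) (fun j => hc _) h1 (e.symm i)
    simpa using h2

end Package

/-- **(INJ₁-KD)** Gauss key data lift along a conjugate family. -/
theorem stmtKDLift : StmtKDLift := by
  intro A₀ E k _ _ _ _ _ _ _ _ r F₀ F π hπ hrπ hr t₀ n x kd ht₀ m S hS hgoodF₀ hfin Sg hSg e he
    hζe hram
  classical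
  -- instances
  letI algF₀ : Algebra A₀ F₀ := coreAlg A₀ F₀
  haveI towF₀ : IsScalarTower A₀ E F₀ := coreAlg_isScalarTower A₀ F₀
  letI algF : Algebra A₀ F := coreAlg A₀ F
  haveI towF : IsScalarTower A₀ E F := coreAlg_isScalarTower A₀ F
  letI algFF : Algebra F₀ F := kdlAlg hS.le
  haveI towEFF : IsScalarTower E F₀ F := kdlAlg_isScalarTower hS.le
  haveI towAFF : IsScalarTower A₀ F₀ F := IsScalarTower.of_algebraMap_eq (fun a => by
    apply Subtype.ext
    rfl)
  have hcoe : ∀ x : F₀, ((algebraMap F₀ F x : F) : LaurentSeries E) = (x : LaurentSeries E) :=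
    fun _ => rfl
  obtain ⟨s, hs, hθint, hgoodF⟩ := kdl_goodBasis hcoe hπ hrπ hr kd ht₀ hS hgoodF₀
  -- the tame specialization theorem
  have htrF : Transcendental E (⟨coeffMap (algebraMap A₀ E) t₀, hS.le kd.t_mem⟩ : F) :=
    bgConst_transcendental F _ (by
      show (coeffMap (algebraMap A₀ E) t₀).order ≠ 0
      rw [ht₀]; norm_num)
  obtain ⟨P₀, -, hP₀, -⟩ := bgConst_exists_place F
    (⟨coeffMap (algebraMap A₀ E) t₀, hS.le kd.t_mem⟩ : F) ht₀
  haveI := hfin
  have hprime : Prime (algebraMap A₀ (integralClosure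
      (Algebra.adjoin A₀ {(⟨coeffMap (algebraMap A₀ E) t₀, hS.le kd.t_mem⟩ : F)}) F) π) :=
    tameSpecStmt.{0} A₀ E F π hπ _ htrF (bgConst_mem_range_of_isAlgebraic F) hgoodF Sg hSg
      hram.1 e he hζe hram.2 ⟨P₀, hP₀⟩
  -- span and bounded denominators
  have hspan := kdl_span hcoe kd hS
  have hbdd : ∀ f ∈ F, ∃ e : ℕ, (HahnSeries.C (algebraMap A₀ E π) : LaurentSeries E) ^ e * f ∈
      gaussRing (algebraMap A₀ E) r := by
    intro f hf
    obtain ⟨c, hc, hfc⟩ := hspan f hf
    obtain ⟨e, he⟩ := kdl_bdd r hπ.prime hr t₀ kd.transc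
      (fun j : Fin n × Fin (m + 1) => x j.1 * S 0 ^ (j.2 : ℕ)) c hc
    exact ⟨e, by rw [hfc]; exact he⟩
  -- independence
  have hint := kdl_int_indep hcoe hπ hrπ hr kd hS s hs hθint hbdd hprime
  have hmax : (Ideal.span {π}).IsMaximal := by
    rw [← hπ.maximalIdeal_eq]
    exact IsLocalRing.maximalIdeal.isMaximal A₀
  have hindep := kdl_indep_of_int' r hmax hrπ hr t₀
    (fun j : Fin n × Fin (m + 1) => x j.1 * S 0 ^ (j.2 : ℕ)) hint
  refine kdl_package (fun j : Fin n × Fin (m + 1) => x j.1 * S 0 ^ (j.2 : ℕ))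
    (hS.le kd.t_mem) (fun j => ?_) hspan hindep kd.transc
  rw [map_mul, map_pow]
  exact mul_mem (hS.le (kd.mem j.1)) (pow_mem (hS.mem 0) _)

end Fermat.Agent.ES1
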