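import Fermat.Agent.ES1.InjInstFinal
import Fermat.Agent.ES1.KDLift
import Fermat.Agent.ES1.Conj

/-!
# ES₁/INJ₁: **(INJ₁) is proved**

`stmtINJHAll : StmtINJHAll` — for `L ≠ 0`, `M ∣ L`, `H ≤ (ℤ/M)ˣ`, primes `ℓ ∤ L`, `p ≠ ℓ`:
reduction modulo a place over `ℓ` is injective on `p`-th power classes of the function field
`fieldBar L M H` of `X_H(L; M)` (= `StmtINJH L M H ℓ p`).

Inputs: (INJ₁-KD) `stmtKDLift` (`ES1/KDLift.lean`), (F3-conj) `stmtDiamondH` (`ES1/Conj.lean`),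
(F4) `stmtRamJH` (`ES1/RealFinal.lean`), the instantiations `ES1/InjInst*.lean`.
-/

set_option autoImplicit false

namespace Fermat.Agent.ES1

/-- **(INJ₁)**, unconditionally. -/
theorem stmtINJHAll : StmtINJHAll :=
  stmtINJHAll_of_kd_diamond stmtKDLift stmtDiamondH

/-- **(INJ₁)** at a given level. -/
theorem stmtINJH {L M : ℕ} (H : Subgroup (ZMod M)ˣ) {ℓ p : ℕ} (hL : L ≠ 0) (hML : M ∣ L)
    (hℓ : ℓ.Prime) (hp : p.Prime) (hℓL : ¬ ℓ ∣ L) (hℓp : ℓ ≠ p) : StmtINJH L M H ℓ p :=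
  stmtINJHAll L M H ℓ p hL hML hℓ hp hℓL hℓp

end Fermat.Agent.ES1
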