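import Mathlib

/-!
# ES₁ / TOP-b — generic word machinery (helper42)

Generalisation of `Fermat/Agent/ES/Words.lean` to an arbitrary index type: a family of additive
endomorphisms `T i` (`i ∈ S ⊆ ι`) of an abelian group `V`, NOT assumed to commute, and a monoid `G`
acting on `V` and commuting with the `T i`.

* `es1b_commPart T` : the largest `T`-stable subgroup of `V` on which the `T i` commute;
* it is a module over the polynomial ring `MvPolynomial ι ℤ` (`es1b_commModule`; the variables
  outside `S` act by `0`), stable under `G` (`es1b_commGalois`);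
* on it a word `w : FreeAlgebra ℤ S` acts through its abelianisation (`es1b_familyEval_wordAb`);
* a vector killed by all commutator words lies in it (`es1b_mem_commPart_of_comm`).

In ES₁: `ι = Nat.Primes ⊕ (ZMod M)ˣ` (Hecke operators and diamond operators on `J_H[p]`).
-/

set_option autoImplicit false
set_option linter.style.haveILetI false
set_option linter.unusedSectionVars false

noncomputable section

namespace Fermat.Agent.ES1

/-! ## A module structure from a commuting family -/

section Family

variable {ι : Type*} {V : Type*} [AddCommGroup V] (f : ι → Module.End ℤ V)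

theorem es1b_isMulCommutative_adjoin (hf : ∀ i j, f i * f j = f j * f i) :
    IsMulCommutative (Algebra.adjoin ℤ (Set.range f)) :=
  Algebra.isMulCommutative_adjoin ℤ (by
    rintro _ ⟨i, rfl⟩ _ ⟨j, rfl⟩
    exact hf i j)

open scoped IsMulCommutative in
/-- evaluation of polynomials at a commuting family (into the commutative subalgebra) -/
def es1b_familyEvalAux (hf : ∀ i j, f i * f j = f j * f i) :
    MvPolynomial ι ℤ →ₐ[ℤ] (Algebra.adjoin ℤ (Set.range f) : Subalgebra ℤ (Module.End ℤ V)) :=
  haveI := es1b_isMulCommutative_adjoin f hf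
  MvPolynomial.aeval fun i =>
    (⟨f i, Algebra.subset_adjoin (Set.mem_range_self i)⟩ : Algebra.adjoin ℤ (Set.range f))

/-- evaluation of polynomials at a commuting family -/
def es1b_familyEval (hf : ∀ i j, f i * f j = f j * f i) :
    MvPolynomial ι ℤ →ₐ[ℤ] Module.End ℤ V :=
  (Algebra.adjoin ℤ (Set.range f)).val.comp (es1b_familyEvalAux f hf)

open scoped IsMulCommutative in
theorem es1b_familyEval_X (hf : ∀ i j, f i * f j = f j * f i) (i : ι) :
    es1b_familyEval f hf (MvPolynomial.X i) = f i := by
  have := es1b_isMulCommutative_adjoin f hf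
  show ((es1b_familyEvalAux f hf (MvPolynomial.X i) : Algebra.adjoin ℤ (Set.range f)) :
    Module.End ℤ V) = _
  have : es1b_familyEvalAux f hf (MvPolynomial.X i) =
      ⟨f i, Algebra.subset_adjoin (Set.mem_range_self i)⟩ :=
    MvPolynomial.aeval_X _ i
  rw [this]

/-- the module structure over the polynomial ring defined by a commuting family -/
@[reducible] def es1b_familyModule (hf : ∀ i j, f i * f j = f j * f i) :
    Module (MvPolynomial ι ℤ) V :=
  Module.compHom V (es1b_familyEval f hf).toRingHom

theorem es1b_familyModule_smul_def (hf : ∀ i j, f i * f j = f j * f i)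
    (t : MvPolynomial ι ℤ) (v : V) :
    (letI := es1b_familyModule f hf; t • v) = es1b_familyEval f hf t v := rfl

end Family

/-! ## Words and polynomials -/

section WordsPoly

variable {ι : Type*} (S : Set ι)

/-- abelianisation of words in the variables of `S` -/
def es1b_wordAb : FreeAlgebra ℤ S →ₐ[ℤ] MvPolynomial ι ℤ :=
  FreeAlgebra.lift ℤ (fun i : S => (MvPolynomial.X (i : ι) : MvPolynomial ι ℤ))

@[simp] theorem es1b_wordAb_ι (i : S) :
    es1b_wordAb S (FreeAlgebra.ι ℤ i) = MvPolynomial.X (i : ι) := by
  simp [es1b_wordAb]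

theorem es1b_exists_wordAb_eq {t : MvPolynomial ι ℤ} (ht : t ∈ MvPolynomial.supported ℤ S) :
    ∃ w : FreeAlgebra ℤ S, es1b_wordAb S w = t := by
  rw [MvPolynomial.supported_eq_range_rename] at ht
  obtain ⟨t', rfl⟩ := ht
  induction t' using MvPolynomial.induction_on with
  | C a =>
    refine ⟨algebraMap ℤ _ a, ?_⟩
    rw [AlgHom.commutes]
    simp [MvPolynomial.algebraMap_eq]
  | add s t hs ht =>
    obtain ⟨ws, hws⟩ := hs
    obtain ⟨wt, hwt⟩ := ht
    exact ⟨ws + wt, by rw [map_add, hws, hwt, map_add]⟩
  | mul_X s i hs =>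
    obtain ⟨ws, hws⟩ := hs
    refine ⟨ws * FreeAlgebra.ι ℤ i, ?_⟩
    rw [map_mul, hws, es1b_wordAb_ι, map_mul]
    simp

/-- the value of a word at a family of elements of a commutative ring equals the value of its
abelianisation -/
theorem es1b_aeval_wordAb {R : Type*} [CommRing R] (x : ι → R) (w : FreeAlgebra ℤ S) :
    MvPolynomial.aeval x (es1b_wordAb S w) = FreeAlgebra.lift ℤ (fun i : S => x i) w := by
  have h : ((MvPolynomial.aeval x : MvPolynomial ι ℤ →ₐ[ℤ] R).comp (es1b_wordAb S))
      = FreeAlgebra.lift ℤ (fun i : S => x i) := by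
    apply FreeAlgebra.hom_ext
    funext i
    simp [es1b_wordAb]
  exact congrArg (fun F : FreeAlgebra ℤ S →ₐ[ℤ] R => F w) h

end WordsPoly

/-! ## The commutative part -/

section CommPart

variable {ι : Type*} {S : Set ι} {V : Type*} [AddCommGroup V] (T : S → Module.End ℤ V)

/-- the action of words -/
abbrev es1b_wordAct : FreeAlgebra ℤ S →ₐ[ℤ] Module.End ℤ V := FreeAlgebra.lift ℤ T

theorem es1b_wordAct_ι (i : S) : es1b_wordAct T (FreeAlgebra.ι ℤ i) = T i := by
  simp [es1b_wordAct]

/-- the largest `T`-stable subgroup on which the operators commute -/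
def es1b_commPart : Submodule ℤ V where
  carrier := {v | ∀ (w : FreeAlgebra ℤ S) (i j : S),
    T i (T j (es1b_wordAct T w v)) = T j (T i (es1b_wordAct T w v))}
  zero_mem' := by
    intro w i j
    simp
  add_mem' := by
    intro a b ha hb w i j
    simp only [map_add, ha w i j, hb w i j]
  smul_mem' := by
    intro c v hv w i j
    simp only [map_smul, hv w i j]

theorem es1b_mem_commPart {v : V} : v ∈ es1b_commPart T ↔
    ∀ (w : FreeAlgebra ℤ S) (i j : S),
      T i (T j (es1b_wordAct T w v)) = T j (T i (es1b_wordAct T w v)) := Iff.rfl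

theorem es1b_wordAct_mem_commPart {v : V} (hv : v ∈ es1b_commPart T)
    (u : FreeAlgebra ℤ S) : es1b_wordAct T u v ∈ es1b_commPart T := by
  intro w i j
  have := hv (w * u) i j
  rwa [map_mul, Module.End.mul_apply] at this

theorem es1b_T_mem_commPart {v : V} (hv : v ∈ es1b_commPart T) (i : S) :
    T i v ∈ es1b_commPart T := by
  have := es1b_wordAct_mem_commPart T hv (FreeAlgebra.ι ℤ i)
  rwa [es1b_wordAct_ι] at this

theorem es1b_comm_of_mem_commPart {v : V} (hv : v ∈ es1b_commPart T) (i j : S) :
    T i (T j v) = T j (T i v) := by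
  have := hv 1 i j
  simpa using this

/-- a vector killed by all the commutator words lies in the commutative part -/
theorem es1b_mem_commPart_of_comm {v : V}
    (hv : ∀ (w : FreeAlgebra ℤ S) (i j : S),
      es1b_wordAct T ((FreeAlgebra.ι ℤ i * FreeAlgebra.ι ℤ j
        - FreeAlgebra.ι ℤ j * FreeAlgebra.ι ℤ i) * w) v = 0) :
    v ∈ es1b_commPart T := by
  intro w i j
  have key := hv w i j
  rw [map_mul, map_sub, map_mul, map_mul, es1b_wordAct_ι, es1b_wordAct_ι, Module.End.mul_apply,
    LinearMap.sub_apply, Module.End.mul_apply, Module.End.mul_apply, sub_eq_zero] at key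
  exact key

open Classical in
/-- the operators on the commutative part, indexed by all variables (`0` outside `S`) -/
def es1b_commOp (i : ι) : Module.End ℤ (es1b_commPart T) :=
  if h : i ∈ S then
    (T ⟨i, h⟩).restrict (fun _ hv => es1b_T_mem_commPart T hv ⟨i, h⟩)
  else 0

theorem es1b_commOp_good (i : S) (v : es1b_commPart T) :
    ((es1b_commOp T (i : ι) v : es1b_commPart T) : V) = T i (v : V) := by
  classical
  have h : (i : ι) ∈ S := i.2
  rw [es1b_commOp, dif_pos h]
  rfl

theorem es1b_commOp_bad {i : ι} (h : i ∉ S) : es1b_commOp T i = 0 := by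
  classical
  rw [es1b_commOp, dif_neg h]

theorem es1b_commOp_comm (i j : ι) :
    es1b_commOp T i * es1b_commOp T j = es1b_commOp T j * es1b_commOp T i := by
  classical
  by_cases h : i ∈ S
  · by_cases h' : j ∈ S
    · ext v
      rw [Module.End.mul_apply, Module.End.mul_apply]
      have e1 := es1b_commOp_good T ⟨i, h⟩ (es1b_commOp T j v)
      have e2 := es1b_commOp_good T ⟨j, h'⟩ v
      have e3 := es1b_commOp_good T ⟨j, h'⟩ (es1b_commOp T i v)
      have e4 := es1b_commOp_good T ⟨i, h⟩ v
      simp only at e1 e2 e3 e4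
      rw [e1, e2, e3, e4]
      exact es1b_comm_of_mem_commPart T v.2 ⟨i, h⟩ ⟨j, h'⟩
    · rw [es1b_commOp_bad T h', mul_zero, zero_mul]
  · rw [es1b_commOp_bad T h, mul_zero, zero_mul]

/-- the module structure of the commutative part over the polynomial ring -/
@[reducible] def es1b_commModule : Module (MvPolynomial ι ℤ) (es1b_commPart T) :=
  es1b_familyModule (es1b_commOp T) (es1b_commOp_comm T)

theorem es1b_commModule_smul_def (t : MvPolynomial ι ℤ) (v : es1b_commPart T) :
    (letI := es1b_commModule T; t • v)
      = es1b_familyEval (es1b_commOp T) (es1b_commOp_comm T) t v := rfl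

/-- a variable of `S` acts on the commutative part by its operator -/
theorem es1b_coe_X_smul (i : S) (v : es1b_commPart T) :
    (((letI := es1b_commModule T; (MvPolynomial.X (i : ι) : MvPolynomial ι ℤ) • v) :
      es1b_commPart T) : V) = T i (v : V) := by
  rw [es1b_commModule_smul_def, es1b_familyEval_X]
  exact es1b_commOp_good T i v

/-- a variable outside `S` acts by `0` -/
theorem es1b_X_smul_bad {i : ι} (h : i ∉ S) (v : es1b_commPart T) :
    (letI := es1b_commModule T; (MvPolynomial.X i : MvPolynomial ι ℤ) • v) = 0 := by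
  rw [es1b_commModule_smul_def, es1b_familyEval_X, es1b_commOp_bad T h]
  rfl

/-- constants act by multiples -/
theorem es1b_C_smul (a : ℤ) (v : es1b_commPart T) :
    (letI := es1b_commModule T; (MvPolynomial.C a : MvPolynomial ι ℤ) • v) = a • v := by
  rw [es1b_commModule_smul_def, ← MvPolynomial.algebraMap_eq, AlgHom.commutes,
    Module.algebraMap_end_apply]

/-- on the commutative part a word acts through its abelianisation -/
theorem es1b_familyEval_wordAb (w : FreeAlgebra ℤ S) (v : es1b_commPart T) :
    ((es1b_familyEval (es1b_commOp T) (es1b_commOp_comm T) (es1b_wordAb S w) v :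
      es1b_commPart T) : V) = es1b_wordAct T w (v : V) := by
  induction w using FreeAlgebra.induction generalizing v with
  | grade0 r =>
    simp only [AlgHom.commutes, Module.algebraMap_end_apply]
    rfl
  | grade1 i =>
    rw [es1b_wordAb_ι, es1b_familyEval_X, es1b_wordAct_ι]
    exact es1b_commOp_good T i v
  | mul a b ha hb =>
    rw [map_mul, map_mul, Module.End.mul_apply, ha, hb, map_mul, Module.End.mul_apply]
  | add a b ha hb =>
    rw [map_add, map_add, LinearMap.add_apply, Submodule.coe_add, ha, hb, map_add,
      LinearMap.add_apply]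

/-- a polynomial in the variables of `S` acts on the commutative part as any word lifting it -/
theorem es1b_coe_wordAb_smul (w : FreeAlgebra ℤ S) (v : es1b_commPart T) :
    (((letI := es1b_commModule T; es1b_wordAb S w • v) : es1b_commPart T) : V)
      = es1b_wordAct T w (v : V) := by
  rw [es1b_commModule_smul_def]
  exact es1b_familyEval_wordAb T w v

end CommPart

/-! ## A commuting monoid action -/

section Galois

variable {ι : Type*} {S : Set ι} {V : Type*} [AddCommGroup V] {T : S → Module.End ℤ V}
  {G : Type*} [Monoid G] [DistribMulAction G V]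

theorem es1b_galois_wordAct (hG : ∀ (σ : G) (i : S) (v : V), σ • T i v = T i (σ • v)) (σ : G)
    (w : FreeAlgebra ℤ S) (v : V) :
    σ • es1b_wordAct T w v = es1b_wordAct T w (σ • v) := by
  induction w using FreeAlgebra.induction generalizing v with
  | grade0 r =>
    simp only [AlgHom.commutes, Module.algebraMap_end_apply]
    exact map_zsmul (DistribSMul.toAddMonoidHom V σ) r v
  | grade1 i =>
    rw [es1b_wordAct_ι]
    exact hG σ i v
  | mul a b ha hb =>
    rw [map_mul, Module.End.mul_apply, Module.End.mul_apply, ha, hb]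
  | add a b ha hb =>
    rw [map_add, LinearMap.add_apply, LinearMap.add_apply, smul_add, ha, hb]

theorem es1b_galois_mem_commPart (hG : ∀ (σ : G) (i : S) (v : V), σ • T i v = T i (σ • v))
    (σ : G) {v : V} (hv : v ∈ es1b_commPart T) : σ • v ∈ es1b_commPart T := by
  intro w i j
  rw [← es1b_galois_wordAct hG, ← hG, ← hG, ← hG, ← hG, hv w i j]

/-- the action of `G` on the commutative part -/
@[reducible] def es1b_commGalois (hG : ∀ (σ : G) (i : S) (v : V), σ • T i v = T i (σ • v)) :
    DistribMulAction G (es1b_commPart T) where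
  smul σ x := ⟨σ • (x : V), es1b_galois_mem_commPart hG σ x.2⟩
  one_smul x := Subtype.ext (one_smul G (x : V))
  mul_smul σ τ x := Subtype.ext (mul_smul σ τ (x : V))
  smul_zero σ := Subtype.ext (smul_zero σ)
  smul_add σ x y := Subtype.ext (smul_add σ (x : V) (y : V))

theorem es1b_coe_commGalois_smul (hG : ∀ (σ : G) (i : S) (v : V), σ • T i v = T i (σ • v))
    (σ : G) (x : es1b_commPart T) :
    (((letI := es1b_commGalois hG; σ • x) : es1b_commPart T) : V) = σ • (x : V) := rfl

/-- `G` commutes with every polynomial on the commutative part -/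
theorem es1b_galois_smul_comm (hG : ∀ (σ : G) (i : S) (v : V), σ • T i v = T i (σ • v))
    (σ : G) (t : MvPolynomial ι ℤ) (v : es1b_commPart T) :
    (letI := es1b_commGalois hG; letI := es1b_commModule T; σ • t • v = t • σ • v) := by
  letI := es1b_commGalois hG
  letI := es1b_commModule T
  induction t using MvPolynomial.induction_on generalizing v with
  | C a =>
    rw [es1b_C_smul, es1b_C_smul]
    exact map_zsmul (DistribSMul.toAddMonoidHom (es1b_commPart T) σ) a v
  | add s t hs ht =>
    rw [add_smul, add_smul, smul_add, hs, ht]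
  | mul_X s i hs =>
    rw [mul_smul, mul_smul, hs]
    congr 1
    apply Subtype.ext
    by_cases hi : i ∈ S
    · have e1 := es1b_coe_X_smul T ⟨i, hi⟩ v
      have e2 := es1b_coe_X_smul T ⟨i, hi⟩ (σ • v)
      simp only at e1 e2
      rw [es1b_coe_commGalois_smul, e1, e2, es1b_coe_commGalois_smul]
      exact hG σ ⟨i, hi⟩ (v : V)
    · rw [es1b_X_smul_bad T hi, es1b_X_smul_bad T hi, smul_zero]

end Galois

/-! ## Torsion part of a big group -/

section Tors

variable (p : ℕ) (J : Type*) [AddCommGroup J]

/-- the `p`-torsion of `J` -/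
def es1b_torsPart : Submodule ℤ J where
  carrier := {x | p • x = 0}
  zero_mem' := smul_zero _
  add_mem' := by
    intro a b ha hb
    show p • (a + b) = 0
    rw [smul_add, ha, hb, add_zero]
  smul_mem' := by
    intro c x hx
    show p • (c • x) = 0
    rw [smul_comm, hx, smul_zero]

variable {p J}

theorem es1b_mem_torsPart {x : J} : x ∈ es1b_torsPart p J ↔ p • x = 0 := Iff.rfl

theorem es1b_op_mem_torsPart (f : J →+ J) {x : J} (hx : x ∈ es1b_torsPart p J) :
    f x ∈ es1b_torsPart p J := by
  show p • f x = 0
  rw [← map_nsmul, hx, map_zero]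

theorem es1b_galois_mem_torsPart {G : Type*} [Monoid G] [DistribMulAction G J] (σ : G) {x : J}
    (hx : x ∈ es1b_torsPart p J) : σ • x ∈ es1b_torsPart p J := by
  show p • (σ • x) = 0
  have h : σ • (p • x) = p • (σ • x) := map_nsmul (DistribSMul.toAddMonoidHom J σ) p x
  rw [← h, hx, smul_zero]

variable (p J)

/-- the action of `G` on `J[p]` -/
@[reducible] def es1b_torsGalois (G : Type*) [Monoid G] [DistribMulAction G J] :
    DistribMulAction G (es1b_torsPart p J) where
  smul σ x := ⟨σ • (x : J), es1b_galois_mem_torsPart σ x.2⟩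
  one_smul x := Subtype.ext (one_smul G (x : J))
  mul_smul σ τ x := Subtype.ext (mul_smul σ τ (x : J))
  smul_zero σ := Subtype.ext (smul_zero σ)
  smul_add σ x y := Subtype.ext (smul_add σ (x : J) (y : J))

variable {J}

/-- operators on `J[p]` -/
def es1b_torsOp {ι : Type*} {S : Set ι} (T : S → J →+ J) (i : S) :
    Module.End ℤ (es1b_torsPart p J) :=
  (T i).toIntLinearMap.restrict (fun _ hx => es1b_op_mem_torsPart (T i) hx)

theorem es1b_torsOp_apply {ι : Type*} {S : Set ι} (T : S → J →+ J) (i : S)
    (x : es1b_torsPart p J) :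
    ((es1b_torsOp p T i x : es1b_torsPart p J) : J) = T i (x : J) := rfl

theorem es1b_coe_wordAct_torsOp {ι : Type*} {S : Set ι} (T : S → J →+ J)
    (w : FreeAlgebra ℤ S) (x : es1b_torsPart p J) :
    ((es1b_wordAct (es1b_torsOp p T) w x : es1b_torsPart p J) : J)
      = FreeAlgebra.lift ℤ (fun i : S => (T i).toIntLinearMap) w (x : J) := by
  induction w using FreeAlgebra.induction generalizing x with
  | grade0 r =>
    simp only [AlgHom.commutes, Module.algebraMap_end_apply]
    rfl
  | grade1 i =>
    rw [es1b_wordAct_ι, FreeAlgebra.lift_ι_apply]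
    rfl
  | mul a b ha hb =>
    rw [map_mul, Module.End.mul_apply, ha, hb, map_mul, Module.End.mul_apply]
  | add a b ha hb =>
    rw [map_add, LinearMap.add_apply, Submodule.coe_add, ha, hb, map_add, LinearMap.add_apply]

end Tors

end Fermat.Agent.ES1
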