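import Fermat.Agent.ES1.Package
import Fermat.Agent.ES1.TopBWords

/-!
# ES₁ / TOP-b — the producer: `ES1Pkg M θ p` from clauses on the `p`-torsion of a group `J`
(helper42)

`J` is any abelian group with an action of `G_ℚ` (in the application `J = J_H(M; M)(ℚ̄)`,
`H ≤ ker θ`), `T ℓ : J →+ J` the Hecke operators and `D c : J →+ J` the diamond operators.
NO commutativity of the operators is required: the package is realised on the largest stable
subgroup of `J[p]` on which they commute (`ES1/TopBWords.lean`), which contains the support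
vectors because commutator words have value `0`.

* `ES1bClauses M θ p J T D` : the clauses, all about `J[p]`, support clause in WORD form;
* `es1b_pkg_of_clauses : ES1bClauses M θ p J T D → ES1Pkg M θ p`.
-/

set_option autoImplicit false
set_option linter.style.haveILetI false
set_option linter.unusedSectionVars false

noncomputable section

namespace Fermat.Agent.ES1

open Fermat.Agent.S48 CongruenceSubgroup UpperHalfPlane

/-- the operator attached to a variable of the Hecke–diamond ring -/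
def es1b_op {M : ℕ} {J : Type} [AddCommGroup J] (T : Nat.Primes → J →+ J)
    (D : (ZMod M)ˣ → J →+ J) : HDVar M → J →+ J :=
  Sum.elim T D

theorem es1b_inr_mem_goodVars (M p : ℕ) (c : (ZMod M)ˣ) :
    (Sum.inr c : HDVar M) ∈ es1top_goodVars M p := by
  intro ℓ h
  exact absurd h (by simp)

theorem es1b_inl_mem_goodVars {M p : ℕ} {ℓ : Nat.Primes} (h : ¬ (ℓ : ℕ) ∣ M * p) :
    (Sum.inl ℓ : HDVar M) ∈ es1top_goodVars M p := by
  intro ℓ' h'
  have : ℓ = ℓ' := Sum.inl.inj h'
  subst this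
  exact h

/-- the good variable `T_ℓ` -/
def es1b_tVar {M p : ℕ} (ℓ : Nat.Primes) (h : ¬ (ℓ : ℕ) ∣ M * p) : es1top_goodVars M p :=
  ⟨Sum.inl ℓ, es1b_inl_mem_goodVars h⟩

/-- the good variable `δ_c` -/
def es1b_dVar (M p : ℕ) (c : (ZMod M)ˣ) : es1top_goodVars M p :=
  ⟨Sum.inr c, es1b_inr_mem_goodVars M p c⟩

/-- **The clauses of TOP-b**, all about the `p`-torsion of `J`; support clause in word form. -/
structure ES1bClauses (M : ℕ) (θ : DirichletCharacter ℂ M) (p : ℕ) (J : Type) [AddCommGroup J]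
    [DistribMulAction GalQ J] (T : Nat.Primes → J →+ J) (D : (ZMod M)ˣ → J →+ J) : Prop where
  /-- `J[p]` is finite -/
  finite : {x : J | p • x = 0}.Finite
  /-- Galois commutes with the good Hecke operators on `J[p]` -/
  galois_hecke : ∀ (σ : GalQ) (ℓ : Nat.Primes), ¬ (ℓ : ℕ) ∣ M * p →
    ∀ x : J, p • x = 0 → σ • T ℓ x = T ℓ (σ • x)
  /-- Galois commutes with the diamond operators on `J[p]` -/
  galois_diamond : ∀ (σ : GalQ) (c : (ZMod M)ˣ) (x : J), p • x = 0 → σ • D c x = D c (σ • x)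
  /-- every `p`-torsion element is fixed by an open subgroup -/
  finite_level : ∀ x : J, p • x = 0 → ∃ E : IntermediateField ℚ (AlgebraicClosure ℚ),
    FiniteDimensional ℚ E ∧ ∀ σ : GalQ, (∀ a ∈ E, σ a = a) → σ • x = x
  /-- `δ_1 = 1` on `J[p]` -/
  diamond_one : ∀ x : J, p • x = 0 → D 1 x = x
  /-- `δ_{cd} = δ_c δ_d` on `J[p]` -/
  diamond_mul : ∀ (c d : (ZMod M)ˣ) (x : J), p • x = 0 → D (c * d) x = D c (D d x)
  /-- the Eichler–Shimura relation `δ_ℓ τ² − T_ℓ τ + ℓ = 0` on `J[p]` -/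
  frob : ∀ ℓ : ℕ, (hℓ : ℓ.Prime) → ¬ ℓ ∣ M * p →
    ∀ c : (ZMod M)ˣ, (c : ZMod M) = (ℓ : ZMod M) →
    ∀ A : ValuationSubring (AlgebraicClosure ℚ), A.LiesOverPrime ℓ →
      ∀ τ : GalQ, A.IsFrobeniusAt τ ℓ →
        ∀ x : J, p • x = 0 → D c (τ • τ • x) - T ⟨ℓ, hℓ⟩ (τ • x) + ℓ • x = 0
  /-- inertia over good primes acts trivially on `J[p]` -/
  unram : ∀ ℓ : ℕ, ℓ.Prime → ¬ ℓ ∣ M * p →
    ∀ A : ValuationSubring (AlgebraicClosure ℚ), A.LiesOverPrime ℓ →
      ∀ σ ∈ A.inertiaSubgroupIn ℚ, ∀ x : J, p • x = 0 → σ • x = x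
  /-- every eigen-system mod `𝔪` occurs in `J[p]`, for all words (in one of the two
  normalisations) -/
  supp : ∀ g : CuspForm (Gamma1 M) 2, (g : ℍ → ℂ) ≠ 0 → HasNebenK M θ 2 g →
    ∀ b : ℕ → ℂ, IsEigenAway M θ 2 (M * p) g b →
    ∀ 𝔪 : Ideal Zb, 𝔪.IsMaximal → ((p : ℕ) : Zb) ∈ 𝔪 →
      ∃ (s : Bool) (v : J), v ≠ 0 ∧ p • v = 0 ∧ ∀ w : FreeAlgebra ℤ (es1top_goodVars M p),
        (∃ z ∈ 𝔪, (z : ℂ) = FreeAlgebra.lift ℤ
          (fun i : es1top_goodVars M p => es1top_sys θ b s (i : HDVar M)) w) →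
        FreeAlgebra.lift ℤ
          (fun i : es1top_goodVars M p => (es1b_op T D (i : HDVar M)).toIntLinearMap) w v = 0

section Main

variable {M : ℕ} {θ : DirichletCharacter ℂ M} {p : ℕ} {J : Type} [AddCommGroup J]
  [DistribMulAction GalQ J] {T : Nat.Primes → J →+ J} {D : (ZMod M)ˣ → J →+ J}

/-- the operators on `J[p]` indexed by the good variables -/
abbrev es1b_opP (M p : ℕ) {J : Type} [AddCommGroup J] (T : Nat.Primes → J →+ J)
    (D : (ZMod M)ˣ → J →+ J) :
    es1top_goodVars M p → Module.End ℤ (es1b_torsPart p J) :=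
  es1b_torsOp p (fun i : es1top_goodVars M p => es1b_op T D (i : HDVar M))

theorem es1b_opP_tVar (ℓ : Nat.Primes) (h : ¬ (ℓ : ℕ) ∣ M * p) (x : es1b_torsPart p J) :
    ((es1b_opP M p T D (es1b_tVar ℓ h) x : es1b_torsPart p J) : J) = T ℓ (x : J) := rfl

theorem es1b_opP_dVar (c : (ZMod M)ˣ) (x : es1b_torsPart p J) :
    ((es1b_opP M p T D (es1b_dVar M p c) x : es1b_torsPart p J) : J) = D c (x : J) := rfl

theorem ES1bClauses.galois_opP (h : ES1bClauses M θ p J T D) :
    letI := es1b_torsGalois p J GalQ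
    ∀ (σ : GalQ) (i : es1top_goodVars M p) (v : es1b_torsPart p J),
      σ • es1b_opP M p T D i v = es1b_opP M p T D i (σ • v) := by
  letI := es1b_torsGalois p J GalQ
  rintro σ ⟨i, hi⟩ v
  apply Subtype.ext
  rcases i with ℓ | c
  · exact h.galois_hecke σ ℓ (hi ℓ rfl) (v : J) v.2
  · exact h.galois_diamond σ c (v : J) v.2

/-- **TOP-b.**  The clauses on `J[p]` give the Eichler–Shimura package of level `Γ₁(M)`. -/
theorem es1b_pkg_of_clauses (h : ES1bClauses M θ p J T D) : ES1Pkg M θ p := by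
  classical
  letI instGT : DistribMulAction GalQ (es1b_torsPart p J) := es1b_torsGalois p J GalQ
  have hG := h.galois_opP
  letI instG : DistribMulAction GalQ (es1b_commPart (es1b_opP M p T D)) := es1b_commGalois hG
  letI instM : Module (HDAlg M) (es1b_commPart (es1b_opP M p T D)) :=
    es1b_commModule (es1b_opP M p T D)
  -- coercions
  have hcoeG : ∀ (σ : GalQ) (x : es1b_commPart (es1b_opP M p T D)),
      (((σ • x : es1b_commPart (es1b_opP M p T D)) : es1b_torsPart p J) : J)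
        = σ • ((x : es1b_torsPart p J) : J) := fun _ _ => rfl
  have hcoeT : ∀ (ℓ : Nat.Primes) (hℓ : ¬ (ℓ : ℕ) ∣ M * p)
      (x : es1b_commPart (es1b_opP M p T D)),
      (((es1top_tGen M ℓ • x : es1b_commPart (es1b_opP M p T D)) : es1b_torsPart p J) : J)
        = T ℓ ((x : es1b_torsPart p J) : J) := by
    intro ℓ hℓ x
    have e := es1b_coe_X_smul (es1b_opP M p T D) (es1b_tVar ℓ hℓ) x
    exact congrArg Subtype.val e
  have hcoeD : ∀ (c : (ZMod M)ˣ) (x : es1b_commPart (es1b_opP M p T D)),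
      (((es1top_dGen M c • x : es1b_commPart (es1b_opP M p T D)) : es1b_torsPart p J) : J)
        = D c ((x : es1b_torsPart p J) : J) := by
    intro c x
    have e := es1b_coe_X_smul (es1b_opP M p T D) (es1b_dVar M p c) x
    exact congrArg Subtype.val e
  have hext : ∀ x y : es1b_commPart (es1b_opP M p T D),
      (((x : es1b_torsPart p J) : J) = ((y : es1b_torsPart p J) : J)) → x = y :=
    fun x y hxy => Subtype.ext (Subtype.ext hxy)
  have htors : ∀ x : es1b_commPart (es1b_opP M p T D), p • ((x : es1b_torsPart p J) : J) = 0 :=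
    fun x => (x : es1b_torsPart p J).2
  refine ⟨es1b_commPart (es1b_opP M p T D), inferInstance, instM, instG, ?_⟩
  refine
    { finite := ?_
      smul_comm := ?_
      finite_level := ?_
      diamond_one := ?_
      diamond_mul := ?_
      frob := ?_
      unram := ?_
      supp := ?_ }
  · haveI : Finite (es1b_torsPart p J) := h.finite.to_subtype
    exact Finite.of_injective (fun x : es1b_commPart (es1b_opP M p T D) =>
      (x : es1b_torsPart p J)) Subtype.val_injective
  · intro σ t v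
    exact es1b_galois_smul_comm hG σ t v
  · intro v
    obtain ⟨E, hE, hfix⟩ := h.finite_level ((v : es1b_torsPart p J) : J) (htors v)
    exact ⟨E, hE, fun σ hσ => hext _ _ (by rw [hcoeG]; exact hfix σ hσ)⟩
  · intro v
    apply hext
    rw [hcoeD]
    exact h.diamond_one _ (htors v)
  · intro c d v
    apply hext
    rw [hcoeD, hcoeD, hcoeD]
    exact h.diamond_mul c d _ (htors v)
  · intro ℓ hℓ hg c hc A hA τ hτ v
    apply hext
    have h1 := h.frob ℓ hℓ hg c hc A hA τ hτ _ (htors v)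
    have e1 := hcoeD c (τ • τ • v)
    have e2 := hcoeT ⟨ℓ, hℓ⟩ hg (τ • v)
    rw [hcoeG, hcoeG] at e1
    rw [hcoeG] at e2
    show (((es1top_dGen M c • (τ • τ • v) : es1b_commPart (es1b_opP M p T D)) :
        es1b_torsPart p J) : J)
      - (((es1top_tGen M ⟨ℓ, hℓ⟩ • (τ • v) : es1b_commPart (es1b_opP M p T D)) :
        es1b_torsPart p J) : J)
      + ℓ • ((v : es1b_torsPart p J) : J) = 0
    rw [e1, e2]
    exact h1
  · intro ℓ hℓ hg A hA σ hσ v
    apply hext
    rw [hcoeG]
    exact h.unram ℓ hℓ hg A hA σ hσ _ (htors v)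
  · intro g hg0 hgθ b hb 𝔪 h𝔪 hp
    obtain ⟨s, v, hv0, hpv, hv⟩ := h.supp g hg0 hgθ b hb 𝔪 h𝔪 hp
    -- the action of words on `J[p]`
    have hw : ∀ w : FreeAlgebra ℤ (es1top_goodVars M p),
        (∃ z ∈ 𝔪, (z : ℂ) = FreeAlgebra.lift ℤ
          (fun i : es1top_goodVars M p => es1top_sys θ b s (i : HDVar M)) w) →
        es1b_wordAct (es1b_opP M p T D) w (⟨v, hpv⟩ : es1b_torsPart p J) = 0 := by
      intro w hz
      apply Subtype.ext
      rw [es1b_coe_wordAct_torsOp]
      exact hv w hz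
    -- the support vector lies in the commutative part
    have hvc : (⟨v, hpv⟩ : es1b_torsPart p J) ∈ es1b_commPart (es1b_opP M p T D) := by
      apply es1b_mem_commPart_of_comm
      intro w i j
      apply hw
      refine ⟨0, 𝔪.zero_mem, ?_⟩
      rw [map_mul, map_sub, map_mul, map_mul,
        mul_comm (FreeAlgebra.lift ℤ
          (fun i : es1top_goodVars M p => es1top_sys θ b s (i : HDVar M)) (FreeAlgebra.ι ℤ i)),
        sub_self, zero_mul]
      rfl
    refine ⟨s, ⟨⟨v, hpv⟩, hvc⟩, fun hh => hv0 ?_, fun t ht hz => ?_⟩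
    · exact congrArg (fun x : es1b_commPart (es1b_opP M p T D) =>
        ((x : es1b_torsPart p J) : J)) hh
    · obtain ⟨w, rfl⟩ := es1b_exists_wordAb_eq (es1top_goodVars M p) ht
      apply Subtype.ext
      rw [es1b_coe_wordAb_smul]
      apply hw
      obtain ⟨z, hz𝔪, hzv⟩ := hz
      refine ⟨z, hz𝔪, ?_⟩
      rw [hzv]
      exact es1b_aeval_wordAb (es1top_goodVars M p) (es1top_sys θ b s) w

end Main

end Fermat.Agent.ES1
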