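import Fermat.Agent.ES.GaloisHecke
import Fermat.Agent.ES.FiniteLevel
import Fermat.Agent.ES1.HInputs
import Fermat.Agent.ES1.TopB

/-!
# ES₁ / TOP-b — the two unconditional clauses for `J = JH L M H` (helper42)

* `es1b_finiteLevel`  : every torsion class of `JH L M H` is fixed by an open subgroup of `G_ℚ`;
* `es1b_galois_hecke` : `G_ℚ` commutes with the Hecke operator `es1hHecke L M H ℓ`
  (`ES1/HInputs.lean`, helper82) on `JH L M H`.

Forks of `ES/FiniteLevel.lean` and `ES/GaloisHecke.lean` (whose generic parts are used as they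
are).
-/

set_option autoImplicit false
set_option linter.style.haveILetI false
set_option linter.unusedSectionVars false

noncomputable section

namespace Fermat.Agent.ES1

open ModularCurve AlgebraicCurve AlgebraicCurve.SemilinearAut HahnSeries Fermat.Agent.S48

variable (L M : ℕ) (H : Subgroup (ZMod M)ˣ)

/-- **torsion classes of `JH L M H` have finite level** -/
theorem es1b_finiteLevel (m : ℕ) (hm : m ≠ 0) (x : JH L M H) (hx : m • x = 0) :
    ∃ E : IntermediateField ℚ (AlgebraicClosure ℚ), FiniteDimensional ℚ E ∧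
      ∀ σ : GalQ, (∀ a ∈ E, σ a = a) → σ • x = x := by
  haveI := Fermat.Agent.ES.qbar_isAlgebraic
  obtain ⟨u, hu⟩ := Fermat.Agent.ES.pic0_smul_eq_of_torsion m hm x hx
  obtain ⟨E, hE, hfix⟩ := Fermat.Agent.ES.exists_field_fixing (L := AlgebraicClosure ℚ)
    (F₀ := fieldQ L M H) u.2
  refine ⟨E, hE, fun σ hσ => ?_⟩
  rw [galois_smul_pic0_def]
  apply hu
  apply Subtype.ext
  rw [coe_arithmeticGalois_smul]
  exact hfix σ hσ

section Hecke

variable (ℓ : ℕ) [NeZero ℓ]

theorem es1b_intertwines_alpha (σ : GalQ) :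
    IntertwinesAlong ((es1hAlpha L M H ℓ : _ →ₐ[AlgebraicClosure ℚ] _) :
        fieldBar L M H →+* fieldBar (L * ℓ) M H)
      (arithmeticGalois (fieldQ L M H) σ) (arithmeticGalois (fieldQ (L * ℓ) M H) σ) := by
  intro x
  apply Subtype.ext
  show coeffMap (σ : AlgebraicClosure ℚ →+* AlgebraicClosure ℚ)
      ((es1hAlpha L M H ℓ x : _) : LaurentSeries (AlgebraicClosure ℚ))
    = ((es1hAlpha L M H ℓ (arithmeticGalois (fieldQ L M H) σ • x) : _) :
        LaurentSeries (AlgebraicClosure ℚ))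
  rw [coe_es1hAlpha, coe_es1hAlpha, coe_arithmeticGalois_smul]

theorem es1b_intertwines_beta (σ : GalQ) :
    IntertwinesAlong ((es1hBeta L M H ℓ : _ →ₐ[AlgebraicClosure ℚ] _) :
        fieldBar L M H →+* fieldBar (L * ℓ) M H)
      (arithmeticGalois (fieldQ L M H) σ) (arithmeticGalois (fieldQ (L * ℓ) M H) σ) := by
  intro x
  apply Subtype.ext
  show coeffMap (σ : AlgebraicClosure ℚ →+* AlgebraicClosure ℚ)
      ((es1hBeta L M H ℓ x : _) : LaurentSeries (AlgebraicClosure ℚ))
    = ((es1hBeta L M H ℓ (arithmeticGalois (fieldQ L M H) σ • x) : _) :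
        LaurentSeries (AlgebraicClosure ℚ))
  rw [coe_es1hBeta, coe_es1hBeta, coe_arithmeticGalois_smul,
    Fermat.Agent.ES.coeffMap_qExpand_comm]

/-- **Galois commutes with the Hecke operator `T_ℓ` on `JH L M H`.** -/
theorem es1b_galois_hecke (σ : GalQ) (x : JH L M H) :
    σ • es1hHecke L M H ℓ x = es1hHecke L M H ℓ (σ • x) := by
  classical
  by_cases h : Es1hInputs L M H ℓ
  · obtain ⟨hα, hβ, hP, hfin, hFI, hN⟩ := h
    haveI := hP
    rw [es1hHecke_eq hα hβ hFI hfin hN, galois_smul_pic0_def, galois_smul_pic0_def]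
    exact (Fermat.Agent.ES.pic0_correspondence_smul (es1hBeta L M H ℓ) (es1hAlpha L M H ℓ)
      hβ hα hFI hfin hN (es1b_intertwines_beta L M H ℓ σ) (es1b_intertwines_alpha L M H ℓ σ)
      x).symm
  · rw [es1hHecke_of_not h, AddMonoidHom.zero_apply, AddMonoidHom.zero_apply, smul_zero]

end Hecke

end Fermat.Agent.ES1
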