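import Mathlib
import Fermat.Agent.S48.Plan2

/-!
# ES₁ / TOP — the contract (interface between the geometry of `J_H` and the glue)

`Fermat.Agent.ES1.ES1Data M θ p V` is the list of properties of a finite abelian group `V`
(e.g. `J_H(L; M)[p](ℚ̄)` with `L = M`, `H ≤ ker θ`) with an action of `G_ℚ` and of the
Hecke–diamond polynomial ring `HDAlg M = ℤ[T_ℓ (ℓ prime), δ_c (c ∈ (ℤ/M)ˣ)]` which the
construction of the residual representation of an eigenvector of weight two on `Γ₁(M)` with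
nebentypus `θ` consumes (`Fermat.Agent.S48.StmtES1`):

* `diamond_one`, `diamond_mul` : the `δ_c` form a group action on `V`;
* `frob`  : the Eichler–Shimura relation `δ_ℓ τ² − T_ℓ τ + ℓ = 0` on `V` for every Frobenius `τ` at
            every place over every prime `ℓ ∤ M p` (`δ_ℓ = δ_c` for the class `c` of `ℓ` mod `M`);
* `unram` : inertia at places over `ℓ ∤ M p` acts trivially;
* `supp`  : for every eigenvector `g ≠ 0` of the `T_ℓ`, `ℓ ∤ M p`, with nebentypus `θ` and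
            eigenvalues `b_ℓ`, and every maximal ideal `𝔪 ∋ p` of `ℤ̄`, some nonzero `v ∈ V` is killed
            by every polynomial `t` in the good variables (`T_ℓ`, `ℓ ∤ M p`, and all `δ_c`) whose
            value at ONE of the two eigen-systems
              `s = false` : `T_ℓ ↦ b_ℓ`,            `δ_c ↦ θ(c)`,
              `s = true`  : `T_ℓ ↦ b_ℓ · θ(ℓ)⁻¹`,   `δ_c ↦ θ(c)⁻¹`
            lies in `𝔪` (the producer chooses `s`; the glue twists by `θ ∘ χ_M` when `s = false`).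

Integrality of the `b_ℓ` is NOT part of the contract: it is the separate statement `StmtInt1`.

`ES1Pkg M θ p` : such a `V` exists.  Any construction is allowed.
The glue is `Fermat/Agent/ES1/Top.lean`: `StmtInt1 → (∀ M θ p, ES1Pkg M θ p) → S48.StmtES1`.
-/

set_option autoImplicit false

open CongruenceSubgroup UpperHalfPlane

namespace Fermat.Agent.ES1

open Fermat.Agent.S48

/-- the variables of the Hecke–diamond polynomial ring: `T_ℓ` (`ℓ` prime) and `δ_c`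
(`c ∈ (ℤ/M)ˣ`) -/
abbrev HDVar (M : ℕ) : Type := Nat.Primes ⊕ (ZMod M)ˣ

/-- the Hecke–diamond polynomial ring `ℤ[T_ℓ, δ_c]` -/
abbrev HDAlg (M : ℕ) : Type := MvPolynomial (HDVar M) ℤ

/-- the variable `T_ℓ` -/
noncomputable def es1top_tGen (M : ℕ) (ℓ : Nat.Primes) : HDAlg M := MvPolynomial.X (Sum.inl ℓ)

/-- the variable `δ_c` -/
noncomputable def es1top_dGen (M : ℕ) (c : (ZMod M)ˣ) : HDAlg M := MvPolynomial.X (Sum.inr c)

/-- the good variables at level `M` and residue characteristic `p`: the `T_ℓ` with `ℓ ∤ M p`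
and all the `δ_c` -/
def es1top_goodVars (M p : ℕ) : Set (HDVar M) :=
  {x | ∀ ℓ : Nat.Primes, x = Sum.inl ℓ → ¬ (ℓ : ℕ) ∣ M * p}

/-- the values of the variables at the eigen-system number `s` of `(θ, b)`:
`s = false`: `(T_ℓ, δ_c) ↦ (b_ℓ, θ(c))`; `s = true`: `(T_ℓ, δ_c) ↦ (b_ℓ θ(ℓ)⁻¹, θ(c)⁻¹)` -/
noncomputable def es1top_sys {M : ℕ} (θ : DirichletCharacter ℂ M) (b : ℕ → ℂ) (s : Bool) :
    HDVar M → ℂ :=
  Sum.elim
    (fun ℓ : Nat.Primes => if s then b ℓ * θ⁻¹ ((ℓ : ℕ) : ZMod M) else b ℓ)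
    (fun c : (ZMod M)ˣ => if s then θ⁻¹ (c : ZMod M) else θ (c : ZMod M))

/-- the value of a Hecke–diamond polynomial at the eigen-system number `s` of `(θ, b)` -/
noncomputable def es1top_value {M : ℕ} (θ : DirichletCharacter ℂ M) (b : ℕ → ℂ) (s : Bool) :
    HDAlg M →ₐ[ℤ] ℂ :=
  MvPolynomial.aeval (es1top_sys θ b s)

/-- The Eichler–Shimura data of level `Γ₁(M)`, nebentypus `θ`, residue characteristic `p`, on a
`G_ℚ × ℤ[T_ℓ, δ_c]`-module `V`. -/
structure ES1Data (M : ℕ) (θ : DirichletCharacter ℂ M) (p : ℕ) (V : Type) [AddCommGroup V]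
    [Module (HDAlg M) V] [DistribMulAction GalQ V] : Prop where
  /-- `V` is finite -/
  finite : Finite V
  /-- Galois commutes with the Hecke operators and the diamonds -/
  smul_comm : ∀ (σ : GalQ) (t : HDAlg M) (v : V), σ • t • v = t • σ • v
  /-- every vector is fixed by an open subgroup -/
  finite_level : ∀ v : V, ∃ E : IntermediateField ℚ (AlgebraicClosure ℚ),
    FiniteDimensional ℚ E ∧ ∀ σ : GalQ, (∀ x ∈ E, σ x = x) → σ • v = v
  /-- `δ_1 = 1` on `V` -/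
  diamond_one : ∀ v : V, es1top_dGen M 1 • v = v
  /-- `δ_{cd} = δ_c δ_d` on `V` -/
  diamond_mul : ∀ (c d : (ZMod M)ˣ) (v : V),
    es1top_dGen M (c * d) • v = es1top_dGen M c • es1top_dGen M d • v
  /-- the Eichler–Shimura relation `δ_ℓ τ² − T_ℓ τ + ℓ = 0` -/
  frob : ∀ ℓ : ℕ, (hℓ : ℓ.Prime) → ¬ ℓ ∣ M * p →
    ∀ c : (ZMod M)ˣ, (c : ZMod M) = (ℓ : ZMod M) →
    ∀ A : ValuationSubring (AlgebraicClosure ℚ), A.LiesOverPrime ℓ →
      ∀ τ : GalQ, A.IsFrobeniusAt τ ℓ →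
        ∀ v : V, es1top_dGen M c • (τ • τ • v) - es1top_tGen M ⟨ℓ, hℓ⟩ • (τ • v) + ℓ • v = 0
  /-- unramified outside `M p` -/
  unram : ∀ ℓ : ℕ, ℓ.Prime → ¬ ℓ ∣ M * p →
    ∀ A : ValuationSubring (AlgebraicClosure ℚ), A.LiesOverPrime ℓ →
      ∀ σ ∈ A.inertiaSubgroupIn ℚ, ∀ v : V, σ • v = v
  /-- every eigen-system mod `𝔪` occurs in `V` (in one of the two normalisations) -/
  supp : ∀ g : CuspForm (Gamma1 M) 2, (g : ℍ → ℂ) ≠ 0 → HasNebenK M θ 2 g →
    ∀ b : ℕ → ℂ, IsEigenAway M θ 2 (M * p) g b →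
    ∀ 𝔪 : Ideal Zb, 𝔪.IsMaximal → ((p : ℕ) : Zb) ∈ 𝔪 →
      ∃ (s : Bool) (v : V), v ≠ 0 ∧ ∀ t ∈ MvPolynomial.supported ℤ (es1top_goodVars M p),
        (∃ z ∈ 𝔪, (z : ℂ) = es1top_value θ b s t) → t • v = 0

/-- The Eichler–Shimura package exists at level `Γ₁(M)`, nebentypus `θ`, residue
characteristic `p`. -/
def ES1Pkg (M : ℕ) (θ : DirichletCharacter ℂ M) (p : ℕ) : Prop :=
  ∃ (V : Type) (_ : AddCommGroup V) (_ : Module (HDAlg M) V) (_ : DistribMulAction GalQ V),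
    ES1Data M θ p V

/-- (INT₁) an eigenvalue of `T_ℓ` (or `U_ℓ`) on a nonzero cusp form of weight two on `Γ₁(M)` with
nebentypus `θ` is an algebraic integer. -/
def StmtInt1 : Prop :=
  ∀ (M : ℕ) [NeZero M] (θ : DirichletCharacter ℂ M) (g : CuspForm (Gamma1 M) 2),
    (g : ℍ → ℂ) ≠ 0 → HasNebenK M θ 2 g → ∀ ℓ : ℕ, ℓ.Prime → ∀ β : ℂ,
      (∀ n : ℕ, ModularFormClass.qCoeff g (ℓ * n) +
          (ℓ : ℂ) * θ (ℓ : ZMod M) * (if ℓ ∣ n then ModularFormClass.qCoeff g (n / ℓ) else 0) =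
        β * ModularFormClass.qCoeff g n) →
      IsIntegral ℤ β

end Fermat.Agent.ES1
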