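import Mathlib
import Fermat.Agent.ES1.Package
import Fermat.Agent.S48.Int

/-!
# ES₁ / INT — `StmtInt1`: the eigenvalues of `T_ℓ` on `S₂(Γ₁(M), θ)` are algebraic integers

`es1int_stmtInt1 : StmtInt1`.

Route (fork of `S48/Int.lean`): for `g ≠ 0` of weight two with nebentypus `θ` (so `θ(-1) = 1`):

* if `-1 ≠ 1` in `ℤ/M`, there is a character `α` mod `M` with `α(-1) = -1`; with `β = (θ α)⁻¹`
  (odd) and the Eisenstein series `H_α`, `H_β = q + …` of weight three, `g H_α H_β ∈ S₈(Γ₀(M))`;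
* otherwise `(ℤ/M)ˣ = 1` and `g ∈ S₂(Γ₀(M))`.

By S23 the `q`-coefficients of a cusp form on `Γ₀(M)` lie in a finitely generated `ℤ`-module, hence
(division by `q + …`) so do those of `g`.  The `ℤ[θ]`-span of the `a_n(g)` is then a nonzero
finitely generated `ℤ`-module which is stable under multiplication by the eigenvalue.
-/

set_option autoImplicit false

open CongruenceSubgroup UpperHalfPlane ModularForm Filter Topology
open Fermat.Agent.S23
open scoped MatrixGroups Manifold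

noncomputable section

namespace Fermat.Agent.ES1

open Fermat.Agent.S48

/-- the ring `ℤ[α, θ]` generated by the values of two characters -/
def es1int_ring {M : ℕ} (α θ : DirichletCharacter ℂ M) : Subalgebra ℤ ℂ :=
  Algebra.adjoin ℤ (Set.range α ∪ Set.range θ)

theorem es1int_ring_fg {M : ℕ} [NeZero M] (α θ : DirichletCharacter ℂ M) :
    (es1int_ring α θ).toSubmodule.FG :=
  fg_adjoin_of_finite ((Set.finite_range α).union (Set.finite_range θ)) (by
    rintro _ (⟨a, rfl⟩ | ⟨a, rfl⟩)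
    · exact int_isIntegral_char α a
    · exact int_isIntegral_char θ a)

theorem es1int_left_mem {M : ℕ} (α θ : DirichletCharacter ℂ M) (a : ZMod M) :
    α a ∈ es1int_ring α θ :=
  Algebra.subset_adjoin (Or.inl ⟨a, rfl⟩)

theorem es1int_right_mem {M : ℕ} (α θ : DirichletCharacter ℂ M) (a : ZMod M) :
    θ a ∈ es1int_ring α θ :=
  Algebra.subset_adjoin (Or.inr ⟨a, rfl⟩)

theorem es1int_left_inv_mem {M : ℕ} (α θ : DirichletCharacter ℂ M) (a : ZMod M) :
    α⁻¹ a ∈ es1int_ring α θ := by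
  rw [MulChar.inv_apply]
  exact es1int_left_mem α θ _

theorem es1int_right_inv_mem {M : ℕ} (α θ : DirichletCharacter ℂ M) (a : ZMod M) :
    θ⁻¹ a ∈ es1int_ring α θ := by
  rw [MulChar.inv_apply]
  exact es1int_right_mem α θ _

/-- a nonzero form of weight two with nebentypus `θ` has `θ(-1) = 1` -/
theorem es1int_neg_one {M : ℕ} [NeZero M] {θ : DirichletCharacter ℂ M}
    {g : CuspForm (Gamma1 M) 2} (hg : HasNebenK M θ 2 g) (h0 : (⇑g : ℍ → ℂ) ≠ 0) :
    θ (-1) = 1 := by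
  obtain ⟨z, hz⟩ : ∃ z, g z ≠ 0 := by
    by_contra h
    push Not at h
    exact h0 (funext h)
  have hmem : (-1 : SL(2, ℤ)) ∈ Gamma0 M := by
    rw [Gamma0_mem]
    simp
  have h1 := hg (-1) hmem z
  rw [ModularGroup.SL_neg_smul, one_smul] at h1
  have h2 : ((((-1 : SL(2, ℤ)) 1 1 : ℤ)) : ZMod M) = -1 := by simp
  have h3 : ((((-1 : SL(2, ℤ)) 1 1 : ℤ)) : ℂ) = -1 := by simp
  have h4 : ((((-1 : SL(2, ℤ)) 1 0 : ℤ)) : ℂ) = 0 := by simp
  rw [h2, h3, h4] at h1
  have h5 : (θ (-1) - 1) * g z = 0 := by linear_combination -h1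
  have h6 := (mul_eq_zero.mp h5).resolve_right hz
  linear_combination h6

/-- a nonzero cusp form has a nonzero `q`-coefficient -/
theorem es1int_exists_qCoeff_ne {M : ℕ} {g : CuspForm (Gamma1 M) 2} (h0 : (⇑g : ℍ → ℂ) ≠ 0) :
    ∃ n : ℕ, ModularFormClass.qCoeff (⇑g) n ≠ 0 := by
  by_contra h
  push Not at h
  apply h0
  have hz : IsHPB (0 : ℍ → ℂ) := (HPB).zero_mem
  apply sigma_eq_of_qExpansion_eq (sigma_isHPB g) hz
  ext n
  rw [UpperHalfPlane.qExpansion_zero, map_zero]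
  exact h n

/-- an odd character exists if `-1 ≠ 1` in `ℤ/M` -/
theorem es1int_exists_odd {M : ℕ} [NeZero M] (h : (-1 : ZMod M) ≠ 1) :
    ∃ α : DirichletCharacter ℂ M, α (-1) = -1 := by
  obtain ⟨α, hα⟩ := MulChar.exists_apply_ne_one_of_hasEnoughRootsOfUnity (ZMod M) ℂ h
  refine ⟨α, ?_⟩
  have h2 : α (-1) * α (-1) = 1 := by
    rw [← map_mul, neg_one_mul, neg_neg, map_one]
  have h3 : (α (-1) - 1) * (α (-1) + 1) = 0 := by linear_combination h2
  rcases mul_eq_zero.mp h3 with h4 | h4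
  · exact absurd (sub_eq_zero.mp h4) hα
  · linear_combination h4

/-- the units of `ℤ/M` are trivial if `-1 = 1` -/
theorem es1int_unit_eq_one {M : ℕ} [NeZero M] (h : (-1 : ZMod M) = 1) (u : (ZMod M)ˣ) :
    u = 1 := by
  have h2 : ((2 : ℕ) : ZMod M) = 0 := by
    have : (1 : ZMod M) + 1 = 0 := by
      nth_rewrite 1 [← h]
      ring
    rw [← this]
    norm_num
  have hdvd : M ∣ 2 := (ZMod.natCast_eq_zero_iff 2 M).mp h2
  have hM : M = 1 ∨ M = 2 := by
    have hle : M ≤ 2 := Nat.le_of_dvd (by norm_num) hdvd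
    have hpos : 0 < M := Nat.pos_of_ne_zero (NeZero.ne M)
    interval_cases M
    · exact Or.inl rfl
    · exact Or.inr rfl
  have hcard : Fintype.card (ZMod M)ˣ = 1 := by
    rw [ZMod.card_units_eq_totient]
    rcases hM with rfl | rfl
    · rfl
    · rfl
  have : Subsingleton (ZMod M)ˣ := Fintype.card_le_one_iff_subsingleton.mp hcard.le
  exact Subsingleton.elim _ _

/-- the coefficients of the Eisenstein series of weight three lie in every subalgebra which
contains the values of the character -/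
theorem es1int_eis_mem {M : ℕ} (R : Subalgebra ℤ ℂ) (χ : DirichletCharacter ℂ M)
    (hχ : ∀ a : ZMod M, χ a ∈ R) (H : ℍ → ℂ)
    (hH0 : ModularFormClass.qCoeff H 0 = 0)
    (hHn : ∀ n : ℕ, n ≠ 0 → ModularFormClass.qCoeff H n =
      ∑ d ∈ n.divisors, χ (d : ZMod M) * ((n / d : ℕ) : ℂ) ^ (3 - 1)) (n : ℕ) :
    ModularFormClass.qCoeff H n ∈ R := by
  rcases Nat.eq_zero_or_pos n with rfl | hn
  · rw [hH0]
    exact R.zero_mem
  · rw [hHn n hn.ne']
    refine R.sum_mem fun d _ => ?_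
    exact R.mul_mem (hχ _) (R.pow_mem (R.natCast_mem _) _)

theorem es1int_eis_one {M : ℕ} (χ : DirichletCharacter ℂ M) (H : ℍ → ℂ)
    (hHn : ∀ n : ℕ, n ≠ 0 → ModularFormClass.qCoeff H n =
      ∑ d ∈ n.divisors, χ (d : ZMod M) * ((n / d : ℕ) : ℂ) ^ (3 - 1)) :
    ModularFormClass.qCoeff H 1 = 1 := by
  rw [hHn 1 one_ne_zero]
  simp

/-- the `q`-coefficients of a nonzero form of weight two with nebentypus `θ` lie in a finitely
generated `ℤ`-module which is stable under `ℤ[θ]` -/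
theorem es1int_coeff_bdd {M : ℕ} [NeZero M] (θ : DirichletCharacter ℂ M)
    (g : CuspForm (Gamma1 M) 2) (hneb : HasNebenK M θ 2 g) (h0 : (⇑g : ℍ → ℂ) ≠ 0) :
    IntBdd (intRing θ) (fun n => ModularFormClass.qCoeff (⇑g) n) := by
  have hθ1 : θ (-1) = 1 := es1int_neg_one hneb h0
  by_cases hm : (-1 : ZMod M) = 1
  · -- the units are trivial: `g` is a form on `Γ₀(M)`
    have hθu : ∀ a : ZMod M, IsUnit a → θ a = 1 := by
      intro a ha
      obtain ⟨u, rfl⟩ := ha
      rw [es1int_unit_eq_one hm u, Units.val_one, map_one]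
    obtain ⟨G, hG⟩ := sigma_exists_cuspForm_G0 (N := M) 2 (⇑g) (CuspFormClass.holo g) (by
      intro γ hγ z
      have := hneb γ hγ z
      rw [hθu _ (sigma_isUnit_of_mem_Gamma0 hγ), one_mul] at this
      rw [this]
      norm_cast) (fun γ => sigma_slash_isZeroAtImInfty g γ)
    have h := intBdd_cuspForm M 2 (intRing θ) (intRing_fg θ) G
    rw [hG] at h
    exact h
  · obtain ⟨α, hα⟩ := es1int_exists_odd hm
    set β : DirichletCharacter ℂ M := θ⁻¹ * α⁻¹ with hβ
    have hβ1 : β (-1) = -1 := by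
      rw [hβ, MulChar.mul_apply, MulChar.inv_apply_eq_inv', MulChar.inv_apply_eq_inv', hθ1, hα]
      norm_num
    have hne : ∀ (χ : DirichletCharacter ℂ M) (a : ZMod M), IsUnit a → χ a ≠ 0 :=
      fun χ a ha => (ha.map χ).ne_zero
    have hprod : ∀ a : ZMod M, IsUnit a → θ a * α a * β a = 1 := by
      intro a ha
      rw [hβ, MulChar.mul_apply, MulChar.inv_apply_eq_inv', MulChar.inv_apply_eq_inv']
      have h1 := hne θ a ha
      have h2 := hne α a ha
      field_simp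
    obtain ⟨Hα, hHαneb, hHα0, hHαn⟩ := exists_eisOdd_of_odd M (k := 3) le_rfl (by decide) α hα
    obtain ⟨Hβ, hHβneb, hHβ0, hHβn⟩ := exists_eisOdd_of_odd M (k := 3) le_rfl (by decide) β hβ1
    obtain ⟨G, hG⟩ := sigma_exists_cuspForm_G0 (N := M) 8 (⇑g * ⇑Hα * ⇑Hβ)
      (((CuspFormClass.holo g).mul (ModularFormClass.holo Hα)).mul (ModularFormClass.holo Hβ))
      (by
        intro γ hγ z
        have e := hprod _ (sigma_isUnit_of_mem_Gamma0 hγ)
        rw [Pi.mul_apply, Pi.mul_apply, Pi.mul_apply, Pi.mul_apply, hneb γ hγ z, hHαneb γ hγ z,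
          hHβneb γ hγ z]
        have e8 : ((γ 1 0 : ℂ) * (z : ℂ) + (γ 1 1 : ℂ)) ^ (8 : ℤ) =
            ((γ 1 0 : ℂ) * (z : ℂ) + (γ 1 1 : ℂ)) ^ 8 := by
          norm_cast
        rw [e8]
        linear_combination
          (((γ 1 0 : ℂ) * (z : ℂ) + (γ 1 1 : ℂ)) ^ 8 * g z * Hα z * Hβ z) * e)
      (by
        intro γ
        have h1 : ((⇑g * ⇑Hα * ⇑Hβ : ℍ → ℂ) ∣[(8 : ℤ)] γ) =
            ((⇑g : ℍ → ℂ) ∣[(2 : ℤ)] γ) * ((⇑Hα : ℍ → ℂ) ∣[(3 : ℤ)] γ) *
              ((⇑Hβ : ℍ → ℂ) ∣[(3 : ℤ)] γ) := by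
          rw [← mul_slash_SL2, ← mul_slash_SL2]
          norm_num
        rw [h1]
        exact ((sigma_slash_isZeroAtImInfty g γ).mul_boundedAtFilter
          (sigma_slash_isBoundedAtImInfty Hα γ)).mul_boundedAtFilter
          (sigma_slash_isBoundedAtImInfty Hβ γ))
    obtain ⟨W, hW, hstab, hmem⟩ :=
      intBdd_cuspForm M 8 (es1int_ring α θ) (es1int_ring_fg α θ) G
    have hle : intRing θ ≤ es1int_ring α θ :=
      Algebra.adjoin_mono Set.subset_union_right
    refine ⟨W, hW, fun ρ hρ y hy => hstab ρ (hle hρ) y hy, ?_⟩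
    have hαmem := es1int_eis_mem (es1int_ring α θ) α (es1int_left_mem α θ) (⇑Hα) hHα0 hHαn
    have hβmem := es1int_eis_mem (es1int_ring α θ) β (fun a => by
      rw [hβ, MulChar.mul_apply]
      exact (es1int_ring α θ).mul_mem (es1int_right_inv_mem α θ a) (es1int_left_inv_mem α θ a))
      (⇑Hβ) hHβ0 hHβn
    have hgH : IsHPB ((⇑g : ℍ → ℂ) * ⇑Hα) := (sigma_isHPB g).mul (sigma_isHPB Hα)
    -- first division: the coefficients of `g H_α`
    have h1 : ∀ n, (qExpansion 1 ((⇑g : ℍ → ℂ) * ⇑Hα)).coeff n ∈ W := by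
      refine int_mem_of_mul W (fun n => (qExpansion 1 ((⇑g : ℍ → ℂ) * ⇑Hα)).coeff n)
        (fun n => ModularFormClass.qCoeff (⇑Hβ) n) (fun n => ModularFormClass.qCoeff (⇑G) n)
        hHβ0 (es1int_eis_one β (⇑Hβ) hHβn) (fun n y hy => hstab _ (hβmem n) y hy) ?_ hmem
      intro n
      change (qExpansion 1 (⇑G : ℍ → ℂ)).coeff n = _
      rw [hG, sigma_qExpansion_mul hgH (sigma_isHPB Hβ), PowerSeries.coeff_mul]
      rfl
    -- second division: the coefficients of `g`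
    refine int_mem_of_mul W (fun n => ModularFormClass.qCoeff (⇑g) n)
      (fun n => ModularFormClass.qCoeff (⇑Hα) n)
      (fun n => (qExpansion 1 ((⇑g : ℍ → ℂ) * ⇑Hα)).coeff n)
      hHα0 (es1int_eis_one α (⇑Hα) hHαn) (fun n y hy => hstab _ (hαmem n) y hy) ?_ h1
    intro n
    show (qExpansion 1 ((⇑g : ℍ → ℂ) * ⇑Hα)).coeff n = _
    rw [sigma_qExpansion_mul (sigma_isHPB g) (sigma_isHPB Hα), PowerSeries.coeff_mul]
    rfl

/-- **ES₁ / INT.** -/
theorem es1int_stmtInt1 : StmtInt1 := by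
  intro M _ θ g h0 hneb ℓ hℓ β hβ
  obtain ⟨W, hW, hstab, hmem⟩ := es1int_coeff_bdd θ g hneb h0
  set a : ℕ → ℂ := fun n => ModularFormClass.qCoeff (⇑g) n with ha
  obtain ⟨n₀, hn₀⟩ := es1int_exists_qCoeff_ne h0
  let C : Submodule ℤ ℂ := Submodule.span ℤ {y | ∃ ρ ∈ intRing θ, ∃ n, y = ρ * a n}
  have hCW : C ≤ W := by
    apply Submodule.span_le.mpr
    rintro _ ⟨ρ, hρ, n, rfl⟩
    exact hstab ρ hρ _ (hmem _)
  have hfg : C.FG := Submodule.FG.of_le hW hCW
  have hgen : ∀ ρ ∈ intRing θ, ∀ n, ρ * a n ∈ C := fun ρ hρ n =>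
    Submodule.subset_span ⟨ρ, hρ, n, rfl⟩
  have hne : C ≠ ⊥ := by
    intro h
    have h1 : (1 : ℂ) * a n₀ ∈ C := hgen 1 (intRing θ).one_mem n₀
    rw [h, Submodule.mem_bot, one_mul] at h1
    exact hn₀ h1
  have hst : ∀ y ∈ C, β • y ∈ C := by
    intro y hy
    refine Submodule.span_induction (p := fun y _ => β • y ∈ C) ?_ ?_ ?_ ?_ hy
    · rintro _ ⟨ρ, hρ, n, rfl⟩
      rw [smul_eq_mul]
      have h := hβ n
      have e : β * (ρ * a n) = ρ * a (ℓ * n) +
          (ρ * ((ℓ : ℂ) * θ (ℓ : ZMod M))) * (if ℓ ∣ n then a (n / ℓ) else 0) := by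
        rw [mul_left_comm, ← h]
        ring
      rw [e]
      refine C.add_mem (hgen ρ hρ _) ?_
      split_ifs
      · exact hgen _ ((intRing θ).mul_mem hρ
          ((intRing θ).mul_mem ((intRing θ).natCast_mem _) (int_char_mem θ _))) _
      · rw [mul_zero]
        exact C.zero_mem
    · rw [smul_zero]
      exact C.zero_mem
    · intro x y _ _ hx hy
      rw [smul_add]
      exact C.add_mem hx hy
    · intro m x _ hx
      rw [smul_comm]
      exact C.smul_mem m hx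
  exact isIntegral_of_smul_mem_submodule C hne hfg β hst

end Fermat.Agent.ES1
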