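import Fermat.Agent.ES1.Top
import Fermat.Agent.ES1.Int1

/-!
# ES₁ / TOP — `StmtES1` from the Eichler–Shimura packages alone

`es1top_stmtES1_of_pkg : (∀ M θ p, p.Prime → ES1Pkg M θ p) → S48.StmtES1`
(`ES1/Top.lean` + the integrality `ES1/Int1.lean`).
-/

set_option autoImplicit false

namespace Fermat.Agent.ES1

/-- **ES₁ / TOP, final form.**  The only input of `S48.StmtES1` is the existence of the
Eichler–Shimura packages `ES1Pkg M θ p`. -/
theorem es1top_stmtES1_of_pkg
    (hPkg : ∀ (M : ℕ) [NeZero M] (θ : DirichletCharacter ℂ M) (p : ℕ), p.Prime →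
      ES1Pkg M θ p) : Fermat.Agent.S48.StmtES1 :=
  es1top_stmtES1 es1int_stmtInt1 hPkg

end Fermat.Agent.ES1
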