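import Fermat.Agent.ES1.TopBUnif
import Fermat.Agent.ES1.TopBGalois
import Fermat.Agent.ES1.TopFinal
import Fermat.Agent.ES1.G2.Main
import Fermat.Agent.ES1.G2.SwapH
import Fermat.Agent.ES1.G2.DiamBar
import Fermat.Agent.ES1.InjInstDone
import Fermat.Agent.ES1.Conj
import Fermat.Agent.ES1.HFinal

/-!
# ES₁ — final assembly (captain helper36)

Everything except the torsion uniformisation (G1) is proved:

* `es1_frob`, `es1_unram` : the clauses `frob`, `unram` for `JH L M H` (G2, unconditional);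
* `StmtG1UnifAny` : **the only open input**, the G1 contract `ES1bUnifData` for
  `J = JH M M H`, `T ℓ = es1T M H ℓ`, `D c = es1Diamond M M H c` (some `H`);
* `es1_pkg_of_unifAny`, `es1_stmtES1_of_unifAny : StmtG1UnifAny → S48.StmtES1`.
-/

set_option autoImplicit false
set_option linter.style.haveILetI false
set_option linter.unusedSectionVars false

noncomputable section

namespace Fermat.Agent.ES1

open ModularCurve AlgebraicCurve Fermat.Agent.ES Fermat.Agent.S48 Fermat.Agent.ES1.G2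
  CongruenceSubgroup UpperHalfPlane

/-- **(INJ₁) + SWAP + F3-conj ⇒ the Eichler–Shimura relation** on `JH L M H`, unconditionally. -/
theorem es1_stmtFrobH : StmtFrobH := es1g2_frob stmtINJHAll stmtSwapH stmtDiamondH

/-- inertia at the good primes acts trivially on the torsion of `JH L M H`, unconditionally. -/
theorem es1_stmtUnramH : StmtUnramH := es1g2_unram stmtINJHAll

/-- the diamonds exist on `fieldBar L M H` -/
theorem es1_stmtDiamondBarH : StmtDiamondBarH := stmtDiamondBarH_of_diamond stmtDiamondH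

/-- the Hecke operators of `JH M M H`, indexed by the primes -/
def es1T (M : ℕ) (H : Subgroup (ZMod M)ˣ) (ℓ : Nat.Primes) : JH M M H →+ JH M M H :=
  haveI : NeZero (ℓ : ℕ) := ⟨ℓ.2.ne_zero⟩
  es1hHecke M M H ℓ

/-- **The only open input of ES₁: the G1 contract** (torsion uniformisation of `JH M M H` by
multiplier characters, with the period eigen-homomorphisms), for some `H`. -/
def StmtG1UnifAny : Prop :=
  ∀ (M : ℕ) [NeZero M] (θ : DirichletCharacter ℂ M) (p : ℕ), p.Prime →
    ∃ (H : Subgroup (ZMod M)ˣ) (Γ : Type) (_ : Group Γ) (P : Set Γ)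
      (Op : es1top_goodVars M p → ∀ (A : Type) [AddCommGroup A],
        (Additive Γ →+ A) →+ (Additive Γ →+ A))
      (Co : Type) (_ : AddCommGroup Co)
      (μ : es1b_torsPart p (JH M M H) →+ (Additive Γ →+ Co)) (ε : ZMod p →+ Co),
      ES1bUnifData M θ p (JH M M H) (es1T M H) (es1Diamond M M H) Γ P Op Co μ ε

/-- **The Eichler–Shimura package for `Γ_H(M)`** from the G1 contract. -/
theorem es1_pkg_of_unifAny (hG1 : StmtG1UnifAny) (M : ℕ) [NeZero M] (θ : DirichletCharacter ℂ M)
    (p : ℕ) (hp : p.Prime) : ES1Pkg M θ p := by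
  haveI : Fact p.Prime := ⟨hp⟩
  obtain ⟨H, Γ, _, P, Op, Co, _, μ, ε, hU⟩ := hG1 M θ p hp
  have hM0 : M ≠ 0 := NeZero.ne M
  have hMM : M ∣ M := dvd_rfl
  refine es1b_pkg_of_unif hU ?_ ?_ ?_ ?_ ?_ ?_ ?_
  · intro σ ℓ _ x _
    haveI : NeZero (ℓ : ℕ) := ⟨ℓ.2.ne_zero⟩
    exact es1b_galois_hecke M M H ℓ σ x
  · intro σ c x _
    exact diamb_galois_diamond es1_stmtDiamondBarH hM0 hMM σ c x
  · intro x hx
    exact es1b_finiteLevel M M H p hp.ne_zero x hx
  · intro x _
    exact diamb_diamond_one x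
  · intro c d x _
    exact diamb_diamond_mul es1_stmtDiamondBarH hM0 hMM c d x
  · intro ℓ hℓ hℓMp c hc A hA τ hτ x hx
    haveI : NeZero ℓ := ⟨hℓ.ne_zero⟩
    obtain ⟨δ, hδ⟩ := es1_stmtDiamondBarH M M H hM0 hMM c
    have h := es1_stmtFrobH M M H p hM0 hMM ℓ hℓ hℓMp (es1hFin_all hM0 hMM)
      (es1hFin_all (mul_ne_zero hM0 hℓ.ne_zero) (dvd_mul_right M ℓ)) c hc δ hδ A hA
      τ hτ x hx
    rw [es1Diamond_eq hδ]
    exact h
  · intro ℓ hℓ hℓMp A hA σ hσ x hx
    exact es1_stmtUnramH M M H p hM0 hMM ℓ hℓ hℓMp A hA σ hσ x hx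

/-- **ES₁ from G1**: the statement `S48.StmtES1` (the wall of Deligne–Serre) follows from the
torsion uniformisation alone. -/
theorem es1_stmtES1_of_unifAny (hG1 : StmtG1UnifAny) : Fermat.Agent.S48.StmtES1 :=
  es1top_stmtES1_of_pkg fun M _ θ p hp => es1_pkg_of_unifAny hG1 M θ p hp

end Fermat.Agent.ES1
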