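import Mathlib
import Fermat.Agent.ES1.Group

/-!
# ES₁-G1 — the Hecke and diamond operators on `Hom(Γ, A)`, `Γ = gammaH L M H` (helper38)

CHOICE-FREE definitions (no coset representatives):

* `conjAlphaH : gammaH (L * ℓ) M H →* gammaH L M H`, `(a b; c d) ↦ (a, ℓ b; c / ℓ, d)`
  (conjugation by `α = diag(ℓ, 1)`; `γ ↦ α γ α⁻¹`);
* `heckeGrp ℓ φ := transfer_{Γ' → Γ} (φ ∘ conjAlphaH)`, `Γ' = gammaH (L * ℓ) M H ≤ Γ` (Mathlib's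
  `AddMonoidHom.transfer`/`MonoidHom.transfer`).  It is the multiplier of
  `W = ∏_{x ∈ Γ' \ Γ} (w ∘ α) ∘ x̃ = N_{Γ'→Γ}(w(ℓ τ))` when `w` has multiplier `φ`, and
  `F = Σ_x G ∘ α ∘ x̃` has period `heckeGrp ℓ P` when `G` has period hom `P`;
* `diamGrp σ φ := φ ∘ (γ ↦ σ γ σ⁻¹)` for `σ ∈ Γ₀(L) ∩ Γ₀(M)`: the multiplier of `w ∘ σ`.
-/

set_option autoImplicit false

noncomputable section

namespace Fermat.Agent.ES1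

open CongruenceSubgroup Matrix Matrix.SpecialLinearGroup
open scoped MatrixGroups

/-! ## Finite index -/

instance gammaH_finiteIndex (L M : ℕ) [NeZero L] [NeZero M] (H : Subgroup (ZMod M)ˣ) :
    (gammaH L M H).FiniteIndex := by
  have h1 : (Gamma1 M ⊓ Gamma0 L).FiniteIndex := inferInstance
  exact Subgroup.finiteIndex_of_le (gamma1_inf_gamma0_le L M H)

/-! ## Conjugation by `α = diag(ℓ, 1)` -/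

/-- `(a b; c d) ↦ (a, ℓ b; c / ℓ, d)` -/
def conjAlphaMat (ℓ : ℕ) (γ : SL(2, ℤ)) : Matrix (Fin 2) (Fin 2) ℤ :=
  !![γ 0 0, (ℓ : ℤ) * γ 0 1; γ 1 0 / (ℓ : ℤ), γ 1 1]

theorem det_conjAlphaMat {ℓ : ℕ} {γ : SL(2, ℤ)} (h : (ℓ : ℤ) ∣ γ 1 0) :
    (conjAlphaMat ℓ γ).det = 1 := by
  have hdet : γ 0 0 * γ 1 1 - γ 0 1 * γ 1 0 = 1 := by
    have := γ.det_coe
    rwa [Matrix.det_fin_two] at this
  rw [conjAlphaMat, Matrix.det_fin_two_of]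
  have : (ℓ : ℤ) * γ 0 1 * (γ 1 0 / (ℓ : ℤ)) = γ 0 1 * γ 1 0 := by
    rw [mul_comm (ℓ : ℤ), mul_assoc, Int.mul_ediv_cancel' h]
  rw [this]; exact hdet

/-- conjugation by `diag(ℓ, 1)`, on `Γ₀(ℓ)` -/
def conjAlphaSL (ℓ : ℕ) (γ : SL(2, ℤ)) (h : (ℓ : ℤ) ∣ γ 1 0) : SL(2, ℤ) :=
  ⟨conjAlphaMat ℓ γ, det_conjAlphaMat h⟩

@[simp] theorem conjAlphaSL_apply_00 (ℓ : ℕ) (γ : SL(2, ℤ)) (h : (ℓ : ℤ) ∣ γ 1 0) :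
    conjAlphaSL ℓ γ h 0 0 = γ 0 0 := rfl

@[simp] theorem conjAlphaSL_apply_01 (ℓ : ℕ) (γ : SL(2, ℤ)) (h : (ℓ : ℤ) ∣ γ 1 0) :
    conjAlphaSL ℓ γ h 0 1 = (ℓ : ℤ) * γ 0 1 := rfl

@[simp] theorem conjAlphaSL_apply_10 (ℓ : ℕ) (γ : SL(2, ℤ)) (h : (ℓ : ℤ) ∣ γ 1 0) :
    conjAlphaSL ℓ γ h 1 0 = γ 1 0 / (ℓ : ℤ) := rfl

@[simp] theorem conjAlphaSL_apply_11 (ℓ : ℕ) (γ : SL(2, ℤ)) (h : (ℓ : ℤ) ∣ γ 1 0) :
    conjAlphaSL ℓ γ h 1 1 = γ 1 1 := rfl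

theorem dvd_of_mem_gamma0 {N : ℕ} {γ : SL(2, ℤ)} (h : γ ∈ Gamma0 N) : (N : ℤ) ∣ γ 1 0 := by
  rw [Gamma0_mem] at h
  exact (ZMod.intCast_zmod_eq_zero_iff_dvd _ _).mp h

theorem mem_gamma0_of_dvd {N : ℕ} {γ : SL(2, ℤ)} (h : (N : ℤ) ∣ γ 1 0) : γ ∈ Gamma0 N := by
  rw [Gamma0_mem]
  exact (ZMod.intCast_zmod_eq_zero_iff_dvd _ _).mpr h

theorem conjAlphaSL_one (ℓ : ℕ) : conjAlphaSL ℓ 1 (by simp) = 1 := by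
  ext i j
  fin_cases i <;> fin_cases j <;> simp [conjAlphaSL, conjAlphaMat]

theorem conjAlphaSL_mul {ℓ : ℕ} (hℓ : ℓ ≠ 0) (γ γ' : SL(2, ℤ)) (h : (ℓ : ℤ) ∣ γ 1 0)
    (h' : (ℓ : ℤ) ∣ γ' 1 0) (h'' : (ℓ : ℤ) ∣ (γ * γ') 1 0) :
    conjAlphaSL ℓ (γ * γ') h'' = conjAlphaSL ℓ γ h * conjAlphaSL ℓ γ' h' := by
  have hℓ' : (ℓ : ℤ) ≠ 0 := Int.natCast_ne_zero.mpr hℓ
  obtain ⟨k, hk⟩ := h
  obtain ⟨k', hk'⟩ := h'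
  have e := two_mul_expl γ.1 γ'.1
  have e00 : (γ * γ') 0 0 = γ 0 0 * γ' 0 0 + γ 0 1 * γ' 1 0 := by simpa using e.1
  have e01 : (γ * γ') 0 1 = γ 0 0 * γ' 0 1 + γ 0 1 * γ' 1 1 := by simpa using e.2.1
  have e10 : (γ * γ') 1 0 = γ 1 0 * γ' 0 0 + γ 1 1 * γ' 1 0 := by simpa using e.2.2.1
  have e11 : (γ * γ') 1 1 = γ 1 0 * γ' 0 1 + γ 1 1 * γ' 1 1 := by simpa using e.2.2.2
  have d1 : γ 1 0 / (ℓ : ℤ) = k := by rw [hk, Int.mul_ediv_cancel_left _ hℓ']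
  have d2 : γ' 1 0 / (ℓ : ℤ) = k' := by rw [hk', Int.mul_ediv_cancel_left _ hℓ']
  have d3 : (γ * γ') 1 0 / (ℓ : ℤ) = k * γ' 0 0 + γ 1 1 * k' := by
    rw [e10, hk, hk']
    have : (ℓ : ℤ) * k * γ' 0 0 + γ 1 1 * ((ℓ : ℤ) * k') = (ℓ : ℤ) * (k * γ' 0 0 + γ 1 1 * k') := by
      ring
    rw [this, Int.mul_ediv_cancel_left _ hℓ']
  have e' := two_mul_expl (conjAlphaSL ℓ γ ⟨k, hk⟩).1 (conjAlphaSL ℓ γ' ⟨k', hk'⟩).1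
  ext i j
  fin_cases i <;> fin_cases j
  · show (γ * γ') 0 0 = (conjAlphaSL ℓ γ ⟨k, hk⟩ * conjAlphaSL ℓ γ' ⟨k', hk'⟩) 0 0
    have : (conjAlphaSL ℓ γ ⟨k, hk⟩ * conjAlphaSL ℓ γ' ⟨k', hk'⟩) 0 0
        = γ 0 0 * γ' 0 0 + (ℓ : ℤ) * γ 0 1 * (γ' 1 0 / (ℓ : ℤ)) := by simpa using e'.1
    rw [this, e00, d2, hk']; ring
  · show (ℓ : ℤ) * (γ * γ') 0 1 = (conjAlphaSL ℓ γ ⟨k, hk⟩ * conjAlphaSL ℓ γ' ⟨k', hk'⟩) 0 1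
    have : (conjAlphaSL ℓ γ ⟨k, hk⟩ * conjAlphaSL ℓ γ' ⟨k', hk'⟩) 0 1
        = γ 0 0 * ((ℓ : ℤ) * γ' 0 1) + (ℓ : ℤ) * γ 0 1 * γ' 1 1 := by simpa using e'.2.1
    rw [this, e01]; ring
  · show (γ * γ') 1 0 / (ℓ : ℤ) = (conjAlphaSL ℓ γ ⟨k, hk⟩ * conjAlphaSL ℓ γ' ⟨k', hk'⟩) 1 0
    have : (conjAlphaSL ℓ γ ⟨k, hk⟩ * conjAlphaSL ℓ γ' ⟨k', hk'⟩) 1 0
        = γ 1 0 / (ℓ : ℤ) * γ' 0 0 + γ 1 1 * (γ' 1 0 / (ℓ : ℤ)) := by simpa using e'.2.2.1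
    rw [this, d3, d1, d2]
  · show (γ * γ') 1 1 = (conjAlphaSL ℓ γ ⟨k, hk⟩ * conjAlphaSL ℓ γ' ⟨k', hk'⟩) 1 1
    have : (conjAlphaSL ℓ γ ⟨k, hk⟩ * conjAlphaSL ℓ γ' ⟨k', hk'⟩) 1 1
        = γ 1 0 / (ℓ : ℤ) * ((ℓ : ℤ) * γ' 0 1) + γ 1 1 * γ' 1 1 := by simpa using e'.2.2.2
    rw [this, e11, d1, hk]; ring

/-! ## `conjAlphaH : Γ' →* Γ` -/

section ConjAlpha

variable {L M : ℕ} (H : Subgroup (ZMod M)ˣ) (ℓ : ℕ)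

theorem dvd_of_mem_gammaH_mul {γ : SL(2, ℤ)} (hγ : γ ∈ gammaH (L * ℓ) M H) : (ℓ : ℤ) ∣ γ 1 0 :=
  (Int.natCast_dvd_natCast.mpr (dvd_mul_left ℓ L)).trans (dvd_of_mem_gamma0 hγ.1)

theorem conjAlphaSL_mem_gammaH (hℓ : ℓ ≠ 0) (hML : M ∣ L) {γ : SL(2, ℤ)}
    (hγ : γ ∈ gammaH (L * ℓ) M H) :
    conjAlphaSL ℓ γ (dvd_of_mem_gammaH_mul H ℓ hγ) ∈ gammaH L M H := by
  have hℓ' : (ℓ : ℤ) ≠ 0 := Int.natCast_ne_zero.mpr hℓ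
  obtain ⟨hL, hM, hH⟩ := hγ
  have h1 : ((L : ℤ)) ∣ conjAlphaSL ℓ γ (dvd_of_mem_gammaH_mul H ℓ ⟨hL, hM, hH⟩) 1 0 := by
    rw [conjAlphaSL_apply_10]
    obtain ⟨k, hk⟩ := dvd_of_mem_gamma0 hL
    rw [hk]
    push_cast
    rw [mul_comm (L : ℤ) (ℓ : ℤ), mul_assoc, Int.mul_ediv_cancel_left _ hℓ']
    exact dvd_mul_right _ _
  have h2 : conjAlphaSL ℓ γ (dvd_of_mem_gammaH_mul H ℓ ⟨hL, hM, hH⟩) ∈ Gamma0 M :=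
    mem_gamma0_of_dvd ((Int.natCast_dvd_natCast.mpr hML).trans h1)
  refine ⟨mem_gamma0_of_dvd h1, h2, ?_⟩
  have : diamHom M ⟨conjAlphaSL ℓ γ (dvd_of_mem_gammaH_mul H ℓ ⟨hL, hM, hH⟩), h2⟩
      = diamHom M ⟨γ, hM⟩ := by
    ext
    rw [coe_diamHom, coe_diamHom]
    rfl
  rw [this]
  exact hH

/-- **conjugation by `α = diag(ℓ, 1)`**, `Γ' = gammaH (L ℓ) M H → Γ = gammaH L M H`,
`(a b; c d) ↦ (a, ℓ b; c / ℓ, d)` -/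
def conjAlphaH (hℓ : ℓ ≠ 0) (hML : M ∣ L) : gammaH (L * ℓ) M H →* gammaH L M H where
  toFun γ := ⟨conjAlphaSL ℓ γ.1 (dvd_of_mem_gammaH_mul H ℓ γ.2),
    conjAlphaSL_mem_gammaH H ℓ hℓ hML γ.2⟩
  map_one' := Subtype.ext (conjAlphaSL_one ℓ)
  map_mul' γ γ' := Subtype.ext
    (conjAlphaSL_mul hℓ γ.1 γ'.1 (dvd_of_mem_gammaH_mul H ℓ γ.2) (dvd_of_mem_gammaH_mul H ℓ γ'.2)
      (dvd_of_mem_gammaH_mul H ℓ (γ * γ').2))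

@[simp] theorem coe_conjAlphaH (hℓ : ℓ ≠ 0) (hML : M ∣ L) (γ : gammaH (L * ℓ) M H) :
    ((conjAlphaH H ℓ hℓ hML γ : gammaH L M H) : SL(2, ℤ))
      = conjAlphaSL ℓ γ.1 (dvd_of_mem_gammaH_mul H ℓ γ.2) := rfl

end ConjAlpha

/-! ## The Hecke operator `T_ℓ` on `Hom(Γ, A)` -/

section Hecke

variable (L M : ℕ) [NeZero L] [NeZero M] (H : Subgroup (ZMod M)ˣ) (ℓ : ℕ) [NeZero ℓ]

/-- `Γ' = gammaH (L ℓ) M H` as a subgroup of `Γ = gammaH L M H` -/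
abbrev subLevel : Subgroup (gammaH L M H) := (gammaH (L * ℓ) M H).subgroupOf (gammaH L M H)

theorem gammaH_mul_le : gammaH (L * ℓ) M H ≤ gammaH L M H :=
  gammaH_mono_level (dvd_mul_right L ℓ) M H

instance subLevel_finiteIndex : (subLevel L M H ℓ).FiniteIndex := by
  haveI : NeZero (L * ℓ) := ⟨mul_ne_zero (NeZero.ne L) (NeZero.ne ℓ)⟩
  infer_instance

/-- the isomorphism `subLevel ≃ Γ'` -/
def subLevelEquiv : subLevel L M H ℓ ≃* gammaH (L * ℓ) M H :=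
  Subgroup.subgroupOfEquivOfLe (gammaH_mul_le L M H ℓ)

variable {A : Type*} [AddCommGroup A]

/-- `φ ∘ conj_α` on `Γ'`, as a multiplicative hom on `subLevel` -/
def heckeRes (hML : M ∣ L) (φ : Additive (gammaH L M H) →+ A) :
    subLevel L M H ℓ →* Multiplicative A :=
  (AddMonoidHom.toMultiplicativeRight φ).comp
    ((conjAlphaH H ℓ (NeZero.ne ℓ) hML).comp (subLevelEquiv L M H ℓ).toMonoidHom)

/-- **The Hecke operator `T_ℓ` on `Hom(Γ, A)`** : `transfer_{Γ' → Γ}(φ ∘ conj_α)`. -/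
def heckeGrp (hML : M ∣ L) (φ : Additive (gammaH L M H) →+ A) : Additive (gammaH L M H) →+ A :=
  MonoidHom.toAdditiveLeft (MonoidHom.transfer (heckeRes L M H ℓ hML φ))

theorem heckeGrp_apply (hML : M ∣ L) (φ : Additive (gammaH L M H) →+ A) (γ : gammaH L M H) :
    heckeGrp L M H ℓ hML φ (Additive.ofMul γ)
      = Multiplicative.toAdd (MonoidHom.transfer (heckeRes L M H ℓ hML φ) γ) := rfl

end Hecke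

/-! ## The diamond operators on `Hom(Γ, A)` -/

section Diamond

variable (L M : ℕ) (H : Subgroup (ZMod M)ˣ)

/-- conjugation by `σ ∈ Γ₀(L) ∩ Γ₀(M)` on `Γ` -/
def conjH (σ : SL(2, ℤ)) (hσL : σ ∈ Gamma0 L) (hσM : σ ∈ Gamma0 M) :
    gammaH L M H →* gammaH L M H where
  toFun γ := ⟨σ * γ.1 * σ⁻¹, conj_mem_gammaH hσL hσM γ.2⟩
  map_one' := Subtype.ext (by simp)
  map_mul' γ γ' := Subtype.ext (by simp [mul_assoc])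

variable {A : Type*} [AddCommGroup A]

/-- **The diamond operator** attached to `σ ∈ Γ₀(L) ∩ Γ₀(M)` : `φ ↦ φ ∘ (γ ↦ σ γ σ⁻¹)`; it is the
multiplier of `w ∘ σ` when `w` has multiplier `φ`.  It depends only on `diamHom M σ` modulo `±H`
(inner automorphisms act trivially on `Hom(Γ, A)`). -/
def diamGrp (σ : SL(2, ℤ)) (hσL : σ ∈ Gamma0 L) (hσM : σ ∈ Gamma0 M)
    (φ : Additive (gammaH L M H) →+ A) : Additive (gammaH L M H) →+ A :=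
  φ.comp (MonoidHom.toAdditive (conjH L M H σ hσL hσM))

theorem diamGrp_apply (σ : SL(2, ℤ)) (hσL : σ ∈ Gamma0 L) (hσM : σ ∈ Gamma0 M)
    (φ : Additive (gammaH L M H) →+ A) (γ : gammaH L M H) :
    diamGrp L M H σ hσL hσM φ (Additive.ofMul γ)
      = φ (Additive.ofMul ⟨σ * γ.1 * σ⁻¹, conj_mem_gammaH hσL hσM γ.2⟩) := rfl

/-- inner automorphisms act trivially -/
theorem diamGrp_of_mem {σ : SL(2, ℤ)} (hσ : σ ∈ gammaH L M H)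
    (φ : Additive (gammaH L M H) →+ A) :
    diamGrp L M H σ hσ.1 hσ.2.1 φ = φ := by
  refine DFunLike.ext _ _ fun γ => ?_
  obtain ⟨γ, rfl⟩ : ∃ g : gammaH L M H, Additive.ofMul g = γ := ⟨Additive.toMul γ, rfl⟩
  rw [diamGrp_apply]
  have : (⟨σ * γ.1 * σ⁻¹, conj_mem_gammaH hσ.1 hσ.2.1 γ.2⟩ : gammaH L M H)
      = ⟨σ, hσ⟩ * γ * (⟨σ, hσ⟩ : gammaH L M H)⁻¹ := rfl
  rw [this, ofMul_mul, ofMul_mul, ofMul_inv, map_add, map_add, map_neg]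
  abel

end Diamond

end Fermat.Agent.ES1
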