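import Fermat.Agent.S24.Defs
import Fermat.Agent.ES1.Defs

/-!
# ES₁ — interface between F4 (realization of `fieldBar L M H`) and INJ₁ / H / G1

`jFH L M H : fieldBar L M H` is `j(q)`;  `StmtRamJH L M H` is the ramification of
`fieldBar L M H` over the `j`-line (the exact analogue of `INJ.ramJ_zero`, `ramJ_1728`,
`ramJ_gen`, `ramJ_inf`, `ramJ_cases` + finiteness), the deliverable of piece F4.
-/

set_option autoImplicit false

noncomputable section

namespace Fermat.Agent.ES1

open ModularCurve AlgebraicCurve IntermediateField Fermat.Agent.S24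

variable (L M : ℕ) (H : Subgroup (ZMod M)ˣ)

theorem jBar_mem_fieldBar [NeZero L] : jBar ∈ fieldBar L M H := by
  refine coeffEmb_mem_laurentBaseChange Kb ?_
  have h := jqd_mem_full L (one_dvd L)
  rw [qExpand_one_apply] at h
  exact full_le_fieldC ℚ L M H h

/-- `j` as an element of the function field `fieldBar L M H` -/
def jFH [NeZero L] : fieldBar L M H := ⟨jBar, jBar_mem_fieldBar L M H⟩

/-- **(F4)** ramification of `fieldBar L M H` over the `j`-line. -/
structure RamJH [NeZero L] : Prop where
  /-- the function field is finite over `ℚ̄(j)` -/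
  finite : FiniteDimensional Kb⟮jFH L M H⟯ (fieldBar L M H)
  /-- over `j = 0`: the ramification index divides `3` -/
  zero : ∀ v : Place Kb (fieldBar L M H), 0 < v.ord (jFH L M H) → v.ord (jFH L M H) ∣ 3
  /-- over `j = 1728`: the ramification index divides `2` -/
  e1728 : ∀ v : Place Kb (fieldBar L M H),
    0 < v.ord (jFH L M H - algebraMap Kb (fieldBar L M H) 1728) →
      v.ord (jFH L M H - algebraMap Kb (fieldBar L M H) 1728) ∣ 2
  /-- over `j = c`, `c ≠ 0, 1728`: unramified -/
  gen : ∀ c : Kb, c ≠ 0 → c ≠ 1728 → ∀ v : Place Kb (fieldBar L M H),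
    0 < v.ord (jFH L M H - algebraMap Kb (fieldBar L M H) c) →
      v.ord (jFH L M H - algebraMap Kb (fieldBar L M H) c) = 1
  /-- over `j = ∞`: the ramification index divides `L` -/
  inf : ∀ v : Place Kb (fieldBar L M H), v.ord (jFH L M H) < 0 →
    v.ord (jFH L M H)⁻¹ ∣ (L : ℤ)

/-- the deliverable of F4 -/
def StmtRamJH : Prop :=
  ∀ (L M : ℕ) (H : Subgroup (ZMod M)ˣ) [NeZero L], M ∣ L → RamJH L M H

end Fermat.Agent.ES1
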