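import Fermat.Agent.ES1.RCTower
import Fermat.Agent.ES1.RamPlan
import Fermat.Agent.ES1.Formal
import Fermat.Agent.S24.AnalyticDefs
import Fermat.Agent.S24.Realization

/-!
# ES₁ / F4 — the analytic model over `ℂ` at level `Γ(L)`: definitions and interface (helper96)

ROUTE.  Work over `ℂ`, then base-change to `ℚ̄`:

* `realB L = modFunAlgG (Gamma L)` : the `ℂ`-algebra of holomorphic modular functions of level
  `Γ(L)`, meromorphic at the cusps; `realM L = Frac (realB L)`; `realJ L ∈ realM L` is `J`.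
  `SL(2, ℤ)` acts on `realM L` through the finite quotient `SL(2, ℤ)/±Γ(L)`, with fixed field
  `ℂ(J)` (piece P1, `ES1/RealModel.lean`, `RealFixed.lean`, `RealCusp.lean`, `RealPt.lean`).
* `StmtRealEmb` (P2 = F4-EMB): `fieldC ℂ L M H` embeds into `realM L`, `j ↦ J`.
* `RamJC L M H`, `StmtRamJC` (P3): ramification of `fieldC ℂ L M H` over the `j`-line.
* `StmtRealBCu` (P4 = F4-BCU): places of `fieldBar L M H` extend to `fieldC ℂ L M H` with the
  same orders.
* `StmtRealFin` (P5 = F4-FIN): finiteness over `ℂ(j)` descends to `ℚ̄(j)`.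
* `stmtRamJH_of` (`ES1/RealGlue.lean`): `StmtRamJC → StmtRealBCu → StmtRealFin → StmtRamJH`.
-/

set_option autoImplicit false

noncomputable section

open UpperHalfPlane ModularForm CongruenceSubgroup ModularCurve AlgebraicCurve IntermediateField
open scoped MatrixGroups Manifold

namespace Fermat.Agent.ES1

open Fermat.Agent.S24

local notation "Δ" => ModularForm.discriminant

/-! ## The big algebra -/

/-- the `ℂ`-algebra of holomorphic modular functions of level `Γ(L)`, meromorphic at the cusps -/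
def realB (L : ℕ) : Subalgebra ℂ (ℍ → ℂ) := modFunAlgG (Gamma L)

theorem mem_realB {L : ℕ} {f : ℍ → ℂ} : f ∈ realB L ↔ IsModFunG (Gamma L) f := Iff.rfl

theorem es1r_mdiff {L : ℕ} {f : ℍ → ℂ} (hf : f ∈ realB L) : MDiff f :=
  IsModFunG.mdiff hf

instance es1r_noZeroDivisors (L : ℕ) : NoZeroDivisors (realB L) where
  eq_zero_or_eq_zero_of_mul_eq_zero := by
    rintro ⟨f, hf⟩ ⟨g, hg⟩ h
    have h' : f * g = 0 := congrArg Subtype.val h
    rcases (UpperHalfPlane.mul_eq_zero_iff (es1r_mdiff hf) (es1r_mdiff hg)).mp h' with h0 | h0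
    · exact Or.inl (Subtype.ext h0)
    · exact Or.inr (Subtype.ext h0)

instance es1r_nontrivial (L : ℕ) : Nontrivial (realB L) :=
  ⟨⟨0, 1, fun h => by
    have h' : (0 : ℍ → ℂ) = 1 := congrArg Subtype.val h
    have := congrFun h' UpperHalfPlane.I
    simp at this⟩⟩

instance es1r_isDomain (L : ℕ) : IsDomain (realB L) := NoZeroDivisors.to_isDomain _

/-- the big field -/
abbrev realM (L : ℕ) : Type := FractionRing (realB L)

/-- a modular function of level one is a modular function of every level -/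
theorem es1r_isModFunG_of_levelOne (Γ : Subgroup SL(2, ℤ)) {f : ℍ → ℂ}
    (hf : Fermat.Agent.S28.IsModFun 1 f) : IsModFunG Γ f := by
  obtain ⟨m, hm⟩ := hf
  refine ⟨m, ?_⟩
  have h1 : Fermat.Agent.S23.IsMF (gGL (Gamma0 1)) (12 * (m : ℤ)) (fun z => f z * Δ z ^ m) := hm
  refine isMF_mono (Γ := Γ) (Γ' := Gamma0 1) (fun γ _ => ?_) h1
  rw [Gamma0_mem]
  exact Subsingleton.elim _ _

theorem es1r_Jfun_mem (L : ℕ) : Jfun ∈ realB L :=
  es1r_isModFunG_of_levelOne _ (Fermat.Agent.S28.isModFun_Jfun 1)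

/-- `J` in the big algebra -/
def realJB (L : ℕ) : realB L := ⟨Jfun, es1r_Jfun_mem L⟩

/-- `J` in the big field -/
def realJ (L : ℕ) : realM L := algebraMap (realB L) (realM L) (realJB L)

@[simp] theorem realJB_coe (L : ℕ) : ((realJB L : realB L) : ℍ → ℂ) = Jfun := rfl

/-! ## The function field over `ℂ` and the coefficient embedding -/

section Field

variable (L M : ℕ) (H : Subgroup (ZMod M)ˣ)

theorem jqModC_mem_fieldC (K : Type*) [Field K] [NeZero L] : jqModC K ∈ fieldC K L M H := by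
  have h := jd_mem_fieldC K L M H (one_dvd L)
  rwa [qExpand_one_apply] at h

/-- `j` as an element of `fieldC ℂ L M H` -/
def jFC [NeZero L] : fieldC ℂ L M H := ⟨jqModC ℂ, jqModC_mem_fieldC L M H ℂ⟩

theorem coeffMap_embC_mem_fieldC {x : LaurentSeries Kb} (hx : x ∈ fieldBar L M H) :
    coeffMap embC x ∈ fieldC ℂ L M H := by
  rw [es1f_fieldBar_eq] at hx
  exact es1f_coeffMap_mem_fieldC embC L M H hx

/-- the coefficient embedding `ι : fieldBar L M H → fieldC ℂ L M H` (through `embC : ℚ̄ → ℂ`) -/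
def iotaH : fieldBar L M H →+* fieldC ℂ L M H where
  toFun x := ⟨coeffMap embC (x : LaurentSeries Kb), coeffMap_embC_mem_fieldC L M H x.2⟩
  map_one' := Subtype.ext (map_one _)
  map_mul' _ _ := Subtype.ext (map_mul _ _ _)
  map_zero' := Subtype.ext (map_zero _)
  map_add' _ _ := Subtype.ext (map_add _ _ _)

@[simp] theorem iotaH_coe (x : fieldBar L M H) :
    ((iotaH L M H x : fieldC ℂ L M H) : LaurentSeries ℂ) =
      coeffMap embC (x : LaurentSeries Kb) := rfl

theorem iotaH_injective : Function.Injective (iotaH L M H) := (iotaH L M H).injective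

theorem iotaH_algebraMap (a : Kb) :
    iotaH L M H (algebraMap Kb (fieldBar L M H) a) =
      algebraMap ℂ (fieldC ℂ L M H) (embC a) := by
  apply Subtype.ext
  show coeffMap embC (algebraMap Kb (LaurentSeries Kb) a) = algebraMap ℂ (LaurentSeries ℂ) (embC a)
  rw [LaurentSeries.algebraMap_apply, LaurentSeries.algebraMap_apply, HahnSeries.C_apply,
    coeffMap_single, HahnSeries.C_apply]

theorem iotaH_jFH [NeZero L] : iotaH L M H (jFH L M H) = jFC L M H := by
  apply Subtype.ext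
  show coeffMap embC jBar = jqModC ℂ
  rw [jBar, coeffEmb, coeffMap_coeffMap]
  have h1 : jq = jqModC ℚ := rfl
  rw [h1, coeffMap_jqModC]

end Field

/-! ## The statements -/

/-- **(P2 = F4-EMB)** the function field over `ℂ` embeds into the big field, `j ↦ J`. -/
def StmtRealEmb : Prop :=
  ∀ (L M : ℕ) (H : Subgroup (ZMod M)ˣ) [NeZero L], M ∣ L →
    ∃ φ : fieldC ℂ L M H →ₐ[ℂ] realM L, φ (jFC L M H) = realJ L

/-- ramification of `fieldC ℂ L M H` over the `j`-line (the analogue over `ℂ` of `RamJH`) -/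
structure RamJC (L M : ℕ) (H : Subgroup (ZMod M)ˣ) [NeZero L] : Prop where
  /-- the function field is finite over `ℂ(j)` -/
  finite : FiniteDimensional ℂ⟮jFC L M H⟯ (fieldC ℂ L M H)
  /-- over `j = 0`: the ramification index divides `3` -/
  zero : ∀ v : Place ℂ (fieldC ℂ L M H), 0 < v.ord (jFC L M H) → v.ord (jFC L M H) ∣ 3
  /-- over `j = 1728`: the ramification index divides `2` -/
  e1728 : ∀ v : Place ℂ (fieldC ℂ L M H),
    0 < v.ord (jFC L M H - algebraMap ℂ (fieldC ℂ L M H) 1728) →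
      v.ord (jFC L M H - algebraMap ℂ (fieldC ℂ L M H) 1728) ∣ 2
  /-- over `j = c`, `c ≠ 0, 1728`: unramified -/
  gen : ∀ c : ℂ, c ≠ 0 → c ≠ 1728 → ∀ v : Place ℂ (fieldC ℂ L M H),
    0 < v.ord (jFC L M H - algebraMap ℂ (fieldC ℂ L M H) c) →
      v.ord (jFC L M H - algebraMap ℂ (fieldC ℂ L M H) c) = 1
  /-- over `j = ∞`: the ramification index divides `L` -/
  inf : ∀ v : Place ℂ (fieldC ℂ L M H), v.ord (jFC L M H) < 0 →
    v.ord (jFC L M H)⁻¹ ∣ (L : ℤ)

/-- **(P3)** -/
def StmtRamJC : Prop :=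
  ∀ (L M : ℕ) (H : Subgroup (ZMod M)ˣ) [NeZero L], M ∣ L → RamJC L M H

/-- **(P4 = F4-BCU)** every place of `fieldBar L M H` extends to a place of `fieldC ℂ L M H`
with the same orders. -/
def StmtRealBCu : Prop :=
  ∀ (L M : ℕ) (H : Subgroup (ZMod M)ˣ) [NeZero L], M ∣ L →
    Algebra.IsAlgebraic Kb⟮jFH L M H⟯ (fieldBar L M H) →
    ∀ v : Place Kb (fieldBar L M H), ∃ w : Place ℂ (fieldC ℂ L M H),
      ∀ f : fieldBar L M H, w.ord (iotaH L M H f) = v.ord f

/-- **(P5 = F4-FIN)** finiteness over `ℂ(j)` descends to `ℚ̄(j)`. -/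
def StmtRealFin : Prop :=
  ∀ (L M : ℕ) (H : Subgroup (ZMod M)ˣ) [NeZero L], M ∣ L →
    FiniteDimensional ℂ⟮jFC L M H⟯ (fieldC ℂ L M H) →
    FiniteDimensional Kb⟮jFH L M H⟯ (fieldBar L M H)

end Fermat.Agent.ES1
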