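import Fermat.Agent.ES.RC.PtExact
import Fermat.Agent.ES1.RCPt

/-!
# ES₁ / F3 = RC-Γ, piece RC-ptx: exact ramification at the points of `ℍ`, for a generic `Γ`

Fork of `Fermat/Agent/ES/RC/PtExact.lean` (helper8/helper34's ES₀ file).

`stmtPtExactG_of_sep : SepG Γ → StmtPtExactG Γ F`: the place `v` of `F = Frac (modFunAlgG Γ)` at
`τ ∈ ℍ` satisfies `ord_τ f = e · v.ord f` where `e` is the order of the multiplier
`denom ε τ ^ 2` of some `ε ∈ Γ` fixing `τ`.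

`SepG Γ` (SEPARATION): an `ε ∈ SL(2, ℤ)` with `f ∘ ε = f` for all `f ∈ modFunAlgG Γ` lies in `Γ`.
(For `Γ = Γ₀(M)`: `f = J(M ·)`, `mem_Gamma0_of_Jd_smul`; for `gammaH L M H`: RC-main.)

Also exported (generic `Γ`, no `SepG`): `es1rcptx_residue` (the residue field of the place at `τ`
is `ℂ`), `es1rcptx_expand`, `es1rcptx_comp_eq` (if an `ε`-invariant `T` is a uniformiser at the
place of `τ = ε τ`, every `f ∈ modFunAlgG Γ` is `ε`-invariant).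
-/

set_option autoImplicit false
set_option linter.unusedSectionVars false

noncomputable section

namespace Fermat.Agent.ES1

open UpperHalfPlane AlgebraicCurve ModularForm Filter Topology
open Fermat.Agent.S23 Fermat.Agent.S24 Fermat.Agent.S28 Fermat.Agent.ES.RC
open scoped MatrixGroups Manifold ModularForm

/-- SEPARATION: the elements of `SL(2, ℤ)` fixing every modular function for `Γ` lie in `Γ`. -/
def SepG (Γ : Subgroup SL(2, ℤ)) : Prop :=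
  ∀ ε : SL(2, ℤ), (∀ f : modFunAlgG Γ, ∀ z : ℍ, (f : ℍ → ℂ) (ε • z) = (f : ℍ → ℂ) z) → ε ∈ Γ

variable (Γ : Subgroup SL(2, ℤ))

theorem es1rcptx_ordAt_eq_top_iff (τ : ℍ) (f : modFunAlgG Γ) :
    ordAt τ (f : ℍ → ℂ) = ⊤ ↔ f = 0 := by
  constructor
  · intro h
    by_contra hf
    exact ordAt_ne_top (es1rcpt_mdiff Γ f) (es1rcpt_coe_ne_zero hf) τ h
  · rintro rfl
    exact ptx_ordAt_zero τ

/-- `ordPt` is monotone in `ordAt` on nonzero elements. -/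
theorem es1rcptx_ordPt_le_iff (τ : ℍ) {a b : modFunAlgG Γ} (ha : a ≠ 0) (hb : b ≠ 0) :
    ordPt τ (b : ℍ → ℂ) ≤ ordPt τ (a : ℍ → ℂ) ↔
      ordAt τ (b : ℍ → ℂ) ≤ ordAt τ (a : ℍ → ℂ) := by
  rw [← es1rcpt_coe_ordPt τ ha, ← es1rcpt_coe_ordPt τ hb, ordPt, ordPt]
  norm_cast

theorem es1rcptx_ordPt_lt_iff (τ : ℍ) {a b : modFunAlgG Γ} (ha : a ≠ 0) (hb : b ≠ 0) :
    ordPt τ (b : ℍ → ℂ) < ordPt τ (a : ℍ → ℂ) ↔
      ordAt τ (b : ℍ → ℂ) < ordAt τ (a : ℍ → ℂ) := by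
  rw [← es1rcpt_coe_ordPt τ ha, ← es1rcpt_coe_ordPt τ hb, ordPt, ordPt]
  norm_cast

section Place

variable {Γ}
variable {F : Type} [Field F] [Algebra ℂ F] [Algebra (modFunAlgG Γ) F]
  [IsScalarTower ℂ (modFunAlgG Γ) F] [IsFractionRing (modFunAlgG Γ) F]

theorem es1rcptx_mul_ord_div {τ : ℍ} {w : Place ℂ F} {e : ℕ}
    (H : ∀ f : modFunAlgG Γ, f ≠ 0 →
      ordPt τ (f : ℍ → ℂ) = (e : ℤ) * w.ord (algebraMap (modFunAlgG Γ) F f))
    {a b : modFunAlgG Γ} (ha : a ≠ 0) (hb : b ≠ 0) :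
    (e : ℤ) * w.ord (algebraMap (modFunAlgG Γ) F a / algebraMap (modFunAlgG Γ) F b)
      = ordPt τ (a : ℍ → ℂ) - ordPt τ (b : ℍ → ℂ) := by
  rw [div_eq_mul_inv, w.ord_mul (algebraMap_modFunAlgG_ne_zero Γ F ha)
    (inv_ne_zero (algebraMap_modFunAlgG_ne_zero Γ F hb)), w.ord_inv, H a ha, H b hb]
  ring

theorem es1rcptx_ord_div_nonneg_iff {τ : ℍ} {w : Place ℂ F} {e : ℕ} (he : 0 < e)
    (H : ∀ f : modFunAlgG Γ, f ≠ 0 →
      ordPt τ (f : ℍ → ℂ) = (e : ℤ) * w.ord (algebraMap (modFunAlgG Γ) F f))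
    {a b : modFunAlgG Γ} (ha : a ≠ 0) (hb : b ≠ 0) :
    0 ≤ w.ord (algebraMap (modFunAlgG Γ) F a / algebraMap (modFunAlgG Γ) F b) ↔
      ordAt τ (b : ℍ → ℂ) ≤ ordAt τ (a : ℍ → ℂ) := by
  have he' : (0 : ℤ) < e := by exact_mod_cast he
  rw [← es1rcptx_ordPt_le_iff Γ τ ha hb, ← mul_nonneg_iff_of_pos_left he', es1rcptx_mul_ord_div H ha hb]
  omega

theorem es1rcptx_ord_div_pos_iff {τ : ℍ} {w : Place ℂ F} {e : ℕ} (he : 0 < e)
    (H : ∀ f : modFunAlgG Γ, f ≠ 0 →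
      ordPt τ (f : ℍ → ℂ) = (e : ℤ) * w.ord (algebraMap (modFunAlgG Γ) F f))
    {a b : modFunAlgG Γ} (ha : a ≠ 0) (hb : b ≠ 0) :
    0 < w.ord (algebraMap (modFunAlgG Γ) F a / algebraMap (modFunAlgG Γ) F b) ↔
      ordAt τ (b : ℍ → ℂ) < ordAt τ (a : ℍ → ℂ) := by
  have he' : (0 : ℤ) < e := by exact_mod_cast he
  rw [← es1rcptx_ordPt_lt_iff Γ τ ha hb, ← mul_pos_iff_of_pos_left he', es1rcptx_mul_ord_div H ha hb]
  omega

/-- **The residue field of the place at `τ` is `ℂ`.** -/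
theorem es1rcptx_residue {τ : ℍ} {w : Place ℂ F} {e : ℕ} (he : 0 < e)
    (H : ∀ f : modFunAlgG Γ, f ≠ 0 →
      ordPt τ (f : ℍ → ℂ) = (e : ℤ) * w.ord (algebraMap (modFunAlgG Γ) F f))
    (x : F) (hx : 0 ≤ w.ord x) :
    ∃ c : ℂ, x = algebraMap ℂ F c ∨ 0 < w.ord (x - algebraMap ℂ F c) := by
  rcases eq_or_ne x 0 with rfl | hx0
  · exact ⟨0, Or.inl (by simp)⟩
  obtain ⟨a, b, hb, rfl⟩ := IsFractionRing.div_surjective (A := modFunAlgG Γ) x
  have hb0 : b ≠ 0 := nonZeroDivisors.ne_zero hb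
  have ha0 : a ≠ 0 := by
    rintro rfl
    simp at hx0
  have hle := (es1rcptx_ord_div_nonneg_iff he H ha0 hb0).mp hx
  obtain ⟨c, hc⟩ := ptx_exists_cancel (ordAt_analyticAt (es1rcpt_mdiff Γ a) τ)
    (ordAt_analyticAt (es1rcpt_mdiff Γ b) τ) (ordAt_ne_top (es1rcpt_mdiff Γ b) (es1rcpt_coe_ne_zero hb0) τ) hle
  refine ⟨c, ?_⟩
  have hdfun : ordAt τ ((a - algebraMap ℂ (modFunAlgG Γ) c * b : modFunAlgG Γ) : ℍ → ℂ) =
      analyticOrderAt (fun z => ((a : ℍ → ℂ) ∘ ofComplex) z - c * ((b : ℍ → ℂ) ∘ ofComplex) z)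
        (τ : ℂ) := rfl
  have hbF := algebraMap_modFunAlgG_ne_zero Γ F hb0
  have hxc : algebraMap (modFunAlgG Γ) F a / algebraMap (modFunAlgG Γ) F b - algebraMap ℂ F c =
      algebraMap (modFunAlgG Γ) F (a - algebraMap ℂ (modFunAlgG Γ) c * b) /
        algebraMap (modFunAlgG Γ) F b := by
    rw [map_sub, map_mul, ← IsScalarTower.algebraMap_apply ℂ (modFunAlgG Γ) F]
    field_simp
  rcases eq_or_ne (a - algebraMap ℂ (modFunAlgG Γ) c * b) 0 with hd0 | hd0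
  · left
    rw [hd0, map_zero, zero_div, sub_eq_zero] at hxc
    exact hxc
  · right
    rw [hxc, es1rcptx_ord_div_pos_iff he H hd0 hb0, hdfun]
    exact hc

/-- **Expansion in a uniformiser.** If `T` is `ε`-invariant and a uniformiser at `w`, every `f` is
congruent modulo `T ^ n` to an `ε`-invariant element. -/
theorem es1rcptx_expand {τ : ℍ} {w : Place ℂ F} {e : ℕ} (he : 0 < e)
    (H : ∀ f : modFunAlgG Γ, f ≠ 0 →
      ordPt τ (f : ℍ → ℂ) = (e : ℤ) * w.ord (algebraMap (modFunAlgG Γ) F f))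
    (ε : SL(2, ℤ)) (T : modFunAlgG Γ)
    (hTinv : ∀ z, (T : ℍ → ℂ) (ε • z) = (T : ℍ → ℂ) z)
    (hT : w.ord (algebraMap (modFunAlgG Γ) F T) = 1) (f : modFunAlgG Γ) (n : ℕ) :
    ∃ (g : modFunAlgG Γ) (y : F), (∀ z, (g : ℍ → ℂ) (ε • z) = (g : ℍ → ℂ) z) ∧
      algebraMap (modFunAlgG Γ) F f =
        algebraMap (modFunAlgG Γ) F g + algebraMap (modFunAlgG Γ) F T ^ n * y ∧
      0 ≤ w.ord y := by
  have he' : (0 : ℤ) < e := by exact_mod_cast he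
  have ht0 : algebraMap (modFunAlgG Γ) F T ≠ 0 := by
    intro h0
    rw [h0, Place.ord_zero] at hT
    exact zero_ne_one hT
  induction n with
  | zero =>
    refine ⟨0, algebraMap _ F f, fun z => rfl, by simp, ?_⟩
    rcases eq_or_ne f 0 with rfl | hf
    · simp [Place.ord_zero]
    · have h0 : (0 : ℤ) ≤ ordPt τ (f : ℍ → ℂ) := by
        rw [ordPt]
        exact Int.natCast_nonneg _
      rw [H f hf] at h0
      exact (mul_nonneg_iff_of_pos_left he').mp h0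
  | succ n ih =>
    obtain ⟨g, y, hg, hfg, hy⟩ := ih
    obtain ⟨c, hc⟩ := es1rcptx_residue he H y hy
    refine ⟨g + algebraMap ℂ (modFunAlgG Γ) c * T ^ n,
      (y - algebraMap ℂ F c) / algebraMap (modFunAlgG Γ) F T, ?_, ?_, ?_⟩
    · intro z
      show (g : ℍ → ℂ) (ε • z) + c * (T : ℍ → ℂ) (ε • z) ^ n =
        (g : ℍ → ℂ) z + c * (T : ℍ → ℂ) z ^ n
      rw [hg, hTinv]
    · rw [hfg, map_add, map_mul, map_pow, ← IsScalarTower.algebraMap_apply ℂ (modFunAlgG Γ) F]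
      field_simp
      ring
    · rcases hc with hc | hc
      · rw [hc, sub_self, zero_div, Place.ord_zero]
      · have hne : y - algebraMap ℂ F c ≠ 0 := by
          intro h0
          rw [h0, Place.ord_zero] at hc
          exact lt_irrefl _ hc
        rw [div_eq_mul_inv, w.ord_mul hne (inv_ne_zero ht0), w.ord_inv, hT]
        omega

/-- Under the hypotheses of `es1rcptx_expand`, `f ∘ ε − f` vanishes to order `≥ n` at `τ`, for all
`n`. -/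
theorem es1rcptx_le_ordAt_comp_sub {τ : ℍ} {w : Place ℂ F} {e : ℕ} (he : 0 < e)
    (H : ∀ f : modFunAlgG Γ, f ≠ 0 →
      ordPt τ (f : ℍ → ℂ) = (e : ℤ) * w.ord (algebraMap (modFunAlgG Γ) F f))
    {ε : SL(2, ℤ)} (hfix : ε • τ = τ) (T : modFunAlgG Γ)
    (hTinv : ∀ z, (T : ℍ → ℂ) (ε • z) = (T : ℍ → ℂ) z)
    (hT : w.ord (algebraMap (modFunAlgG Γ) F T) = 1) (f : modFunAlgG Γ) (n : ℕ) :
    (n : ℕ∞) ≤ ordAt τ (fun z => (f : ℍ → ℂ) (ε • z) - (f : ℍ → ℂ) z) := by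
  obtain ⟨g, y, hg, hfg, hy⟩ := es1rcptx_expand he H ε T hTinv hT f n
  obtain ⟨a, b, hb, rfl⟩ := IsFractionRing.div_surjective (A := modFunAlgG Γ) y
  have hb0 : b ≠ 0 := nonZeroDivisors.ne_zero hb
  have hbF := algebraMap_modFunAlgG_ne_zero Γ F hb0
  -- the identity in `modFunAlgG Γ`
  have hid : b * (f - g) = T ^ n * a := by
    apply IsFractionRing.injective (modFunAlgG Γ) F
    rw [map_mul, map_sub, map_mul, map_pow, hfg]
    field_simp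
    ring
  have hidz : ∀ z, (b : ℍ → ℂ) z * ((f : ℍ → ℂ) z - (g : ℍ → ℂ) z) =
      (T : ℍ → ℂ) z ^ n * (a : ℍ → ℂ) z := fun z => congrFun (congrArg Subtype.val hid) z
  have hab : ordAt τ (b : ℍ → ℂ) ≤ ordAt τ (a : ℍ → ℂ) := by
    rcases eq_or_ne a 0 with rfl | ha0
    · rw [show ((0 : modFunAlgG Γ) : ℍ → ℂ) = 0 from rfl, ptx_ordAt_zero]
      exact le_top
    · exact (es1rcptx_ord_div_nonneg_iff he H ha0 hb0).mp hy
  have hT0 : T ≠ 0 := by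
    rintro rfl
    simp [Place.ord_zero] at hT
  have hTpos : 1 ≤ ordAt τ (T : ℍ → ℂ) := by
    have h1 := H T hT0
    rw [hT, mul_one] at h1
    have h2 : (1 : ℤ) ≤ ordPt τ (T : ℍ → ℂ) := by
      rw [h1]
      exact_mod_cast he
    rw [← es1rcpt_coe_ordPt τ hT0]
    rw [ordPt] at h2
    exact_mod_cast h2
  have hbd := es1rcpt_mdiff Γ b
  have had := es1rcpt_mdiff Γ a
  have hbεd : MDiff (fun z => (b : ℍ → ℂ) (ε • z)) := ptx_mdiff_comp_smul hbd ε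
  have haεd : MDiff (fun z => (a : ℍ → ℂ) (ε • z)) := ptx_mdiff_comp_smul had ε
  have hDd : MDiff (fun z => (f : ℍ → ℂ) (ε • z) - (f : ℍ → ℂ) z) :=
    (ptx_mdiff_comp_smul (es1rcpt_mdiff Γ f) ε).sub (es1rcpt_mdiff Γ f)
  have hordbε : ordAt τ (fun z => (b : ℍ → ℂ) (ε • z)) = ordAt τ (b : ℍ → ℂ) := by
    rw [ordAt_comp_smul, hfix]
  have hordaε : ordAt τ (fun z => (a : ℍ → ℂ) (ε • z)) = ordAt τ (a : ℍ → ℂ) := by
    rw [ordAt_comp_smul, hfix]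
  have hmain : (b : ℍ → ℂ) * (fun z => (b : ℍ → ℂ) (ε • z)) *
        (fun z => (f : ℍ → ℂ) (ε • z) - (f : ℍ → ℂ) z) =
      (T : ℍ → ℂ) ^ n * ((b : ℍ → ℂ) * (fun z => (a : ℍ → ℂ) (ε • z)) -
        (fun z => (b : ℍ → ℂ) (ε • z)) * (a : ℍ → ℂ)) := by
    funext z
    simp only [Pi.mul_apply, Pi.pow_apply, Pi.sub_apply]
    have h1 := hidz z
    have h2 := hidz (ε • z)
    rw [hg, hTinv] at h2
    linear_combination ((b : ℍ → ℂ) z) * h2 - ((b : ℍ → ℂ) (ε • z)) * h1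
  have hL : ordAt τ ((b : ℍ → ℂ) * (fun z => (b : ℍ → ℂ) (ε • z)) *
        (fun z => (f : ℍ → ℂ) (ε • z) - (f : ℍ → ℂ) z)) =
      (ordAt τ (b : ℍ → ℂ) + ordAt τ (b : ℍ → ℂ)) +
        ordAt τ (fun z => (f : ℍ → ℂ) (ε • z) - (f : ℍ → ℂ) z) := by
    rw [ordAt_mul (hbd.mul hbεd) hDd, ordAt_mul hbd hbεd, hordbε]
  have hR : (ordAt τ (b : ℍ → ℂ) + ordAt τ (b : ℍ → ℂ)) + (n : ℕ∞) ≤
      ordAt τ ((T : ℍ → ℂ) ^ n * ((b : ℍ → ℂ) * (fun z => (a : ℍ → ℂ) (ε • z)) -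
        (fun z => (b : ℍ → ℂ) (ε • z)) * (a : ℍ → ℂ))) := by
    rw [ordAt_mul ((es1rcpt_mdiff Γ T).pow n) ((hbd.mul haεd).sub (hbεd.mul had)),
      ptx_ordAt_pow (es1rcpt_mdiff Γ T), add_comm]
    refine add_le_add ?_ ?_
    · calc (n : ℕ∞) = n • (1 : ℕ∞) := by simp
        _ ≤ n • ordAt τ (T : ℍ → ℂ) := nsmul_le_nsmul_right hTpos n
    · refine le_trans ?_ (ptx_le_ordAt_sub _ _ τ)
      rw [ordAt_mul hbd haεd, ordAt_mul hbεd had, hordbε, hordaε, min_self]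
      exact add_le_add le_rfl hab
  rw [← hmain, hL] at hR
  have hbtop : ordAt τ (b : ℍ → ℂ) + ordAt τ (b : ℍ → ℂ) ≠ ⊤ := by
    have := ordAt_ne_top hbd (es1rcpt_coe_ne_zero hb0) τ
    simp [this]
  exact (ENat.add_le_add_iff_left hbtop).mp hR

/-- Under the hypotheses of `es1rcptx_expand`, every `f ∈ modFunAlgG Γ` is `ε`-invariant. -/
theorem es1rcptx_comp_eq {τ : ℍ} {w : Place ℂ F} {e : ℕ} (he : 0 < e)
    (H : ∀ f : modFunAlgG Γ, f ≠ 0 →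
      ordPt τ (f : ℍ → ℂ) = (e : ℤ) * w.ord (algebraMap (modFunAlgG Γ) F f))
    {ε : SL(2, ℤ)} (hfix : ε • τ = τ) (T : modFunAlgG Γ)
    (hTinv : ∀ z, (T : ℍ → ℂ) (ε • z) = (T : ℍ → ℂ) z)
    (hT : w.ord (algebraMap (modFunAlgG Γ) F T) = 1) (f : modFunAlgG Γ) (z : ℍ) :
    (f : ℍ → ℂ) (ε • z) = (f : ℍ → ℂ) z := by
  have hDd : MDiff (fun z => (f : ℍ → ℂ) (ε • z) - (f : ℍ → ℂ) z) :=
    (ptx_mdiff_comp_smul (es1rcpt_mdiff Γ f) ε).sub (es1rcpt_mdiff Γ f)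
  have htop : ordAt τ (fun z => (f : ℍ → ℂ) (ε • z) - (f : ℍ → ℂ) z) = ⊤ := by
    rw [ENat.eq_top_iff_forall_ge]
    exact fun n => es1rcptx_le_ordAt_comp_sub he H hfix T hTinv hT f n
  by_contra hne
  refine ordAt_ne_top hDd ?_ τ htop
  intro h0
  apply hne
  have := congrFun h0 z
  simpa [sub_eq_zero] using this

end Place

/-! ### The main theorem -/

/-- **RC-ptx.** Exact ramification at the points of `ℍ`, from SEPARATION. -/
theorem stmtPtExactG_of_sep (hsep : SepG Γ) (F : Type) [Field F] [Algebra ℂ F]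
    [Algebra (modFunAlgG Γ) F] [IsScalarTower ℂ (modFunAlgG Γ) F]
    [IsFractionRing (modFunAlgG Γ) F] : StmtPtExactG Γ F := by
  intro τ
  obtain ⟨w, e, he, -, H⟩ := es1rcpt_exists_place Γ F τ
  obtain ⟨ε₀, E, hE, hfix, hprim, hord⟩ := rc_exists_elliptic τ
  by_cases he1 : e = 1
  · subst he1
    refine ⟨w, 1, 1, Subgroup.one_mem _, one_smul _ _, ?_, H⟩
    rw [denom_one_SL, one_pow]
    exact IsPrimitiveRoot.one
  · have hT0 := es1rcptJSub_ne_zero Γ (Jfun τ)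
    have hordT : ordPt τ (es1rcptJSub Γ (Jfun τ) : ℍ → ℂ) = (E : ℤ) := by
      have h2 : ordAt τ (es1rcptJSub Γ (Jfun τ) : ℍ → ℂ) = (E : ℕ∞) := hord
      rw [ordPt, h2]
      simp
    have h1 := H _ hT0
    rw [hordT] at h1
    have hdvd : e ∣ E := by
      have h3 : (e : ℤ) ∣ (E : ℤ) := Dvd.intro _ h1.symm
      exact_mod_cast h3
    have hEprime : E.Prime := by
      rcases hE with hE1 | hEp
      · exfalso
        subst hE1
        exact he1 (Nat.dvd_one.mp hdvd)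
      · exact hEp
    have heE : e = E := ((Nat.dvd_prime hEprime).mp hdvd).resolve_left he1
    subst heE
    have hwT : w.ord (algebraMap (modFunAlgG Γ) F (es1rcptJSub Γ (Jfun τ))) = 1 := by
      have he' : (e : ℤ) ≠ 0 := by exact_mod_cast he.ne'
      have h4 : (e : ℤ) * 1 = e * w.ord (algebraMap (modFunAlgG Γ) F (es1rcptJSub Γ (Jfun τ))) := by
        rw [mul_one]
        exact h1
      exact (mul_left_cancel₀ he' h4).symm
    have hTinv : ∀ z, (es1rcptJSub Γ (Jfun τ) : ℍ → ℂ) (ε₀ • z)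
        = (es1rcptJSub Γ (Jfun τ) : ℍ → ℂ) z := by
      intro z
      rw [es1rcptJSub_apply, es1rcptJSub_apply, stab_Jfun_SL_smul]
    have hmem : ε₀ ∈ Γ :=
      hsep ε₀ fun f z => es1rcptx_comp_eq he H hfix _ hTinv hwT f z
    exact ⟨w, e, ε₀, hmem, hfix, hprim, H⟩

/-- SEPARATION holds for `Γ₀(M)` (with `f = J(M ·)`). -/
theorem sepG_gamma0 (M : ℕ) [NeZero M] : SepG (CongruenceSubgroup.Gamma0 M) := by
  intro ε h
  apply mem_Gamma0_of_Jd_smul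
  intro z
  exact h ⟨Jd M, ptx_isModFun_Jd M⟩ z

end Fermat.Agent.ES1
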