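import Fermat.Agent.ES1.RCGammaA
import Fermat.Agent.ES1.RCPlan
import Fermat.Agent.ES1.RCPtExact

/-!
# ES₁ / F3 (RC-Γ), main: `fieldC ℂ L M H` is the field of modular functions of `Γ_H(M) ∩ Γ₀(L)`

`Γ = gammaH L M H`, `M ∣ L`, `L ≠ 0`.

* `es1rc_laurentOf_mem_fieldC` (**hard half**): a modular function for `Γ` (holomorphic on `ℍ`,
  meromorphic at the cusps) has its `q`-expansion in `fieldC ℂ L M H`;
* `es1rc_exists_frac` (**easy half**): every element of `fieldC ℂ L M H` is a quotient of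
  `q`-expansions of modular functions for `Γ`;
* `es1rc_sep` (**separation**): `ε ∈ SL(2, ℤ)` fixing all modular functions for `Γ` lies in `Γ`;
* `es1rcToField`, `es1rcAlgebra`, `es1rc_isScalarTower`, `es1rc_isFractionRing` :
  `fieldC ℂ L M H = Frac (modFunAlgG Γ)`.
-/

set_option autoImplicit false
set_option linter.unusedSectionVars false
set_option linter.style.haveILetI false

noncomputable section

open UpperHalfPlane ModularForm CongruenceSubgroup Matrix
open scoped MatrixGroups Manifold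

namespace Fermat.Agent.ES1

open Fermat.Agent.S23 Fermat.Agent.S24 Fermat.Agent.S28 Fermat.Agent.ES Fermat.Agent.ES.RC
  ModularCurve

/-! ### Units and `±H` -/

theorem es1rc_inPM_iff {M : ℕ} {H : Subgroup (ZMod M)ˣ} {a b : (ZMod M)ˣ} :
    InPM H a (b : ZMod M) ↔ a⁻¹ * b ∈ pmH H := by
  constructor
  · rintro ⟨h, hh, hb | hb⟩
    · refine es1rc_mem_pmH_of hh (Or.inl ?_)
      have : b = a * h := Units.ext hb
      rw [this, inv_mul_cancel_left]
    · refine es1rc_mem_pmH_of hh (Or.inr ?_)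
      have : b = -(a * h) := Units.ext (by rw [hb, Units.val_neg])
      rw [this, mul_neg, inv_mul_cancel_left]
  · intro hab
    have h1 := es1rc_inPM_mul_of_mem (H := H) a hab
    rwa [mul_inv_cancel_left] at h1

theorem es1rc_units_eq_one {M : ℕ} [NeZero M] (hM : M < 3) (u : (ZMod M)ˣ) : u = 1 := by
  have hM0 : M ≠ 0 := NeZero.ne M
  interval_cases M
  · exact absurd rfl hM0
  · exact Subsingleton.elim _ _
  · revert u; decide

/-! ### The hard half -/

section Hard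

variable {L M : ℕ} [NeZero L] (hML : M ∣ L) (H : Subgroup (ZMod M)ˣ)

include hML in
theorem es1rc_neZero_of_dvd : NeZero M :=
  ⟨fun h => NeZero.ne L (by rw [h] at hML; exact Nat.eq_zero_of_zero_dvd hML)⟩

/-- a representative in `Γ₀(L)` of the class `i ∈ (ℤ/M)ˣ / ±H` -/
def es1rcDelta (i : (ZMod M)ˣ ⧸ pmH H) : SL(2, ℤ) :=
  (es1rc_exists_rep hML (Quotient.out i)).choose

theorem es1rcDelta_mem (i : (ZMod M)ˣ ⧸ pmH H) : es1rcDelta hML H i ∈ Gamma0 L :=
  (es1rc_exists_rep hML (Quotient.out i)).choose_spec.1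

theorem es1rcDelta_mem' (i : (ZMod M)ˣ ⧸ pmH H) : es1rcDelta hML H i ∈ Gamma0 M :=
  rc_Gamma0_le_of_dvd hML (es1rcDelta_mem hML H i)

theorem es1rcDelta_diam (i : (ZMod M)ˣ ⧸ pmH H) :
    diamHom M ⟨es1rcDelta hML H i, es1rcDelta_mem' hML H i⟩ = Quotient.out i := by
  ext
  rw [coe_diamHom]
  exact (es1rc_exists_rep hML (Quotient.out i)).choose_spec.2

theorem es1rc_mk_diam (i : (ZMod M)ˣ ⧸ pmH H) :
    (QuotientGroup.mk (diamHom M ⟨es1rcDelta hML H i, es1rcDelta_mem' hML H i⟩) :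
      (ZMod M)ˣ ⧸ pmH H) = i := by
  rw [es1rcDelta_diam]
  exact Quotient.out_eq i

/-- membership in `Γ` for elements of `Γ₀(L)` -/
theorem es1rc_mem_gammaH_iff {γ : SL(2, ℤ)} (hγ : γ ∈ Gamma0 L) :
    γ ∈ gammaH L M H ↔
      (QuotientGroup.mk (diamHom M ⟨γ, rc_Gamma0_le_of_dvd hML hγ⟩) : (ZMod M)ˣ ⧸ pmH H) = 1 := by
  rw [QuotientGroup.eq_one_iff]
  exact ⟨fun h => h.2.2, fun h => ⟨hγ, rc_Gamma0_le_of_dvd hML hγ, h⟩⟩

include hML in
/-- **(RC-Γ)(i), hard half**: a modular function for `Γ_H(M) ∩ Γ₀(L)` has its `q`-expansion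
in `fieldC ℂ L M H`. -/
theorem es1rc_laurentOf_mem_fieldC {f : ℍ → ℂ} (hf : IsModFunG (gammaH L M H) f) :
    laurentOf f ∈ fieldC ℂ L M H := by
  classical
  have hMne : NeZero M := es1rc_neZero_of_dvd hML
  have hfin := es1rc_finiteIndex hML H
  letI : Fintype ((ZMod M)ˣ ⧸ pmH H) := Fintype.ofFinite _
  have he1 : 1 * M ∣ L := by rwa [one_mul]
  -- the diamond of an element of `Γ₀(L)`
  have hG0 : ∀ {γ : SL(2, ℤ)}, γ ∈ Gamma0 L → γ ∈ Gamma0 M := fun h => rc_Gamma0_le_of_dvd hML h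
  have hθconj : ∀ i : (ZMod M)ˣ ⧸ pmH H,
      (fun z => es1rcThetaE 1 H 1 (es1rcDelta hML H i • z)) =
        es1rcThetaE 1 H (Quotient.out i) := by
    intro i
    funext z
    rw [es1rcThetaE_smul_of_mem H 1 1 he1 _ (es1rcDelta_mem hML H i) (es1rcDelta_mem' hML H i) z,
      es1rcDelta_diam, one_mul]
  refine es1rc_tower (Γ := gammaH L M H) (Γ' := Gamma0 L) (T_mem_gammaH L M H)
    (es1rcDelta hML H) (1 : (ZMod M)ˣ ⧸ pmH H) ?_ ?_ ?_
    (modularFunctionFieldFullC ℂ L) (fieldC ℂ L M H) (full_le_fieldC ℂ L M H) ?_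
    (es1rcThetaE 1 H 1) (es1rcThetaE_isModFunG H 1 1 he1) ?_ ?_ hf
  · -- `δ 1 ∈ Γ`
    rw [es1rc_mem_gammaH_iff hML H (es1rcDelta_mem hML H 1)]
    exact es1rc_mk_diam hML H 1
  · -- normalisation
    intro i γ hγ
    exact conj_mem_gammaH (es1rcDelta_mem hML H i) (es1rcDelta_mem' hML H i) hγ
  · -- permutation
    intro γ hγ
    refine ⟨Equiv.mulRight (QuotientGroup.mk (diamHom M ⟨γ, hG0 hγ⟩)), fun i => ?_⟩
    have hmem : es1rcDelta hML H i * γ *
        (es1rcDelta hML H (Equiv.mulRight (QuotientGroup.mk (diamHom M ⟨γ, hG0 hγ⟩)) i))⁻¹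
          ∈ Gamma0 L :=
      mul_mem (mul_mem (es1rcDelta_mem hML H i) hγ) (inv_mem (es1rcDelta_mem hML H _))
    rw [es1rc_mem_gammaH_iff hML H hmem]
    have h1 : (⟨es1rcDelta hML H i * γ *
        (es1rcDelta hML H (Equiv.mulRight (QuotientGroup.mk (diamHom M ⟨γ, hG0 hγ⟩)) i))⁻¹,
          hG0 hmem⟩ : Gamma0 M) =
        ⟨es1rcDelta hML H i, es1rcDelta_mem' hML H i⟩ * ⟨γ, hG0 hγ⟩ *
          (⟨es1rcDelta hML H (Equiv.mulRight (QuotientGroup.mk (diamHom M ⟨γ, hG0 hγ⟩)) i),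
            es1rcDelta_mem' hML H _⟩ : Gamma0 M)⁻¹ := rfl
    rw [h1, map_mul, map_mul, map_inv, QuotientGroup.mk_mul, QuotientGroup.mk_mul,
      QuotientGroup.mk_inv, es1rc_mk_diam, es1rc_mk_diam, Equiv.coe_mulRight, mul_inv_cancel]
  · -- `Γ₀(L)`
    intro g hg
    exact rc_laurentOf_mem_full L hg
  · -- the conjugates of `θ` lie in the field
    intro i
    rw [hθconj i, laurentOf_es1rcThetaE]
    exact qExpand_sS_mem ℂ L M H he1 _
  · -- the conjugates are distinct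
    intro i hi
    rw [hθconj i, hθconj 1, laurentOf_es1rcThetaE, laurentOf_es1rcThetaE]
    intro heq
    apply hi
    have heq' := qExpand_injective 1 heq
    rcases Nat.lt_or_ge M 3 with hM | hM
    · rw [← Quotient.out_eq i, ← Quotient.out_eq (1 : (ZMod M)ˣ ⧸ pmH H),
        es1rc_units_eq_one hM (Quotient.out i),
        es1rc_units_eq_one hM (Quotient.out (1 : (ZMod M)ˣ ⧸ pmH H))]
    · have h2 := (es1f_sS_eq_iff ℂ hM).mp heq'
      rw [es1rc_inPM_iff] at h2
      have h3 : (QuotientGroup.mk (Quotient.out i) : (ZMod M)ˣ ⧸ pmH H) =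
          QuotientGroup.mk (Quotient.out (1 : (ZMod M)ˣ ⧸ pmH H)) :=
        QuotientGroup.eq.mpr h2
      have e1 : (QuotientGroup.mk (Quotient.out i) : (ZMod M)ˣ ⧸ pmH H) = i :=
        Quotient.out_eq i
      have e2 : (QuotientGroup.mk (Quotient.out (1 : (ZMod M)ˣ ⧸ pmH H)) :
          (ZMod M)ˣ ⧸ pmH H) = 1 := Quotient.out_eq _
      rw [e1, e2] at h3
      exact h3

end Hard

/-! ### The easy half -/

section Easy

variable {L M : ℕ} [NeZero L] (hML : M ∣ L) (H : Subgroup (ZMod M)ˣ)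

theorem es1rc_isModFunG_of_gamma0 {f : ℍ → ℂ} (hf : IsModFun L f) :
    IsModFunG (gammaH L M H) f :=
  IsModFunG.mono (gammaH_le_gamma0 L M H) ((isModFunG_gamma0_iff L f).mpr hf)

theorem es1rc_isMerInf {f : ℍ → ℂ} (hf : IsModFunG (gammaH L M H) f) : IsMerInf f :=
  IsModFunG.isMerInf (T_mem_gammaH L M H) hf

/-- **(RC-Γ)(i'), easy half**: every element of `fieldC ℂ L M H` is a quotient of
`q`-expansions of modular functions for `Γ_H(M) ∩ Γ₀(L)`. -/
theorem es1rc_exists_frac {x : LaurentSeries ℂ} (hx : x ∈ fieldC ℂ L M H) :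
    ∃ a b : ℍ → ℂ, IsModFunG (gammaH L M H) a ∧ IsModFunG (gammaH L M H) b ∧
      laurentOf b ≠ 0 ∧ x * laurentOf b = laurentOf a := by
  have h1 : IsModFunG (gammaH L M H) (1 : ℍ → ℂ) := isModFunG_const _ 1
  have h0 : IsModFunG (gammaH L M H) (0 : ℍ → ℂ) := isModFunG_const _ 0
  unfold fieldC at hx
  induction hx using IntermediateField.adjoin_induction with
  | mem x hx =>
    rcases hx with ⟨d, hne, hd, rfl⟩ | ⟨e, hne, a, he, rfl⟩
    · refine ⟨fun z => Jfun (scaleN d z), 1,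
        es1rc_isModFunG_of_gamma0 H (rc_isModFun_Jfun_scaleN hd), h1, ?_, ?_⟩
      · rw [laurentOf_one]; exact one_ne_zero
      · rw [laurentOf_one, mul_one, laurentOf_Jfun_scaleN]; rfl
    · refine ⟨es1rcThetaE e H a, 1, es1rcThetaE_isModFunG H a e he, h1, ?_, ?_⟩
      · rw [laurentOf_one]; exact one_ne_zero
      · have hMne : NeZero M := es1rc_neZero_of_dvd ((Dvd.intro_left e rfl).trans he)
        rw [laurentOf_one, mul_one, laurentOf_es1rcThetaE]
  | algebraMap c =>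
    refine ⟨fun _ => c, 1, isModFunG_const _ c, h1, ?_, ?_⟩
    · rw [laurentOf_one]; exact one_ne_zero
    · rw [laurentOf_one, mul_one, laurentOf_const, Deriv.algebraMap_eq_C]
  | add x y _ _ ihx ihy =>
    obtain ⟨a1, b1, ha1, hb1, hb1', h1⟩ := ihx
    obtain ⟨a2, b2, ha2, hb2, hb2', h2⟩ := ihy
    have ma1 := es1rc_isMerInf H ha1
    have mb1 := es1rc_isMerInf H hb1
    have ma2 := es1rc_isMerInf H ha2
    have mb2 := es1rc_isMerInf H hb2
    refine ⟨a1 * b2 + a2 * b1, b1 * b2, (ha1.mul hb2).add (ha2.mul hb1), hb1.mul hb2, ?_, ?_⟩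
    · rw [laurentOf_mul mb1 mb2]; exact mul_ne_zero hb1' hb2'
    · rw [laurentOf_mul mb1 mb2, laurentOf_add (ma1.mul mb2) (ma2.mul mb1),
        laurentOf_mul ma1 mb2, laurentOf_mul ma2 mb1, ← h1, ← h2]
      ring
  | inv x _ ih =>
    obtain ⟨a, b, ha, hb, hb', h⟩ := ih
    by_cases ha0 : laurentOf a = 0
    · have hx0 : x = 0 := by
        rw [ha0] at h
        exact (mul_eq_zero.mp h).resolve_right hb'
      refine ⟨0, 1, h0, h1, ?_, ?_⟩
      · rw [laurentOf_one]; exact one_ne_zero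
      · rw [hx0, _root_.inv_zero, zero_mul, laurentOf_zero]
    · refine ⟨b, a, hb, ha, ha0, ?_⟩
      have hx0 : x ≠ 0 := by
        rintro rfl
        rw [zero_mul] at h
        exact ha0 h.symm
      rw [← h]
      field_simp
  | mul x y _ _ ihx ihy =>
    obtain ⟨a1, b1, ha1, hb1, hb1', h1⟩ := ihx
    obtain ⟨a2, b2, ha2, hb2, hb2', h2⟩ := ihy
    have ma1 := es1rc_isMerInf H ha1
    have mb1 := es1rc_isMerInf H hb1
    have ma2 := es1rc_isMerInf H ha2
    have mb2 := es1rc_isMerInf H hb2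
    refine ⟨a1 * a2, b1 * b2, ha1.mul ha2, hb1.mul hb2, ?_, ?_⟩
    · rw [laurentOf_mul mb1 mb2]; exact mul_ne_zero hb1' hb2'
    · rw [laurentOf_mul mb1 mb2, laurentOf_mul ma1 ma2, ← h1, ← h2]
      ring

include hML in
theorem es1rc_mem_fieldC_of_frac {x : LaurentSeries ℂ} {a b : ℍ → ℂ}
    (ha : IsModFunG (gammaH L M H) a) (hb : IsModFunG (gammaH L M H) b)
    (hb' : laurentOf b ≠ 0) (h : x * laurentOf b = laurentOf a) : x ∈ fieldC ℂ L M H := by
  have hx : x = laurentOf a / laurentOf b := by rw [eq_div_iff hb']; exact h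
  rw [hx]
  exact div_mem (es1rc_laurentOf_mem_fieldC hML H ha) (es1rc_laurentOf_mem_fieldC hML H hb)

include hML in
theorem es1rc_mem_fieldC_iff {x : LaurentSeries ℂ} :
    x ∈ fieldC ℂ L M H ↔
      ∃ a b : ℍ → ℂ, IsModFunG (gammaH L M H) a ∧ IsModFunG (gammaH L M H) b ∧
        laurentOf b ≠ 0 ∧ x * laurentOf b = laurentOf a :=
  ⟨es1rc_exists_frac H, fun ⟨_, _, ha, hb, hb', h⟩ => es1rc_mem_fieldC_of_frac hML H ha hb hb' h⟩

end Easy

/-! ### Separation -/

section Sep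

variable {L M : ℕ} [NeZero L] (hML : M ∣ L) (H : Subgroup (ZMod M)ˣ)

include hML in
/-- **SEPARATION** for `Γ_H(M) ∩ Γ₀(L)`. -/
theorem es1rc_sepG : SepG (gammaH L M H) := by
  intro ε h
  have hMne : NeZero M := es1rc_neZero_of_dvd hML
  have he1 : 1 * M ∣ L := by rwa [one_mul]
  have hεL : ε ∈ Gamma0 L := by
    apply mem_Gamma0_of_Jd_smul
    intro z
    exact h ⟨Jd L, es1rc_isModFunG_of_gamma0 H (ptx_isModFun_Jd L)⟩ z
  rw [es1rc_mem_gammaH_iff hML H hεL, QuotientGroup.eq_one_iff]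
  have hεM : ε ∈ Gamma0 M := rc_Gamma0_le_of_dvd hML hεL
  rcases Nat.lt_or_ge M 3 with hM | hM
  · rw [es1rc_units_eq_one hM (diamHom M ⟨ε, hεM⟩)]
    exact one_mem _
  · have h1 := h ⟨es1rcThetaE 1 H 1, es1rcThetaE_isModFunG H 1 1 he1⟩
    have h2 : es1rcThetaE 1 H (1 * diamHom M ⟨ε, hεM⟩) = es1rcThetaE 1 H 1 := by
      funext z
      rw [← es1rcThetaE_smul_of_mem H 1 1 he1 ε hεL hεM z]
      exact h1 z
    have h3 := congrArg laurentOf h2
    rw [laurentOf_es1rcThetaE, laurentOf_es1rcThetaE] at h3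
    have h4 := (es1f_sS_eq_iff ℂ hM).mp (qExpand_injective 1 h3)
    rw [es1rc_inPM_iff] at h4
    have h5 := inv_mem h4
    rwa [one_mul, mul_one, inv_inv] at h5

end Sep

/-! ### `fieldC ℂ L M H` as the fraction field of `modFunAlgG Γ` -/

section Frac

variable {L M : ℕ} [NeZero L] (hML : M ∣ L) (H : Subgroup (ZMod M)ˣ)

/-- The `q`-expansion, as a `ℂ`-algebra map from the modular functions for `Γ_H(M) ∩ Γ₀(L)` to
`fieldC ℂ L M H`. -/
def es1rcToField : modFunAlgG (gammaH L M H) →ₐ[ℂ] fieldC ℂ L M H where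
  toFun f := ⟨laurentOf (f : ℍ → ℂ), es1rc_laurentOf_mem_fieldC hML H f.2⟩
  map_one' := Subtype.ext laurentOf_one
  map_mul' f g := Subtype.ext (laurentOf_mul (es1rc_isMerInf H f.2) (es1rc_isMerInf H g.2))
  map_zero' := Subtype.ext laurentOf_zero
  map_add' f g := Subtype.ext (laurentOf_add (es1rc_isMerInf H f.2) (es1rc_isMerInf H g.2))
  commutes' c := Subtype.ext (by
    show laurentOf (fun _ => c) = algebraMap ℂ (LaurentSeries ℂ) c
    rw [laurentOf_const, Deriv.algebraMap_eq_C])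

@[simp]
theorem es1rcToField_coe (f : modFunAlgG (gammaH L M H)) :
    ((es1rcToField hML H f : fieldC ℂ L M H) : LaurentSeries ℂ) = laurentOf (f : ℍ → ℂ) := rfl

theorem es1rcToField_injective : Function.Injective (es1rcToField hML H) := by
  intro f g h
  have h1 : laurentOf (f : ℍ → ℂ) = laurentOf (g : ℍ → ℂ) := congrArg Subtype.val h
  exact Subtype.ext (laurentOf_injective (es1rc_isMerInf H f.2) (es1rc_isMerInf H g.2) h1)

/-- The algebra structure of `fieldC ℂ L M H` over the ring of modular functions. -/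
@[reducible]
def es1rcAlgebra : Algebra (modFunAlgG (gammaH L M H)) (fieldC ℂ L M H) :=
  (es1rcToField hML H).toRingHom.toAlgebra

theorem es1rc_algebraMap_apply (f : modFunAlgG (gammaH L M H)) :
    letI := es1rcAlgebra hML H
    algebraMap (modFunAlgG (gammaH L M H)) (fieldC ℂ L M H) f = es1rcToField hML H f := rfl

theorem es1rc_isScalarTower :
    letI := es1rcAlgebra hML H
    IsScalarTower ℂ (modFunAlgG (gammaH L M H)) (fieldC ℂ L M H) := by
  letI := es1rcAlgebra hML H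
  refine IsScalarTower.of_algebraMap_eq fun c => ?_
  rw [es1rc_algebraMap_apply]
  exact ((es1rcToField hML H).commutes c).symm

/-- **`fieldC ℂ L M H = Frac (modFunAlgG (Γ_H(M) ∩ Γ₀(L)))`**. -/
theorem es1rc_isFractionRing :
    letI := es1rcAlgebra hML H
    IsFractionRing (modFunAlgG (gammaH L M H)) (fieldC ℂ L M H) := by
  letI := es1rcAlgebra hML H
  haveI : FaithfulSMul (modFunAlgG (gammaH L M H)) (fieldC ℂ L M H) :=
    (faithfulSMul_iff_algebraMap_injective _ _).mpr (es1rcToField_injective hML H)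
  refine IsFractionRing.of_field _ _ fun z => ?_
  obtain ⟨a, b, ha, hb, hb', h⟩ := es1rc_exists_frac H z.2
  refine ⟨⟨a, ha⟩, ⟨b, hb⟩, ?_⟩
  have hb0 : algebraMap (modFunAlgG (gammaH L M H)) (fieldC ℂ L M H) ⟨b, hb⟩ ≠ 0 := by
    intro h0
    exact hb' (congrArg Subtype.val h0)
  rw [eq_div_iff hb0]
  exact Subtype.ext h

/-- the places of `fieldC ℂ L M H` at the points of `ℍ` -/
theorem es1rc_stmtPtG :
    letI := es1rcAlgebra hML H
    StmtPtG (gammaH L M H) (fieldC ℂ L M H) := by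
  letI := es1rcAlgebra hML H
  haveI := es1rc_isScalarTower hML H
  haveI := es1rc_isFractionRing hML H
  exact stmtPtG (gammaH L M H) (fieldC ℂ L M H)

/-- exact ramification at the points of `ℍ` -/
theorem es1rc_stmtPtExactG :
    letI := es1rcAlgebra hML H
    StmtPtExactG (gammaH L M H) (fieldC ℂ L M H) := by
  letI := es1rcAlgebra hML H
  haveI := es1rc_isScalarTower hML H
  haveI := es1rc_isFractionRing hML H
  exact stmtPtExactG_of_sep (gammaH L M H) (es1rc_sepG hML H) (fieldC ℂ L M H)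

end Frac

end Fermat.Agent.ES1
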