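/-
ES₁ / F3 = RC-Γ, piece RC-norm (helper81): the norm polynomial over `ℂ[J]` for an arbitrary
subgroup `Γ ≤ SL(2, ℤ)` of finite index.

* `es1rcnorm_comp_conj` : if `δ Γ' δ⁻¹ ≤ Γ` and `f` is a modular function for `Γ`, then `f ∘ δ`
  is a modular function for `Γ'`.
* `es1rcnorm_poly_of_invariant` : a modular function (of any finite-index level) which is
  invariant under `SL(2, ℤ)` is a polynomial in `J`.
* `stmtNormPolyG Γ : StmtNormPolyG Γ` : every modular function `f` for `Γ` is a root of a monic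
  polynomial of degree `[SL(2, ℤ) : Γ]` with coefficients in `ℂ[J]`, namely of
  `∏_{q ∈ SL(2, ℤ) / Γ} (X - f ∘ q⁻¹)`.
-/
import Fermat.Agent.ES1.RCPlan
import Fermat.Agent.ES1.RCTower
import Fermat.Agent.S24.Invariants

set_option autoImplicit false
set_option linter.style.haveILetI false

noncomputable section

open UpperHalfPlane ModularForm CongruenceSubgroup Filter Topology Polynomial
open scoped MatrixGroups Manifold

namespace Fermat.Agent.ES1

open Fermat.Agent.S23 Fermat.Agent.S24 Fermat.Agent.S28 Fermat.Agent.ES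

local notation "Δ" => ModularForm.discriminant

variable {Γ Γ' : Subgroup SL(2, ℤ)}

/-- conjugation: if `δ Γ' δ⁻¹ ≤ Γ` and `f` is a modular function for `Γ`, then `f ∘ δ` is a
modular function for `Γ'` -/
theorem es1rcnorm_comp_conj [Γ.FiniteIndex] [Γ'.FiniteIndex] {f : ℍ → ℂ} (hf : IsModFunG Γ f)
    (δ : SL(2, ℤ)) (hδ : ∀ γ ∈ Γ', δ * γ * δ⁻¹ ∈ Γ) :
    IsModFunG Γ' (fun z => f (δ • z)) := by
  obtain ⟨m, F, hF⟩ := hf
  have hΔ : MDiff (fun z : ℍ => Δ z ^ m) := by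
    have h : MDiff (CuspForm.discriminant : ℍ → ℂ) := CuspForm.discriminant.holo'
    exact h.pow m
  have hfm : MDiff f := IsModFunG.mdiff ⟨m, F, hF⟩
  refine ⟨m, ⟨{ toFun := fun z => f (δ • z) * Δ z ^ m
                slash_action_eq' := ?_
                holo' := (mdiff_comp_SL hfm δ).mul hΔ
                bdd_at_cusps' := ?_ }, rfl⟩⟩
  · rintro _ ⟨γ, hγ, rfl⟩
    have h1 := slash_mul_discPow (fun z => f (δ • z)) m γ
    rw [SL_slash] at h1
    refine h1.trans ?_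
    funext τ
    have h2 : IsModFunG Γ f := ⟨m, F, hF⟩
    have h3 := h2.comp_smul (hδ γ hγ) (δ • τ)
    have h4 : (δ * γ * δ⁻¹) • (δ • τ) = δ • (γ • τ) := by
      rw [← mul_smul, ← mul_smul]
      congr 1
      group
    rw [h4] at h3
    show f (δ • (γ • τ)) * Δ τ ^ m = f (δ • τ) * Δ τ ^ m
    rw [h3]
  · intro c hc
    rw [Subgroup.IsArithmetic.isCusp_iff_isCusp_SL2Z] at hc
    rw [OnePoint.isBoundedAt_iff_forall_SL2Z hc]
    intro γ _
    rw [slash_mul_discPow]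
    have h1 : IsBoundedAtImInfty ((F : ℍ → ℂ) ∣[(12 * (m : ℤ))] (δ * γ)) :=
      ModularFormClass.bdd_at_infty_slash F (δ * γ)
    rw [hF, slash_mul_discPow] at h1
    refine h1.congr_left fun z => ?_
    simp only [mul_smul]

/-- a modular function of some finite-index level which is invariant under `SL(2, ℤ)` is a
polynomial in `J` -/
theorem es1rcnorm_poly_of_invariant [Γ.FiniteIndex] {g : ℍ → ℂ} (hg : IsModFunG Γ g)
    (hinv : ∀ (γ : SL(2, ℤ)) (τ : ℍ), g (γ • τ) = g τ) :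
    ∃ P : ℂ[X], ∀ τ : ℍ, g τ = P.eval (Jfun τ) := by
  have hol : MDiff g := hg.mdiff
  obtain ⟨m, F, hF⟩ := hg
  have hb : IsBoundedAtImInfty (fun τ => Δ τ ^ m * g τ) := by
    have h1 : IsBoundedAtImInfty ((F : ℍ → ℂ) ∣[(12 * (m : ℤ))] (1 : SL(2, ℤ))) :=
      ModularFormClass.bdd_at_infty_slash F 1
    rw [hF, slash_mul_discPow] at h1
    refine h1.congr_left fun z => ?_
    simp only [one_smul]
    ring
  obtain ⟨P, -, hP⟩ := exists_poly_of_invariant g hol hinv m hb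
  exact ⟨P, hP⟩

section Conj

variable (Γ)

/-- the conjugate `f ∘ (out q)⁻¹` attached to the coset `q = δ Γ` -/
def es1rcnormConj (f : ℍ → ℂ) (q : SL(2, ℤ) ⧸ Γ) : ℍ → ℂ :=
  fun z => f ((Quotient.out q)⁻¹ • z)

variable {Γ}

theorem es1rcnormConj_apply (f : ℍ → ℂ) (q : SL(2, ℤ) ⧸ Γ) (z : ℍ) :
    es1rcnormConj Γ f q z = f ((Quotient.out q)⁻¹ • z) := rfl

/-- the conjugates are permuted by `SL(2, ℤ)` -/
theorem es1rcnormConj_smul {f : ℍ → ℂ} (hf : IsModFunG Γ f) (g : SL(2, ℤ))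
    (q : SL(2, ℤ) ⧸ Γ) (z : ℍ) :
    es1rcnormConj Γ f q (g • z) = es1rcnormConj Γ f (g⁻¹ • q) z := by
  rw [es1rcnormConj_apply, es1rcnormConj_apply]
  have h1 : ((g⁻¹ * Quotient.out q : SL(2, ℤ)) : SL(2, ℤ) ⧸ Γ)
      = ((Quotient.out (g⁻¹ • q) : SL(2, ℤ)) : SL(2, ℤ) ⧸ Γ) := by
    rw [QuotientGroup.out_eq']
    exact MulAction.Quotient.mk_smul_out Γ g⁻¹ q
  have h2 : (g⁻¹ * Quotient.out q)⁻¹ * Quotient.out (g⁻¹ • q) ∈ Γ := QuotientGroup.eq.mp h1
  have h3 := hf.comp_smul (Γ.inv_mem h2) ((Quotient.out q)⁻¹ • (g • z))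
  rw [← h3, ← mul_smul, ← mul_smul]
  congr 1
  group

/-- the conjugate attached to the trivial coset is `f` -/
theorem es1rcnormConj_one {f : ℍ → ℂ} (hf : IsModFunG Γ f) (z : ℍ) :
    es1rcnormConj Γ f ((1 : SL(2, ℤ)) : SL(2, ℤ) ⧸ Γ) z = f z := by
  rw [es1rcnormConj_apply]
  have h1 : ((1 : SL(2, ℤ)) : SL(2, ℤ) ⧸ Γ)
      = ((Quotient.out ((1 : SL(2, ℤ)) : SL(2, ℤ) ⧸ Γ) : SL(2, ℤ)) : SL(2, ℤ) ⧸ Γ) :=
    (QuotientGroup.out_eq' _).symm
  have h2 := QuotientGroup.eq.mp h1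
  rw [inv_one, one_mul] at h2
  exact hf.comp_smul (Γ.inv_mem h2) z

/-- the conjugates are modular functions for the normal core of `Γ` -/
theorem es1rcnormConj_isModFunG [Γ.FiniteIndex] {f : ℍ → ℂ} (hf : IsModFunG Γ f)
    (q : SL(2, ℤ) ⧸ Γ) : IsModFunG Γ.normalCore (es1rcnormConj Γ f q) := by
  haveI : Γ.normalCore.FiniteIndex := inferInstance
  refine es1rcnorm_comp_conj hf (Quotient.out q)⁻¹ fun γ hγ => ?_
  have h1 : (Quotient.out q)⁻¹ * γ * ((Quotient.out q)⁻¹)⁻¹ ∈ Γ.normalCore :=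
    (Subgroup.normalCore_normal Γ).conj_mem γ hγ _
  exact Subgroup.normalCore_le Γ h1

end Conj

/-- evaluation at `J`, as a ring homomorphism `ℂ[X] → (ℍ → ℂ)` -/
def es1rcnormEvalJ : ℂ[X] →+* (ℍ → ℂ) :=
  RingHom.pi fun τ => evalRingHom (Jfun τ)

theorem es1rcnormEvalJ_apply (P : ℂ[X]) (τ : ℍ) : es1rcnormEvalJ P τ = P.eval (Jfun τ) := rfl

theorem es1rcnorm_eval_comp (τ : ℍ) :
    (Pi.evalRingHom (fun _ : ℍ => ℂ) τ).comp es1rcnormEvalJ = evalRingHom (Jfun τ) := rfl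

/-- **Piece RC-norm.**  Every modular function for `Γ` is a root of a monic polynomial of degree
`[SL(2, ℤ) : Γ]` with coefficients in `ℂ[J]`. -/
theorem stmtNormPolyG (Γ : Subgroup SL(2, ℤ)) [Γ.FiniteIndex] : StmtNormPolyG Γ := by
  classical
  intro f hf
  haveI : Γ.normalCore.FiniteIndex := inferInstance
  letI : Fintype (SL(2, ℤ) ⧸ Γ) := Fintype.ofFinite _
  -- the conjugates, in the algebra of modular functions for the normal core
  let c : SL(2, ℤ) ⧸ Γ → modFunAlgG Γ.normalCore := fun q =>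
    ⟨es1rcnormConj Γ f q, es1rcnormConj_isModFunG hf q⟩
  let Ψ' : (modFunAlgG Γ.normalCore)[X] := ∏ q : SL(2, ℤ) ⧸ Γ, (X - C (c q))
  let Ψ : (ℍ → ℂ)[X] := ∏ q : SL(2, ℤ) ⧸ Γ, (X - C (es1rcnormConj Γ f q))
  have hΨ : Ψ'.map (modFunAlgG Γ.normalCore).val.toRingHom = Ψ := by
    simp only [Ψ', Ψ, Polynomial.map_prod, Polynomial.map_sub, Polynomial.map_X,
      Polynomial.map_C]
    rfl
  have hmonic : Ψ.Monic := monic_prod_of_monic _ _ fun q _ => monic_X_sub_C _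
  have hdeg : Ψ.natDegree = Γ.index := by
    rw [natDegree_prod_of_monic _ _ fun q _ => monic_X_sub_C _]
    simp only [natDegree_X_sub_C, Finset.sum_const, Finset.card_univ, smul_eq_mul, mul_one]
    rw [Subgroup.index_eq_card, Nat.card_eq_fintype_card]
  -- invariance of `Ψ` under `SL(2, ℤ)`
  have hinv : ∀ g : SL(2, ℤ), Ψ.map (compSmul g) = Ψ := by
    intro g
    simp only [Ψ, Polynomial.map_prod, Polynomial.map_sub, Polynomial.map_X, Polynomial.map_C]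
    have h1 : ∀ q : SL(2, ℤ) ⧸ Γ,
        compSmul g (es1rcnormConj Γ f q) = es1rcnormConj Γ f (g⁻¹ • q) := by
      intro q
      funext z
      exact es1rcnormConj_smul hf g q z
    simp only [h1]
    exact Equiv.prod_comp (MulAction.toPerm g⁻¹)
      (fun q : SL(2, ℤ) ⧸ Γ => (X - C (es1rcnormConj Γ f q) : (ℍ → ℂ)[X]))
  -- the coefficients are polynomials in `J`
  have hlift : Ψ ∈ lifts es1rcnormEvalJ := by
    rw [lifts_iff_coeff_lifts]
    intro j
    have h1 : IsModFunG Γ.normalCore (Ψ.coeff j) := by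
      rw [← hΨ, coeff_map]
      exact (Ψ'.coeff j).2
    have h2 : ∀ (g : SL(2, ℤ)) (τ : ℍ), Ψ.coeff j (g • τ) = Ψ.coeff j τ := by
      intro g τ
      have h3 := congrArg (fun P : (ℍ → ℂ)[X] => P.coeff j) (hinv g)
      simp only [coeff_map] at h3
      exact congrFun h3 τ
    obtain ⟨P, hP⟩ := es1rcnorm_poly_of_invariant h1 h2
    exact ⟨P, funext fun τ => (hP τ).symm⟩
  obtain ⟨Φ, hΦ, hΦdeg, hΦmonic⟩ := lifts_and_natDegree_eq_and_monic hlift hmonic
  refine ⟨Φ, hΦmonic, hΦdeg.trans hdeg, fun τ => ?_⟩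
  rw [← eval_map, ← es1rcnorm_eval_comp τ, ← Polynomial.map_map, hΦ]
  simp only [Ψ, Polynomial.map_prod, Polynomial.map_sub, Polynomial.map_X, Polynomial.map_C,
    eval_prod, eval_sub, eval_X, eval_C]
  refine Finset.prod_eq_zero (Finset.mem_univ ((1 : SL(2, ℤ)) : SL(2, ℤ) ⧸ Γ)) ?_
  show f τ - es1rcnormConj Γ f ((1 : SL(2, ℤ)) : SL(2, ℤ) ⧸ Γ) τ = 0
  rw [es1rcnormConj_one hf, sub_self]

end Fermat.Agent.ES1
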