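/-
ES₁ / F3 = RC-Γ, piece RC-all, algebraic part and conjugates (helper81).
Fork of `Fermat/Agent/ES/RC/PlaceAllAlg.lean`, `PlaceAllConj.lean` for an arbitrary subgroup
`Γ ≤ SL(2, ℤ)` of finite index; `A = modFunAlgG Γ`, `F` a fraction field of `A`, `J ∈ A`.

* `es1rcall_aeval_J_apply`, `es1rcall_aeval_J_ne_zero`, `es1rcall_transcendental_jF`;
* `es1rcall_isRoot_normPoly` : every `b ∈ A` is a root of a monic polynomial of degree
  `Γ.index` over `ℂ[J]`;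
* `es1rcall_exists_frac_poly` : every `x ∈ F` is `a / d(J)`, `a ∈ A`, `0 ≠ d ∈ ℂ[X]`;
* `es1rcall_finiteDimensional` : `F` is finite over `ℂ(J)`;
* `es1rcall_conj_core` : the symmetric functions of the conjugates `a ∘ g_q`
  (`q ∈ SL(2, ℤ) / Γ`) are polynomials `P j` in `J`, `P 0 = 1`,
  `Σ_j (-1)^j P_j(J) a^(n-j) = 0`.
-/
import Fermat.Agent.ES1.RCNorm
import Fermat.Agent.ES1.RCPt
import Fermat.Agent.ES.RC.PlaceAllAlg

set_option autoImplicit false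
set_option linter.style.haveILetI false
set_option linter.unusedSectionVars false

noncomputable section

namespace Fermat.Agent.ES1

open UpperHalfPlane AlgebraicCurve ModularForm Polynomial IntermediateField Module
open Fermat.Agent.S23 Fermat.Agent.S24 Fermat.Agent.S28 Fermat.Agent.ES.RC
open scoped MatrixGroups Manifold ModularForm

variable (Γ : Subgroup SL(2, ℤ))

/-- Evaluation at a point of `ℍ`. -/
def es1rcallEv (τ : ℍ) : modFunAlgG Γ →ₐ[ℂ] ℂ :=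
  (Pi.evalAlgHom ℂ (fun _ : ℍ => ℂ) τ).comp (modFunAlgG Γ).val

theorem es1rcallEv_apply (τ : ℍ) (f : modFunAlgG Γ) : es1rcallEv Γ τ f = (f : ℍ → ℂ) τ := rfl

theorem es1rcall_aeval_J_apply (P : ℂ[X]) (τ : ℍ) :
    ((aeval (es1rcptJ Γ) P : modFunAlgG Γ) : ℍ → ℂ) τ = P.eval (Jfun τ) := by
  have h := Polynomial.aeval_algHom_apply (es1rcallEv Γ τ) (es1rcptJ Γ) P
  rw [es1rcallEv_apply, es1rcallEv_apply] at h
  rw [← h, Polynomial.coe_aeval_eq_eval]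
  rfl

theorem es1rcall_aeval_J_ne_zero {P : ℂ[X]} (hP : P ≠ 0) : aeval (es1rcptJ Γ) P ≠ 0 := by
  intro h
  apply hP
  refine Polynomial.funext fun c => ?_
  obtain ⟨τ, hτ⟩ := Jfun_surjective c
  have h1 := congrFun (congrArg Subtype.val h) τ
  rw [es1rcall_aeval_J_apply, hτ] at h1
  rw [h1, Polynomial.eval_zero]
  rfl

/-- The `ℂ[X]`-algebra structure `P ↦ P(J)` on `modFunAlgG Γ` (not an instance). -/
@[reducible] def es1rcallPolyAlg : Algebra ℂ[X] (modFunAlgG Γ) :=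
  (aeval (es1rcptJ Γ)).toRingHom.toAlgebra

theorem es1rcallPolyAlg_algebraMap (P : ℂ[X]) :
    letI := es1rcallPolyAlg Γ
    algebraMap ℂ[X] (modFunAlgG Γ) P = aeval (es1rcptJ Γ) P := rfl

/-- Every modular function is a root of a monic polynomial of degree `Γ.index` over `ℂ[J]`. -/
theorem es1rcall_isRoot_normPoly [Γ.FiniteIndex] (b : modFunAlgG Γ) :
    ∃ Φ : (ℂ[X])[X], Φ.Monic ∧ Φ.natDegree = Γ.index ∧
      Φ.eval₂ (aeval (es1rcptJ Γ)).toRingHom b = 0 := by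
  obtain ⟨Φ, hmon, hdeg, hroot⟩ := stmtNormPolyG Γ (b : ℍ → ℂ) b.2
  refine ⟨Φ, hmon, hdeg, ?_⟩
  apply Subtype.ext
  funext τ
  have h1 : ((Φ.eval₂ (aeval (es1rcptJ Γ)).toRingHom b : modFunAlgG Γ) : ℍ → ℂ) τ
      = es1rcallEv Γ τ (Φ.eval₂ (aeval (es1rcptJ Γ)).toRingHom b) := rfl
  rw [h1, ← AlgHom.coe_toRingHom (es1rcallEv Γ τ), Polynomial.hom_eval₂]
  have h2 : (((es1rcallEv Γ τ : modFunAlgG Γ →ₐ[ℂ] ℂ) : modFunAlgG Γ →+* ℂ).comp
      (aeval (es1rcptJ Γ)).toRingHom) = evalRingHom (Jfun τ) := by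
    apply Polynomial.ringHom_ext
    · intro a
      simp
    · simp [es1rcallEv_apply, es1rcptJ_coe]
  rw [h2]
  exact hroot τ

section Field

variable (F : Type*) [Field F] [Algebra ℂ F] [Algebra (modFunAlgG Γ) F]
  [IsScalarTower ℂ (modFunAlgG Γ) F] [IsFractionRing (modFunAlgG Γ) F]

/-- `J` as an element of `F`. -/
def es1rcallJF : F := algebraMap (modFunAlgG Γ) F (es1rcptJ Γ)

theorem es1rcall_aeval_jF (P : ℂ[X]) :
    aeval (es1rcallJF Γ F) P = algebraMap (modFunAlgG Γ) F (aeval (es1rcptJ Γ) P) := by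
  have h := Polynomial.aeval_algHom_apply (IsScalarTower.toAlgHom ℂ (modFunAlgG Γ) F)
    (es1rcptJ Γ) P
  simpa [es1rcallJF] using h

theorem es1rcall_transcendental_jF : Transcendental ℂ (es1rcallJF Γ F) := by
  rw [Transcendental, IsAlgebraic]
  push Not
  intro P hP h
  rw [es1rcall_aeval_jF] at h
  exact rc_algebraMap_ne_zero F (es1rcall_aeval_J_ne_zero Γ hP) h

variable [Γ.FiniteIndex]

/-- Every element of `F` is `a / d(J)`. -/
theorem es1rcall_exists_frac_poly (x : F) :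
    ∃ (a : modFunAlgG Γ) (d : ℂ[X]), d ≠ 0 ∧
      x * algebraMap (modFunAlgG Γ) F (aeval (es1rcptJ Γ) d) = algebraMap (modFunAlgG Γ) F a := by
  letI := es1rcallPolyAlg Γ
  obtain ⟨a₀, b₀, hb₀, rfl⟩ := IsFractionRing.div_surjective (A := modFunAlgG Γ) x
  have hb0 : b₀ ≠ 0 := nonZeroDivisors.ne_zero hb₀
  have halg : IsAlgebraic ℂ[X] b₀ := by
    obtain ⟨Φ, hmon, -, hroot⟩ := es1rcall_isRoot_normPoly Γ b₀
    exact ⟨Φ, hmon.ne_zero, hroot⟩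
  obtain ⟨c, d, hd, h⟩ := halg.exists_smul_eq_mul a₀ hb₀
  refine ⟨c, d, hd, ?_⟩
  rw [Algebra.smul_def, es1rcallPolyAlg_algebraMap] at h
  have hb' : algebraMap (modFunAlgG Γ) F b₀ ≠ 0 := rc_algebraMap_ne_zero F hb0
  rw [div_mul_eq_mul_div, div_eq_iff hb', ← map_mul, ← map_mul, mul_comm a₀, h, mul_comm]

/-- Every element of `F` is algebraic over `ℂ(J)` of degree at most `Γ.index`. -/
theorem es1rcall_isIntegral_natDegree_le (x : F) :
    IsIntegral ℂ⟮es1rcallJF Γ F⟯ x ∧ (minpoly ℂ⟮es1rcallJF Γ F⟯ x).natDegree ≤ Γ.index := by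
  obtain ⟨a, d, hd, hx⟩ := es1rcall_exists_frac_poly Γ F x
  obtain ⟨Φ, hmon, hdeg, hroot⟩ := es1rcall_isRoot_normPoly Γ a
  -- the coefficient map `ℂ[X] → ℂ(J)`
  let ρ : ℂ[X] →+* ℂ⟮es1rcallJF Γ F⟯ :=
    ((aeval (⟨es1rcallJF Γ F, mem_adjoin_simple_self ℂ _⟩ : ℂ⟮es1rcallJF Γ F⟯)) :
      ℂ[X] →ₐ[ℂ] ℂ⟮es1rcallJF Γ F⟯).toRingHom
  have hρ : ∀ P : ℂ[X], ((ρ P : ℂ⟮es1rcallJF Γ F⟯) : F)
      = algebraMap (modFunAlgG Γ) F (aeval (es1rcptJ Γ) P) := by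
    intro P
    have h := Polynomial.aeval_algHom_apply (ℂ⟮es1rcallJF Γ F⟯.val)
      (⟨es1rcallJF Γ F, mem_adjoin_simple_self ℂ _⟩ : ℂ⟮es1rcallJF Γ F⟯) P
    rw [← es1rcall_aeval_jF]
    exact h.symm
  have hcomp : (algebraMap ℂ⟮es1rcallJF Γ F⟯ F).comp ρ =
      (algebraMap (modFunAlgG Γ) F).comp (aeval (es1rcptJ Γ)).toRingHom := by
    ext P
    · simp [ρ, ← IsScalarTower.algebraMap_apply]
    · simp only [RingHom.coe_comp, Function.comp_apply]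
      exact hρ X
  -- `a` is integral of degree `≤ n`
  have haroot : (Φ.map ρ).eval₂ (algebraMap ℂ⟮es1rcallJF Γ F⟯ F)
      (algebraMap (modFunAlgG Γ) F a) = 0 := by
    rw [Polynomial.eval₂_map, hcomp, ← Polynomial.hom_eval₂, hroot, map_zero]
  have hmon' : (Φ.map ρ).Monic := hmon.map ρ
  have haint : IsIntegral ℂ⟮es1rcallJF Γ F⟯ (algebraMap (modFunAlgG Γ) F a) :=
    ⟨Φ.map ρ, hmon', haroot⟩
  have hadeg : (minpoly ℂ⟮es1rcallJF Γ F⟯ (algebraMap (modFunAlgG Γ) F a)).natDegree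
      ≤ Γ.index := by
    have h1 := Polynomial.natDegree_le_of_dvd
      (minpoly.dvd ℂ⟮es1rcallJF Γ F⟯ (algebraMap (modFunAlgG Γ) F a) haroot) hmon'.ne_zero
    rw [hmon.natDegree_map] at h1
    rw [← hdeg]
    exact h1
  -- `x ∈ ℂ(J)(a)`
  have hdne : algebraMap (modFunAlgG Γ) F (aeval (es1rcptJ Γ) d) ≠ 0 :=
    rc_algebraMap_ne_zero F (es1rcall_aeval_J_ne_zero Γ hd)
  have hxa : x = algebraMap (modFunAlgG Γ) F a
      * (algebraMap ℂ⟮es1rcallJF Γ F⟯ F (ρ d))⁻¹ := by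
    have : algebraMap ℂ⟮es1rcallJF Γ F⟯ F (ρ d)
        = algebraMap (modFunAlgG Γ) F (aeval (es1rcptJ Γ) d) := hρ d
    rw [this, ← hx, mul_assoc, mul_inv_cancel₀ hdne, mul_one]
  have hxint : IsIntegral ℂ⟮es1rcallJF Γ F⟯ x := by
    rw [hxa]
    exact haint.mul (isIntegral_algebraMap.inv)
  refine ⟨hxint, ?_⟩
  have hle : ℂ⟮es1rcallJF Γ F⟯⟮x⟯ ≤ ℂ⟮es1rcallJF Γ F⟯⟮algebraMap (modFunAlgG Γ) F a⟯ := by
    rw [adjoin_simple_le_iff, hxa]
    refine mul_mem (mem_adjoin_simple_self _ _) (inv_mem ?_)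
    exact IntermediateField.algebraMap_mem _ _
  haveI : FiniteDimensional ℂ⟮es1rcallJF Γ F⟯
      ℂ⟮es1rcallJF Γ F⟯⟮algebraMap (modFunAlgG Γ) F a⟯ :=
    adjoin.finiteDimensional haint
  have h2 := IntermediateField.finrank_le_of_le_right hle
  rw [adjoin.finrank hxint, adjoin.finrank haint] at h2
  exact h2.trans hadeg

instance es1rcall_finiteDimensional : FiniteDimensional ℂ⟮es1rcallJF Γ F⟯ F :=
  rc_finiteDimensional_of_natDegree_le Γ.index (es1rcall_isIntegral_natDegree_le Γ F)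

theorem es1rcall_isAlgebraic : Algebra.IsAlgebraic ℂ⟮es1rcallJF Γ F⟯ F := inferInstance

end Field

/-! ### Conjugates -/

/-- **Conjugates.**  The elementary symmetric functions of the conjugates `a ∘ g q`
(`q ∈ s`, `s` the set of all cosets of `Γ`) are polynomials in `J`. -/
theorem es1rcall_conj_core [Γ.FiniteIndex] (a : modFunAlgG Γ) :
    ∃ (s : Finset (SL(2, ℤ) ⧸ Γ)) (g : SL(2, ℤ) ⧸ Γ → SL(2, ℤ)) (P : ℕ → ℂ[X]), P 0 = 1 ∧
      (∀ τ : ℍ, ∑ j ∈ Finset.range (Γ.index + 1),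
        (-1 : ℂ) ^ j * (P j).eval (Jfun τ) * (a : ℍ → ℂ) τ ^ (Γ.index - j) = 0) ∧
      ∀ (j : ℕ) (τ : ℍ), (P j).eval (Jfun τ) =
        ∑ S ∈ Finset.powersetCard j s, ∏ q ∈ S, (a : ℍ → ℂ) (g q • τ) := by
  classical
  haveI : Γ.normalCore.FiniteIndex := inferInstance
  letI : Fintype (SL(2, ℤ) ⧸ Γ) := Fintype.ofFinite _
  have hcard : (Finset.univ : Finset (SL(2, ℤ) ⧸ Γ)).card = Γ.index := by
    rw [Finset.card_univ, Subgroup.index_eq_card, Nat.card_eq_fintype_card]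
  -- the symmetric functions
  let E : ℕ → ℍ → ℂ := fun j τ =>
    ∑ S ∈ Finset.powersetCard j (Finset.univ : Finset (SL(2, ℤ) ⧸ Γ)),
      ∏ q ∈ S, es1rcnormConj Γ (a : ℍ → ℂ) q τ
  have hEmod : ∀ j, IsModFunG Γ.normalCore (E j) := by
    intro j
    have h1 : IsModFunG Γ.normalCore
        (∑ S ∈ Finset.powersetCard j (Finset.univ : Finset (SL(2, ℤ) ⧸ Γ)),
          ∏ q ∈ S, es1rcnormConj Γ (a : ℍ → ℂ) q) :=
      IsModFunG.sum _ _ fun S _ => IsModFunG.prod _ _ fun q _ => es1rcnormConj_isModFunG a.2 q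
    have h2 : (∑ S ∈ Finset.powersetCard j (Finset.univ : Finset (SL(2, ℤ) ⧸ Γ)),
          ∏ q ∈ S, es1rcnormConj Γ (a : ℍ → ℂ) q) = E j := by
      funext τ
      simp only [E, Finset.sum_apply, Finset.prod_apply]
    rwa [h2] at h1
  have hEinv : ∀ j (γ : SL(2, ℤ)) (τ : ℍ), E j (γ • τ) = E j τ := by
    intro j γ τ
    simp only [E]
    have h1 : ∀ S : Finset (SL(2, ℤ) ⧸ Γ),
        ∏ q ∈ S, es1rcnormConj Γ (a : ℍ → ℂ) q (γ • τ)
          = ∏ q ∈ S.map (MulAction.toPerm γ⁻¹ : Equiv.Perm (SL(2, ℤ) ⧸ Γ)).toEmbedding,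
              es1rcnormConj Γ (a : ℍ → ℂ) q τ := by
      intro S
      rw [Finset.prod_map]
      refine Finset.prod_congr rfl fun q _ => ?_
      exact es1rcnormConj_smul a.2 γ q τ
    simp only [h1]
    exact esymm_sum_powersetCard_map j (MulAction.toPerm γ⁻¹ : Equiv.Perm (SL(2, ℤ) ⧸ Γ))
      (fun S => ∏ q ∈ S, es1rcnormConj Γ (a : ℍ → ℂ) q τ)
  have hex : ∀ j, ∃ P : ℂ[X], ∀ τ : ℍ, E j τ = P.eval (Jfun τ) := fun j =>
    es1rcnorm_poly_of_invariant (hEmod j) (hEinv j)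
  choose P hP using hex
  have hP0 : P 0 = 1 := by
    refine Polynomial.funext fun c => ?_
    obtain ⟨τ, hτ⟩ := Jfun_surjective c
    rw [← hτ, ← hP 0 τ]
    simp [E]
  refine ⟨Finset.univ, fun q => (Quotient.out q)⁻¹, P, hP0, fun τ => ?_, fun j τ => ?_⟩
  · have hv := normPoly_vieta (Finset.univ : Finset (SL(2, ℤ) ⧸ Γ))
      (fun q => es1rcnormConj Γ (a : ℍ → ℂ) q τ) ((a : ℍ → ℂ) τ)
    have h0 : ∏ q ∈ (Finset.univ : Finset (SL(2, ℤ) ⧸ Γ)),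
        ((a : ℍ → ℂ) τ - es1rcnormConj Γ (a : ℍ → ℂ) q τ) = 0 :=
      Finset.prod_eq_zero (Finset.mem_univ ((1 : SL(2, ℤ)) : SL(2, ℤ) ⧸ Γ))
        (by rw [es1rcnormConj_one a.2, sub_self])
    rw [h0, hcard] at hv
    rw [hv]
    refine Finset.sum_congr rfl fun j _ => ?_
    rw [← hP j τ]
  · rw [← hP j τ]
    rfl

end Fermat.Agent.ES1
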