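import Fermat.Agent.ES.RC.PlacePlan
import Fermat.Agent.ES.MultiplierCusp
import Fermat.Agent.ES1.RootModFunG

/-!
# ES₁ / G1, pieces AN + INJ (function/field level) for an ARBITRARY `Γ ≤ SL(2, ℤ)`

Generic version of `Fermat/Agent/ES/RootOfKummer.lean`.  `F` is any field of fractions of
`modFunAlgG Γ` (e.g. `fieldC ℂ L M H` for `Γ = gammaH L M H`, once RC-Γ is available).

* `StmtPtG Γ F` : the order at `τ ∈ ℍ` is, on `modFunAlgG Γ`, a positive multiple of the order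
  at a place of `F` (the `Γ`-version of `ES.RC.StmtPt`; `stmtPtG_gamma0_iff` is `Iff.rfl`);
* `dvd_ordPt_sub_of_placesG` : if `n ∣ w.ord x` for every place `w` of `F / ℂ` and `x = a / g`
  with `a g ∈ modFunAlgG Γ`, then `n ∣ ord_τ a - ord_τ g` for every `τ ∈ ℍ`;
* `exists_rootData_of_modFunG` : then there is a root datum `D` (`RootData Γ n`) with
  `D.g = g`, `D.a ^ n = a * g ^ (n - 1)`;
* `exists_rootData_of_placesG` : both steps together;
* `exists_pow_eq_of_mult_eq_oneG` : if the multiplier character of `D` is trivial then `a / g`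
  is an `n`-th power in `F`  (needs `Γ.FiniteIndex`);
* `mult_eq_one_of_pow_eqG` : conversely, `n`-th powers in `F` have trivial multiplier.
-/

set_option autoImplicit false

noncomputable section

open UpperHalfPlane AlgebraicCurve CongruenceSubgroup
open scoped MatrixGroups Manifold

namespace Fermat.Agent.ES1

open Fermat.Agent.S24 Fermat.Agent.S28 Fermat.Agent.ES Fermat.Agent.ES.RC

section Analytic

variable {Γ : Subgroup SL(2, ℤ)} {n : ℕ}

/-- **AN (analytic step).**  If `a`, `g` are modular functions for `Γ` and `n` divides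
`ord_τ a - ord_τ g` at every point of `ℍ`, then `a / g` has an `n`-th root `D.a / g` on `ℍ`,
which is a root datum for `Γ`. -/
theorem exists_rootData_of_modFunG (hn : n ≠ 0) {a g : ℍ → ℂ} (ha : IsModFunG Γ a)
    (hg : IsModFunG Γ g) (ha0 : a ≠ 0) (hg0 : g ≠ 0)
    (hord : ∀ τ : ℍ, (n : ℤ) ∣ ordPt τ a - ordPt τ g) :
    ∃ D : RootData Γ n, D.g = g ∧ ∀ τ, D.a τ ^ n = a τ * g τ ^ (n - 1) := by
  refine RootData.exists_ofDiv hn ha.mdiff hg.mdiff ha0 hg0
    (fun τ => ?_) (fun γ hγ τ => ?_)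
  · obtain ⟨k, hk⟩ := hord τ
    exact ⟨k, hk⟩
  · rw [ha.comp_smul hγ τ, hg.comp_smul hγ τ]

end Analytic

section Field

variable (Γ : Subgroup SL(2, ℤ)) (F : Type) [Field F] [Algebra ℂ F] [Algebra (modFunAlgG Γ) F]

/-- The order at `τ` is, on `modFunAlgG Γ`, a positive multiple of the order at a place of
`F`. -/
def StmtPtG : Prop :=
  ∀ τ : ℍ, ∃ (v : Place ℂ F) (e : ℕ), 0 < e ∧ ∀ f : modFunAlgG Γ, f ≠ 0 →
    ordPt τ (f : ℍ → ℂ) = (e : ℤ) * v.ord (algebraMap (modFunAlgG Γ) F f)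

variable [IsFractionRing (modFunAlgG Γ) F] {n : ℕ}

omit [Algebra ℂ F] in
theorem algebraMap_modFunAlgG_ne_zero {a : modFunAlgG Γ} (ha : a ≠ 0) :
    algebraMap (modFunAlgG Γ) F a ≠ 0 := by
  intro h
  apply ha
  exact IsFractionRing.injective (modFunAlgG Γ) F (by rw [h, map_zero])

theorem coe_modFunAlgG_ne_zero {a : modFunAlgG Γ} (ha : a ≠ 0) : (a : ℍ → ℂ) ≠ 0 :=
  fun h => ha (Subtype.ext h)

theorem mdiff_modFunAlgG (a : modFunAlgG Γ) : MDiff (a : ℍ → ℂ) :=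
  IsModFunG.mdiff a.2

/-- **AN (places ⟹ orders).**  If `n` divides the order of `a / g` at every place of `F / ℂ`,
then `n` divides `ord_τ a - ord_τ g` at every `τ ∈ ℍ`. -/
theorem dvd_ordPt_sub_of_placesG (hPt : StmtPtG Γ F) {a g : modFunAlgG Γ} (ha0 : a ≠ 0)
    (hg0 : g ≠ 0)
    (hU : ∀ w : Place ℂ F,
      (n : ℤ) ∣ w.ord (algebraMap (modFunAlgG Γ) F a / algebraMap (modFunAlgG Γ) F g))
    (τ : ℍ) : (n : ℤ) ∣ ordPt τ (a : ℍ → ℂ) - ordPt τ (g : ℍ → ℂ) := by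
  obtain ⟨v, e, -, h⟩ := hPt τ
  have ha' := algebraMap_modFunAlgG_ne_zero Γ F ha0
  have hg' := algebraMap_modFunAlgG_ne_zero Γ F hg0
  have h1 : v.ord (algebraMap (modFunAlgG Γ) F a / algebraMap (modFunAlgG Γ) F g)
      = v.ord (algebraMap (modFunAlgG Γ) F a) - v.ord (algebraMap (modFunAlgG Γ) F g) := by
    rw [div_eq_mul_inv, Place.ord_mul v ha' (inv_ne_zero hg'), Place.ord_inv, sub_eq_add_neg]
  rw [h a ha0, h g hg0, ← mul_sub, ← h1]
  exact Dvd.dvd.mul_left (hU v) _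

/-- **AN.**  A Kummer function `x = a / g` of `F` (all orders at places divisible by `n`) has a
root datum: a holomorphic `D.a` on `ℍ` with `D.a ^ n = a * g ^ (n - 1)`, i.e.
`(D.a / g) ^ n = a / g`. -/
theorem exists_rootData_of_placesG (hn : n ≠ 0) (hPt : StmtPtG Γ F) {a g : modFunAlgG Γ}
    (ha0 : a ≠ 0) (hg0 : g ≠ 0)
    (hU : ∀ w : Place ℂ F,
      (n : ℤ) ∣ w.ord (algebraMap (modFunAlgG Γ) F a / algebraMap (modFunAlgG Γ) F g)) :
    ∃ D : RootData Γ n, D.g = (g : ℍ → ℂ) ∧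
      ∀ τ, D.a τ ^ n = (a : ℍ → ℂ) τ * (g : ℍ → ℂ) τ ^ (n - 1) :=
  exists_rootData_of_modFunG hn a.2 g.2 (coe_modFunAlgG_ne_zero Γ ha0)
    (coe_modFunAlgG_ne_zero Γ hg0) (dvd_ordPt_sub_of_placesG Γ F hPt ha0 hg0 hU)

omit [Algebra ℂ F] in
/-- **INJ (field step).**  If the multiplier character of the root datum of `a / g` is trivial,
then `a / g` is an `n`-th power in `F`. -/
theorem exists_pow_eq_of_mult_eq_oneG [Γ.FiniteIndex] (D : RootData Γ n) (hmult : D.mult = 1)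
    {a g : modFunAlgG Γ} (hg0 : g ≠ 0) (hDg : D.g = (g : ℍ → ℂ))
    (hpow : ∀ τ, D.a τ ^ n = (a : ℍ → ℂ) τ * (g : ℍ → ℂ) τ ^ (n - 1)) :
    ∃ k : F, k ^ n = algebraMap (modFunAlgG Γ) F a / algebraMap (modFunAlgG Γ) F g := by
  have hDa : IsModFunG Γ D.a :=
    D.isModFunG_a_of_pow_eq hmult a.2 (by rw [hDg]; exact g.2) (by
      intro τ
      rw [hDg]
      exact hpow τ)
  set b : modFunAlgG Γ := ⟨D.a, hDa⟩ with hb
  have hg' := algebraMap_modFunAlgG_ne_zero Γ F hg0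
  refine ⟨algebraMap (modFunAlgG Γ) F b / algebraMap (modFunAlgG Γ) F g, ?_⟩
  have hn : n ≠ 0 := D.p_ne_zero
  have h1 : b ^ n = a * g ^ (n - 1) := by
    apply Subtype.ext
    funext τ
    exact hpow τ
  rw [div_pow, ← map_pow, h1, map_mul, map_pow]
  obtain ⟨m, rfl⟩ : ∃ m, n = m + 1 := Nat.exists_eq_succ_of_ne_zero hn
  simp only [Nat.add_sub_cancel]
  field_simp
  ring

omit [Algebra ℂ F] in
/-- **INJ (converse).**  If `a / g = (b / c) ^ n` in `F` with `b c ∈ modFunAlgG Γ`, then the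
multiplier character of any root datum of `a / g` is trivial. -/
theorem mult_eq_one_of_pow_eqG (D : RootData Γ n) {a g b c : modFunAlgG Γ} (hg0 : g ≠ 0)
    (hb0 : b ≠ 0) (hc0 : c ≠ 0) (hDg : D.g = (g : ℍ → ℂ))
    (hpow : ∀ τ, D.a τ ^ n = (a : ℍ → ℂ) τ * (g : ℍ → ℂ) τ ^ (n - 1))
    (h : (algebraMap (modFunAlgG Γ) F b / algebraMap (modFunAlgG Γ) F c) ^ n
      = algebraMap (modFunAlgG Γ) F a / algebraMap (modFunAlgG Γ) F g) : D.mult = 1 := by
  have hn : n ≠ 0 := D.p_ne_zero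
  have hg' := algebraMap_modFunAlgG_ne_zero Γ F hg0
  have hc' := algebraMap_modFunAlgG_ne_zero Γ F hc0
  have h1 : b ^ n * g = a * c ^ n := by
    apply IsFractionRing.injective (modFunAlgG Γ) F
    rw [map_mul, map_mul, map_pow, map_pow]
    rw [div_pow, div_eq_div_iff (pow_ne_zero _ hc') hg'] at h
    exact h
  have h1' : ∀ τ, (b : ℍ → ℂ) τ ^ n * (g : ℍ → ℂ) τ = (a : ℍ → ℂ) τ * (c : ℍ → ℂ) τ ^ n :=
    fun τ => congrFun (congrArg Subtype.val h1) τ
  refine D.mult_eq_one_of_pow_eq_invariant (mdiff_modFunAlgG Γ b) (mdiff_modFunAlgG Γ c)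
    (coe_modFunAlgG_ne_zero Γ hb0) (coe_modFunAlgG_ne_zero Γ hc0) (fun γ hγ τ => ?_)
    (fun τ => ?_)
  · rw [IsModFunG.comp_smul b.2 hγ τ, IsModFunG.comp_smul c.2 hγ τ]
  · rw [hDg, mul_pow, mul_pow, hpow τ]
    obtain ⟨m, rfl⟩ : ∃ m, n = m + 1 := Nat.exists_eq_succ_of_ne_zero hn
    simp only [Nat.add_sub_cancel]
    have := h1' τ
    linear_combination (-(g : ℍ → ℂ) τ ^ m) * this

end Field

end Fermat.Agent.ES1
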