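import Fermat.Agent.ES1.PerPrim
import Fermat.Agent.S21.Injective

/-!
# ES₁ / G1-PER — the period homomorphism is injective (helper42)

Maximum modulus on `Γ \ ℍ*` for a subgroup `Γ ≤ SL(2, ℤ)` of finite index containing the
conjugates of `T^N`: a holomorphic function `Φ` on `ℍ` whose `Γ`-increments are purely imaginary
constants and which has a limit at every cusp is constant.  (Fork of `S21/Injective.lean`, where
`Γ = Γ₀(N)`.)  Consequence: `Es1perCusp.hom_eq_zero_iff`: the period homomorphism of `g` vanishes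
only for `g = 0`.
-/

set_option autoImplicit false
set_option linter.unusedSectionVars false
set_option linter.style.haveILetI false

noncomputable section

namespace Fermat.Agent.ES1

open UpperHalfPlane CongruenceSubgroup Filter Topology Function ModularCurve
  ModularCurve.Period Fermat.Agent.S21
open scoped MatrixGroups Real ComplexConjugate

/-- finitely many coset representatives of a subgroup of finite index -/
theorem es1per_exists_coset_reps (Γ : Subgroup SL(2, ℤ)) [Γ.FiniteIndex] :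
    ∃ R : Finset SL(2, ℤ), ∀ δ : SL(2, ℤ), ∃ γ ∈ Γ, ∃ r ∈ R, δ = γ * r := by
  classical
  haveI hfinq : Finite (Quotient (QuotientGroup.rightRel Γ)) := by
    have := Subgroup.finite_quotient_of_finiteIndex (H := Γ)
    exact Finite.of_equiv _ (QuotientGroup.quotientRightRelEquivQuotientLeftRel _).symm
  haveI := Fintype.ofFinite (Quotient (QuotientGroup.rightRel Γ))
  refine ⟨Finset.univ.image
    (fun q : Quotient (QuotientGroup.rightRel Γ) => q.out), fun δ => ?_⟩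
  set ρ := (Quotient.mk (QuotientGroup.rightRel Γ) δ).out with hρ
  have hrel : (QuotientGroup.rightRel Γ) ρ δ := Quotient.exact (Quotient.out_eq _)
  rw [QuotientGroup.rightRel_apply] at hrel
  refine ⟨δ * ρ⁻¹, hrel, ρ, Finset.mem_image.mpr ⟨_, Finset.mem_univ _, rfl⟩, ?_⟩
  rw [inv_mul_cancel_right]

/-- a subgroup of finite index of `SL(2, ℤ)` is finitely generated -/
theorem es1per_fg (Γ : Subgroup SL(2, ℤ)) [Γ.FiniteIndex] : Group.FG Γ := by
  haveI := Fermat.Agent.S22.sl2Z_fg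
  infer_instance

section MaxMod

variable {Γ : Subgroup SL(2, ℤ)} {N : ℕ}

/-- If the `Γ`-increments of `Φ` are constants and `Φ ∘ δ` has a limit at `i∞`, then `Φ ∘ δ` is
`N`-periodic. -/
theorem es1per_comp_smul_T_pow_eq {Φ : ℍ → ℂ}
    (hT : ∀ δ : SL(2, ℤ), δ * ModularGroup.T ^ (N : ℤ) * δ⁻¹ ∈ Γ)
    (hinv : ∀ γ ∈ Γ, ∃ c : ℂ, ∀ z : ℍ, Φ (γ • z) - Φ z = c)
    (δ : SL(2, ℤ)) (hlim : ∃ L : ℂ, Tendsto (fun w : ℍ => Φ (δ • w)) atImInfty (𝓝 L)) (w : ℍ) :
    Φ (δ • (ModularGroup.T ^ (N : ℤ) • w)) = Φ (δ • w) := by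
  obtain ⟨c, hc⟩ := hinv _ (hT δ)
  obtain ⟨L, hL⟩ := hlim
  have key : ∀ w : ℍ, Φ (δ • (ModularGroup.T ^ (N : ℤ) • w)) - Φ (δ • w) = c := by
    intro w
    have := hc (δ • w)
    rwa [← mul_smul, inv_mul_cancel_right, mul_smul] at this
  have h1 : Tendsto (fun w : ℍ => Φ (δ • (ModularGroup.T ^ (N : ℤ) • w))) atImInfty (𝓝 L) :=
    hL.comp (tendsto_T_pow_smul_atImInfty N)
  have h2 : Tendsto (fun w : ℍ => Φ (δ • (ModularGroup.T ^ (N : ℤ) • w)) - Φ (δ • w))
      atImInfty (𝓝 (L - L)) := h1.sub hL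
  have h3 : Tendsto (fun _ : ℍ => c) atImInfty (𝓝 (L - L)) := by
    refine h2.congr (fun w => key w)
  have hc0 : c = 0 := by
    have := tendsto_nhds_unique h3 tendsto_const_nhds
    simpa using this.symm
  have := key w
  rw [hc0, sub_eq_zero] at this
  exact this

theorem es1per_expComp_periodic {Φ : ℍ → ℂ}
    (hT : ∀ δ : SL(2, ℤ), δ * ModularGroup.T ^ (N : ℤ) * δ⁻¹ ∈ Γ)
    (hinv : ∀ γ ∈ Γ, ∃ c : ℂ, ∀ z : ℍ, Φ (γ • z) - Φ z = c)
    (δ : SL(2, ℤ)) (hlim : ∃ L : ℂ, Tendsto (fun w : ℍ => Φ (δ • w)) atImInfty (𝓝 L)) :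
    Function.Periodic (expComp Φ δ) ((N : ℝ) : ℂ) := by
  intro w
  unfold expComp
  by_cases hw : 0 < w.im
  · have hw' : 0 < (w + ((N : ℝ) : ℂ)).im := by simpa using hw
    have : ofComplex (w + ((N : ℝ) : ℂ)) = ModularGroup.T ^ (N : ℤ) • ofComplex w := by
      rw [ofComplex_apply_of_im_pos hw, ofComplex_apply_of_im_pos hw']
      ext
      rw [ModularGroup.coe_T_zpow_smul_eq]
      simp
    rw [this, es1per_comp_smul_T_pow_eq hT hinv δ hlim]
  · have hw' : (w + ((N : ℝ) : ℂ)).im ≤ 0 := by simpa using not_lt.mp hw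
    rw [ofComplex_apply_eq_of_im_nonpos hw' (not_lt.mp hw)]

theorem es1per_norm_exp_smul_eq {Φ : ℍ → ℂ}
    (hinv : ∀ γ ∈ Γ, ∃ c : ℂ, c.re = 0 ∧ ∀ z : ℍ, Φ (γ • z) - Φ z = c)
    {γ : SL(2, ℤ)} (hγ : γ ∈ Γ) (z : ℍ) :
    ‖Complex.exp (Φ (γ • z))‖ = ‖Complex.exp (Φ z)‖ := by
  obtain ⟨c, hc0, hc⟩ := hinv γ hγ
  rw [Complex.norm_exp, Complex.norm_exp]
  have h2 : Φ (γ • z) = Φ z + c := by rw [← hc z]; ring
  rw [h2, Complex.add_re, hc0, add_zero]

/-- Maximum modulus on `Γ \ ℍ*`: if `Φ` is holomorphic on `ℍ`, its `Γ`-increments are purely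
imaginary constants, and `Φ` has a limit at every cusp, then `exp ∘ Φ` is constant. -/
theorem es1per_exp_const [Γ.FiniteIndex] [NeZero N] {Φ φ : ℍ → ℂ}
    (hT : ∀ δ : SL(2, ℤ), δ * ModularGroup.T ^ (N : ℤ) * δ⁻¹ ∈ Γ)
    (hΦ : IsPrimitive Φ φ)
    (hinv : ∀ γ ∈ Γ, ∃ c : ℂ, c.re = 0 ∧ ∀ z : ℍ, Φ (γ • z) - Φ z = c)
    (hlim : ∀ δ : SL(2, ℤ), ∃ L : ℂ, Tendsto (fun w : ℍ => Φ (δ • w)) atImInfty (𝓝 L)) :
    ∃ C : ℂ, ∀ z : ℍ, Complex.exp (Φ z) = C := by
  have hN : (0 : ℝ) < N := Nat.cast_pos.mpr (NeZero.pos N)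
  have hinv' : ∀ γ ∈ Γ, ∃ c : ℂ, ∀ z : ℍ, Φ (γ • z) - Φ z = c := fun γ hγ =>
    let ⟨c, _, hc⟩ := hinv γ hγ; ⟨c, hc⟩
  obtain ⟨R, hR⟩ := es1per_exists_coset_reps Γ
  have hRne : R.Nonempty := by
    obtain ⟨γ, _, r, hr, _⟩ := hR 1
    exact ⟨r, hr⟩
  set K : SL(2, ℤ) → ℂ → ℂ := fun r => Function.Periodic.cuspFunction N (expComp Φ r) with hK
  have hper : ∀ r, Function.Periodic (expComp Φ r) ((N : ℝ) : ℂ) := fun r =>
    es1per_expComp_periodic hT hinv' r (hlim r)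
  have hKdiff : ∀ r, DifferentiableOn ℂ (K r) (Metric.ball 0 1) := by
    intro r q hq
    rw [mem_ball_zero_iff] at hq
    apply DifferentiableAt.differentiableWithinAt
    rcases eq_or_ne q 0 with rfl | hq0
    · exact Function.Periodic.differentiableAt_cuspFunction_zero hN (hper r)
        (expComp_eventually_differentiableAt hΦ r) (expComp_bounded r (hlim r))
    · have him := Function.Periodic.im_invQParam_pos_of_norm_lt_one hN hq hq0
      have := Function.Periodic.differentiableAt_cuspFunction hN.ne' (hper r)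
        (expComp_differentiableAt hΦ r him)
      rwa [Function.Periodic.qParam_right_inv hN.ne' hq0] at this
  have hKeq : ∀ r (z : ℍ), K r (Function.Periodic.qParam N z) = Complex.exp (Φ (r • z)) := by
    intro r z
    rw [hK]
    simp only
    rw [Function.Periodic.eq_cuspFunction hN.ne' (hper r), expComp_coe]
  set ρ : ℝ := Real.exp (-π / N) with hρ
  have hρ0 : 0 ≤ ρ := (Real.exp_pos _).le
  have hρ1 : ρ < 1 := by
    rw [hρ, Real.exp_lt_one_iff]
    exact div_neg_of_neg_of_pos (neg_lt_zero.mpr Real.pi_pos) hN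
  have hmax : ∀ r, ∃ x ∈ Metric.closedBall (0 : ℂ) ρ,
      IsMaxOn (fun q => ‖K r q‖) (Metric.closedBall 0 ρ) x := by
    intro r
    exact (isCompact_closedBall (0 : ℂ) ρ).exists_isMaxOn (Metric.nonempty_closedBall.mpr hρ0)
      ((hKdiff r).continuousOn.mono (Metric.closedBall_subset_ball hρ1)).norm
  choose x hx hxmax using hmax
  obtain ⟨r₀, hr₀, hr₀max⟩ := Finset.exists_max_image R (fun r => ‖K r (x r)‖) hRne
  have hbound : ∀ z : ℍ, ‖Complex.exp (Φ z)‖ ≤ ‖K r₀ (x r₀)‖ := by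
    intro z
    obtain ⟨g, hg⟩ := ModularGroup.exists_one_half_le_im_smul z
    obtain ⟨γ, hγ, r, hr, hgr⟩ := hR g⁻¹
    have hz : z = γ • (r • (g • z)) := by
      rw [← mul_smul, ← mul_smul, ← hgr, inv_mul_cancel, one_smul]
    have h1 : ‖Complex.exp (Φ z)‖ = ‖K r (Function.Periodic.qParam N ((g • z : ℍ) : ℂ))‖ := by
      rw [hKeq]
      conv_lhs => rw [hz]
      exact es1per_norm_exp_smul_eq hinv hγ _
    rw [h1]
    refine le_trans (hxmax r ?_) (hr₀max r hr)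
    rw [mem_closedBall_zero_iff, Function.Periodic.norm_qParam, hρ]
    apply Real.exp_le_exp.mpr
    rw [UpperHalfPlane.coe_im]
    apply div_le_div_of_nonneg_right _ hN.le
    nlinarith [Real.pi_pos]
  have hne : ∀ q : ℂ, ‖q‖ < 1 → q ≠ 0 → ‖K r₀ q‖ ≤ ‖K r₀ (x r₀)‖ := by
    intro q hq1 hq0
    have him := Function.Periodic.im_invQParam_pos_of_norm_lt_one hN hq1 hq0
    have := hKeq r₀ ⟨_, him⟩
    rw [UpperHalfPlane.coe_mk, Function.Periodic.qParam_right_inv hN.ne' hq0] at this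
    rw [this]
    exact hbound _
  have hmaxball : IsMaxOn (norm ∘ K r₀) (Metric.ball 0 1) (x r₀) := by
    intro q hq
    have hq1 : ‖q‖ < 1 := mem_ball_zero_iff.mp hq
    show ‖K r₀ q‖ ≤ ‖K r₀ (x r₀)‖
    rcases eq_or_ne q 0 with rfl | hq0
    · have hcont : ContinuousAt (K r₀) 0 :=
        ((hKdiff r₀).differentiableAt (Metric.ball_mem_nhds 0 one_pos)).continuousAt
      have ht : Tendsto (fun q => ‖K r₀ q‖) (𝓝[≠] 0) (𝓝 ‖K r₀ 0‖) :=
        (hcont.norm.tendsto).mono_left nhdsWithin_le_nhds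
      refine le_of_tendsto ht ?_
      have hev : ∀ᶠ q in 𝓝[≠] (0 : ℂ), ‖q‖ < 1 := by
        apply nhdsWithin_le_nhds
        filter_upwards [Metric.ball_mem_nhds (0 : ℂ) one_pos] with q hq
        exact mem_ball_zero_iff.mp hq
      filter_upwards [self_mem_nhdsWithin, hev] with q hq0 hq1
      exact hne q hq1 hq0
    · exact hne q hq1 hq0
  have hconst := Complex.eq_const_of_exists_max (hKdiff r₀)
    (Metric.closedBall_subset_ball hρ1 (hx r₀)) hmaxball
  refine ⟨K r₀ (x r₀), fun z => ?_⟩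
  have := hKeq r₀ (r₀⁻¹ • z)
  rw [smul_inv_smul] at this
  rw [← this]
  refine hconst ?_
  rw [mem_ball_zero_iff]
  exact Function.Periodic.norm_qParam_lt_one hN (r₀⁻¹ • z).im_pos

/-- Core lemma: a holomorphic function on `ℍ` whose `Γ`-increments are purely imaginary
constants and which has a limit at every cusp has zero derivative. -/
theorem es1per_eq_zero_of_imaginary_increments [Γ.FiniteIndex] [NeZero N] {Φ φ : ℍ → ℂ}
    (hT : ∀ δ : SL(2, ℤ), δ * ModularGroup.T ^ (N : ℤ) * δ⁻¹ ∈ Γ)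
    (hΦ : IsPrimitive Φ φ)
    (hinv : ∀ γ ∈ Γ, ∃ c : ℂ, c.re = 0 ∧ ∀ z : ℍ, Φ (γ • z) - Φ z = c)
    (hlim : ∀ δ : SL(2, ℤ), ∃ L : ℂ, Tendsto (fun w : ℍ => Φ (δ • w)) atImInfty (𝓝 L))
    (τ : ℍ) : φ τ = 0 := by
  obtain ⟨C, hC⟩ := es1per_exp_const hT hΦ hinv hlim
  have h1 : HasDerivAt (fun w => Complex.exp ((Φ ∘ ofComplex) w))
      (Complex.exp ((Φ ∘ ofComplex) τ) * φ τ) τ := (hΦ τ).cexp
  have h2 : HasDerivAt (fun w : ℂ => Complex.exp ((Φ ∘ ofComplex) w)) 0 τ := by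
    have : (fun w : ℂ => Complex.exp ((Φ ∘ ofComplex) w)) = fun _ => C := by
      funext w; exact hC _
    rw [this]; exact hasDerivAt_const _ _
  have := h1.unique h2
  exact (mul_eq_zero.mp this).resolve_left (Complex.exp_ne_zero _)

end MaxMod

/-- **The period homomorphism is injective**: if it vanishes then `g = 0`. -/
theorem Es1perCusp.eq_zero_of_hom_eq_zero {Γ : Subgroup SL(2, ℤ)} [Γ.FiniteIndex] {N : ℕ}
    [NeZero N] (hT : ∀ δ : SL(2, ℤ), δ * ModularGroup.T ^ (N : ℤ) * δ⁻¹ ∈ Γ) {g : ℍ → ℂ}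
    (hg : Es1perCusp Γ g) (h0 : hg.hom = 0) : g = 0 := by
  funext τ
  have hF := hg.isPrimitive_primitive
  refine es1per_eq_zero_of_imaginary_increments hT hF ?_
    (fun δ => hg.exists_tendsto_smul hF δ) τ
  intro γ hγ
  refine ⟨0, rfl, fun z => ?_⟩
  have h1 := hg.hom_apply hF ⟨γ, hγ⟩ z
  rw [h0] at h1
  exact h1.symm

end Fermat.Agent.ES1
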