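import Fermat.Agent.ES1.RCCuspExactPlan

/-!
# ES₁ / RC-cuspx, piece (b): the analytic bridge at a cusp (helper34)

`Γ ≤ SL(2, ℤ)` of finite index, `h` a period of the cusp `g∞` of `Γ`, `f` a modular function for
`Γ`.  Then `F z = f (g • (h z))` is holomorphic on `ℍ`, `1`-periodic and meromorphic at `i∞`, and
the order of its Laurent expansion is the order of `f` at the cusp in the parameter `q_h`.

* `es1rccxb_cuspFn_scaleN` : `cuspFn 1 (φ ∘ (h ·)) = cuspFn h φ` on the punctured unit disc;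
* `es1rccxb_order_of_isHPB`, `es1rccxb_order_of_isMerInf` : the order of the Laurent expansion of a
  function meromorphic at `i∞` is the order of its cusp function at `0`;
* `es1rccxb_isMerInf` (b1), `es1rccxb_order` (b2);
* `stmtCuspBridgeG Γ : StmtCuspBridgeG Γ`.
-/

set_option autoImplicit false

noncomputable section

namespace Fermat.Agent.ES1

open UpperHalfPlane ModularForm Filter Topology Function
open Fermat.Agent.S23 Fermat.Agent.S24 Fermat.Agent.S28 Fermat.Agent.ES.RC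
open scoped MatrixGroups Manifold ModularForm

local notation "Δ" => ModularForm.discriminant

/-! ### Cusp functions -/

/-- `cuspFn 1 (φ ∘ (h ·)) = cuspFn h φ` on the punctured unit disc. -/
theorem es1rccxb_cuspFn_scaleN (h : ℕ) [NeZero h] (φ : ℍ → ℂ) {q : ℂ} (hq : q ≠ 0)
    (hq1 : ‖q‖ < 1) : cuspFn 1 (fun z => φ (scaleN h z)) q = cuspFn h φ q := by
  have hh : 0 < h := Nat.pos_of_ne_zero (NeZero.ne h)
  rw [cuspFn_apply, cuspFn_apply]
  congr 1
  apply UpperHalfPlane.ext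
  rw [coe_scaleN, coe_ofComplex_invQParam one_pos hq hq1, coe_ofComplex_invQParam hh hq hq1]
  simp only [Function.Periodic.invQParam]
  push_cast
  ring

/-- `cuspFn 1 B` is Mathlib's cusp function away from `0`. -/
theorem es1rccxb_cuspFn_eq_cuspFunction (B : ℍ → ℂ) {q : ℂ} (hq : q ≠ 0) :
    cuspFn 1 B q = cuspFunction 1 B q := by
  rw [cuspFn_apply, cuspFunction, Function.Periodic.cuspFunction_eq_of_nonzero _ _ hq]
  simp

theorem es1rccxb_cuspFn_eventuallyEq (B : ℍ → ℂ) :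
    cuspFn 1 B =ᶠ[𝓝[≠] (0 : ℂ)] cuspFunction 1 B := by
  rw [Filter.EventuallyEq, eventually_nhdsWithin_iff]
  exact Filter.Eventually.of_forall fun q hq => es1rccxb_cuspFn_eq_cuspFunction B hq

/-! ### The order of a `q`-expansion -/

theorem es1rccxb_order_ofPowerSeries {P : PowerSeries ℂ} {n : ℕ} (hn : P.order = n) :
    (HahnSeries.ofPowerSeries ℤ ℂ P).order = (n : ℤ) := by
  rw [PowerSeries.order_eq_nat] at hn
  obtain ⟨h1, h2⟩ := hn
  have hc : (HahnSeries.ofPowerSeries ℤ ℂ P).coeff (n : ℤ) ≠ 0 := by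
    rw [HahnSeries.ofPowerSeries_apply_coeff]
    exact h1
  have hne : HahnSeries.ofPowerSeries ℤ ℂ P ≠ 0 := by
    intro h0
    rw [h0] at hc
    exact hc rfl
  apply le_antisymm
  · exact HahnSeries.order_le_of_coeff_ne_zero hc
  · rw [HahnSeries.le_order_iff_forall hne]
    intro j hj
    have h3 := PowerSeries.coeff_coe (f := P) j
    rw [show ((P : LaurentSeries ℂ)) = HahnSeries.ofPowerSeries ℤ ℂ P from rfl] at h3
    rw [h3]
    split_ifs with hj0
    · rfl
    · apply h2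
      omega

/-- The order of the `q`-expansion of a holomorphic function bounded at `i∞` is the order of its
cusp function. -/
theorem es1rccxb_order_of_isHPB {B : ℍ → ℂ} (hB : IsHPB B) (hB0 : B ≠ 0) :
    meromorphicOrderAt (cuspFn 1 B) 0 =
      (((HahnSeries.ofPowerSeries ℤ ℂ (qExpansion 1 B)).order : ℤ) : WithTop ℤ) := by
  have han : AnalyticAt ℂ (cuspFunction 1 B) 0 := hB.analyticAt
  have hP : qExpansion 1 B ≠ 0 := by
    intro h0
    exact hB0 ((qExpansion_eq_zero_iff one_pos hB.2.1 hB.1 hB.2.2).mp h0)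
  obtain ⟨n, hn⟩ : ∃ n : ℕ, (qExpansion 1 B).order = n :=
    ⟨_, (ENat.natCast_toNat (PowerSeries.order_finite_iff_ne_zero.mpr hP).ne).symm⟩
  have hord : analyticOrderAt (cuspFunction 1 B) 0 = n := by
    rw [analyticOrderAt_eq_nat_iff_iteratedDeriv_eq_zero han]
    rw [PowerSeries.order_eq_nat] at hn
    refine ⟨fun k hk => ?_, fun h0 => hn.1 ?_⟩
    · have h1 := hn.2 k hk
      rw [qExpansion_coeff] at h1
      rcases mul_eq_zero.mp h1 with h2 | h2
      · exact absurd h2 (inv_ne_zero (Nat.cast_ne_zero.mpr (Nat.factorial_ne_zero k)))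
      · exact h2
    · rw [qExpansion_coeff, h0, mul_zero]
  rw [es1rccxb_order_ofPowerSeries hn, meromorphicOrderAt_congr (es1rccxb_cuspFn_eventuallyEq B),
    han.meromorphicOrderAt_eq, hord]
  rfl

theorem es1rccxb_discriminant_ne_zero : (Δ : ℍ → ℂ) ≠ 0 := fun h =>
  discriminant_ne_zero UpperHalfPlane.I (congrFun h UpperHalfPlane.I)

theorem es1rccxb_meromorphicAt_of_isHPB {B : ℍ → ℂ} (hB : IsHPB B) :
    MeromorphicAt (cuspFn 1 B) 0 :=
  hB.analyticAt.meromorphicAt.congr (es1rccxb_cuspFn_eventuallyEq B).symm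

/-- The cusp function of a function meromorphic at `i∞` is meromorphic at `0`. -/
theorem es1rccxb_meromorphicAt_of_isMerInf {F : ℍ → ℂ} (hF : IsMerInf F) :
    MeromorphicAt (cuspFn 1 F) 0 := by
  obtain ⟨m, hm⟩ := hF
  have e : cuspFn 1 F = cuspFn 1 (fun z => F z * Δ z ^ m) * ((cuspFn 1 Δ) ^ m)⁻¹ := by
    funext q
    simp only [cuspFn_apply, Pi.mul_apply, Pi.inv_apply, Pi.pow_apply]
    rw [mul_assoc, mul_inv_cancel₀ (pow_ne_zero m (discriminant_ne_zero _)), mul_one]
  rw [e]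
  exact (es1rccxb_meromorphicAt_of_isHPB hm).mul
    ((es1rccxb_meromorphicAt_of_isHPB bridge_isHPB_discriminant).pow m).inv

/-- The order of the Laurent expansion of a function meromorphic at `i∞` is the order of its
cusp function at `0`. -/
theorem es1rccxb_order_of_isMerInf {F : ℍ → ℂ} (hF : IsMerInf F) (hF0 : F ≠ 0) :
    meromorphicOrderAt (cuspFn 1 F) 0 = (((laurentOf F).order : ℤ) : WithTop ℤ) := by
  have hFm := es1rccxb_meromorphicAt_of_isMerInf hF
  have hL0 : laurentOf F ≠ 0 := fun h0 => hF0 ((laurentOf_eq_zero_iff hF).mp h0)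
  obtain ⟨m, hm⟩ := hF
  have hB0 : (fun z => F z * Δ z ^ m) ≠ 0 := by
    intro h0
    apply hF0
    funext z
    have := congrFun h0 z
    simp only [Pi.zero_apply] at this
    rcases mul_eq_zero.mp this with h1 | h1
    · exact h1
    · exact absurd h1 (pow_ne_zero m (discriminant_ne_zero _))
  have h1 := es1rccxb_order_of_isHPB hm hB0
  have h2 := es1rccxb_order_of_isHPB bridge_isHPB_discriminant es1rccxb_discriminant_ne_zero
  rw [bridge_ofPowerSeries_discriminant] at h2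
  have hΔm := es1rccxb_meromorphicAt_of_isHPB bridge_isHPB_discriminant
  have e : cuspFn 1 (fun z => F z * Δ z ^ m) = cuspFn 1 F * (cuspFn 1 Δ) ^ m := by
    funext q
    simp only [cuspFn_apply, Pi.mul_apply, Pi.pow_apply]
  have h3 : meromorphicOrderAt (cuspFn 1 (fun z => F z * Δ z ^ m)) 0 =
      meromorphicOrderAt (cuspFn 1 F) 0 + (m : WithTop ℤ) * meromorphicOrderAt (cuspFn 1 Δ) 0 := by
    rw [e, meromorphicOrderAt_mul hFm (hΔm.pow m), meromorphicOrderAt_pow hΔm]
  have h4 := laurentOf_mul_deltaL_pow hm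
  have h5 : (HahnSeries.ofPowerSeries ℤ ℂ (qExpansion 1 (fun z => F z * Δ z ^ m))).order =
      (laurentOf F).order + (m : ℤ) * deltaL.order := by
    rw [← h4, HahnSeries.order_mul hL0 (pow_ne_zero m deltaL_ne_zero), HahnSeries.order_pow,
      nsmul_eq_mul]
  have hmd : (m : WithTop ℤ) * ((deltaL.order : ℤ) : WithTop ℤ) =
      (((m : ℤ) * deltaL.order : ℤ) : WithTop ℤ) := by
    rw [WithTop.coe_mul]
    rfl
  rw [h1, h5, h2, hmd] at h3
  generalize meromorphicOrderAt (cuspFn 1 F) 0 = x at h3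
  induction x using WithTop.recTopCoe with
  | top =>
    rw [WithTop.top_add] at h3
    exact absurd h3 WithTop.coe_ne_top
  | coe y =>
    rw [← WithTop.coe_add] at h3
    have h7 : (laurentOf F).order + (m : ℤ) * deltaL.order = y + (m : ℤ) * deltaL.order :=
      WithTop.coe_injective h3
    have h8 : y = (laurentOf F).order := by linarith
    rw [h8]

/-! ### (b1) -/

/-- a holomorphic `h`-periodic function bounded at `i∞`, composed with `z ↦ h z`, is holomorphic,
`1`-periodic and bounded at `i∞` -/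
theorem es1rccxb_isHPB_comp_scaleN (h : ℕ) [NeZero h] {B : ℍ → ℂ} (hB : MDiff B)
    (hper : IsPer h B) (hbd : IsBoundedAtImInfty B) : IsHPB (fun z => B (scaleN h z)) := by
  refine ⟨mdiff_comp_scaleN h hB, ?_, hbd.comp_tendsto (P7_tendsto_scaleN_atImInfty h)⟩
  have hper1 : IsPer 1 (fun z => B (scaleN h z)) := by
    intro z
    show B (scaleN h ((((1 : ℕ) : ℝ)) +ᵥ z)) = B (scaleN h z)
    have e : scaleN h ((((1 : ℕ) : ℝ)) +ᵥ z) = (h : ℝ) +ᵥ scaleN h z := by
      apply UpperHalfPlane.ext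
      rw [coe_scaleN, coe_vadd, coe_vadd, coe_scaleN]
      push_cast
      ring
    rw [e, hper]
  have h1 := hper1.periodic_comp_ofComplex
  simpa using h1

variable {Γ : Subgroup SL(2, ℤ)}

/-- **(b1)** `z ↦ f (g • (h z))` is holomorphic, `1`-periodic and meromorphic at `i∞`. -/
theorem es1rccxb_isMerInf [Γ.FiniteIndex] {f : ℍ → ℂ} (hf : IsModFunG Γ f) {h : ℕ} [NeZero h]
    {g : SL(2, ℤ)} (hp : IsCuspPeriodG Γ h g) : IsMerInf (fun z => f (g • scaleN h z)) := by
  obtain ⟨m, B, hBd, hBb, hB⟩ := es1rccusp_exists_bdd_repr hf g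
  have hper : IsPer h (fun τ => f (g • τ)) := es1rccusp_isPer_comp hf hp
  have hΔper : IsPer h (fun τ => Δ τ ^ m) := rc_isPer_pow (rc_isPer_discriminant h) m
  have hBper : IsPer h B := by
    intro τ
    have e1 : f (g • ((h : ℝ) +ᵥ τ)) = f (g • τ) := hper τ
    have e2 : Δ ((h : ℝ) +ᵥ τ) ^ m = Δ τ ^ m := hΔper τ
    rw [hB, hB, e1, e2]
  refine ⟨h * m, ?_⟩
  have h1 := es1rccxb_isHPB_comp_scaleN h hBd hBper hBb
  have h2 := bridge_isHPB_pow (bridge_isHPB_thetaFun h) m
  have h3 := h1.mul h2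
  convert h3 using 1
  funext z
  simp only [Pi.mul_apply]
  rw [hB]
  exact bridge_comp_scaleN_mul h (fun τ => f (g • τ)) m z

/-! ### (b2) -/

theorem es1rccxb_comp_ne_zero {f : ℍ → ℂ} (hf0 : f ≠ 0) (h : ℕ) [NeZero h] (g : SL(2, ℤ)) :
    (fun z => f (g • scaleN h z)) ≠ 0 := by
  intro h0
  apply hf0
  funext τ
  have hh : (0 : ℝ) < h := Nat.cast_pos.mpr (Nat.pos_of_ne_zero (NeZero.ne h))
  have hhc : (h : ℂ) ≠ 0 := Nat.cast_ne_zero.mpr (NeZero.ne h)
  have him : 0 < (((g⁻¹ • τ : ℍ) : ℂ) / (h : ℂ)).im := by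
    have e : (((g⁻¹ • τ : ℍ) : ℂ) / (h : ℂ)).im = (g⁻¹ • τ : ℍ).im / h := by
      rw [show ((h : ℂ)) = ((h : ℝ) : ℂ) by push_cast; rfl, Complex.div_ofReal_im]
      rfl
    rw [e]
    exact div_pos (g⁻¹ • τ : ℍ).im_pos hh
  have hz : scaleN h ⟨((g⁻¹ • τ : ℍ) : ℂ) / (h : ℂ), him⟩ = g⁻¹ • τ := by
    apply UpperHalfPlane.ext
    rw [coe_scaleN]
    show (h : ℂ) * (((g⁻¹ • τ : ℍ) : ℂ) / (h : ℂ)) = _
    field_simp
  have h1 := congrFun h0 ⟨((g⁻¹ • τ : ℍ) : ℂ) / (h : ℂ), him⟩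
  simp only [Pi.zero_apply] at h1
  rw [hz, smul_smul, mul_inv_cancel, one_smul] at h1
  exact h1

/-- **(b2)** the order of the Laurent expansion of `z ↦ f (g • (h z))` is the order of `f` at
the cusp `g∞` in the parameter `q_h`. -/
theorem es1rccxb_order [Γ.FiniteIndex] {f : ℍ → ℂ} (hf : IsModFunG Γ f) (hf0 : f ≠ 0) {h : ℕ}
    [NeZero h] {g : SL(2, ℤ)} (hp : IsCuspPeriodG Γ h g) :
    (laurentOf (fun z => f (g • scaleN h z))).order = ordCusp h g f := by
  have hF := es1rccxb_isMerInf hf hp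
  have hF0 := es1rccxb_comp_ne_zero hf0 h g
  have h1 := es1rccxb_order_of_isMerInf hF hF0
  have h2 : cuspFn 1 (fun z => f (g • scaleN h z)) =ᶠ[𝓝[≠] (0 : ℂ)]
      cuspFn h (fun τ => f (g • τ)) := by
    filter_upwards [eventually_punctured_disc] with q hq
    exact es1rccxb_cuspFn_scaleN h (fun τ => f (g • τ)) hq.1 hq.2
  rw [meromorphicOrderAt_congr h2] at h1
  rw [ordCusp, h1]
  rfl

/-- **RC-cuspx (b)**: the analytic bridge at the cusps. -/
theorem stmtCuspBridgeG (Γ : Subgroup SL(2, ℤ)) [Γ.FiniteIndex] : StmtCuspBridgeG Γ := by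
  intro g h _ hp f hf
  exact ⟨es1rccxb_isMerInf hf hp, fun hf0 => es1rccxb_order hf hf0 hp⟩

end Fermat.Agent.ES1
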