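import Fermat.Agent.ES1.RCFinal
import Fermat.Agent.ES1.RCCuspExactB

/-!
# ES₁ / F3 = RC-Γ, final (2): exactness at the cusps, unconditional

`Γ = gammaH L M H`, `M ∣ L`, `L ≠ 0`, `F = fieldC ℂ L M H` with the algebra structure
`es1rcAlgebra hML H` over `modFunAlgG Γ` (`q`-expansion):

* `es1rc_stmtCuspExactG : StmtCuspExactG Γ F`  (the place of `F` at a cusp is the order of the
  `q`-expansion there, EXACTLY; = `es1rc_stmtCuspExactG_of_bridge` + `stmtCuspBridgeG`).
-/

set_option autoImplicit false
set_option linter.unusedSectionVars false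
set_option linter.style.haveILetI false

noncomputable section

namespace Fermat.Agent.ES1

open CongruenceSubgroup
open scoped MatrixGroups

variable {L M : ℕ} [NeZero L] (hML : M ∣ L) (H : Subgroup (ZMod M)ˣ)

/-- exactness at the cusps for `fieldC ℂ L M H`, unconditional -/
theorem es1rc_stmtCuspExactG :
    letI := es1rcAlgebra hML H
    StmtCuspExactG (gammaH L M H) (fieldC ℂ L M H) := by
  haveI := es1rc_finiteIndex hML H
  exact es1rc_stmtCuspExactG_of_bridge hML H (stmtCuspBridgeG (gammaH L M H))

end Fermat.Agent.ES1
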