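import Fermat.Agent.ES1.HInputs
import Fermat.Agent.ES1.RamPlan

/-!
# ES₁, piece (H): bridge to the deliverable `RamJH` of F4

`Es1hFin L M H` (the only modular input of piece (H)) is the field `finite` of `RamJH L M H`;
so `StmtRamJH` gives all Hecke inputs.
-/

set_option autoImplicit false

noncomputable section

open AlgebraicCurve ModularCurve IntermediateField

namespace Fermat.Agent.ES1

open Fermat.Agent.S24

variable {L M : ℕ} {H : Subgroup (ZMod M)ˣ}

theorem es1hJ_eq_jFH [NeZero L] : es1hJ L M H = jFH L M H := rfl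

theorem es1hFin_iff [NeZero L] :
    Es1hFin L M H ↔ FiniteDimensional Kb⟮jFH L M H⟯ (fieldBar L M H) := Iff.rfl

theorem es1hFin_of_ramJH [NeZero L] (h : RamJH L M H) : Es1hFin L M H := h.finite

/-- all Hecke inputs from F4's deliverable -/
theorem es1h_inputs_of_stmtRamJH (hR : StmtRamJH) {ℓ : ℕ} [NeZero ℓ] [NeZero L] (hML : M ∣ L) :
    Es1hInputs L M H ℓ :=
  haveI : NeZero (L * ℓ) := ⟨Nat.mul_ne_zero (NeZero.ne L) (NeZero.ne ℓ)⟩
  es1h_inputs (es1hFin_of_ramJH (hR L M H hML))
    (es1hFin_of_ramJH (hR (L * ℓ) M H (hML.trans (dvd_mul_right L ℓ))))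

end Fermat.Agent.ES1
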