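import Fermat.Agent.ES1.Defs
import Fermat.Agent.ES1.Group
import Fermat.Agent.ES1.HeckeGrp
import Fermat.Agent.ES1.RootModFunG
import Fermat.Agent.ES1.RealDefs
import Fermat.Agent.ES1.HInputs
import Fermat.Agent.ES1.G2.Plan
import Fermat.Agent.ES.KummerBridge
import Fermat.Agent.ES.Multiplier
import Fermat.Agent.ES.Top2

/-!
# ES₁-G1 — the multiplier map `μ` for `JH L M H`: interface (sub-captain helper38)

`Γ = gammaH L M H`, `K = fieldBar L M H ⊂ ℚ̄((q))`, `J = JH L M H = Pic⁰(K)`.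

`MuRelH L M H n x χ` : the class `x ∈ J` has a Kummer function `u ∈ K` (`n D = div u`,
`x = [D]`), `u = a / g` analytically (`a`, `g` holomorphic modular functions of level `Γ`), and an
`n`-th root `w = R.a / R.g` of `a / g` on `ℍ` has multiplier character `χ : Γ → ℂˣ`.

The pieces of G1 are the Props below; see `NOTES/ES1-G1.md` for the table.  The operators on
`Hom(Γ, A)` are `heckeGrp`, `diamGrp` of `ES1/HeckeGrp.lean`; on `J` they are `es1hHecke`
(`ES1/HInputs.lean`) and `es1Diamond` (`ES1/G2/Plan.lean`).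
-/

set_option autoImplicit false

noncomputable section

namespace Fermat.Agent.ES1

open ModularCurve AlgebraicCurve CongruenceSubgroup ModularCurve.Period UpperHalfPlane
open Fermat.Agent.ES Fermat.Agent.S24 Fermat.Agent.S28
open scoped MatrixGroups Manifold

variable (L M : ℕ) (H : Subgroup (ZMod M)ˣ)

/-- the group of characters of `Γ = gammaH L M H`, additively -/
abbrev CharGrpH : Type := Additive (gammaH L M H) →+ Additive ℂˣ

/-- the character `e(φ/n) : γ ↦ exp(2πi φ(γ)/n)` of `Γ` -/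
def expCharH (n : ℕ) (φ : Additive (gammaH L M H) →+ ℤ) : CharGrpH L M H := (expHom n).comp φ

theorem expCharH_apply (n : ℕ) (φ : Additive (gammaH L M H) →+ ℤ)
    (γ : Additive (gammaH L M H)) : expCharH L M H n φ γ = expHom n (φ γ) := rfl

/-- `u = a / g` analytically: `a`, `g` are holomorphic modular functions of level `Γ` and the
`q`-expansion of `u` (coefficients embedded in `ℂ`) times that of `g` is that of `a`. -/
def IsAnFracH (u : fieldBar L M H) (a g : ℍ → ℂ) : Prop :=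
  IsModFunG (gammaH L M H) a ∧ IsModFunG (gammaH L M H) g ∧ g ≠ 0 ∧
    coeffMap embC (u : LaurentSeries (AlgebraicClosure ℚ)) * laurentOf g = laurentOf a

/-- `χ` is the multiplier character of an `n`-th root of a Kummer function of `x`. -/
def MuRelH (n : ℕ) (x : JH L M H) (χ : CharGrpH L M H) : Prop :=
  ∃ (u : fieldBar L M H) (a g : ℍ → ℂ) (R : RootData (gammaH L M H) n),
    KummerRel n x u ∧ IsAnFracH L M H u a g ∧
      (∀ τ : ℍ, R.a τ ^ n * g τ = a τ * R.g τ ^ n) ∧ R.multAdd = χ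

/-! ## The pieces -/

/-- (E) every `n`-torsion class has a multiplier. -/
def MuExistsH : Prop :=
  ∀ (n : ℕ), 0 < n → ∀ x : JH L M H, n • x = 0 → ∃ χ, MuRelH L M H n x χ

/-- (U) the multiplier does not depend on the choices, nor on the exponent. -/
def MuUniqueH : Prop :=
  ∀ (n m : ℕ), 0 < n → 0 < m → ∀ (x : JH L M H) (χ χ' : CharGrpH L M H),
    MuRelH L M H n x χ → MuRelH L M H m x χ' → χ = χ'

/-- (A) additivity. -/
def MuAddH : Prop :=
  ∀ (n : ℕ), 0 < n → ∀ (x y : JH L M H) (χ ψ : CharGrpH L M H),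
    MuRelH L M H n x χ → MuRelH L M H n y ψ → MuRelH L M H n (x + y) (χ + ψ)

/-- (I) injectivity. -/
def MuInjH : Prop := ∀ (n : ℕ), 0 < n → ∀ x : JH L M H, MuRelH L M H n x 0 → x = 0

/-- (S) surjectivity onto the classes of the integral parabolic homs. -/
def MuSurjH : Prop :=
  ∀ φ : Additive (gammaH L M H) →+ ℤ, IsParabolicHom (gammaH L M H) φ → ∀ n : ℕ, 0 < n →
    ∃ x : JH L M H, n • x = 0 ∧ MuRelH L M H n x (expCharH L M H n φ)

/-- (H) Hecke-equivariance: `μ (T_ℓ x) = heckeGrp ℓ (μ x)` for the primes `ℓ ∤ L`. -/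
def MuHeckeH [NeZero L] [NeZero M] (hML : M ∣ L) : Prop :=
  ∀ (ℓ : ℕ) [NeZero ℓ], ℓ.Prime → ¬ ℓ ∣ L → ∀ (n : ℕ), 0 < n →
    ∀ (x : JH L M H) (χ : CharGrpH L M H), MuRelH L M H n x χ →
      MuRelH L M H n (es1hHecke L M H ℓ x) (heckeGrp L M H ℓ hML χ)

/-- (D) diamond-equivariance: `μ (δ_c x) = diamGrp σ (μ x)` for `σ ∈ Γ₀(L) ∩ Γ₀(M)` with
`σ₀₀ ≡ c` mod `M`. -/
def MuDiamH : Prop :=
  ∀ (c : (ZMod M)ˣ) (σ : SL(2, ℤ)) (hσL : σ ∈ Gamma0 L) (hσM : σ ∈ Gamma0 M),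
    diamHom M ⟨σ, hσM⟩ = c → ∀ (n : ℕ), 0 < n →
    ∀ (x : JH L M H) (χ : CharGrpH L M H), MuRelH L M H n x χ →
      MuRelH L M H n (G2.es1Diamond L M H c x) (diamGrp L M H σ hσL hσM χ)

/-! ## The multiplier map -/

variable {L M H}

theorem MuRelH.smul_eq_zero {n : ℕ} {x : JH L M H} {χ : CharGrpH L M H}
    (h : MuRelH L M H n x χ) : n • x = 0 := by
  obtain ⟨u, a, g, R, hK, -⟩ := h
  exact hK.nsmul_eq_zero

variable (L M H)

open Classical in
/-- the multiplier map (`0` outside the torsion) -/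
def muMapH (x : JH L M H) : CharGrpH L M H :=
  if h : ∃ (n : ℕ) (χ : CharGrpH L M H), 0 < n ∧ MuRelH L M H n x χ then h.choose_spec.choose
  else 0

variable {L M H}

theorem muMapH_eq (hU : MuUniqueH L M H) {n : ℕ} (hn : 0 < n) {x : JH L M H}
    {χ : CharGrpH L M H} (h : MuRelH L M H n x χ) : muMapH L M H x = χ := by
  classical
  have hex : ∃ (n : ℕ) (χ : CharGrpH L M H), 0 < n ∧ MuRelH L M H n x χ := ⟨n, χ, hn, h⟩
  rw [muMapH, dif_pos hex]
  exact hU _ _ hex.choose_spec.choose_spec.1 hn x _ _ hex.choose_spec.choose_spec.2 h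

theorem muRelH_muMapH (hE : MuExistsH L M H) (hU : MuUniqueH L M H) {n : ℕ} (hn : 0 < n)
    {x : JH L M H} (hx : n • x = 0) : MuRelH L M H n x (muMapH L M H x) := by
  obtain ⟨χ, hχ⟩ := hE n hn x hx
  rw [muMapH_eq hU hn hχ]
  exact hχ

theorem muMapH_add (hE : MuExistsH L M H) (hU : MuUniqueH L M H) (hA : MuAddH L M H)
    {n : ℕ} (hn : 0 < n) {x y : JH L M H} (hx : n • x = 0) (hy : n • y = 0) :
    muMapH L M H (x + y) = muMapH L M H x + muMapH L M H y :=
  muMapH_eq hU hn (hA _ hn x y _ _ (muRelH_muMapH hE hU hn hx) (muRelH_muMapH hE hU hn hy))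

theorem muMapH_eq_zero (hE : MuExistsH L M H) (hU : MuUniqueH L M H) (hI : MuInjH L M H)
    {n : ℕ} (hn : 0 < n) {x : JH L M H} (hx : n • x = 0) (h0 : muMapH L M H x = 0) : x = 0 := by
  have := muRelH_muMapH hE hU hn hx
  rw [h0] at this
  exact hI _ hn x this

theorem muMapH_hecke [NeZero L] [NeZero M] (hML : M ∣ L) (hE : MuExistsH L M H)
    (hU : MuUniqueH L M H) (hH : MuHeckeH L M H hML) {ℓ : ℕ} [NeZero ℓ] (hℓ : ℓ.Prime)
    (hℓL : ¬ ℓ ∣ L) {n : ℕ} (hn : 0 < n) {x : JH L M H} (hx : n • x = 0) :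
    muMapH L M H (es1hHecke L M H ℓ x) = heckeGrp L M H ℓ hML (muMapH L M H x) :=
  muMapH_eq hU hn (hH ℓ hℓ hℓL n hn x _ (muRelH_muMapH hE hU hn hx))

theorem muMapH_diam (hE : MuExistsH L M H) (hU : MuUniqueH L M H) (hD : MuDiamH L M H)
    {c : (ZMod M)ˣ} {σ : SL(2, ℤ)} (hσL : σ ∈ Gamma0 L) (hσM : σ ∈ Gamma0 M)
    (hc : diamHom M ⟨σ, hσM⟩ = c) {n : ℕ} (hn : 0 < n) {x : JH L M H} (hx : n • x = 0) :
    muMapH L M H (G2.es1Diamond L M H c x) = diamGrp L M H σ hσL hσM (muMapH L M H x) :=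
  muMapH_eq hU hn (hD c σ hσL hσM hc n hn x _ (muRelH_muMapH hE hU hn hx))

theorem muMapH_surj (hU : MuUniqueH L M H) (hS : MuSurjH L M H)
    (φ : Additive (gammaH L M H) →+ ℤ) (hφ : IsParabolicHom (gammaH L M H) φ) {n : ℕ}
    (hn : 0 < n) : ∃ x : JH L M H, n • x = 0 ∧ muMapH L M H x = expCharH L M H n φ := by
  obtain ⟨x, hx, hrel⟩ := hS φ hφ n hn
  exact ⟨x, hx, muMapH_eq hU hn hrel⟩

end Fermat.Agent.ES1
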