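/-
ES₁ / F3 = RC-Γ, piece RC-all, finite places (helper81).
Fork of `Fermat/Agent/ES/RC/PlaceAllPt.lean` for an arbitrary subgroup `Γ ≤ SL(2, ℤ)` of finite
index.

`es1rcall_place_pt_of_ord_nonneg` : a place `v` of `F = Frac (modFunAlgG Γ)` at which `J` is
regular is the place at a point `τ ∈ ℍ`.
-/
import Fermat.Agent.ES1.RCAllAlg
import Fermat.Agent.ES.RC.PlaceAllPt

set_option autoImplicit false
set_option linter.style.haveILetI false
set_option linter.unusedSectionVars false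

noncomputable section

namespace Fermat.Agent.ES1

open UpperHalfPlane AlgebraicCurve ModularForm Polynomial IntermediateField
open Fermat.Agent.S23 Fermat.Agent.S24 Fermat.Agent.S28 Fermat.Agent.ES.RC
open scoped MatrixGroups Manifold ModularForm

variable (Γ : Subgroup SL(2, ℤ)) [Γ.FiniteIndex]

/-! ### Polynomials in `t = J - c` -/

theorem es1rcall_aeval_jSub_apply (c : ℂ) (P : ℂ[X]) (τ : ℍ) :
    ((aeval (es1rcptJSub Γ c) P : modFunAlgG Γ) : ℍ → ℂ) τ = P.eval (Jfun τ - c) := by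
  have h := Polynomial.aeval_algHom_apply (es1rcallEv Γ τ) (es1rcptJSub Γ c) P
  rw [es1rcallEv_apply, es1rcallEv_apply] at h
  rw [← h, Polynomial.coe_aeval_eq_eval]
  rfl

theorem es1rcall_J_eq_jSub_add (c : ℂ) : es1rcptJ Γ = es1rcptJSub Γ c + algebraMap ℂ (modFunAlgG Γ) c := by
  simp [es1rcptJSub, es1rcptJ]

theorem es1rcall_aeval_jSub_comp (c : ℂ) (d : ℂ[X]) :
    aeval (es1rcptJSub Γ c) (d.comp (X + C c)) = aeval (es1rcptJ Γ) d := by
  rw [Polynomial.aeval_comp, map_add, aeval_X, aeval_C, ← es1rcall_J_eq_jSub_add]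

theorem es1rcall_aeval_jSub_ne_zero (c : ℂ) {P : ℂ[X]} (hP : P ≠ 0) : aeval (es1rcptJSub Γ c) P ≠ 0 := by
  have h1 : P = (P.comp (X - C c)).comp (X + C c) := by
    simp [Polynomial.comp_assoc]
  have h2 : P.comp (X - C c) ≠ 0 := by
    intro h
    apply hP
    rw [h1, h]
    simp
  rw [h1, es1rcall_aeval_jSub_comp]
  exact es1rcall_aeval_J_ne_zero Γ h2

/-- Conjugates, centred at `c`. -/
theorem es1rcall_conj_core_c (c : ℂ) (a : modFunAlgG Γ) :
    ∃ (s : Finset (SL(2, ℤ) ⧸ Γ)) (g : SL(2, ℤ) ⧸ Γ → SL(2, ℤ)) (P : ℕ → ℂ[X]), P 0 = 1 ∧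
      (∑ j ∈ Finset.range (Γ.index + 1),
        (-1 : modFunAlgG Γ) ^ j * aeval (es1rcptJSub Γ c) (P j) * a ^ (Γ.index - j) = 0) ∧
      ∀ (j : ℕ), ((aeval (es1rcptJSub Γ c) (P j) : modFunAlgG Γ) : ℍ → ℂ) =
        fun τ => ∑ S ∈ Finset.powersetCard j s,
          ∏ q ∈ S, (a : ℍ → ℂ) (g q • τ) := by
  obtain ⟨s, g, P, hP0, hrel, hsym⟩ := es1rcall_conj_core Γ a
  refine ⟨s, g, fun j => (P j).comp (X + C c), by simp [hP0], ?_, fun j => ?_⟩
  · apply Subtype.ext
    funext τ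
    have h1 : ((∑ j ∈ Finset.range (Γ.index + 1),
        (-1 : modFunAlgG Γ) ^ j * aeval (es1rcptJSub Γ c) ((P j).comp (X + C c)) *
          a ^ (Γ.index - j) : modFunAlgG Γ) : ℍ → ℂ) τ
        = es1rcallEv Γ τ (∑ j ∈ Finset.range (Γ.index + 1),
        (-1 : modFunAlgG Γ) ^ j * aeval (es1rcptJSub Γ c) ((P j).comp (X + C c)) *
          a ^ (Γ.index - j)) := rfl
    rw [h1, map_sum]
    simp only [map_mul, map_pow, map_neg, map_one, es1rcall_aeval_jSub_comp]
    simp only [es1rcallEv_apply, es1rcall_aeval_J_apply]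
    exact hrel τ
  · funext τ
    rw [es1rcall_aeval_jSub_comp, es1rcall_aeval_J_apply]
    exact hsym j τ

section Field

variable (F : Type*) [Field F] [Algebra ℂ F] [Algebra (modFunAlgG Γ) F]
  [IsScalarTower ℂ (modFunAlgG Γ) F] [IsFractionRing (modFunAlgG Γ) F]

theorem es1rcall_algebraMap_aeval_jSub (c : ℂ) (P : ℂ[X]) :
    algebraMap (modFunAlgG Γ) F (aeval (es1rcptJSub Γ c) P)
      = aeval (algebraMap (modFunAlgG Γ) F (es1rcptJSub Γ c)) P := by
  have h := Polynomial.aeval_algHom_apply (IsScalarTower.toAlgHom ℂ (modFunAlgG Γ) F) (es1rcptJSub Γ c) P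
  simpa using h.symm

theorem es1rcall_algebraMap_jSub (c : ℂ) :
    algebraMap (modFunAlgG Γ) F (es1rcptJSub Γ c) = es1rcallJF Γ F - algebraMap ℂ F c := by
  rw [es1rcptJSub, map_sub, ← IsScalarTower.algebraMap_apply]
  rfl

/-- **Finite places are points.** -/
theorem es1rcall_place_pt_of_ord_nonneg (v : Place ℂ F) (hv : 0 ≤ v.ord (es1rcallJF Γ F)) :
    ∃ (τ : ℍ) (e : ℕ), 0 < e ∧ ∀ f : modFunAlgG Γ, f ≠ 0 →
      ordPt τ (f : ℍ → ℂ) = (e : ℤ) * v.ord (algebraMap (modFunAlgG Γ) F f) := by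
  classical
  have htr := es1rcall_transcendental_jF Γ F
  have hna : es1rcallJF Γ F ∉ Set.range (algebraMap ℂ F) := by
    rintro ⟨c, hc⟩
    exact htr (hc ▸ isAlgebraic_algebraMap c)
  obtain ⟨c, hc⟩ := exists_ord_sub_pos (es1rcallJF Γ F) htr (es1rcall_isAlgebraic Γ F) v (es1rcallJF Γ F) hv hna
  set x : F := algebraMap (modFunAlgG Γ) F (es1rcptJSub Γ c) with hx
  have hxeq : x = es1rcallJF Γ F - algebraMap ℂ F c := es1rcall_algebraMap_jSub Γ F c
  have hvx : 0 < v.ord x := by rw [hxeq]; exact hc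
  have hx0 : x ≠ 0 := rc_algebraMap_ne_zero F (es1rcptJSub_ne_zero Γ c)
  obtain ⟨τ₁, hτ₁⟩ := Jfun_surjective c
  by_contra hcon
  push Not at hcon
  -- the places at points
  have hpt : ∀ τ : ℍ, ∃ (w : Place ℂ F) (e : ℕ), 0 < e ∧
      w.toValuationSubring = (es1rcptVal Γ F τ).valuationSubring ∧
      ∀ f : modFunAlgG Γ, f ≠ 0 →
        ordPt τ (f : ℍ → ℂ) = (e : ℤ) * w.ord (algebraMap (modFunAlgG Γ) F f) :=
    fun τ => es1rcpt_exists_place Γ F τ
  have hvne : ∀ (τ : ℍ) (w : Place ℂ F),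
      w.toValuationSubring = (es1rcptVal Γ F τ).valuationSubring → w ≠ v := by
    rintro τ w hw rfl
    obtain ⟨w', e, he, hw', hord⟩ := hpt τ
    have hww : w' = w := Place.ext (hw'.trans hw.symm)
    subst hww
    obtain ⟨f, hf, hne⟩ := hcon τ e he
    exact hne (hord f hf)
  -- transcendence and finiteness over `ℂ(x)`
  have hKeq : ℂ⟮x⟯ = ℂ⟮es1rcallJF Γ F⟯ := by
    apply le_antisymm
    · rw [adjoin_simple_le_iff, hxeq]
      exact sub_mem (mem_adjoin_simple_self ℂ _) (IntermediateField.algebraMap_mem _ _)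
    · rw [adjoin_simple_le_iff]
      have : es1rcallJF Γ F = x + algebraMap ℂ F c := by rw [hxeq]; ring
      rw [this]
      exact add_mem (mem_adjoin_simple_self ℂ _) (IntermediateField.algebraMap_mem _ _)
  have hxtr : Transcendental ℂ x := by
    intro halg
    apply htr
    have : es1rcallJF Γ F = x + algebraMap ℂ F c := by rw [hxeq]; ring
    rw [this]
    exact halg.add (isAlgebraic_algebraMap c)
  haveI hfd : FiniteDimensional ℂ⟮x⟯ F := hKeq ▸ es1rcall_finiteDimensional Γ F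
  obtain ⟨V, hV, -⟩ := sum_ord_eq_finrank x hxtr
  set S : Finset (Place ℂ F) :=
    V.filter (fun u => ∃ τ, u.toValuationSubring = (es1rcptVal Γ F τ).valuationSubring) with hS
  have hvS : v ∉ S := by
    intro hmem
    obtain ⟨τ, hτ⟩ := (Finset.mem_filter.mp hmem).2
    exact hvne τ v hτ rfl
  obtain ⟨h, hvh, hSh⟩ := exists_ord_neg x hxtr v S hvx hvS
    (fun u hu => (hV u).mp (Finset.mem_filter.mp hu).1)
  have hh0 : h ≠ 0 := by
    rintro rfl
    simp at hvh
  -- `h = a / D(x)`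
  obtain ⟨a, d, hd, hha⟩ := es1rcall_exists_frac_poly Γ F h
  set D : ℂ[X] := d.comp (X + C c) with hD
  have hD0 : D ≠ 0 := comp_ne_zero_of_ne_zero c hd
  have hhD : h * aeval x D = algebraMap (modFunAlgG Γ) F a := by
    rw [hx, ← es1rcall_algebraMap_aeval_jSub, hD, es1rcall_aeval_jSub_comp]
    exact hha
  have hDx0 : aeval x D ≠ 0 := by
    rw [hx, ← es1rcall_algebraMap_aeval_jSub]
    exact rc_algebraMap_ne_zero F (es1rcall_aeval_jSub_ne_zero Γ c hD0)
  have ha0 : a ≠ 0 := by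
    rintro rfl
    rw [map_zero] at hhD
    exact (mul_ne_zero hh0 hDx0) hhD
  have haF : algebraMap (modFunAlgG Γ) F a ≠ 0 := rc_algebraMap_ne_zero F ha0
  set r : ℕ := D.rootMultiplicity 0 with hr
  -- the order of `x` at the points over `c`
  have hordx : ∀ τ : ℍ, Jfun τ = c → 0 < ordPt τ (es1rcptJSub Γ c : ℍ → ℂ) := by
    intro τ hτ
    have := es1rcpt_ordPt_jSub_pos Γ τ
    rwa [hτ] at this
  -- regularity of `h` at all points over `c`
  have hreg : ∀ τ : ℍ, Jfun τ = c →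
      (r : ℤ) * ordPt τ (es1rcptJSub Γ c : ℍ → ℂ) ≤ ordPt τ (a : ℍ → ℂ) := by
    intro τ hτ
    obtain ⟨w, e, he, hw, hord⟩ := hpt τ
    have hwx : 0 < w.ord x := by
      have h1 := hord (es1rcptJSub Γ c) (es1rcptJSub_ne_zero Γ c)
      have h2 := hordx τ hτ
      rw [h1] at h2
      have he' : (0 : ℤ) < e := by exact_mod_cast he
      exact (mul_pos_iff_of_pos_left he').mp h2
    have hwS : w ∈ S := Finset.mem_filter.mpr ⟨(hV w).mpr hwx, τ, hw⟩
    have hwh := hSh w hwS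
    obtain ⟨-, hwD⟩ := place_ord_aeval w hwx D hD0
    have h3 : w.ord (algebraMap (modFunAlgG Γ) F a) = w.ord h + (r : ℤ) * w.ord x := by
      rw [← hhD, w.ord_mul hh0 hDx0, hwD]
    rw [hord a ha0, hord (es1rcptJSub Γ c) (es1rcptJSub_ne_zero Γ c), h3]
    have he' : (0 : ℤ) ≤ e := by exact_mod_cast he.le
    nlinarith [mul_nonneg he' hwh]
  -- the base point
  set E : ℕ := (ordAt τ₁ (es1rcptJSub Γ c : ℍ → ℂ)).toNat with hE
  have hEpos : 0 < E := by
    have := hordx τ₁ hτ₁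
    rw [ordPt] at this
    exact_mod_cast this
  have hEγ : ∀ γ : SL(2, ℤ), ordPt (γ • τ₁) (es1rcptJSub Γ c : ℍ → ℂ) = E := by
    intro γ
    have h1 := ordAt_comp_smul (es1rcptJSub Γ c : ℍ → ℂ) γ τ₁
    have h2 : (fun τ => (es1rcptJSub Γ c : ℍ → ℂ) (γ • τ)) = (es1rcptJSub Γ c : ℍ → ℂ) := by
      funext τ
      rw [es1rcptJSub_apply, es1rcptJSub_apply, Jfun_smul]
    rw [h2] at h1
    rw [ordPt, ← h1]
  have hconj : ∀ γ : SL(2, ℤ), ((r * E : ℕ) : ℕ∞) ≤ ordAt (γ • τ₁) (a : ℍ → ℂ) := by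
    intro γ
    have h1 := hreg (γ • τ₁) (by rw [Jfun_smul, hτ₁])
    rw [hEγ γ, ordPt] at h1
    rw [← es1rcpt_coe_ordPt (γ • τ₁) ha0]
    exact_mod_cast h1
  -- the norm polynomial
  obtain ⟨s, g, P, hP0, hrel, hsym⟩ := es1rcall_conj_core_c Γ c a
  have hPord : ∀ j, ((j * (r * E) : ℕ) : ℕ∞) ≤ ordAt τ₁ ((aeval (es1rcptJSub Γ c) (P j) : modFunAlgG Γ) : ℍ → ℂ) := by
    intro j
    rw [hsym j]
    refine rc_le_ordAt_sum _ _ τ₁ _ fun S hS => ?_
    have hcard : S.card = j := (Finset.mem_powersetCard.mp hS).2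
    have h1 := (rc_le_ordAt_prod S (fun q => fun τ => (a : ℍ → ℂ) (g q • τ))
      (fun q _ => rc_mdiff_comp_smul (es1rcpt_mdiff Γ a) (g q)) τ₁ (r * E)
      (fun q _ => by rw [ordAt_comp_smul]; exact hconj (g q))).2
    rwa [hcard] at h1
  obtain ⟨w₁, e₁, he₁, hw₁, hord₁⟩ := hpt τ₁
  have hw₁x : 0 < w₁.ord x := by
    have h1 := hord₁ (es1rcptJSub Γ c) (es1rcptJSub_ne_zero Γ c)
    have h2 := hordx τ₁ hτ₁
    rw [h1] at h2
    have he' : (0 : ℤ) < e₁ := by exact_mod_cast he₁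
    exact (mul_pos_iff_of_pos_left he').mp h2
  have hEe : (E : ℤ) = e₁ * w₁.ord x := by
    have h1 := hord₁ (es1rcptJSub Γ c) (es1rcptJSub_ne_zero Γ c)
    rw [ordPt] at h1
    exact h1
  have hdvd : ∀ j, (X : ℂ[X]) ^ (j * r) ∣ P j := by
    intro j
    rcases eq_or_ne (P j) 0 with h0 | h0
    · rw [h0]; exact dvd_zero _
    have hne : aeval (es1rcptJSub Γ c) (P j) ≠ 0 := es1rcall_aeval_jSub_ne_zero Γ c h0
    have h1 := hPord j
    rw [← es1rcpt_coe_ordPt τ₁ hne] at h1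
    have h2 : ((j * (r * E) : ℕ) : ℤ) ≤ ordPt τ₁ ((aeval (es1rcptJSub Γ c) (P j) : modFunAlgG Γ) : ℍ → ℂ) := by
      rw [ordPt]
      exact_mod_cast h1
    obtain ⟨-, h3⟩ := place_ord_aeval w₁ hw₁x (P j) h0
    rw [hord₁ _ hne, es1rcall_algebraMap_aeval_jSub, h3] at h2
    have h4 : ((j * r : ℕ) : ℤ) * E ≤ ((P j).rootMultiplicity 0 : ℤ) * E := by
      have : (e₁ : ℤ) * (((P j).rootMultiplicity 0 : ℤ) * w₁.ord x)
          = ((P j).rootMultiplicity 0 : ℤ) * E := by rw [hEe]; ring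
      rw [← this]
      refine le_trans (le_of_eq ?_) h2
      push_cast; ring
    have hE' : (0 : ℤ) < E := by exact_mod_cast hEpos
    have h5 : ((j * r : ℕ) : ℤ) ≤ ((P j).rootMultiplicity 0 : ℤ) := le_of_mul_le_mul_right h4 hE'
    have h6 : j * r ≤ (P j).rootMultiplicity 0 := by exact_mod_cast h5
    have := (Polynomial.le_rootMultiplicity_iff h0).mp h6
    simpa using this
  choose R hR using hdvd
  have hR0 : R 0 = 1 := by
    have := hR 0
    rw [hP0] at this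
    simpa using this.symm
  -- the relation for `y = a / x ^ r`
  set α : F := algebraMap (modFunAlgG Γ) F a with hα
  set y : F := α / x ^ r with hy
  have hαy : α = y * x ^ r := by
    rw [hy, div_mul_cancel₀ _ (pow_ne_zero r hx0)]
  have hxmem : x ∈ v.toValuationSubring := (place_mem_iff v hx0).mpr hvx.le
  have hrelF : ∑ j ∈ Finset.range (Γ.index + 1),
      ((-1 : F) ^ j * aeval x (R j)) * y ^ (Γ.index - j) = 0 := by
    have h1 := congrArg (algebraMap (modFunAlgG Γ) F) hrel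
    rw [map_sum, map_zero] at h1
    have h2 : ∀ j ∈ Finset.range (Γ.index + 1),
        algebraMap (modFunAlgG Γ) F ((-1 : modFunAlgG Γ) ^ j * aeval (es1rcptJSub Γ c) (P j) *
          a ^ (Γ.index - j))
        = x ^ (r * Γ.index) * (((-1 : F) ^ j * aeval x (R j)) * y ^ (Γ.index - j)) := by
      intro j hj
      have hj' : j ≤ Γ.index := Nat.lt_succ_iff.mp (Finset.mem_range.mp hj)
      rw [map_mul, map_mul, map_pow, map_pow, map_neg, map_one, es1rcall_algebraMap_aeval_jSub, ← hx,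
        ← hα, hαy, hR j, map_mul, map_pow, aeval_X, mul_pow, ← pow_mul]
      have e1 : r * Γ.index = j * r + r * (Γ.index - j) := by
        have : Γ.index = j + (Γ.index - j) := by omega
        conv_lhs => rw [this]
        ring
      rw [e1, pow_add]
      ring
    rw [Finset.sum_congr rfl h2, ← Finset.mul_sum] at h1
    exact (mul_eq_zero.mp h1).resolve_left (pow_ne_zero _ hx0)
  have hymem : y ∈ v.toValuationSubring := by
    refine rc_mem_of_relation v.toValuationSubring (Γ.index)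
      (fun j => (-1 : F) ^ j * aeval x (R j)) (by simp [hR0]) (fun j => ?_) y hrelF
    refine mul_mem (pow_mem (neg_mem (one_mem _)) j) (place_aeval_mem v hxmem (R j))
  -- conclusion
  obtain ⟨q, hq, hqdvd⟩ := Polynomial.exists_eq_pow_rootMultiplicity_mul_and_not_dvd D hD0 0
  have hq0 : q.coeff 0 ≠ 0 := by
    intro h0
    apply hqdvd
    rw [map_zero, sub_zero]
    exact Polynomial.X_dvd_iff.mpr h0
  obtain ⟨hqx0, hqord⟩ := place_ord_aeval_of_coeff_zero_ne v hvx q hq0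
  have hDq : aeval x D = x ^ r * aeval x q := by
    conv_lhs => rw [hq]
    simp [hr]
  have hyq : y = h * aeval x q := by
    rw [hy, ← hhD, hDq]
    field_simp
  have hy0 : y ≠ 0 := by
    rw [hyq]; exact mul_ne_zero hh0 hqx0
  have hyord : v.ord y = v.ord h := by
    rw [hyq, v.ord_mul hh0 hqx0, hqord, add_zero]
  have := (place_mem_iff v hy0).mp hymem
  omega

end Field

end Fermat.Agent.ES1
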