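/-
ES₁ / F3 = RC-Γ, piece RC-cusp (helper81): the order at a cusp as an order function on
`modFunAlgG Γ`, and the place of `Frac (modFunAlgG Γ)` at a cusp, for an arbitrary subgroup
`Γ ≤ SL(2, ℤ)` of finite index.  Fork of `Fermat/Agent/ES/RC/CuspVal.lean`, `PlaceCusp.lean`.

* `es1rccusp_isPer_comp` : `f ∘ g` is `h`-periodic for a period `h` of the cusp `g∞`;
* `es1rccusp_meromorphicAt`, `es1rccusp_order_ne_top` : the cusp function of `f ∘ g` in `q_h`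
  is meromorphic at `0`, of finite order if `f ≠ 0`;
* `isOrdFun_ordCuspG` : `f ↦ ordCusp h g f` is an order function on `modFunAlgG Γ`;
* `es1rccuspVal`, `es1rccusp_exists_place`;
* `stmtCuspG Γ F : StmtCuspG Γ F`.
-/
import Fermat.Agent.ES1.RCPt
import Fermat.Agent.ES.RC.PlaceCusp

set_option autoImplicit false

noncomputable section

namespace Fermat.Agent.ES1

open UpperHalfPlane AlgebraicCurve ModularForm WithZero Filter Topology
open Fermat.Agent.S23 Fermat.Agent.S24 Fermat.Agent.S28 Fermat.Agent.ES.RC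
open scoped MatrixGroups Manifold ModularForm

local notation "Δ" => ModularForm.discriminant

variable {Γ : Subgroup SL(2, ℤ)}

/-- `f ∘ g` is `h`-periodic if `g T^h g⁻¹ ∈ Γ`. -/
theorem es1rccusp_isPer_comp {f : ℍ → ℂ} (hf : IsModFunG Γ f) {h : ℕ} {g : SL(2, ℤ)}
    (hp : IsCuspPeriodG Γ h g) : IsPer h (fun τ => f (g • τ)) := by
  intro τ
  have h1 := hf.comp_smul hp.2 (g • τ)
  rw [← mul_smul, inv_mul_cancel_right, mul_smul, rc_T_pow_smul] at h1
  exact h1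

/-- `f ∘ g = B / Δ ^ m` with `B` holomorphic and bounded at `i∞`. -/
theorem es1rccusp_exists_bdd_repr [Γ.FiniteIndex] {f : ℍ → ℂ} (hf : IsModFunG Γ f)
    (g : SL(2, ℤ)) :
    ∃ (m : ℕ) (B : ℍ → ℂ), MDiff B ∧ IsBoundedAtImInfty B ∧
      ∀ τ, B τ = f (g • τ) * Δ τ ^ m := by
  have hfd : MDiff f := hf.mdiff
  obtain ⟨m, G, hG⟩ := hf
  have hB : ∀ τ, ((G : ℍ → ℂ) ∣[12 * (m : ℤ)] g) τ = f (g • τ) * Δ τ ^ m := by
    intro τ
    rw [ModularForm.SL_slash_apply, congrFun hG (g • τ)]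
    rw [rc_discriminant_smul g τ, mul_pow]
    have hd : denom g τ ≠ 0 := denom_ne_zero _ _
    have e3 : ((denom g τ) ^ (12 : ℤ)) ^ m = (denom g τ) ^ (12 * (m : ℤ)) := by
      rw [← zpow_natCast, ← zpow_mul]
    rw [e3, zpow_neg]
    field_simp
  refine ⟨m, (G : ℍ → ℂ) ∣[12 * (m : ℤ)] g, ?_, ModularFormClass.bdd_at_infty_slash G g, hB⟩
  have h1 : ((G : ℍ → ℂ) ∣[12 * (m : ℤ)] g) = fun τ => f (g • τ) * Δ τ ^ m := funext hB
  rw [h1]
  exact (hfd.comp (UpperHalfPlane.mdifferentiable_smul (g := (g : GL (Fin 2) ℝ))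
    (SL_val_det_pos g))).mul (rc_mdiff_discriminant.pow m)

/-- The cusp function of `f ∘ g` in `q_h` is meromorphic at `0`. -/
theorem es1rccusp_meromorphicAt [Γ.FiniteIndex] {f : ℍ → ℂ} (hf : IsModFunG Γ f) {h : ℕ}
    {g : SL(2, ℤ)} (hp : IsCuspPeriodG Γ h g) :
    MeromorphicAt (cuspFn h (fun τ => f (g • τ))) 0 := by
  obtain ⟨m, B, hBd, hBb, hB⟩ := es1rccusp_exists_bdd_repr hf g
  have hper : IsPer h (fun τ => f (g • τ)) := es1rccusp_isPer_comp hf hp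
  have hΔper : IsPer h (fun τ => Δ τ ^ m) := rc_isPer_pow (rc_isPer_discriminant h) m
  have hBper : IsPer h B := by
    intro τ
    have e1 : f (g • ((h : ℝ) +ᵥ τ)) = f (g • τ) := hper τ
    have e2 : Δ ((h : ℝ) +ᵥ τ) ^ m = Δ τ ^ m := hΔper τ
    rw [hB, hB, e1, e2]
  have h1 := rc_meromorphicAt_cuspFn_of_bdd hp.1 hBd hBper hBb
  have h2 := rc_meromorphicAt_cuspFn_of_bdd hp.1 (rc_mdiff_discriminant.pow m) hΔper
    (rc_isBounded_pow rc_isBounded_discriminant m)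
  have e : cuspFn h (fun τ => f (g • τ)) = cuspFn h B * (cuspFn h (fun τ => Δ τ ^ m))⁻¹ := by
    funext q
    simp only [cuspFn_apply, Pi.mul_apply, Pi.inv_apply, hB]
    rw [mul_assoc, mul_inv_cancel₀ (pow_ne_zero m (discriminant_ne_zero _)), mul_one]
  rw [e]
  exact h1.mul h2.inv

/-- The cusp function of `f ∘ g` has finite order if `f ≠ 0`. -/
theorem es1rccusp_order_ne_top {f : ℍ → ℂ} (hf : IsModFunG Γ f) (hf0 : f ≠ 0) {h : ℕ}
    {g : SL(2, ℤ)} (hp : IsCuspPeriodG Γ h g) :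
    meromorphicOrderAt (cuspFn h (fun τ => f (g • τ))) 0 ≠ ⊤ := by
  intro htop
  rw [meromorphicOrderAt_eq_top_iff] at htop
  have hfd : MDiff f := hf.mdiff
  have h0 := eq_zero_of_cuspFn_eventually_zero hp.1
    (hfd.comp (UpperHalfPlane.mdifferentiable_smul (g := (g : GL (Fin 2) ℝ))
      (SL_val_det_pos g))) (es1rccusp_isPer_comp hf hp) htop
  apply hf0
  funext τ
  have := congrFun h0 (g⁻¹ • τ)
  simpa using this

variable (Γ)

theorem es1rccusp_coe_ordCusp {h : ℕ} {g : SL(2, ℤ)} (hp : IsCuspPeriodG Γ h g)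
    {f : modFunAlgG Γ} (hf : f ≠ 0) :
    ((ordCusp h g (f : ℍ → ℂ) : ℤ) : WithTop ℤ)
      = meromorphicOrderAt (cuspFn h (fun τ => (f : ℍ → ℂ) (g • τ))) 0 := by
  rw [ordCusp]
  exact WithTop.coe_untop₀_of_ne_top
    (es1rccusp_order_ne_top f.2 (es1rcpt_coe_ne_zero hf) hp)

/-- The order at a cusp is an order function on `modFunAlgG Γ`. -/
theorem isOrdFun_ordCuspG [Γ.FiniteIndex] {h : ℕ} {g : SL(2, ℤ)} (hp : IsCuspPeriodG Γ h g) :
    IsOrdFun (fun f : modFunAlgG Γ => ordCusp h g (f : ℍ → ℂ)) where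
  one := by
    have h1 : cuspFn h (fun τ => ((1 : modFunAlgG Γ) : ℍ → ℂ) (g • τ)) = fun _ => (1 : ℂ) := rfl
    simp only [ordCusp, h1]
    classical
    rw [meromorphicOrderAt_const]
    simp
  mul f f' hf hf' := by
    refine ⟨mul_ne_zero hf hf', ?_⟩
    have h1 : cuspFn h (fun τ => ((f * f' : modFunAlgG Γ) : ℍ → ℂ) (g • τ))
        = cuspFn h (fun τ => (f : ℍ → ℂ) (g • τ)) * cuspFn h (fun τ => (f' : ℍ → ℂ) (g • τ)) :=
      rfl
    have h2 := meromorphicOrderAt_mul (es1rccusp_meromorphicAt f.2 hp)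
      (es1rccusp_meromorphicAt f'.2 hp)
    rw [← h1, ← es1rccusp_coe_ordCusp Γ hp hf, ← es1rccusp_coe_ordCusp Γ hp hf',
      ← es1rccusp_coe_ordCusp Γ hp (mul_ne_zero hf hf')] at h2
    exact_mod_cast h2
  add f f' hf hf' hff' := by
    have h1 : cuspFn h (fun τ => ((f + f' : modFunAlgG Γ) : ℍ → ℂ) (g • τ))
        = cuspFn h (fun τ => (f : ℍ → ℂ) (g • τ)) + cuspFn h (fun τ => (f' : ℍ → ℂ) (g • τ)) :=
      rfl
    have h2 := meromorphicOrderAt_add (es1rccusp_meromorphicAt f.2 hp)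
      (es1rccusp_meromorphicAt f'.2 hp)
    rw [← h1, ← es1rccusp_coe_ordCusp Γ hp hf, ← es1rccusp_coe_ordCusp Γ hp hf',
      ← es1rccusp_coe_ordCusp Γ hp hff'] at h2
    rw [min_le_iff] at h2 ⊢
    rcases h2 with h2 | h2
    · exact Or.inl (by exact_mod_cast h2)
    · exact Or.inr (by exact_mod_cast h2)

theorem es1rccusp_ordCusp_algebraMap (h : ℕ) (g : SL(2, ℤ)) (a : ℂ) :
    ordCusp h g ((algebraMap ℂ (modFunAlgG Γ) a : modFunAlgG Γ) : ℍ → ℂ) = 0 := by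
  have h1 : cuspFn h
      (fun τ => ((algebraMap ℂ (modFunAlgG Γ) a : modFunAlgG Γ) : ℍ → ℂ) (g • τ))
      = fun _ => a := rfl
  rw [ordCusp, h1]
  classical
  rw [meromorphicOrderAt_const]
  split_ifs <;> simp

theorem es1rccusp_J_ne_zero : es1rcptJ Γ ≠ 0 := by
  intro h
  obtain ⟨z, hz⟩ := Jfun_surjective 1
  have h1 := congrFun (congrArg Subtype.val h) z
  have h2 : (es1rcptJ Γ : ℍ → ℂ) z = Jfun z := rfl
  rw [h2, hz] at h1
  simp at h1

section Place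

variable (F : Type*) [Field F] [Algebra ℂ F] [Algebra (modFunAlgG Γ) F]
  [IsScalarTower ℂ (modFunAlgG Γ) F] [IsFractionRing (modFunAlgG Γ) F] [Γ.FiniteIndex]

/-- The valuation of `F` given by the order at the cusp `g∞` in the parameter `q_h`. -/
def es1rccuspVal {h : ℕ} {g : SL(2, ℤ)} (hp : IsCuspPeriodG Γ h g) : Valuation F ℤᵐ⁰ :=
  ordFrac F (fun f : modFunAlgG Γ => ordCusp h g (f : ℍ → ℂ)) (isOrdFun_ordCuspG Γ hp)

/-- The place of `F` at the cusp `g∞`. -/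
theorem es1rccusp_exists_place {h : ℕ} {g : SL(2, ℤ)} (hp : IsCuspPeriodG Γ h g) :
    ∃ (w : Place ℂ F) (e : ℕ), 0 < e ∧
      w.toValuationSubring = (es1rccuspVal Γ F hp).valuationSubring ∧
      ∀ f : modFunAlgG Γ, f ≠ 0 →
        ordCusp h g (f : ℍ → ℂ) = (e : ℤ) * w.ord (algebraMap (modFunAlgG Γ) F f) :=
  exists_place_of_ordFun_neg (K := ℂ) F (fun f : modFunAlgG Γ => ordCusp h g (f : ℍ → ℂ))
    (isOrdFun_ordCuspG Γ hp) (fun a _ => (es1rccusp_ordCusp_algebraMap Γ h g a).ge)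
    ⟨es1rcptJ Γ, es1rccusp_J_ne_zero Γ, by
      show ordCusp h g Jfun < 0
      rw [ordCusp_Jfun hp.1 g]
      have : (0 : ℤ) < h := by exact_mod_cast hp.1
      omega⟩

end Place

/-- **RC-cusp.** -/
theorem stmtCuspG [Γ.FiniteIndex] (F : Type) [Field F] [Algebra ℂ F] [Algebra (modFunAlgG Γ) F]
    [IsScalarTower ℂ (modFunAlgG Γ) F] [IsFractionRing (modFunAlgG Γ) F] : StmtCuspG Γ F := by
  intro g h hp
  obtain ⟨w, e, he, -, hw⟩ := es1rccusp_exists_place Γ F hp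
  exact ⟨w, e, he, hw⟩

end Fermat.Agent.ES1
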