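/-
ES₁ / F3 = RC-Γ, piece RC-all, the places at the cusps (helper81).
Fork of `Fermat/Agent/ES/RC/PlaceAllCusp.lean` for an arbitrary subgroup `Γ ≤ SL(2, ℤ)` of
finite index (uniform period of the cusps: the index of the normal core of `Γ`).

`es1rcall_place_cusp_of_ord_neg` : a place `v` of `F = Frac (modFunAlgG Γ)` at which `J` has a
pole is the place at a cusp `g∞`.
-/
import Fermat.Agent.ES1.RCAllPt
import Fermat.Agent.ES1.RCCusp
import Fermat.Agent.ES.RC.PlaceAllCusp

set_option autoImplicit false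
set_option linter.style.haveILetI false
set_option linter.unusedSectionVars false

noncomputable section

namespace Fermat.Agent.ES1

open UpperHalfPlane AlgebraicCurve ModularForm Polynomial IntermediateField
open Fermat.Agent.S23 Fermat.Agent.S24 Fermat.Agent.S28 Fermat.Agent.ES.RC
open scoped MatrixGroups Manifold ModularForm

variable (Γ : Subgroup SL(2, ℤ)) [Γ.FiniteIndex]

/-- the uniform period: the index of the normal core of `Γ` -/
def es1rcallPer : ℕ := Γ.normalCore.index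

theorem es1rcallPer_pos : 0 < es1rcallPer Γ :=
  Nat.pos_of_ne_zero (Subgroup.FiniteIndex.index_ne_zero (H := Γ.normalCore))

/-- `es1rcallPer Γ` is a period of every cusp of `Γ`. -/
theorem es1rcall_isCuspPeriod (g : SL(2, ℤ)) : IsCuspPeriodG Γ (es1rcallPer Γ) g := by
  refine ⟨es1rcallPer_pos Γ, ?_⟩
  have h1 : ModularGroup.T ^ (es1rcallPer Γ) ∈ Γ.normalCore :=
    Subgroup.pow_index_mem Γ.normalCore ModularGroup.T
  have h2 : g * ModularGroup.T ^ (es1rcallPer Γ) * g⁻¹ ∈ Γ.normalCore :=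
    (Subgroup.normalCore_normal Γ).conj_mem _ h1 g
  exact Subgroup.normalCore_le Γ h2

section Field

variable (F : Type*) [Field F] [Algebra ℂ F] [Algebra (modFunAlgG Γ) F]
  [IsScalarTower ℂ (modFunAlgG Γ) F] [IsFractionRing (modFunAlgG Γ) F]

theorem es1rcall_algebraMap_jSub_zero : algebraMap (modFunAlgG Γ) F (es1rcptJSub Γ 0) = es1rcallJF Γ F := by
  rw [es1rcall_algebraMap_jSub, map_zero, sub_zero]

/-- **Places at which `J` has a pole are cusps.** -/
theorem es1rcall_place_cusp_of_ord_neg (v : Place ℂ F) (hv : v.ord (es1rcallJF Γ F) < 0) :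
    ∃ (g : SL(2, ℤ)) (h e : ℕ), IsCuspPeriodG Γ h g ∧ 0 < e ∧ ∀ f : modFunAlgG Γ, f ≠ 0 →
      ordCusp h g (f : ℍ → ℂ) = (e : ℤ) * v.ord (algebraMap (modFunAlgG Γ) F f) := by
  classical
  set h₀ : ℕ := es1rcallPer Γ with hh₀
  have hMpos : 0 < h₀ := es1rcallPer_pos Γ
  have htr := es1rcall_transcendental_jF Γ F
  have hj0 : es1rcallJF Γ F ≠ 0 := by
    intro h0
    apply htr
    rw [h0]
    exact isAlgebraic_zero
  set x : F := (es1rcallJF Γ F)⁻¹ with hx
  have hx0 : x ≠ 0 := inv_ne_zero hj0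
  have hxj : es1rcallJF Γ F * x = 1 := mul_inv_cancel₀ hj0
  have hvx : 0 < v.ord x := by
    rw [hx, v.ord_inv]
    omega
  have hper : ∀ g : SL(2, ℤ), IsCuspPeriodG Γ h₀ g := es1rcall_isCuspPeriod Γ
  by_contra hcon
  push Not at hcon
  -- the places at the cusps
  have hcp : ∀ g : SL(2, ℤ), ∃ (w : Place ℂ F) (e : ℕ), 0 < e ∧
      w.toValuationSubring = (es1rccuspVal Γ F (hper g)).valuationSubring ∧
      ∀ f : modFunAlgG Γ, f ≠ 0 →
        ordCusp h₀ g (f : ℍ → ℂ) = (e : ℤ) * w.ord (algebraMap (modFunAlgG Γ) F f) :=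
    fun g => es1rccusp_exists_place Γ F (hper g)
  have hvne : ∀ (g : SL(2, ℤ)) (w : Place ℂ F),
      w.toValuationSubring = (es1rccuspVal Γ F (hper g)).valuationSubring → w ≠ v := by
    rintro g w hw rfl
    obtain ⟨w', e, he, hw', hord⟩ := hcp g
    have hww : w' = w := Place.ext (hw'.trans hw.symm)
    subst hww
    obtain ⟨f, hf, hne⟩ := hcon g h₀ e (hper g) he
    exact hne (hord f hf)
  -- the order of `J` at the cusps
  have hJcusp : ∀ g : SL(2, ℤ), ordCusp h₀ g ((es1rcptJ Γ : modFunAlgG Γ) : ℍ → ℂ) = -(h₀ : ℤ) :=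
    fun g => ordCusp_Jfun hMpos g
  have hjM0 : es1rcptJ Γ ≠ 0 := es1rccusp_J_ne_zero Γ
  have hwj : ∀ (g : SL(2, ℤ)) (w : Place ℂ F) (e : ℕ), 0 < e →
      (∀ f : modFunAlgG Γ, f ≠ 0 →
        ordCusp h₀ g (f : ℍ → ℂ) = (e : ℤ) * w.ord (algebraMap (modFunAlgG Γ) F f)) →
      w.ord (es1rcallJF Γ F) < 0 := by
    intro g w e he hord
    have h1 := hord (es1rcptJ Γ) hjM0
    rw [hJcusp g] at h1
    have he' : (0 : ℤ) < e := by exact_mod_cast he
    have hM' : (0 : ℤ) < h₀ := by exact_mod_cast hMpos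
    by_contra hge
    push Not at hge
    have : 0 ≤ (e : ℤ) * w.ord (algebraMap (modFunAlgG Γ) F (es1rcptJ Γ)) := mul_nonneg he'.le hge
    omega
  -- transcendence and finiteness over `ℂ(x)`
  have hKeq : ℂ⟮x⟯ = ℂ⟮es1rcallJF Γ F⟯ := by
    apply le_antisymm
    · rw [adjoin_simple_le_iff, hx]
      exact inv_mem (mem_adjoin_simple_self ℂ _)
    · rw [adjoin_simple_le_iff]
      have : es1rcallJF Γ F = x⁻¹ := by rw [hx, inv_inv]
      rw [this]
      exact inv_mem (mem_adjoin_simple_self ℂ _)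
  have hxtr : Transcendental ℂ x := by
    intro halg
    apply htr
    have : es1rcallJF Γ F = x⁻¹ := by rw [hx, inv_inv]
    rw [this]
    exact halg.inv
  haveI hfd : FiniteDimensional ℂ⟮x⟯ F := hKeq ▸ es1rcall_finiteDimensional Γ F
  obtain ⟨V, hV, -⟩ := sum_ord_eq_finrank x hxtr
  set S : Finset (Place ℂ F) :=
    V.filter (fun u => ∃ g : SL(2, ℤ),
      u.toValuationSubring = (es1rccuspVal Γ F (hper g)).valuationSubring) with hS
  have hvS : v ∉ S := by
    intro hmem
    obtain ⟨g, hg⟩ := (Finset.mem_filter.mp hmem).2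
    exact hvne g v hg rfl
  obtain ⟨h, hvh, hSh⟩ := exists_ord_neg x hxtr v S hvx hvS
    (fun u hu => (hV u).mp (Finset.mem_filter.mp hu).1)
  have hh0 : h ≠ 0 := by
    rintro rfl
    simp at hvh
  -- `h = a / d(J)`
  obtain ⟨a, d, hd, hha⟩ := es1rcall_exists_frac_poly Γ F h
  rw [← es1rcall_aeval_jF] at hha
  set δ : ℕ := d.natDegree with hδ
  have ha0 : a ≠ 0 := by
    rintro rfl
    rw [map_zero] at hha
    have hdne : aeval (es1rcallJF Γ F) d ≠ 0 := by
      rw [es1rcall_aeval_jF]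
      exact rc_algebraMap_ne_zero F (es1rcall_aeval_J_ne_zero Γ hd)
    exact (mul_ne_zero hh0 hdne) hha
  have haF : algebraMap (modFunAlgG Γ) F a ≠ 0 := rc_algebraMap_ne_zero F ha0
  -- regularity of `h` at all cusps
  have hreg : ∀ g : SL(2, ℤ), -((δ : ℤ) * h₀) ≤ ordCusp h₀ g (a : ℍ → ℂ) := by
    intro g
    obtain ⟨w, e, he, hw, hord⟩ := hcp g
    have hwj' := hwj g w e he hord
    have hwx : 0 < w.ord x := by
      rw [hx, w.ord_inv]
      omega
    have hwS : w ∈ S := Finset.mem_filter.mpr ⟨(hV w).mpr hwx, g, hw⟩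
    have hwh := hSh w hwS
    obtain ⟨hdne, hwd⟩ := rc_place_ord_aeval_pole w hj0 hwj' d hd
    have h3 : w.ord (algebraMap (modFunAlgG Γ) F a) = w.ord h + (δ : ℤ) * w.ord (es1rcallJF Γ F) := by
      rw [← hha, w.ord_mul hh0 hdne, hwd]
    have h4 := hord (es1rcptJ Γ) hjM0
    rw [hJcusp g] at h4
    have h4' : (e : ℤ) * w.ord (es1rcallJF Γ F) = -(h₀ : ℤ) := h4.symm
    rw [hord a ha0, h3]
    have he' : (0 : ℤ) ≤ e := by exact_mod_cast he.le
    nlinarith [mul_nonneg he' hwh]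
  -- the norm polynomial
  obtain ⟨s, g, P, hP0, hrel, hsym⟩ := es1rcall_conj_core_c Γ 0 a
  have hPdeg : ∀ j, (P j).natDegree ≤ j * δ := by
    intro j
    rcases eq_or_ne (P j) 0 with h0 | h0
    · rw [h0]; simp
    have hne : aeval (es1rcptJSub Γ 0) (P j) ≠ 0 := es1rcall_aeval_jSub_ne_zero Γ 0 h0
    -- the analytic bound
    have han : (((-((j : ℤ) * ((δ : ℤ) * h₀)) : ℤ)) : WithTop ℤ) ≤
        meromorphicOrderAt (cuspFn h₀ (fun τ =>
          ((aeval (es1rcptJSub Γ 0) (P j) : modFunAlgG Γ) : ℍ → ℂ) ((1 : SL(2, ℤ)) • τ))) 0 := by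
      have e1 : cuspFn h₀ (fun τ =>
          ((aeval (es1rcptJSub Γ 0) (P j) : modFunAlgG Γ) : ℍ → ℂ) ((1 : SL(2, ℤ)) • τ))
          = fun z => ∑ S ∈ Finset.powersetCard j s,
              ∏ q ∈ S, cuspFn h₀ (fun τ => (a : ℍ → ℂ) (g q • τ)) z := by
        funext z
        rw [cuspFn_apply, one_smul, hsym j]
        rfl
      rw [e1]
      have hprod : ∀ S ∈ Finset.powersetCard j s,
          MeromorphicAt (fun z => ∏ q ∈ S, cuspFn h₀ (fun τ => (a : ℍ → ℂ) (g q • τ)) z) 0 ∧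
          (((-((j : ℤ) * ((δ : ℤ) * h₀)) : ℤ)) : WithTop ℤ) ≤ meromorphicOrderAt
            (fun z => ∏ q ∈ S, cuspFn h₀ (fun τ => (a : ℍ → ℂ) (g q • τ)) z) 0 := by
        intro S hS
        have hcard : S.card = j := (Finset.mem_powersetCard.mp hS).2
        have h1 := rc_le_merOrd_prod S (fun q => cuspFn h₀ (fun τ => (a : ℍ → ℂ) (g q • τ)))
          (fun q _ => es1rccusp_meromorphicAt a.2 (hper (g q))) (-((δ : ℤ) * h₀))
          (fun q _ => by
            rw [← es1rccusp_coe_ordCusp Γ (hper (g q)) ha0]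
            exact_mod_cast hreg (g q))
        refine ⟨h1.1, ?_⟩
        have h2 := h1.2
        rw [hcard] at h2
        have e2 : (j : ℤ) * -((δ : ℤ) * h₀) = -((j : ℤ) * ((δ : ℤ) * h₀)) := by ring
        rwa [e2] at h2
      exact (rc_le_merOrd_sum _ _ (fun S hS => (hprod S hS).1) _ (fun S hS => (hprod S hS).2)).2
    rw [← es1rccusp_coe_ordCusp Γ (hper 1) hne] at han
    have han' : -((j : ℤ) * ((δ : ℤ) * h₀)) ≤
        ordCusp h₀ 1 ((aeval (es1rcptJSub Γ 0) (P j) : modFunAlgG Γ) : ℍ → ℂ) := by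
      exact_mod_cast han
    -- the algebraic value
    obtain ⟨w, e, he, hw, hord⟩ := hcp 1
    have hwj' := hwj 1 w e he hord
    obtain ⟨-, hwP⟩ := rc_place_ord_aeval_pole w hj0 hwj' (P j) h0
    have h4 := hord (es1rcptJ Γ) hjM0
    rw [hJcusp 1] at h4
    have h4' : (e : ℤ) * w.ord (es1rcallJF Γ F) = -(h₀ : ℤ) := h4.symm
    rw [hord _ hne, es1rcall_algebraMap_aeval_jSub, es1rcall_algebraMap_jSub_zero, hwP] at han'
    have h5 : (e : ℤ) * (((P j).natDegree : ℤ) * w.ord (es1rcallJF Γ F))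
        = -(((P j).natDegree : ℤ) * h₀) := by
      rw [mul_left_comm, h4']; ring
    rw [h5] at han'
    have hM' : (0 : ℤ) < h₀ := by exact_mod_cast hMpos
    have h6 : ((P j).natDegree : ℤ) * h₀ ≤ ((j : ℤ) * δ) * h₀ := by linarith
    have h7 : ((P j).natDegree : ℤ) ≤ (j : ℤ) * δ := le_of_mul_le_mul_right h6 hM'
    exact_mod_cast h7
  -- the relation for `y = a / J ^ δ`
  set α : F := algebraMap (modFunAlgG Γ) F a with hα
  set y : F := α * x ^ δ with hy
  have hαy : α = y * es1rcallJF Γ F ^ δ := by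
    rw [hy, mul_assoc, ← mul_pow, mul_comm x, hxj, one_pow, mul_one]
  have hxmem : x ∈ v.toValuationSubring := (place_mem_iff v hx0).mpr hvx.le
  have hrelF : ∑ j ∈ Finset.range (Γ.index + 1),
      ((-1 : F) ^ j * aeval x ((P j).reflect (j * δ))) * y ^ (Γ.index - j) = 0 := by
    have h1 := congrArg (algebraMap (modFunAlgG Γ) F) hrel
    rw [map_sum, map_zero] at h1
    have h2 : ∀ j ∈ Finset.range (Γ.index + 1),
        algebraMap (modFunAlgG Γ) F ((-1 : modFunAlgG Γ) ^ j * aeval (es1rcptJSub Γ 0) (P j) *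
          a ^ (Γ.index - j))
        = es1rcallJF Γ F ^ (δ * Γ.index) *
          (((-1 : F) ^ j * aeval x ((P j).reflect (j * δ))) * y ^ (Γ.index - j)) := by
      intro j hj
      have hj' : j ≤ Γ.index := Nat.lt_succ_iff.mp (Finset.mem_range.mp hj)
      rw [map_mul, map_mul, map_pow, map_pow, map_neg, map_one, es1rcall_algebraMap_aeval_jSub,
        es1rcall_algebraMap_jSub_zero, ← hα, hαy, rc_aeval_eq_reflect hj0 (j * δ) (P j) (hPdeg j),
        ← hx, mul_pow, ← pow_mul]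
      have e1 : δ * Γ.index = j * δ + δ * (Γ.index - j) := by
        have : Γ.index = j + (Γ.index - j) := by omega
        conv_lhs => rw [this]
        ring
      rw [e1, pow_add]
      ring
    rw [Finset.sum_congr rfl h2, ← Finset.mul_sum] at h1
    exact (mul_eq_zero.mp h1).resolve_left (pow_ne_zero _ hj0)
  have hymem : y ∈ v.toValuationSubring := by
    refine rc_mem_of_relation v.toValuationSubring (Γ.index)
      (fun j => (-1 : F) ^ j * aeval x ((P j).reflect (j * δ))) (by simp [hP0]) (fun j => ?_) y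
      hrelF
    refine mul_mem (pow_mem (neg_mem (one_mem _)) j) (place_aeval_mem v hxmem _)
  -- conclusion
  have hc : (d.reverse).coeff 0 ≠ 0 := by
    rw [Polynomial.coeff_zero_reverse]
    exact Polynomial.leadingCoeff_ne_zero.mpr hd
  obtain ⟨hqx0, hqord⟩ := place_ord_aeval_of_coeff_zero_ne v hvx d.reverse hc
  have hdj : aeval (es1rcallJF Γ F) d = aeval x d.reverse * es1rcallJF Γ F ^ δ :=
    rc_aeval_eq_reflect hj0 δ d le_rfl
  have hyq : y = h * aeval x d.reverse := by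
    have e1 : α = h * (aeval x d.reverse * es1rcallJF Γ F ^ δ) := by
      rw [← hdj]
      exact hha.symm
    calc y = α * x ^ δ := rfl
      _ = h * (aeval x d.reverse * es1rcallJF Γ F ^ δ) * x ^ δ := by rw [← e1]
      _ = h * aeval x d.reverse * (es1rcallJF Γ F * x) ^ δ := by rw [mul_pow]; ring
      _ = h * aeval x d.reverse := by rw [hxj, one_pow, mul_one]
  have hy0 : y ≠ 0 := by
    rw [hyq]; exact mul_ne_zero hh0 hqx0
  have hyord : v.ord y = v.ord h := by
    rw [hyq, v.ord_mul hh0 hqx0, hqord, add_zero]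
  have := (place_mem_iff v hy0).mp hymem
  omega

end Field

end Fermat.Agent.ES1
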