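/-
ES₁ / F3 = RC-Γ, piece RC-all (helper81): every place of `Frac (modFunAlgG Γ)` is a point or a
cusp, for an arbitrary subgroup `Γ ≤ SL(2, ℤ)` of finite index.

`stmtAllG Γ F : StmtAllG Γ F` — every place `v` of `F / ℂ` is the order at a point `τ ∈ ℍ`
(if `J` is regular at `v`, `es1rcall_place_pt_of_ord_nonneg`) or at a cusp `g∞`
(if `J` has a pole at `v`, `es1rcall_place_cusp_of_ord_neg`), up to the ramification index.
-/
import Fermat.Agent.ES1.RCAllCusp

set_option autoImplicit false

noncomputable section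

namespace Fermat.Agent.ES1

open UpperHalfPlane AlgebraicCurve
open Fermat.Agent.S24 Fermat.Agent.S28 Fermat.Agent.ES.RC
open scoped MatrixGroups

variable (Γ : Subgroup SL(2, ℤ)) [Γ.FiniteIndex]

/-- **RC-all.** -/
theorem stmtAllG (F : Type) [Field F] [Algebra ℂ F] [Algebra (modFunAlgG Γ) F]
    [IsScalarTower ℂ (modFunAlgG Γ) F] [IsFractionRing (modFunAlgG Γ) F] : StmtAllG Γ F := by
  intro v
  rcases le_or_gt 0 (v.ord (es1rcallJF Γ F)) with hv | hv
  · exact Or.inl (es1rcall_place_pt_of_ord_nonneg Γ F v hv)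
  · exact Or.inr (es1rcall_place_cusp_of_ord_neg Γ F v hv)

end Fermat.Agent.ES1
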