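import Fermat.Agent.ES1.RCCusp
import Fermat.Agent.S28.Bridge

/-!
# ES₁ / RC-cuspx, interface of the analytic bridge (piece (b), helper34)

For a period `h` of the cusp `g∞` of `Γ` and a modular function `f` for `Γ`, the function
`z ↦ f (g • (h z))` is `1`-periodic and meromorphic at `i∞`; the order of its Laurent expansion
is the order of `f` at the cusp in the parameter `q_h`.
-/

set_option autoImplicit false

noncomputable section

namespace Fermat.Agent.ES1

open UpperHalfPlane
open Fermat.Agent.S23 Fermat.Agent.S24 Fermat.Agent.S28 Fermat.Agent.ES.RC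
open scoped MatrixGroups

/-- **(b)** the expansion at the cusp `g∞` in `q_h` as a formal Laurent series -/
def StmtCuspBridgeG (Γ : Subgroup SL(2, ℤ)) : Prop :=
  ∀ (g : SL(2, ℤ)) (h : ℕ) [NeZero h], IsCuspPeriodG Γ h g → ∀ f : ℍ → ℂ, IsModFunG Γ f →
    IsMerInf (fun z => f (g • scaleN h z)) ∧
    (f ≠ 0 → (laurentOf (fun z => f (g • scaleN h z))).order = ordCusp h g f)

end Fermat.Agent.ES1
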