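import Fermat.Agent.ES1.RCCuspExactF
import Fermat.Agent.ES1.RCCuspExactPlan
import Fermat.Agent.ES1.RCPtExact
import Fermat.Agent.ES.RC.ShiftLaurent

/-!
# ES₁ / F3 = RC-Γ, piece RC-cuspx: `q_h` is a uniformiser at the cusp `g∞` (`h` = the width)

Generic `Γ` of finite index with the separation property `SepG Γ`, `F = Frac (modFunAlgG Γ)`.

`stmtCuspExactG_of_sep : SepG Γ → StmtCuspBridgeG Γ → StmtCuspExactG Γ F`.

Proof.  Let `h` be the least period of the cusp `g∞` and `(v, e)` the place of `stmtCuspG`.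
If a prime `p` divides `e`, the field `S ⊂ ℂ((q))` of the expansions at the cusp (in `q = q_h`)
has all its orders divisible by `p` and contains the invariant `J = q^{-h} + …`; by the formal
core (`es1rccxf_invariant`) all expansions are invariant under `q ↦ e^{2πi/p} q`, i.e. every
modular function is invariant under `g T^{h/p} g⁻¹`, which then lies in `Γ` (`SepG`): `h/p` is a
period, contradiction.
-/

set_option autoImplicit false
set_option linter.unusedSectionVars false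
set_option linter.style.haveILetI false

noncomputable section

open UpperHalfPlane AlgebraicCurve ModularCurve
open scoped MatrixGroups Manifold Real

namespace Fermat.Agent.ES1

open Fermat.Agent.S23 Fermat.Agent.S24 Fermat.Agent.S28 Fermat.Agent.ES Fermat.Agent.ES.RC

/-! ### Preliminaries -/

theorem es1rccx_order_div {x y : LaurentSeries ℂ} (hx : x ≠ 0) (hy : y ≠ 0) :
    (x / y).order = x.order - y.order := by
  rw [div_eq_mul_inv, HahnSeries.order_mul hx (inv_ne_zero hy), es1rccxf_order_inv hy]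
  ring

/-- `e^{2πi/p}` is a `p`-th root of unity -/
theorem es1rccx_root_pow (p : ℕ) (hp : 0 < p) : rcRoot 1 (p : ℤ) ^ p = 1 := by
  apply Units.ext
  rw [Units.val_pow_eq_pow_val, rc_coe_root, ← Complex.exp_nat_mul, Units.val_one]
  have hp' : (p : ℂ) ≠ 0 := by exact_mod_cast hp.ne'
  have : (p : ℂ) * (2 * π * Complex.I * (((1 : ℤ) : ℂ) / ((p : ℤ) : ℂ))) = 2 * π * Complex.I := by
    push_cast
    field_simp
  rw [this, Complex.exp_two_pi_mul_I]

/-- every point of `ℍ` is of the form `g • (h z)` -/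
theorem es1rccx_surj (g : SL(2, ℤ)) (h : ℕ) [NeZero h] (w : ℍ) :
    ∃ z : ℍ, g • scaleN h z = w := by
  have hh : (0 : ℝ) < h := by exact_mod_cast Nat.pos_of_ne_zero (NeZero.ne h)
  set w' : ℍ := g⁻¹ • w with hw'
  refine ⟨⟨(w' : ℂ) / h, by rw [Complex.div_natCast_im]; exact div_pos w'.im_pos hh⟩, ?_⟩
  have h1 : scaleN h ⟨(w' : ℂ) / h, by
      rw [Complex.div_natCast_im]; exact div_pos w'.im_pos hh⟩ = w' := by
    apply UpperHalfPlane.ext
    rw [coe_scaleN]
    have : (h : ℂ) ≠ 0 := by exact_mod_cast NeZero.ne h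
    show (h : ℂ) * ((w' : ℂ) / h) = w'
    field_simp
  rw [h1, hw', ← mul_smul, mul_inv_cancel, one_smul]

/-- **(b3)** `h (z + 1/p) = T^k (h z)` if `h = p k` -/
theorem es1rccx_scale_shift (h p k : ℕ) [NeZero h] (hp : 0 < p) (hk : h = p * k) (z : ℍ) :
    scaleN h (rcShift 1 (p : ℤ) (by exact_mod_cast hp) z) = (ModularGroup.T ^ k) • scaleN h z := by
  apply UpperHalfPlane.ext
  rw [rc_T_pow_smul, coe_scaleN, rc_coe_shift, UpperHalfPlane.coe_vadd, coe_scaleN, hk]
  have hp' : (p : ℂ) ≠ 0 := by exact_mod_cast hp.ne'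
  push_cast
  field_simp
  ring

/-! ### The expansion at the cusp -/

section Phi

variable (Γ : Subgroup SL(2, ℤ)) (hbr : StmtCuspBridgeG Γ) (g : SL(2, ℤ)) (h : ℕ) [NeZero h]
  (hp : IsCuspPeriodG Γ h g)

/-- the expansion at the cusp `g∞` in `q_h`, as a ring homomorphism -/
def es1rccxPhi : modFunAlgG Γ →+* LaurentSeries ℂ where
  toFun f := laurentOf (fun z => (f : ℍ → ℂ) (g • scaleN h z))
  map_one' := laurentOf_one
  map_mul' a b := laurentOf_mul (hbr g h hp _ a.2).1 (hbr g h hp _ b.2).1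
  map_zero' := laurentOf_zero
  map_add' a b := laurentOf_add (hbr g h hp _ a.2).1 (hbr g h hp _ b.2).1

theorem es1rccxPhi_apply (f : modFunAlgG Γ) :
    es1rccxPhi Γ hbr g h hp f = laurentOf (fun z => (f : ℍ → ℂ) (g • scaleN h z)) := rfl

theorem es1rccxPhi_injective : Function.Injective (es1rccxPhi Γ hbr g h hp) := by
  intro a b hab
  rw [es1rccxPhi_apply, es1rccxPhi_apply] at hab
  have h1 := laurentOf_injective (hbr g h hp _ a.2).1 (hbr g h hp _ b.2).1 hab
  apply Subtype.ext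
  funext w
  obtain ⟨z, rfl⟩ := es1rccx_surj g h w
  exact congrFun h1 z

theorem es1rccxPhi_order {f : modFunAlgG Γ} (hf : f ≠ 0) :
    (es1rccxPhi Γ hbr g h hp f).order = ordCusp h g (f : ℍ → ℂ) :=
  (hbr g h hp _ f.2).2 (fun h0 => hf (Subtype.ext h0))

theorem es1rccxPhi_algebraMap (c : ℂ) :
    es1rccxPhi Γ hbr g h hp (algebraMap ℂ (modFunAlgG Γ) c) = HahnSeries.C c := by
  rw [es1rccxPhi_apply]
  exact laurentOf_const c

theorem es1rccxPhi_J :
    es1rccxPhi Γ hbr g h hp (es1rcptJ Γ) = qExpand ℂ h (jqModC ℂ) := by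
  rw [es1rccxPhi_apply]
  have h1 : (fun z => ((es1rcptJ Γ : modFunAlgG Γ) : ℍ → ℂ) (g • scaleN h z)) =
      fun z => Jfun (scaleN h z) := by
    funext z
    exact Jfun_smul g _
  rw [h1, laurentOf_Jfun_scaleN]
  rfl

end Phi

/-! ### The main theorem -/

section Main

variable (Γ : Subgroup SL(2, ℤ)) [Γ.FiniteIndex]

theorem es1rccx_exists_period (g : SL(2, ℤ)) :
    ∃ n : ℕ, 0 < n ∧ g * ModularGroup.T ^ n * g⁻¹ ∈ Γ := by
  obtain ⟨n, hn, -, hmem⟩ := Subgroup.exists_pow_mem_of_index_ne_zero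
    (Subgroup.FiniteIndex.index_ne_zero (H := Γ)) (g * ModularGroup.T * g⁻¹)
  refine ⟨n, hn, ?_⟩
  rwa [conj_pow] at hmem

/-- **RC-cuspx**: for the width `h` of the cusp `g∞`, `q_h` is a uniformiser. -/
theorem stmtCuspExactG_of_sep (hsep : SepG Γ) (hbr : StmtCuspBridgeG Γ) (F : Type) [Field F]
    [Algebra ℂ F] [Algebra (modFunAlgG Γ) F] [IsScalarTower ℂ (modFunAlgG Γ) F]
    [IsFractionRing (modFunAlgG Γ) F] : StmtCuspExactG Γ F := by
  classical
  intro g
  have hex := es1rccx_exists_period Γ g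
  obtain ⟨hpos, hmem⟩ := Nat.find_spec hex
  have hmin : ∀ n : ℕ, n < Nat.find hex → ¬ (0 < n ∧ g * ModularGroup.T ^ n * g⁻¹ ∈ Γ) :=
    fun n hn => Nat.find_min hex hn
  set h := Nat.find hex with hh
  haveI : NeZero h := ⟨hpos.ne'⟩
  have hp : IsCuspPeriodG Γ h g := ⟨hpos, hmem⟩
  obtain ⟨v, e, he, hv⟩ := stmtCuspG Γ F g h hp
  refine ⟨v, h, hp, ?_⟩
  suffices he1 : e = 1 by
    intro f hf
    rw [hv f hf, he1, Nat.cast_one, one_mul]
  by_contra hne
  obtain ⟨p, hpp, hpe⟩ := Nat.exists_prime_and_dvd hne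
  have hp0 : 0 < p := hpp.pos
  -- `p ∣ ordCusp` for all modular functions
  have hdvd : ∀ f : modFunAlgG Γ, f ≠ 0 → (p : ℤ) ∣ ordCusp h g (f : ℍ → ℂ) := by
    intro f hf
    rw [hv f hf]
    exact Dvd.dvd.mul_right (Int.natCast_dvd_natCast.mpr hpe) _
  -- `p ∣ h`
  have hJ0 : es1rcptJ Γ ≠ 0 := es1rccusp_J_ne_zero Γ
  have hJord : ordCusp h g ((es1rcptJ Γ : modFunAlgG Γ) : ℍ → ℂ) = -(h : ℤ) := ordCusp_Jfun hpos g
  have hph : p ∣ h := by
    have h1 := hdvd _ hJ0
    rw [hJord, dvd_neg] at h1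
    exact_mod_cast h1
  obtain ⟨k, hk⟩ := hph
  have hk0 : 0 < k := by
    rcases Nat.eq_zero_or_pos k with h0 | h0
    · rw [h0, mul_zero] at hk; omega
    · exact h0
  have hkh : k < h := by
    rw [hk]
    have := hpp.two_le
    nlinarith
  -- the field of expansions
  set Φ := es1rccxPhi Γ hbr g h hp with hΦ
  have hΦinj : Function.Injective Φ := es1rccxPhi_injective Γ hbr g h hp
  let Λ : F →+* LaurentSeries ℂ := IsFractionRing.lift hΦinj
  have hΛ : ∀ a : modFunAlgG Γ, Λ (algebraMap (modFunAlgG Γ) F a) = Φ a :=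
    fun a => IsFractionRing.lift_algebraMap hΦinj a
  set ω : ℂˣ := rcRoot 1 (p : ℤ) with hω
  have hωp : ω ^ p = 1 := es1rccx_root_pow p hp0
  have hωh : ω ^ h = 1 := by rw [hk, pow_mul, hωp, one_pow]
  have hinv := es1rccxf_invariant ω hωp Λ.fieldRange
    (fun c => ⟨algebraMap (modFunAlgG Γ) F (algebraMap ℂ (modFunAlgG Γ) c), by
      rw [hΛ]; exact es1rccxPhi_algebraMap Γ hbr g h hp c⟩)
    (by
      rintro x ⟨y, rfl⟩ hx
      obtain ⟨a, b, hb, rfl⟩ := IsFractionRing.div_surjective (A := modFunAlgG Γ) y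
      have hb0 : b ≠ 0 := nonZeroDivisors.ne_zero hb
      have ha0 : a ≠ 0 := by
        rintro rfl
        apply hx
        rw [map_zero, zero_div, map_zero]
      rw [map_div₀, hΛ, hΛ, es1rccx_order_div (fun h0 => ha0 (hΦinj (by rw [h0, map_zero])))
        (fun h0 => hb0 (hΦinj (by rw [h0, map_zero]))),
        es1rccxPhi_order Γ hbr g h hp ha0, es1rccxPhi_order Γ hbr g h hp hb0]
      exact dvd_sub (hdvd a ha0) (hdvd b hb0))
    (Φ (es1rcptJ Γ)) ⟨algebraMap (modFunAlgG Γ) F (es1rcptJ Γ), hΛ _⟩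
    (by
      rw [hΦ, es1rccxPhi_J, qExpand_kronRot_pow, hωh, kronRot_one])
    (by
      rw [hΦ, es1rccxPhi_order Γ hbr g h hp hJ0, hJord]
      exact neg_ne_zero.mpr (by exact_mod_cast hpos.ne'))
  -- every modular function is invariant under `g T^k g⁻¹`
  have hfix : ∀ f : modFunAlgG Γ, ∀ w : ℍ,
      (f : ℍ → ℂ) ((g * ModularGroup.T ^ k * g⁻¹) • w) = (f : ℍ → ℂ) w := by
    intro f w
    have hF := (hbr g h hp _ f.2).1
    have h1 := hinv (Φ f) ⟨algebraMap (modFunAlgG Γ) F f, hΛ f⟩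
    have hpZ : (0 : ℤ) < (p : ℤ) := by exact_mod_cast hp0
    have h2 := rc_laurentOf_shift 1 (p : ℤ) hpZ hF
    rw [hΦ, es1rccxPhi_apply] at h1
    rw [h1] at h2
    have h3 := laurentOf_injective (rc_isMerInf_shift 1 (p : ℤ) hpZ hF) hF h2
    obtain ⟨z, rfl⟩ := es1rccx_surj g h w
    have h4 : (f : ℍ → ℂ) (g • scaleN h (rcShift 1 (p : ℤ) hpZ z)) =
        (f : ℍ → ℂ) (g • scaleN h z) := congrFun h3 z
    rw [es1rccx_scale_shift h p k hp0 hk z] at h4
    rw [← h4, ← mul_smul, ← mul_smul]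
    group
  exact hmin k hkh ⟨hk0, hsep _ hfix⟩

end Main

end Fermat.Agent.ES1
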