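import Fermat.Agent.ES1.RCGamma
import Fermat.Agent.ES1.RCAll
import Fermat.Agent.ES1.RCCuspExact

/-!
# ES₁ / F3 = RC-Γ, final: the places of `fieldC ℂ L M H` ↔ points and cusps of `Γ_H(M) ∩ Γ₀(L)`

`Γ = gammaH L M H`, `M ∣ L`, `L ≠ 0`, `F = fieldC ℂ L M H` with the algebra structure
`es1rcAlgebra hML H` over `modFunAlgG Γ` (`q`-expansion).  Instances of the generic statements:

* `es1rc_stmtPtG`, `es1rc_stmtPtExactG` (in `ES1/RCGamma.lean`);
* `es1rc_stmtCuspG`, `es1rc_stmtAllG`;
* `es1rc_stmtCuspExactG_of_bridge : StmtCuspBridgeG Γ → StmtCuspExactG Γ F`.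
-/

set_option autoImplicit false
set_option linter.unusedSectionVars false
set_option linter.style.haveILetI false

noncomputable section

namespace Fermat.Agent.ES1

open CongruenceSubgroup
open scoped MatrixGroups

variable {L M : ℕ} [NeZero L] (hML : M ∣ L) (H : Subgroup (ZMod M)ˣ)

/-- the places of `fieldC ℂ L M H` at the cusps -/
theorem es1rc_stmtCuspG :
    letI := es1rcAlgebra hML H
    StmtCuspG (gammaH L M H) (fieldC ℂ L M H) := by
  letI := es1rcAlgebra hML H
  haveI := es1rc_isScalarTower hML H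
  haveI := es1rc_isFractionRing hML H
  haveI := es1rc_finiteIndex hML H
  exact stmtCuspG (gammaH L M H) (fieldC ℂ L M H)

/-- every place of `fieldC ℂ L M H` is a point of `ℍ` or a cusp -/
theorem es1rc_stmtAllG :
    letI := es1rcAlgebra hML H
    StmtAllG (gammaH L M H) (fieldC ℂ L M H) := by
  letI := es1rcAlgebra hML H
  haveI := es1rc_isScalarTower hML H
  haveI := es1rc_isFractionRing hML H
  haveI := es1rc_finiteIndex hML H
  exact stmtAllG (gammaH L M H) (fieldC ℂ L M H)

/-- exactness at the cusps, given the analytic bridge -/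
theorem es1rc_stmtCuspExactG_of_bridge (hbr : StmtCuspBridgeG (gammaH L M H)) :
    letI := es1rcAlgebra hML H
    StmtCuspExactG (gammaH L M H) (fieldC ℂ L M H) := by
  letI := es1rcAlgebra hML H
  haveI := es1rc_isScalarTower hML H
  haveI := es1rc_isFractionRing hML H
  haveI := es1rc_finiteIndex hML H
  exact stmtCuspExactG_of_sep (gammaH L M H) (es1rc_sepG hML H) hbr (fieldC ℂ L M H)

end Fermat.Agent.ES1
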