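import Fermat.Agent.ES1.G1Unif
import Fermat.Agent.ES1.G1.HKbFinal

/-!
# ES₁-G1 — DONE: the deliverable `StmtG1Unif`, unconditionally (sub-captain helper38)

All the pieces of G1 are proved:
(E), (I) helper34 (`ES1/G1/MuCoreH.lean`); (U), (A) helper38 (`ES1/G1Unique.lean`);
(S) helper83 (`ES1/G1/MuSurjFinal.lean`); (D) helper36 (`ES1/G1/MuDiam.lean`);
(H) helper81, helper82 (`ES1/G1/HKbFinal.lean`, `MuHeckeH.lean`); (OP) helper78
(`ES1/G1Op.lean`); (PER) helper42 (`ES1/PerHecke.lean`).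

* `es1g1_stmtMuHeckeAll : StmtMuHeckeAll`;
* `es1g1_unifData_done` : the G1 contract `ES1bUnifData` for every `H ≤ ker θ`;
* `stmtG1Unif : StmtG1Unif` — **the deliverable of G1**.
-/

set_option autoImplicit false

noncomputable section

namespace Fermat.Agent.ES1

open Fermat.Agent.ES Fermat.Agent.S48

/-- (H) at all levels -/
theorem es1g1_stmtMuHeckeAll : StmtMuHeckeAll :=
  fun _ _ H => es1g1hkb_muHeckeH H dvd_rfl

/-- **The G1 contract** for `Γ = gammaH M M H`, `H ≤ ker θ`, unconditionally. -/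
theorem es1g1_unifData_done (M : ℕ) [NeZero M] (H : Subgroup (ZMod M)ˣ)
    (θ : DirichletCharacter ℂ M) (hHθ : ∀ h ∈ H, θ (h : ZMod M) = 1) (p : ℕ) (hp : 0 < p) :
    ES1bUnifData M θ p (JH M M H) (G2.es1g2T M M H) (G2.es1Diamond M M H) (gammaH M M H)
      (es1g1opPar M M H) (es1g1Op M M H p dvd_rfl) (Additive ℂˣ) (es1g1_mu M H p hp)
      (expZMod p) :=
  es1g1_unifData M H θ hHθ p hp (es1g1hkb_muHeckeH H dvd_rfl)

/-- **G1 is DONE**: the deliverable `StmtG1Unif` of `ES1/G1UnifStmt.lean`. -/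
theorem stmtG1Unif : StmtG1Unif := es1g1_stmtG1Unif es1g1_stmtMuHeckeAll

end Fermat.Agent.ES1
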