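import Fermat.Agent.ES1.TopBSupp

/-!
# ES₁ / TOP-b — the abstract G1 contract and the assembly (helper42)

`ES1bUnifData M θ p J T D Γ P Op Co μ ε` is what piece G1 has to deliver for the `p`-torsion of
`J` (`= JH M M H`) with its Hecke operators `T ℓ` and diamonds `D c`:

* a finitely generated group `Γ` (`= Γ_H(M)`), a set `P ⊆ Γ` (the parabolic elements), natural
  operators `Op i` on `A ↦ Hom(Γ, A)` (one for every good variable `T_ℓ`, `ℓ ∤ M p`, and `δ_c`)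
  preserving the integral homomorphisms vanishing on `P`;
* the multiplier map `μ : J[p] → Hom(Γ, Co)` (`Co = Additive ℂˣ`): additive, injective,
  equivariant, onto the classes `ε ∘ (x mod p)`, `x` integral vanishing on `P`
  (`ε : ZMod p → Co`, `k ↦ e(k/p)`);
* (G1-PER) the period eigen-homomorphism: for `g ≠ 0` in `S₂(Γ₁(M))` with nebentypus `θ` and
  eigenvalues `b` there is `v : Γ → ℂ`, `v ≠ 0`, vanishing on `P`, with
  `Op i ℂ v = es1top_sys θ b s i • v` for one `s : Bool`.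

`es1b_clauses_of_unif` : with the clauses Galois/diamond/frob/unram this gives `ES1bClauses`,
hence `ES1Pkg M θ p` (`es1b_pkg_of_unif`).
-/

set_option autoImplicit false
set_option linter.style.haveILetI false
set_option linter.unusedSectionVars false

noncomputable section

namespace Fermat.Agent.ES1

open Fermat.Agent.ES Fermat.Agent.S48 CongruenceSubgroup UpperHalfPlane

/-- **The abstract G1 contract.** -/
structure ES1bUnifData (M : ℕ) (θ : DirichletCharacter ℂ M) (p : ℕ) (J : Type) [AddCommGroup J]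
    (T : Nat.Primes → J →+ J) (D : (ZMod M)ˣ → J →+ J)
    (Γ : Type) [Group Γ] (P : Set Γ)
    (Op : es1top_goodVars M p → ∀ (A : Type) [AddCommGroup A],
      (Additive Γ →+ A) →+ (Additive Γ →+ A))
    (Co : Type) [AddCommGroup Co] (μ : es1b_torsPart p J →+ (Additive Γ →+ Co))
    (ε : ZMod p →+ Co) : Prop where
  /-- `Γ` is finitely generated -/
  fg : Group.FG Γ
  /-- the operators are natural in the coefficient group -/
  nat : ∀ (i : es1top_goodVars M p) (A A' : Type) [AddCommGroup A] [AddCommGroup A']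
    (f : A →+ A') (φ : Additive Γ →+ A), Op i A' (f.comp φ) = f.comp (Op i A φ)
  /-- the operators preserve the integral homomorphisms vanishing on `P` -/
  par : ∀ (i : es1top_goodVars M p) (φ : Additive Γ →+ ℤ),
    φ ∈ intHoms Γ P → Op i ℤ φ ∈ intHoms Γ P
  /-- `μ` is injective -/
  inj : Function.Injective μ
  /-- `μ` is equivariant -/
  equiv : ∀ (i : es1top_goodVars M p) (x : es1b_torsPart p J),
    μ (es1b_opP M p T D i x) = Op i Co (μ x)
  /-- `ε` is injective -/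
  eps_inj : Function.Injective ε
  /-- `Co[p]` is finite -/
  co_fin : {c : Co | p • c = 0}.Finite
  /-- the image of `μ` contains the classes `ε ∘ (x mod p)` -/
  surj : ∀ x : Additive Γ →+ ℤ, x ∈ intHoms Γ P →
    ∃ y : es1b_torsPart p J, μ y = ε.comp ((Int.castAddHom (ZMod p)).comp x)
  /-- (G1-PER) the period eigen-homomorphism of an eigenvector `g` -/
  period : ∀ g : CuspForm (Gamma1 M) 2, (g : ℍ → ℂ) ≠ 0 → HasNebenK M θ 2 g →
    ∀ b : ℕ → ℂ, IsEigenAway M θ 2 (M * p) g b →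
      ∃ (s : Bool) (v : Additive Γ →+ ℂ), v ≠ 0 ∧ (∀ γ ∈ P, v (Additive.ofMul γ) = 0) ∧
        ∀ i : es1top_goodVars M p, Op i ℂ v = es1top_sys θ b s (i : HDVar M) • v

section Assembly

variable {M : ℕ} {θ : DirichletCharacter ℂ M} {p : ℕ} {J : Type} [AddCommGroup J]
  [DistribMulAction GalQ J] {T : Nat.Primes → J →+ J} {D : (ZMod M)ˣ → J →+ J}
  {Γ : Type} [Group Γ] {P : Set Γ}
  {Op : es1top_goodVars M p → ∀ (A : Type) [AddCommGroup A],
    (Additive Γ →+ A) →+ (Additive Γ →+ A)}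
  {Co : Type} [AddCommGroup Co] {μ : es1b_torsPart p J →+ (Additive Γ →+ Co)}
  {ε : ZMod p →+ Co}

/-- **TOP-b, assembly.**  The G1 contract and the clauses Galois/diamond/frob/unram give all
the clauses of `ES1bClauses`. -/
theorem es1b_clauses_of_unif [Fact p.Prime] (hU : ES1bUnifData M θ p J T D Γ P Op Co μ ε)
    (hGT : ∀ (σ : GalQ) (ℓ : Nat.Primes), ¬ (ℓ : ℕ) ∣ M * p →
      ∀ x : J, p • x = 0 → σ • T ℓ x = T ℓ (σ • x))
    (hGD : ∀ (σ : GalQ) (c : (ZMod M)ˣ) (x : J), p • x = 0 → σ • D c x = D c (σ • x))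
    (hlev : ∀ x : J, p • x = 0 → ∃ E : IntermediateField ℚ (AlgebraicClosure ℚ),
      FiniteDimensional ℚ E ∧ ∀ σ : GalQ, (∀ a ∈ E, σ a = a) → σ • x = x)
    (hD1 : ∀ x : J, p • x = 0 → D 1 x = x)
    (hDmul : ∀ (c d : (ZMod M)ˣ) (x : J), p • x = 0 → D (c * d) x = D c (D d x))
    (hfrob : ∀ ℓ : ℕ, (hℓ : ℓ.Prime) → ¬ ℓ ∣ M * p →
      ∀ c : (ZMod M)ˣ, (c : ZMod M) = (ℓ : ZMod M) →
      ∀ A : ValuationSubring (AlgebraicClosure ℚ), A.LiesOverPrime ℓ →
        ∀ τ : GalQ, A.IsFrobeniusAt τ ℓ →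
          ∀ x : J, p • x = 0 → D c (τ • τ • x) - T ⟨ℓ, hℓ⟩ (τ • x) + ℓ • x = 0)
    (hunr : ∀ ℓ : ℕ, ℓ.Prime → ¬ ℓ ∣ M * p →
      ∀ A : ValuationSubring (AlgebraicClosure ℚ), A.LiesOverPrime ℓ →
        ∀ σ ∈ A.inertiaSubgroupIn ℚ, ∀ x : J, p • x = 0 → σ • x = x) :
    ES1bClauses M θ p J T D := by
  haveI := hU.fg
  refine
    { finite := es1b_finite_of_multiplier μ hU.inj hU.co_fin
      galois_hecke := hGT
      galois_diamond := hGD
      finite_level := hlev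
      diamond_one := hD1
      diamond_mul := hDmul
      frob := hfrob
      unram := hunr
      supp := ?_ }
  intro g hg0 hgθ b hb 𝔪 h𝔪 hp
  obtain ⟨s, v, hv0, hvP, hv⟩ := hU.period g hg0 hgθ b hb
  obtain ⟨y, hy0, hpy, hy⟩ := es1b_supp_of_multiplier Op
    (fun i : es1top_goodVars M p => es1b_op T D (i : HDVar M)) P hU.nat hU.par μ hU.inj
    hU.equiv ε hU.eps_inj hU.surj
    (fun i : es1top_goodVars M p => es1top_sys θ b s (i : HDVar M)) v hv0 hvP hv 𝔪
    h𝔪.ne_top hp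
  exact ⟨s, y, hy0, hpy, hy⟩

/-- **TOP-b, final form**: the package from the G1 contract and the G2 clauses. -/
theorem es1b_pkg_of_unif [Fact p.Prime] (hU : ES1bUnifData M θ p J T D Γ P Op Co μ ε)
    (hGT : ∀ (σ : GalQ) (ℓ : Nat.Primes), ¬ (ℓ : ℕ) ∣ M * p →
      ∀ x : J, p • x = 0 → σ • T ℓ x = T ℓ (σ • x))
    (hGD : ∀ (σ : GalQ) (c : (ZMod M)ˣ) (x : J), p • x = 0 → σ • D c x = D c (σ • x))
    (hlev : ∀ x : J, p • x = 0 → ∃ E : IntermediateField ℚ (AlgebraicClosure ℚ),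
      FiniteDimensional ℚ E ∧ ∀ σ : GalQ, (∀ a ∈ E, σ a = a) → σ • x = x)
    (hD1 : ∀ x : J, p • x = 0 → D 1 x = x)
    (hDmul : ∀ (c d : (ZMod M)ˣ) (x : J), p • x = 0 → D (c * d) x = D c (D d x))
    (hfrob : ∀ ℓ : ℕ, (hℓ : ℓ.Prime) → ¬ ℓ ∣ M * p →
      ∀ c : (ZMod M)ˣ, (c : ZMod M) = (ℓ : ZMod M) →
      ∀ A : ValuationSubring (AlgebraicClosure ℚ), A.LiesOverPrime ℓ →
        ∀ τ : GalQ, A.IsFrobeniusAt τ ℓ →
          ∀ x : J, p • x = 0 → D c (τ • τ • x) - T ⟨ℓ, hℓ⟩ (τ • x) + ℓ • x = 0)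
    (hunr : ∀ ℓ : ℕ, ℓ.Prime → ¬ ℓ ∣ M * p →
      ∀ A : ValuationSubring (AlgebraicClosure ℚ), A.LiesOverPrime ℓ →
        ∀ σ ∈ A.inertiaSubgroupIn ℚ, ∀ x : J, p • x = 0 → σ • x = x) :
    ES1Pkg M θ p :=
  es1b_pkg_of_clauses (es1b_clauses_of_unif hU hGT hGD hlev hD1 hDmul hfrob hunr)

end Assembly

end Fermat.Agent.ES1
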