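import Fermat.Agent.ES1.HeckeGrp
import Fermat.Agent.ES1.RCGammaA
import Fermat.Agent.ES1.PerInj
import Fermat.Agent.ES1.TopBUnif
import Fermat.Agent.ES.HeckePPar
import Fermat.Agent.S21.ParabolicDim

/-!
# ES₁-G1, piece G1-OP: the operators `Op` on `Hom(Γ, A)`, `Γ = gammaH L M H` (helper78)

* generic facts on Mathlib's transfer: `es1g1op_transfer_mul`, `es1g1op_transfer_comp`,
  `es1g1op_transfer_eq_one` (from `MonoidHom.transfer_eq_prod_quotient_orbitRel_zpowers_quot`);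
* `heckeGrpHom`, `diamGrpHom` : `heckeGrp`, `diamGrp` as additive maps in `φ`; naturality in the
  coefficient group (`heckeGrp_comp`, `diamGrp_comp`); they preserve the homomorphisms vanishing
  on the elements of trace `±2` (`heckeGrp_par`, `diamGrp_par`);
* `es1g1opPar L M H` : the set `P` of the elements of trace `±2`;
* `es1g1opSigma hML c` : a chosen `σ ∈ Γ₀(L) ∩ Γ₀(M)` with `diamHom M σ = c`;
* `es1g1Op L M H p hML` : THE family `Op` of `ES1bUnifData` (`T_ℓ ↦ heckeGrp ℓ`,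
  `δ_c ↦ diamGrp σ_c`), with `es1g1op_fg`, `es1g1op_nat`, `es1g1op_par` = the clauses `fg`, `nat`,
  `par` of `ES1bUnifData`.
-/

set_option autoImplicit false

noncomputable section

namespace Fermat.Agent.ES1

open CongruenceSubgroup Matrix Matrix.SpecialLinearGroup Fermat.Agent.ES
open scoped MatrixGroups

/-! ## Transfer -/

section Transfer

variable {G : Type*} [Group G] {K : Subgroup G} [K.FiniteIndex]
variable {A B : Type*} [CommGroup A] [CommGroup B]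

theorem es1g1op_transfer_mul (ϕ ψ : K →* A) :
    MonoidHom.transfer (ϕ * ψ) = MonoidHom.transfer ϕ * MonoidHom.transfer ψ := by
  classical
  ext g
  haveI : Finite (G ⧸ K) := Subgroup.finite_quotient_of_finiteIndex
  haveI : Fintype (Quotient (MulAction.orbitRel (Subgroup.zpowers g) (G ⧸ K))) :=
    Fintype.ofFinite _
  rw [MonoidHom.mul_apply, MonoidHom.transfer_eq_prod_quotient_orbitRel_zpowers_quot,
    MonoidHom.transfer_eq_prod_quotient_orbitRel_zpowers_quot,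
    MonoidHom.transfer_eq_prod_quotient_orbitRel_zpowers_quot, ← Finset.prod_mul_distrib]
  rfl

theorem es1g1op_transfer_comp (f : A →* B) (ϕ : K →* A) :
    MonoidHom.transfer (f.comp ϕ) = f.comp (MonoidHom.transfer ϕ) := by
  classical
  ext g
  haveI : Finite (G ⧸ K) := Subgroup.finite_quotient_of_finiteIndex
  haveI : Fintype (Quotient (MulAction.orbitRel (Subgroup.zpowers g) (G ⧸ K))) :=
    Fintype.ofFinite _
  rw [MonoidHom.comp_apply, MonoidHom.transfer_eq_prod_quotient_orbitRel_zpowers_quot,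
    MonoidHom.transfer_eq_prod_quotient_orbitRel_zpowers_quot, map_prod]
  rfl

/-- the transfer of `ϕ` is trivial at `g` if `ϕ` is trivial on the conjugates of the powers of
`g` lying in the subgroup -/
theorem es1g1op_transfer_eq_one (ϕ : K →* A) (g : G)
    (h : ∀ (k : G) (r : ℕ) (hk : k⁻¹ * g ^ r * k ∈ K), ϕ ⟨k⁻¹ * g ^ r * k, hk⟩ = 1) :
    MonoidHom.transfer ϕ g = 1 := by
  classical
  haveI : Finite (G ⧸ K) := Subgroup.finite_quotient_of_finiteIndex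
  haveI : Fintype (Quotient (MulAction.orbitRel (Subgroup.zpowers g) (G ⧸ K))) :=
    Fintype.ofFinite _
  rw [MonoidHom.transfer_eq_prod_quotient_orbitRel_zpowers_quot]
  exact Finset.prod_eq_one fun q _ => h _ _ _

end Transfer

/-! ## The set of the elements of trace `±2` -/

/-- the elements of trace `±2` of `Γ = gammaH L M H` -/
def es1g1opPar (L M : ℕ) (H : Subgroup (ZMod M)ˣ) : Set (gammaH L M H) :=
  {γ | ((γ : SL(2, ℤ)) : Matrix (Fin 2) (Fin 2) ℤ).trace ^ 2 = 4}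

theorem mem_es1g1opPar {L M : ℕ} {H : Subgroup (ZMod M)ˣ} {γ : gammaH L M H} :
    γ ∈ es1g1opPar L M H ↔ ((γ : SL(2, ℤ)) : Matrix (Fin 2) (Fin 2) ℤ).trace ^ 2 = 4 := Iff.rfl

theorem es1g1op_trace_conjAlphaSL (ℓ : ℕ) (γ : SL(2, ℤ)) (h : (ℓ : ℤ) ∣ γ 1 0) :
    ((conjAlphaSL ℓ γ h : SL(2, ℤ)) : Matrix (Fin 2) (Fin 2) ℤ).trace
      = (γ : Matrix (Fin 2) (Fin 2) ℤ).trace := by
  rw [Matrix.trace_fin_two, Matrix.trace_fin_two]
  rfl

theorem es1g1op_trace_conj' (x g : SL(2, ℤ)) :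
    ((x * g * x⁻¹ : SL(2, ℤ)) : Matrix (Fin 2) (Fin 2) ℤ).trace =
      (g : Matrix (Fin 2) (Fin 2) ℤ).trace := by
  have := Fermat.Agent.S21.E1.trace_conj x⁻¹ g
  rwa [inv_inv] at this

/-! ## The Hecke operator -/

section Hecke

variable (L M : ℕ) [NeZero L] [NeZero M] (H : Subgroup (ZMod M)ˣ) (ℓ : ℕ) [NeZero ℓ]
variable {A B : Type*} [AddCommGroup A] [AddCommGroup B]

theorem heckeRes_add (hML : M ∣ L) (φ ψ : Additive (gammaH L M H) →+ A) :
    heckeRes L M H ℓ hML (φ + ψ) = heckeRes L M H ℓ hML φ * heckeRes L M H ℓ hML ψ := rfl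

theorem heckeRes_comp (hML : M ∣ L) (f : A →+ B) (φ : Additive (gammaH L M H) →+ A) :
    heckeRes L M H ℓ hML (f.comp φ)
      = (AddMonoidHom.toMultiplicative f).comp (heckeRes L M H ℓ hML φ) := rfl

theorem heckeGrp_add (hML : M ∣ L) (φ ψ : Additive (gammaH L M H) →+ A) :
    heckeGrp L M H ℓ hML (φ + ψ) = heckeGrp L M H ℓ hML φ + heckeGrp L M H ℓ hML ψ := by
  refine DFunLike.ext _ _ fun γ => ?_
  obtain ⟨γ, rfl⟩ : ∃ g : gammaH L M H, Additive.ofMul g = γ := ⟨Additive.toMul γ, rfl⟩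
  rw [AddMonoidHom.add_apply, heckeGrp_apply, heckeGrp_apply, heckeGrp_apply, heckeRes_add,
    es1g1op_transfer_mul]
  rfl

/-- naturality of `T_ℓ` in the coefficient group -/
theorem heckeGrp_comp (hML : M ∣ L) (f : A →+ B) (φ : Additive (gammaH L M H) →+ A) :
    heckeGrp L M H ℓ hML (f.comp φ) = f.comp (heckeGrp L M H ℓ hML φ) := by
  refine DFunLike.ext _ _ fun γ => ?_
  obtain ⟨γ, rfl⟩ : ∃ g : gammaH L M H, Additive.ofMul g = γ := ⟨Additive.toMul γ, rfl⟩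
  rw [AddMonoidHom.comp_apply, heckeGrp_apply, heckeGrp_apply, heckeRes_comp,
    es1g1op_transfer_comp]
  rfl

/-- `T_ℓ` as an additive map -/
def heckeGrpHom (hML : M ∣ L) (A : Type*) [AddCommGroup A] :
    (Additive (gammaH L M H) →+ A) →+ (Additive (gammaH L M H) →+ A) :=
  AddMonoidHom.mk' (heckeGrp L M H ℓ hML) (heckeGrp_add L M H ℓ hML)

@[simp] theorem heckeGrpHom_apply (hML : M ∣ L) (φ : Additive (gammaH L M H) →+ A) :
    heckeGrpHom L M H ℓ hML A φ = heckeGrp L M H ℓ hML φ := rfl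

/-- `T_ℓ` preserves the homomorphisms vanishing on the elements of trace `±2` -/
theorem heckeGrp_par (hML : M ∣ L) {φ : Additive (gammaH L M H) →+ A}
    (hφ : ∀ γ ∈ es1g1opPar L M H, φ (Additive.ofMul γ) = 0) :
    ∀ γ ∈ es1g1opPar L M H, heckeGrp L M H ℓ hML φ (Additive.ofMul γ) = 0 := by
  intro γ hγ
  rw [heckeGrp_apply]
  have key : MonoidHom.transfer (heckeRes L M H ℓ hML φ) γ = 1 := by
    refine es1g1op_transfer_eq_one _ γ fun k r hk => ?_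
    show Multiplicative.ofAdd (φ (Additive.ofMul (conjAlphaH H ℓ (NeZero.ne ℓ) hML
      (subLevelEquiv L M H ℓ ⟨k⁻¹ * γ ^ r * k, hk⟩)))) = 1
    rw [hφ, ofAdd_zero]
    rw [mem_es1g1opPar, coe_conjAlphaH, es1g1op_trace_conjAlphaSL]
    have h1 : (((subLevelEquiv L M H ℓ ⟨k⁻¹ * γ ^ r * k, hk⟩ : gammaH (L * ℓ) M H) : SL(2, ℤ)))
        = (k : SL(2, ℤ))⁻¹ * (γ : SL(2, ℤ)) ^ r * (k : SL(2, ℤ)) := rfl
    rw [h1, Fermat.Agent.S21.E1.trace_conj]
    exact Fermat.Agent.ES.HeckeP.trace_pow_sq_eq_four _ hγ r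
  rw [key]
  rfl

end Hecke

/-! ## The diamond operators -/

section Diamond

variable (L M : ℕ) (H : Subgroup (ZMod M)ˣ)
variable {A B : Type*} [AddCommGroup A] [AddCommGroup B]

theorem diamGrp_add (σ : SL(2, ℤ)) (hσL : σ ∈ Gamma0 L) (hσM : σ ∈ Gamma0 M)
    (φ ψ : Additive (gammaH L M H) →+ A) :
    diamGrp L M H σ hσL hσM (φ + ψ) = diamGrp L M H σ hσL hσM φ + diamGrp L M H σ hσL hσM ψ :=
  rfl

/-- naturality of the diamond operators in the coefficient group -/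
theorem diamGrp_comp (σ : SL(2, ℤ)) (hσL : σ ∈ Gamma0 L) (hσM : σ ∈ Gamma0 M) (f : A →+ B)
    (φ : Additive (gammaH L M H) →+ A) :
    diamGrp L M H σ hσL hσM (f.comp φ) = f.comp (diamGrp L M H σ hσL hσM φ) := rfl

/-- the diamond operator as an additive map -/
def diamGrpHom (σ : SL(2, ℤ)) (hσL : σ ∈ Gamma0 L) (hσM : σ ∈ Gamma0 M) (A : Type*)
    [AddCommGroup A] : (Additive (gammaH L M H) →+ A) →+ (Additive (gammaH L M H) →+ A) :=
  AddMonoidHom.mk' (diamGrp L M H σ hσL hσM) (diamGrp_add L M H σ hσL hσM)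

@[simp] theorem diamGrpHom_apply (σ : SL(2, ℤ)) (hσL : σ ∈ Gamma0 L) (hσM : σ ∈ Gamma0 M)
    (φ : Additive (gammaH L M H) →+ A) :
    diamGrpHom L M H σ hσL hσM A φ = diamGrp L M H σ hσL hσM φ := rfl

/-- the diamond operators preserve the homomorphisms vanishing on the elements of trace `±2` -/
theorem diamGrp_par (σ : SL(2, ℤ)) (hσL : σ ∈ Gamma0 L) (hσM : σ ∈ Gamma0 M)
    {φ : Additive (gammaH L M H) →+ A}
    (hφ : ∀ γ ∈ es1g1opPar L M H, φ (Additive.ofMul γ) = 0) :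
    ∀ γ ∈ es1g1opPar L M H, diamGrp L M H σ hσL hσM φ (Additive.ofMul γ) = 0 := by
  intro γ hγ
  rw [diamGrp_apply]
  apply hφ
  rw [mem_es1g1opPar]
  show ((σ * (γ : SL(2, ℤ)) * σ⁻¹ : SL(2, ℤ)) : Matrix (Fin 2) (Fin 2) ℤ).trace ^ 2 = 4
  rw [es1g1op_trace_conj']
  exact hγ

/-- the diamond operator depends only on the class of `σ` -/
theorem diamGrp_congr {σ σ' : SL(2, ℤ)} (hσL : σ ∈ Gamma0 L) (hσM : σ ∈ Gamma0 M)
    (hσL' : σ' ∈ Gamma0 L) (hσM' : σ' ∈ Gamma0 M)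
    (h : diamHom M ⟨σ, hσM⟩ = diamHom M ⟨σ', hσM'⟩) (φ : Additive (gammaH L M H) →+ A) :
    diamGrp L M H σ hσL hσM φ = diamGrp L M H σ' hσL' hσM' φ := by
  -- `ρ = σ'⁻¹ σ ∈ Γ`
  have hρM : σ'⁻¹ * σ ∈ Gamma0 M := mul_mem (inv_mem hσM') hσM
  have hρ : σ'⁻¹ * σ ∈ gammaH L M H := by
    refine ⟨mul_mem (inv_mem hσL') hσL, hρM, ?_⟩
    have h1 : (⟨σ'⁻¹ * σ, hρM⟩ : Gamma0 M) = (⟨σ', hσM'⟩ : Gamma0 M)⁻¹ * ⟨σ, hσM⟩ := rfl
    rw [h1, map_mul, map_inv, h, inv_mul_cancel]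
    exact one_mem _
  refine DFunLike.ext _ _ fun γ => ?_
  obtain ⟨γ, rfl⟩ : ∃ g : gammaH L M H, Additive.ofMul g = γ := ⟨Additive.toMul γ, rfl⟩
  have h2 := DFunLike.congr_fun (diamGrp_of_mem L M H hρ (diamGrp L M H σ' hσL' hσM' φ))
    (Additive.ofMul γ)
  rw [← h2, diamGrp_apply, diamGrp_apply, diamGrp_apply]
  congr 2
  apply Subtype.ext
  show σ * (γ : SL(2, ℤ)) * σ⁻¹ = σ' * (σ'⁻¹ * σ * (γ : SL(2, ℤ)) * (σ'⁻¹ * σ)⁻¹) * σ'⁻¹
  group

end Diamond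

/-! ## The family `Op` -/

section Op

variable (L M : ℕ) [NeZero L] [NeZero M] (H : Subgroup (ZMod M)ˣ)

/-- `Γ = gammaH L M H` is finitely generated -/
theorem es1g1op_fg : Group.FG (gammaH L M H) := es1per_fg (gammaH L M H)

variable {L M}

theorem es1g1op_exists_sigma (hML : M ∣ L) (c : (ZMod M)ˣ) :
    ∃ σ : SL(2, ℤ), ∃ (_ : σ ∈ Gamma0 L) (hσM : σ ∈ Gamma0 M), diamHom M ⟨σ, hσM⟩ = c := by
  obtain ⟨γ, hγ, h00⟩ := es1rc_exists_rep hML c
  have hM : γ ∈ Gamma0 M := Fermat.Agent.ES.RC.rc_Gamma0_le_of_dvd hML hγ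
  refine ⟨γ, hγ, hM, ?_⟩
  ext
  rw [coe_diamHom]
  exact h00

/-- a chosen `σ ∈ Γ₀(L) ∩ Γ₀(M)` with diamond `c` -/
def es1g1opSigma (hML : M ∣ L) (c : (ZMod M)ˣ) : SL(2, ℤ) :=
  (es1g1op_exists_sigma hML c).choose

theorem es1g1opSigma_memL (hML : M ∣ L) (c : (ZMod M)ˣ) : es1g1opSigma hML c ∈ Gamma0 L :=
  (es1g1op_exists_sigma hML c).choose_spec.choose

theorem es1g1opSigma_memM (hML : M ∣ L) (c : (ZMod M)ˣ) : es1g1opSigma hML c ∈ Gamma0 M :=
  (es1g1op_exists_sigma hML c).choose_spec.choose_spec.choose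

theorem es1g1opSigma_diam (hML : M ∣ L) (c : (ZMod M)ˣ) :
    diamHom M ⟨es1g1opSigma hML c, es1g1opSigma_memM hML c⟩ = c :=
  (es1g1op_exists_sigma hML c).choose_spec.choose_spec.choose_spec

variable (L M)

/-- the operator attached to a variable: `T_ℓ ↦ heckeGrp ℓ`, `δ_c ↦ diamGrp σ_c` -/
def es1g1OpVar (hML : M ∣ L) (A : Type) [AddCommGroup A] :
    HDVar M → ((Additive (gammaH L M H) →+ A) →+ (Additive (gammaH L M H) →+ A))
  | Sum.inl ℓ =>
      haveI : NeZero (ℓ : ℕ) := ⟨ℓ.2.ne_zero⟩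
      heckeGrpHom L M H ℓ hML A
  | Sum.inr c =>
      diamGrpHom L M H (es1g1opSigma hML c) (es1g1opSigma_memL hML c)
        (es1g1opSigma_memM hML c) A

/-- **THE family `Op`** of the G1 contract `ES1bUnifData` for `Γ = gammaH L M H`. -/
def es1g1Op (p : ℕ) (hML : M ∣ L) :
    es1top_goodVars M p → ∀ (A : Type) [AddCommGroup A],
      (Additive (gammaH L M H) →+ A) →+ (Additive (gammaH L M H) →+ A) :=
  fun i A _ => es1g1OpVar L M H hML A (i : HDVar M)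

variable {L M H}

theorem es1g1Op_inl (p : ℕ) (hML : M ∣ L) (ℓ : Nat.Primes) (h : Sum.inl ℓ ∈ es1top_goodVars M p)
    (A : Type) [AddCommGroup A] (φ : Additive (gammaH L M H) →+ A) :
    es1g1Op L M H p hML ⟨Sum.inl ℓ, h⟩ A φ =
      (haveI : NeZero (ℓ : ℕ) := ⟨ℓ.2.ne_zero⟩; heckeGrp L M H ℓ hML φ) := rfl

theorem es1g1Op_inr (p : ℕ) (hML : M ∣ L) (c : (ZMod M)ˣ) (h : Sum.inr c ∈ es1top_goodVars M p)
    (A : Type) [AddCommGroup A] (φ : Additive (gammaH L M H) →+ A)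
    (σ : SL(2, ℤ)) (hσL : σ ∈ Gamma0 L) (hσM : σ ∈ Gamma0 M) (hσ : diamHom M ⟨σ, hσM⟩ = c) :
    es1g1Op L M H p hML ⟨Sum.inr c, h⟩ A φ = diamGrp L M H σ hσL hσM φ :=
  diamGrp_congr L M H _ _ hσL hσM ((es1g1opSigma_diam hML c).trans hσ.symm) φ

/-- clause `nat` of `ES1bUnifData` -/
theorem es1g1op_nat (p : ℕ) (hML : M ∣ L) (i : es1top_goodVars M p) (A A' : Type)
    [AddCommGroup A] [AddCommGroup A'] (f : A →+ A') (φ : Additive (gammaH L M H) →+ A) :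
    es1g1Op L M H p hML i A' (f.comp φ) = f.comp (es1g1Op L M H p hML i A φ) := by
  obtain ⟨i, hi⟩ := i
  rcases i with ℓ | c
  · haveI : NeZero (ℓ : ℕ) := ⟨ℓ.2.ne_zero⟩
    exact heckeGrp_comp L M H ℓ hML f φ
  · exact diamGrp_comp L M H _ _ _ f φ

/-- clause `par` of `ES1bUnifData` -/
theorem es1g1op_par (p : ℕ) (hML : M ∣ L) (i : es1top_goodVars M p)
    (φ : Additive (gammaH L M H) →+ ℤ)
    (hφ : φ ∈ intHoms (gammaH L M H) (es1g1opPar L M H)) :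
    es1g1Op L M H p hML i ℤ φ ∈ intHoms (gammaH L M H) (es1g1opPar L M H) := by
  obtain ⟨i, hi⟩ := i
  rcases i with ℓ | c
  · haveI : NeZero (ℓ : ℕ) := ⟨ℓ.2.ne_zero⟩
    exact heckeGrp_par L M H ℓ hML hφ
  · exact diamGrp_par L M H _ _ _ hφ

end Op

end Fermat.Agent.ES1
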