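import Fermat.Agent.ES1.G1Plan
import Fermat.Agent.ES1.G1Op
import Fermat.Agent.ES1.G2.Clauses
import Fermat.Agent.ES1.TopBUnif
import Fermat.Agent.ES.JOfUnif
import Fermat.Agent.ES.TopFaith

/-!
# ES₁-G1 — assembly: the G1 contract `ES1bUnifData` from the pieces (sub-captain helper38)

`Γ = gammaH M M H`, `J = JH M M H`, `T ℓ = G2.es1g2T M M H ℓ` (`= es1hHecke`),
`D c = G2.es1Diamond M M H c`, `P = es1g1opPar M M H`, `Op = es1g1Op M M H p dvd_rfl`,
`Co = Additive ℂˣ`, `μ = es1g1_muP` (the restriction of `muMapH` to `J[p]`), `ε = expZMod p`.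

* `es1g1_muP` : the multiplier map on `J[p]` as an additive map;
* `es1g1_unif_of_pieces` : `MuExistsH`, `MuUniqueH`, `MuAddH`, `MuInjH`, `MuSurjH`, `MuHeckeH`,
  `MuDiamH` and the period clause (`Es1g1PerClause`) give `ES1bUnifData`.
-/

set_option autoImplicit false

noncomputable section

namespace Fermat.Agent.ES1

open ModularCurve AlgebraicCurve CongruenceSubgroup ModularCurve.Period UpperHalfPlane
open Fermat.Agent.ES Fermat.Agent.S48
open scoped MatrixGroups

variable {L M : ℕ} {H : Subgroup (ZMod M)ˣ}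

theorem es1g1_muMapH_zero (hE : MuExistsH L M H) (hU : MuUniqueH L M H) (hA : MuAddH L M H) :
    muMapH L M H 0 = 0 := by
  have h1 := muMapH_add hE hU hA (n := 1) one_pos (x := (0 : JH L M H)) (y := 0)
    (smul_zero _) (smul_zero _)
  rw [add_zero] at h1
  refine DFunLike.ext _ _ (fun γ => ?_)
  have h2 := DFunLike.congr_fun h1 γ
  rw [AddMonoidHom.add_apply] at h2
  exact left_eq_add.mp h2

/-- the multiplier map on `J[p]`, as an additive map -/
def es1g1_muP (hE : MuExistsH L M H) (hU : MuUniqueH L M H) (hA : MuAddH L M H) (p : ℕ)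
    (hp : 0 < p) : es1b_torsPart p (JH L M H) →+ CharGrpH L M H where
  toFun x := muMapH L M H (x : JH L M H)
  map_zero' := es1g1_muMapH_zero hE hU hA
  map_add' x y := muMapH_add hE hU hA hp x.2 y.2

@[simp] theorem es1g1_muP_apply (hE : MuExistsH L M H) (hU : MuUniqueH L M H)
    (hA : MuAddH L M H) (p : ℕ) (hp : 0 < p) (x : es1b_torsPart p (JH L M H)) :
    es1g1_muP hE hU hA p hp x = muMapH L M H (x : JH L M H) := rfl

theorem es1g1_muP_injective (hE : MuExistsH L M H) (hU : MuUniqueH L M H) (hA : MuAddH L M H)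
    (hI : MuInjH L M H) (p : ℕ) (hp : 0 < p) :
    Function.Injective (es1g1_muP hE hU hA p hp) := by
  rw [injective_iff_map_eq_zero]
  intro x hx
  exact Subtype.ext (muMapH_eq_zero hE hU hI hp x.2 hx)

theorem es1g1_expZMod_comp (p : ℕ) (φ : Additive (gammaH L M H) →+ ℤ) :
    (expZMod p).comp ((Int.castAddHom (ZMod p)).comp φ) = expCharH L M H p φ := by
  refine DFunLike.ext _ _ (fun γ => ?_)
  simp only [AddMonoidHom.comp_apply, Int.coe_castAddHom, expZMod_intCast]
  rfl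

theorem es1g1_mem_intHoms {φ : Additive (gammaH L M H) →+ ℤ} :
    φ ∈ intHoms (gammaH L M H) (es1g1opPar L M H) ↔ IsParabolicHom (gammaH L M H) φ := Iff.rfl

variable (M H)

/-- (G1-PER) the period clause of `ES1bUnifData` for `Γ = gammaH M M H`, `Op = es1g1Op`. -/
def Es1g1PerClause [NeZero M] (θ : DirichletCharacter ℂ M) (p : ℕ) : Prop :=
  ∀ g : CuspForm (Gamma1 M) 2, (g : ℍ → ℂ) ≠ 0 → HasNebenK M θ 2 g →
    ∀ b : ℕ → ℂ, IsEigenAway M θ 2 (M * p) g b →
      ∃ (s : Bool) (v : Additive (gammaH M M H) →+ ℂ), v ≠ 0 ∧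
        (∀ γ ∈ es1g1opPar M M H, v (Additive.ofMul γ) = 0) ∧
        ∀ i : es1top_goodVars M p,
          es1g1Op M M H p dvd_rfl i ℂ v = es1top_sys θ b s (i : HDVar M) • v

variable {M H}

/-- **ES₁-G1, assembly.**  The pieces give the G1 contract. -/
theorem es1g1_unif_of_pieces [NeZero M] (θ : DirichletCharacter ℂ M) (p : ℕ) (hp : 0 < p)
    (hE : MuExistsH M M H) (hU : MuUniqueH M M H) (hA : MuAddH M M H) (hI : MuInjH M M H)
    (hS : MuSurjH M M H) (hH : MuHeckeH M M H dvd_rfl) (hD : MuDiamH M M H)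
    (hPer : Es1g1PerClause M H θ p) :
    ES1bUnifData M θ p (JH M M H) (G2.es1g2T M M H) (G2.es1Diamond M M H) (gammaH M M H)
      (es1g1opPar M M H) (es1g1Op M M H p dvd_rfl) (Additive ℂˣ) (es1g1_muP hE hU hA p hp)
      (expZMod p) where
  fg := es1g1op_fg M M H
  nat := es1g1op_nat p dvd_rfl
  par := es1g1op_par p dvd_rfl
  inj := es1g1_muP_injective hE hU hA hI p hp
  equiv := by
    rintro ⟨i, hi⟩ x
    rcases i with ℓ | c
    · have : NeZero (ℓ : ℕ) := ⟨ℓ.2.ne_zero⟩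
      have hℓM : ¬ (ℓ : ℕ) ∣ M := fun h => hi ℓ rfl (h.mul_right p)
      rw [es1g1Op_inl]
      exact muMapH_hecke dvd_rfl hE hU hH ℓ.2 hℓM hp x.2
    · rw [es1g1Op_inr p dvd_rfl c hi (Additive ℂˣ) _ (es1g1opSigma (dvd_refl M) c)
        (es1g1opSigma_memL dvd_rfl c) (es1g1opSigma_memM dvd_rfl c)
        (es1g1opSigma_diam dvd_rfl c)]
      exact muMapH_diam hE hU hD (es1g1opSigma_memL dvd_rfl c) (es1g1opSigma_memM dvd_rfl c)
        (es1g1opSigma_diam dvd_rfl c) hp x.2
  eps_inj := expZMod_injective hp.ne'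
  co_fin := finite_torsion_additive_units p hp.ne'
  surj := by
    intro φ hφ
    obtain ⟨x, hx, hxμ⟩ := muMapH_surj hU hS φ (es1g1_mem_intHoms.mp hφ) hp
    exact ⟨⟨x, hx⟩, by rw [es1g1_expZMod_comp]; exact hxμ⟩
  period := hPer

end Fermat.Agent.ES1
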