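import Fermat.Agent.ES1.G1Op
import Fermat.Agent.ES1.G2.Clauses

/-!
# ES₁-G1: the deliverable `StmtG1Unif` (definition only; helper78)

The contract `ES1bUnifData` (helper42, `ES1/TopBUnif.lean`) for `J = JH M M H`, with the operators
`G2.es1g2T M M H` (`ℓ ↦ es1hHecke M M H ℓ`), `G2.es1Diamond M M H` on `J` and `es1g1Op M M H p _`
(`T_ℓ ↦ heckeGrp ℓ`, `δ_c ↦ diamGrp σ_c`) on `Hom(Γ, ·)`, `Γ = gammaH M M H`,
`P = es1g1opPar M M H` (trace `±2`).  Consumer: `ES1/S48Glue.lean` (`s48_of_g1`).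
-/

set_option autoImplicit false

noncomputable section

namespace Fermat.Agent.ES1

open Fermat.Agent.S48 Fermat.Agent.ES

/-- **The deliverable of G1**: the contract `ES1bUnifData` for `J = JH M M H`, with the operators
`es1g2T`, `es1Diamond` on `J` and `es1g1Op` on `Hom(Γ, ·)`, `Γ = gammaH M M H`. -/
def StmtG1Unif : Prop :=
  ∀ (M : ℕ) [NeZero M] (θ : DirichletCharacter ℂ M) (p : ℕ) [Fact p.Prime],
    ∃ (H : Subgroup (ZMod M)ˣ) (Co : Type) (_ : AddCommGroup Co)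
      (μ : es1b_torsPart p (JH M M H) →+ (Additive (gammaH M M H) →+ Co)) (ε : ZMod p →+ Co),
      ES1bUnifData M θ p (JH M M H) (G2.es1g2T M M H) (G2.es1Diamond M M H) (gammaH M M H)
        (es1g1opPar M M H) (es1g1Op M M H p dvd_rfl) Co μ ε

end Fermat.Agent.ES1
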