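import Fermat.Agent.ES1.G1Plan
import Fermat.Agent.ES1.RCGamma
import Fermat.Agent.ES1.RealFinal
import Fermat.Agent.ES1.HBridge
import Fermat.Agent.ES.MuUnique

/-!
# ES₁-G1: the pieces `MuAddH` and `MuUniqueH` (helper38; fork of `ES/MuUnique.lean`)

* `es1g1u_muAddH : MuAddH L M H` — the multiplier relation is additive;
* `es1g1u_muUniqueH : MuUniqueH L M H` — the multiplier does not depend on the Kummer function, on
  the analytic fraction, on the root, nor on the exponent
(`[NeZero L]`, `M ∣ L`).  Also the reusable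
* `es1g1u_const_of_ord_eq_zero` : an element of `fieldBar L M H` without zeros and poles is a
  constant;
* `es1g1u_exists_isAnFracH` : every element of `fieldBar L M H` is analytically a fraction;
* `IsAnFracH.mul`, `IsAnFracH.a_ne_zero`.
-/

set_option autoImplicit false

noncomputable section

namespace Fermat.Agent.ES1

open ModularCurve AlgebraicCurve CongruenceSubgroup UpperHalfPlane IntermediateField
open Fermat.Agent.ES Fermat.Agent.S24 Fermat.Agent.S28
open scoped MatrixGroups Manifold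

/-! ### Constants of a function field of one variable -/

/-- an element without zeros and poles of a function field of one variable over an algebraically
closed field of characteristic `0` is a constant -/
theorem es1g1u_const_of_ord_eq_zero_gen {K F : Type*} [Field K] [Field F] [Algebra K F]
    [IsAlgClosed K] [CharZero K] (hFF : Es1hFF1 K F) (c : F)
    (hc : ∀ v : Place K F, v.ord c = 0) : ∃ c₀ : K, algebraMap K F c₀ = c := by
  by_cases halg : IsAlgebraic K c
  · have hint : IsIntegral K c := halg.isIntegral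
    have h1 : (minpoly K c).degree = 1 :=
      IsAlgClosed.degree_eq_one_of_irreducible K (minpoly.irreducible hint)
    exact minpoly.mem_range_of_degree_eq_one K c h1
  · exfalso
    have hct : Transcendental K c := halg
    haveI := hFF.finiteDimensional c hct
    obtain ⟨V, hV, hs⟩ := sum_ord_eq_finrank c hct
    have hVe : V = ∅ := by
      ext v
      simp [hV v, hc v]
    rw [hVe, Finset.sum_empty] at hs
    have hpos : 0 < Module.finrank K⟮c⟯ F := Module.finrank_pos
    have h0 : Module.finrank K⟮c⟯ F = 0 := by exact_mod_cast hs.symm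
    exact hpos.ne' h0

variable {L M : ℕ} [NeZero L] (H : Subgroup (ZMod M)ˣ)

/-- `fieldBar L M H` is a function field of one variable -/
theorem es1g1u_ff1 (hML : M ∣ L) : Es1hFF1 (AlgebraicClosure ℚ) (fieldBar L M H) :=
  (es1hFin_of_ramJH (stmtRamJH L M H hML)).ff1

/-- an element of `fieldBar L M H` without zeros and poles is a constant -/
theorem es1g1u_const_of_ord_eq_zero (hML : M ∣ L) (c : fieldBar L M H)
    (hc : ∀ v : Place (AlgebraicClosure ℚ) (fieldBar L M H), v.ord c = 0) :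
    ∃ c₀ : AlgebraicClosure ℚ, algebraMap (AlgebraicClosure ℚ) (fieldBar L M H) c₀ = c :=
  es1g1u_const_of_ord_eq_zero_gen (es1g1u_ff1 H hML) c hc

/-! ### Analytic fractions -/

/-- every element of `fieldBar L M H` is analytically a fraction of modular functions -/
theorem es1g1u_exists_isAnFracH (hML : M ∣ L) (k : fieldBar L M H) : ∃ a g : ℍ → ℂ, IsAnFracH L M H k a g := by
  obtain ⟨a, b, ha, hb, hb', h⟩ := es1rc_exists_frac H (coeffMap_embC_mem_fieldC L M H k.2)
  refine ⟨a, b, ha, hb, ?_, h⟩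
  rintro rfl
  exact hb' laurentOf_zero

variable {H}

theorem IsAnFracH.laurentOf_g_ne_zero {u : fieldBar L M H} {a g : ℍ → ℂ}
    (h : IsAnFracH L M H u a g) : laurentOf g ≠ 0 := fun h0 =>
  h.2.2.1 ((laurentOf_eq_zero_iff (es1rc_isMerInf H h.2.1)).mp h0)

theorem IsAnFracH.a_ne_zero {u : fieldBar L M H} {a g : ℍ → ℂ}
    (h : IsAnFracH L M H u a g) (hu : u ≠ 0) : a ≠ 0 := by
  rintro rfl
  have h1 := h.2.2.2
  rw [laurentOf_zero] at h1
  rcases mul_eq_zero.mp h1 with h2 | h2
  · apply hu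
    apply Subtype.ext
    exact (coeffMap embC).injective (h2.trans (map_zero _).symm)
  · exact h.laurentOf_g_ne_zero h2

theorem IsAnFracH.mul {u u' : fieldBar L M H} {a g a' g' : ℍ → ℂ}
    (h : IsAnFracH L M H u a g) (h' : IsAnFracH L M H u' a' g') :
    IsAnFracH L M H (u * u') (a * a') (g * g') := by
  obtain ⟨ha, hg, hg0, hL⟩ := h
  obtain ⟨ha', hg', hg0', hL'⟩ := h'
  refine ⟨ha.mul ha', hg.mul hg', ?_, ?_⟩
  · exact mdiff_mul_ne_zero hg.mdiff hg'.mdiff hg0 hg0'
  · rw [laurentOf_mul (es1rc_isMerInf H hg) (es1rc_isMerInf H hg'),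
      laurentOf_mul (es1rc_isMerInf H ha) (es1rc_isMerInf H ha'), ← hL, ← hL']
    have : ((u * u' : fieldBar L M H) : LaurentSeries (AlgebraicClosure ℚ)) =
        (u : LaurentSeries (AlgebraicClosure ℚ)) * (u' : LaurentSeries (AlgebraicClosure ℚ)) := rfl
    rw [this, map_mul]
    ring

/-! ### `MuAddH` -/

theorem es1g1u_muAddH : MuAddH L M H := by
  rintro n hn x y χ ψ ⟨u, a, g, R, hK, hF, hroot, rfl⟩ ⟨u', a', g', R', hK', hF', hroot', rfl⟩
  refine ⟨u * u', a * a', g * g', R.mul R', hK.add hK', hF.mul hF', fun τ => ?_, ?_⟩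
  · have h1 := hroot τ
    have h2 := hroot' τ
    show (R.a τ * R'.a τ) ^ n * (g τ * g' τ) = a τ * a' τ * (R.g τ * R'.g τ) ^ n
    calc (R.a τ * R'.a τ) ^ n * (g τ * g' τ)
        = (R.a τ ^ n * g τ) * (R'.a τ ^ n * g' τ) := by ring
      _ = (a τ * R.g τ ^ n) * (a' τ * R'.g τ ^ n) := by rw [h1, h2]
      _ = a τ * a' τ * (R.g τ * R'.g τ) ^ n := by ring
  · unfold RootData.multAdd
    rw [RootData.mult_mul]
    rfl

/-! ### The key identity -/

/-- the analytic form of `u' ^ n = c · u ^ m · k ^ (m n)` -/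
theorem es1g1u_anFrac_rel {u u' k : fieldBar L M H} (c₀ : AlgebraicClosure ℚ) {n m : ℕ}
    (hrel : u' ^ n =
      algebraMap (AlgebraicClosure ℚ) (fieldBar L M H) c₀ * u ^ m * k ^ (m * n))
    {a g a' g' ak gk : ℍ → ℂ}
    (h : IsAnFracH L M H u a g) (h' : IsAnFracH L M H u' a' g') (hk : IsAnFracH L M H k ak gk)
    (τ : ℍ) :
    a' τ ^ n * g τ ^ m * gk τ ^ (m * n) =
      embC c₀ * (a τ ^ m * ak τ ^ (m * n) * g' τ ^ n) := by
  obtain ⟨ha, hg, -, hL⟩ := h
  obtain ⟨ha', hg', -, hL'⟩ := h'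
  obtain ⟨hak, hgk, -, hLk⟩ := hk
  let A : merInf := ⟨a, es1rc_isMerInf H ha⟩
  let G : merInf := ⟨g, es1rc_isMerInf H hg⟩
  let A' : merInf := ⟨a', es1rc_isMerInf H ha'⟩
  let G' : merInf := ⟨g', es1rc_isMerInf H hg'⟩
  let Ak : merInf := ⟨ak, es1rc_isMerInf H hak⟩
  let Gk : merInf := ⟨gk, es1rc_isMerInf H hgk⟩
  have hLA : laurentExp A = coeffMap embC (u : LaurentSeries (AlgebraicClosure ℚ)) * laurentExp G :=
    hL.symm
  have hLA' : laurentExp A' =
      coeffMap embC (u' : LaurentSeries (AlgebraicClosure ℚ)) * laurentExp G' := hL'.symm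
  have hLAk : laurentExp Ak =
      coeffMap embC (k : LaurentSeries (AlgebraicClosure ℚ)) * laurentExp Gk := hLk.symm
  have hrelL : coeffMap embC (u' : LaurentSeries (AlgebraicClosure ℚ)) ^ n =
      algebraMap ℂ (LaurentSeries ℂ) (embC c₀) *
        coeffMap embC (u : LaurentSeries (AlgebraicClosure ℚ)) ^ m *
        coeffMap embC (k : LaurentSeries (AlgebraicClosure ℚ)) ^ (m * n) := by
    have h1 := congrArg (fun x : fieldBar L M H =>
      ((iotaH L M H x : fieldC ℂ L M H) : LaurentSeries ℂ)) hrel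
    simp only [map_mul, map_pow] at h1
    rw [iotaH_algebraMap] at h1
    exact h1
  have key : A' ^ n * G ^ m * Gk ^ (m * n) =
      algebraMap ℂ merInf (embC c₀) * (A ^ m * Ak ^ (m * n) * G' ^ n) := by
    apply laurentExp_injective
    simp only [map_mul, map_pow, AlgHom.commutes]
    rw [hLA, hLA', hLAk, mul_pow, hrelL]
    ring
  have h2 := congrArg (fun f : merInf => (f : ℍ → ℂ) τ) key
  simpa [A, G, A', G', Ak, Gk, Algebra.algebraMap_eq_smul_one] using h2

/-! ### `MuUniqueH` -/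

theorem es1g1u_muUniqueH (hML : M ∣ L) : MuUniqueH L M H := by
  rintro n m hn hm x χ χ' ⟨u, a, g, R, hK, hF, hroot, rfl⟩ ⟨u', a', g', R', hK', hF', hroot', rfl⟩
  have hN : m * n ≠ 0 := Nat.mul_ne_zero hm.ne' hn.ne'
  have hK1 : KummerRel (m * n) x (u ^ m) := hK.pow_left m
  have hK2 : KummerRel (m * n) x (u' ^ n) := by
    have := hK'.pow_left n
    rwa [Nat.mul_comm] at this
  obtain ⟨k, c, hk0, hc0, hcord, hrel⟩ := hK1.exists_eq_mul_pow hK2
  obtain ⟨c₀, rfl⟩ := es1g1u_const_of_ord_eq_zero H hML c hcord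
  obtain ⟨ak, gk, hFk⟩ := es1g1u_exists_isAnFracH H hML k
  have hc₀ : embC c₀ ≠ 0 := by
    intro h
    apply hc0
    rw [(map_eq_zero embC).mp h, map_zero]
  obtain ⟨c₂, hc₂⟩ := IsAlgClosed.exists_pow_nat_eq (embC c₀) (Nat.pos_of_ne_zero hN)
  have hc₂0 : c₂ ≠ 0 := by
    rintro rfl
    rw [zero_pow hN] at hc₂
    exact hc₀ hc₂.symm
  have ha0 : a ≠ 0 := hF.a_ne_zero hK.ne_zero
  have hak0 : ak ≠ 0 := hFk.a_ne_zero hk0
  have hma := hF.1.mdiff
  have hmg' := hF'.2.1.mdiff
  have hmak := hFk.1.mdiff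
  have hmgk := hFk.2.1.mdiff
  have hmb : MDiff (fun τ => c₂ * ak τ) := mdifferentiable_const.mul hmak
  have hb0 : (fun τ => c₂ * ak τ) ≠ 0 := by
    intro h
    apply hak0
    funext τ
    have := congrFun h τ
    simp only [Pi.zero_apply] at this ⊢
    exact (mul_eq_zero.mp this).resolve_left hc₂0
  let Dk : RootData (gammaH L M H) (m * n) :=
    RootData.ofInvariant (m * n) hN (fun τ => c₂ * ak τ) gk hmb hmgk hb0 hFk.2.2.1
      (fun γ hγ τ => by
        rw [hFk.1.comp_smul hγ τ, hFk.2.1.comp_smul hγ τ])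
  have hDk : Dk.mult = 1 := RootData.ofInvariant_mult _ _ _ _ _ _ _ _ _
  let D1 : RootData (gammaH L M H) (m * n) := R'.castDvd (m * n) hN (Dvd.intro _ rfl)
  let D2 : RootData (gammaH L M H) (m * n) :=
    (R.castDvd (m * n) hN (Dvd.intro_left _ rfl)).mul Dk
  have hD1 : D1.mult = R'.mult := RootData.castDvd_mult _ _ _ _
  have hD2 : D2.mult = R.mult := by
    show ((R.castDvd (m * n) hN (Dvd.intro_left _ rfl)).mul Dk).mult = R.mult
    rw [RootData.mult_mul, hDk]
    ext1 γ
    rw [MonoidHom.mul_apply, MonoidHom.one_apply, mul_one, RootData.castDvd_mult]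
  have hkey : ∀ τ : ℍ, (D1.a τ * D2.g τ) ^ (m * n) = (D2.a τ * D1.g τ) ^ (m * n) := by
    have hC : MDiff (fun τ => g' τ ^ n * a τ ^ m) := (hmg'.pow n).mul (hma.pow m)
    have hC0 : (fun τ => g' τ ^ n * a τ ^ m) ≠ 0 :=
      mdiff_mul_ne_zero (F := fun τ => g' τ ^ n) (G := fun τ => a τ ^ m) (hmg'.pow n)
        (hma.pow m) (mu_mdiff_pow_ne_zero hmg' hF'.2.2.1 n) (mu_mdiff_pow_ne_zero hma ha0 m)
    have hFm : MDiff (fun τ => (D1.a τ * D2.g τ) ^ (m * n)) :=
      (D1.mdiff_a.mul D2.mdiff_g).pow (m * n)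
    have hGm : MDiff (fun τ => (D2.a τ * D1.g τ) ^ (m * n)) :=
      (D2.mdiff_a.mul D1.mdiff_g).pow (m * n)
    refine mdiff_mul_right_cancel hFm hGm hC hC0 fun τ => ?_
    exact mu_root_identity (hroot τ) (hroot' τ) (es1g1u_anFrac_rel c₀ hrel hF hF' hFk τ) hc₂
  have hmult : R'.mult = R.mult := by
    rw [← hD1, ← hD2]
    exact RootData.mult_eq_of_pow_eq D1 D2 hkey
  unfold RootData.multAdd
  rw [hmult]

end Fermat.Agent.ES1
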