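import Fermat.Agent.ES1.PerInj
import Fermat.Agent.ES1.Group
import Fermat.Agent.ES1.Int1
import Fermat.Agent.S21.Period
import Fermat.Agent.S48.NebenChar

/-!
# ES₁ / G1-PER — the period homomorphism of a cusp form with nebentypus on `Γ_H(M)` (helper42)

`g ∈ S₂(Γ₁(M))`, `g ≠ 0`, with nebentypus `θ` (`HasNebenK M θ 2 g`), `H ≤ ker θ`,
`Γ = gammaH M M H` (`= {γ ∈ Γ₀(M) : γ₀₀ mod M ∈ ±H}`).

* `es1per_cusp`    : `Es1perCusp Γ g` (primitives at all cusps, invariance under `Γ`);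
* `es1per_finiteIndex`, `es1per_conj_T_pow_mem` : `Γ` has finite index and contains the
  conjugates of `T^M`;
* `es1per_hom_ne_zero` : the period homomorphism `Γ → ℂ` of `g` is nonzero.
-/

set_option autoImplicit false
set_option linter.unusedSectionVars false
set_option linter.style.haveILetI false

noncomputable section

namespace Fermat.Agent.ES1

open UpperHalfPlane ModularForm CongruenceSubgroup Filter Topology Matrix.SpecialLinearGroup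
open ModularCurve ModularCurve.Period Fermat.Agent.S21 Fermat.Agent.S48
open scoped MatrixGroups Manifold Pointwise

/-! ## The group -/

theorem es1per_gamma1_le (M : ℕ) (H : Subgroup (ZMod M)ˣ) : Gamma1 M ≤ gammaH M M H :=
  fun _ hγ => gamma1_inf_gamma0_le M M H ⟨hγ, Gamma1_in_Gamma0 M hγ⟩

instance es1per_finiteIndex (M : ℕ) [NeZero M] (H : Subgroup (ZMod M)ˣ) :
    (gammaH M M H).FiniteIndex :=
  Subgroup.finiteIndex_of_le (es1per_gamma1_le M H)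

theorem es1per_conj_T_pow_mem (M : ℕ) (H : Subgroup (ZMod M)ˣ) (δ : SL(2, ℤ)) :
    δ * ModularGroup.T ^ (M : ℤ) * δ⁻¹ ∈ gammaH M M H := by
  have h1 : ModularGroup.T ^ (M : ℤ) ∈ Gamma M :=
    ModularGroup_T_pow_mem_Gamma M M (dvd_refl _)
  have h2 : δ * ModularGroup.T ^ (M : ℤ) * δ⁻¹ ∈ Gamma M :=
    (Gamma_normal M).conj_mem _ h1 δ
  apply es1per_gamma1_le M H
  rw [Gamma_mem] at h2
  rw [Gamma1_mem]
  exact ⟨h2.1, h2.2.2.2, h2.2.2.1⟩

/-! ## Primitives at the cusps -/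

theorem es1per_isArithmetic_conj_Gamma1 (M : ℕ) [NeZero M] (δ : SL(2, ℤ)) :
    (ConjAct.toConjAct (δ : GL (Fin 2) ℝ)⁻¹ •
      ((Gamma1 M : Subgroup SL(2, ℤ)) : Subgroup (GL (Fin 2) ℝ))).IsArithmetic := by
  have := Subgroup.IsArithmetic.conj
    ((Gamma1 M : Subgroup SL(2, ℤ)) : Subgroup (GL (Fin 2) ℝ)) (mapGL ℚ δ⁻¹)
  have e : (mapGL ℚ δ⁻¹).map (Rat.castHom ℝ) = (δ : GL (Fin 2) ℝ)⁻¹ := by
    have e1 : ∀ g : SL(2, ℤ), (mapGL ℚ g).map (Rat.castHom ℝ) = mapGL ℝ g := by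
      intro g
      ext i j
      simp
    rw [e1, map_inv]
    rfl
  rw [e] at this
  exact this

/-- For a cusp form `f` on `Γ₁(M)` and `δ ∈ SL(2, ℤ)`, the translate `f ∣[2] δ` has a primitive
which tends to `0` at `i∞`. -/
theorem es1per_exists_isPrimitive_slash (M : ℕ) [NeZero M] (f : CuspForm (Gamma1 M) 2)
    (δ : SL(2, ℤ)) :
    ∃ F : ℍ → ℂ, IsPrimitive F (⇑f ∣[(2 : ℤ)] δ) ∧ Tendsto F atImInfty (𝓝 0) := by
  have hA := es1per_isArithmetic_conj_Gamma1 M δ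
  have hc := Fermat.Agent.S22.exists_cuspClass_of_cuspForm
    (CuspForm.translate f (δ : GL (Fin 2) ℝ))
  rw [CuspForm.coe_translate] at hc
  obtain ⟨h, hh, hc⟩ := hc
  obtain ⟨G, hG, hGd⟩ := hc.exists_primitive hh
  exact ⟨G, hGd, hG.zero⟩

/-! ## Invariance under `Γ_H(M)` -/

variable {M : ℕ} [NeZero M] {θ : DirichletCharacter ℂ M} {H : Subgroup (ZMod M)ˣ}

/-- `θ` is trivial on `±H` -/
theorem es1per_theta_pmH (hH : ∀ h ∈ H, θ (h : ZMod M) = 1) (hneg : θ (-1) = 1)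
    {c : (ZMod M)ˣ} (hc : c ∈ pmH H) : θ (c : ZMod M) = 1 := by
  unfold pmH at hc
  rw [Subgroup.mem_sup] at hc
  obtain ⟨h, hh, z, hz, rfl⟩ := hc
  rw [Subgroup.mem_zpowers_iff] at hz
  obtain ⟨k, rfl⟩ := hz
  rw [Units.val_mul, map_mul, hH h hh, one_mul]
  have h1 : θ (((-1 : (ZMod M)ˣ) : ZMod M)) = 1 := by
    rw [Units.val_neg, Units.val_one]
    exact hneg
  have h2 : ∀ u : (ZMod M)ˣ, θ (u : ZMod M) = 1 → ∀ k : ℤ, θ ((u ^ k : (ZMod M)ˣ) : ZMod M) = 1 := by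
    intro u hu k
    have hhom : ∀ v : (ZMod M)ˣ, θ (v : ZMod M) = (θ.toUnitHom v : ℂ) := fun v =>
      (MulChar.coe_toUnitHom θ v).symm
    rw [hhom, map_zpow]
    have hu' : θ.toUnitHom u = 1 := by
      apply Units.ext
      rw [MulChar.coe_toUnitHom, hu]
      rfl
    rw [hu', one_zpow]
    rfl
  exact h2 _ h1 k

/-- a form with nebentypus `θ` is invariant under `Γ_H(M)`, `H ≤ ker θ` -/
theorem es1per_slash_eq {g : CuspForm (Gamma1 M) 2} (hθ : HasNebenK M θ 2 g)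
    (hg0 : (g : ℍ → ℂ) ≠ 0) (hH : ∀ h ∈ H, θ (h : ZMod M) = 1) (γ : SL(2, ℤ))
    (hγ : γ ∈ gammaH M M H) : (⇑g ∣[(2 : ℤ)] γ) = ⇑g := by
  have hneg : θ (-1) = 1 := es1int_neg_one hθ hg0
  obtain ⟨-, hγM, hγH⟩ := hγ
  have hN : NebChar M ((2 : ℕ) : ℤ) θ ⇑g := (nebChar_iff_hasNebenK 2 θ _).mpr hθ
  rw [Nat.cast_ofNat] at hN
  have h1 := hN γ hγM
  have h2 : θ (((γ 1 1 : ℤ)) : ZMod M) = 1 := by
    have h3 := es1per_theta_pmH hH hneg (inv_mem hγH)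
    rw [coe_inv_diamHom] at h3
    exact h3
  rw [h2, one_smul] at h1
  exact h1

/-- **the cusp datum of `g` on `Γ_H(M)`** -/
theorem es1per_cusp {g : CuspForm (Gamma1 M) 2} (hθ : HasNebenK M θ 2 g)
    (hg0 : (g : ℍ → ℂ) ≠ 0) (hH : ∀ h ∈ H, θ (h : ZMod M) = 1) :
    Es1perCusp (gammaH M M H) ⇑g where
  prim := es1per_exists_isPrimitive_slash M g
  inv := es1per_slash_eq hθ hg0 hH

/-- **the period homomorphism of `g ≠ 0` is nonzero** -/
theorem es1per_hom_ne_zero {g : CuspForm (Gamma1 M) 2} (hθ : HasNebenK M θ 2 g)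
    (hg0 : (g : ℍ → ℂ) ≠ 0) (hH : ∀ h ∈ H, θ (h : ZMod M) = 1) :
    (es1per_cusp hθ hg0 hH).hom ≠ 0 := fun h0 =>
  hg0 ((es1per_cusp hθ hg0 hH).eq_zero_of_hom_eq_zero (es1per_conj_T_pow_mem M H) h0)

end Fermat.Agent.ES1
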