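import Fermat.Agent.ES1.PerTransfer
import Fermat.Agent.ES1.PerGammaH
import Fermat.Agent.ES1.G1Op
import Fermat.Agent.ES.HeckeP
import Fermat.Agent.S48.NebenChar
import Fermat.Agent.S48.DSL.Space

/-!
# ES₁ / G1-PER — the period eigen-homomorphism for `Γ_H(M)` (helper42)

`g ∈ S₂(Γ₁(M))`, `g ≠ 0`, nebentypus `θ`, `H ≤ ker θ`, `T_ℓ g = b_ℓ g` (`ℓ ∤ M p`),
`Γ = gammaH M M H`, `Γ' = subLevel M M H ℓ`.

* `es1per_psi_bijective` : `Γ ⧸ Γ' ≃ ℙ¹(𝔽_ℓ)`, `q ↦ ∞ · q.out⁻¹`;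
* `es1per_sum_rep` : `Σ_q g ∣ (diag(ℓ, 1) q.out⁻¹) = θ(ℓ)⁻¹ b_ℓ g`;
* `es1per_heckeGrp_hom` : `heckeGrp ℓ P_g = (b_ℓ θ⁻¹(ℓ)) • P_g`;
* `es1per_diamGrp_hom` : `diamGrp σ P_g = θ⁻¹(diamHom σ) • P_g`;
* **`es1per_period`** : the clause `period` of `ES1bUnifData` for `Op = es1g1Op` (helper78),
  `P = es1g1opPar`, with `s = true`.
-/

set_option autoImplicit false
set_option linter.unusedSectionVars false
set_option linter.style.haveILetI false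

noncomputable section

namespace Fermat.Agent.ES1

open Matrix Matrix.SpecialLinearGroup CongruenceSubgroup ModularForm UpperHalfPlane
open Fermat.Agent.ES.HeckeP
open P2MW.S_ModularForm_heckeT_slash_eq_self_of_mem_Gamma0.ModularForm.HeckeSlashInvariance
open scoped MatrixGroups OnePoint

section Bij

variable {M : ℕ} [NeZero M] (H : Subgroup (ZMod M)ˣ) {ℓ : ℕ} [Fact ℓ.Prime]

theorem es1per_idx_infty_iff (γ : SL(2, ℤ)) :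
    idx (p := ℓ) γ ∞ = ∞ ↔ (ℓ : ℤ) ∣ γ 1 0 := by
  rw [idx, OnePoint.smul_infty_eq_ite, redMatrix_apply_one_zero]
  constructor
  · intro h
    by_cases hc : ((γ 1 0 : ℤ) : ZMod ℓ) = 0
    · exact (ZMod.intCast_zmod_eq_zero_iff_dvd _ _).mp hc
    · rw [if_neg hc] at h
      exact absurd h (OnePoint.coe_ne_infty _)
  · intro h
    rw [if_pos ((ZMod.intCast_zmod_eq_zero_iff_dvd _ _).mpr h)]

theorem es1per_mem_subLevel_iff (hℓM : ¬ ℓ ∣ M) (γ : gammaH M M H) :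
    γ ∈ subLevel M M H ℓ ↔ (ℓ : ℤ) ∣ (γ : SL(2, ℤ)) 1 0 := by
  constructor
  · intro h
    exact dvd_of_mem_gammaH_mul H ℓ (Subgroup.mem_subgroupOf.mp h)
  · intro h
    rw [Subgroup.mem_subgroupOf]
    obtain ⟨h1, h2, h3⟩ := γ.2
    refine ⟨mem_gamma0_of_dvd ?_, h2, h3⟩
    have hcop : IsCoprime (M : ℤ) (ℓ : ℤ) :=
      Nat.isCoprime_iff_coprime.mpr ((Nat.Prime.coprime_iff_not_dvd Fact.out).mpr hℓM).symm
    push_cast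
    exact hcop.mul_dvd (dvd_of_mem_gamma0 h1) h

/-- the index map `Γ ⧸ Γ' → ℙ¹(𝔽_ℓ)`, `q ↦ ∞ · q.out⁻¹` -/
def es1per_psi (q : ↥(gammaH M M H) ⧸ subLevel M M H ℓ) : OnePoint (ZMod ℓ) :=
  idx (p := ℓ) (((q.out : gammaH M M H) : SL(2, ℤ))⁻¹) ∞

theorem es1per_psi_injective (hℓM : ¬ ℓ ∣ M) :
    Function.Injective (es1per_psi (M := M) H (ℓ := ℓ)) := by
  intro q q' h
  unfold es1per_psi at h
  have h1 := congrArg (idx (p := ℓ) ((q'.out : gammaH M M H) : SL(2, ℤ))) h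
  rw [← idx_mul, ← idx_mul, inv_mul_cancel, idx_one, es1per_idx_infty_iff] at h1
  have h2 : (q.out)⁻¹ * q'.out ∈ subLevel M M H ℓ :=
    (es1per_mem_subLevel_iff H hℓM _).mpr h1
  have h3 : ((q.out : gammaH M M H) : ↥(gammaH M M H) ⧸ subLevel M M H ℓ)
      = ((q'.out : gammaH M M H) : ↥(gammaH M M H) ⧸ subLevel M M H ℓ) :=
    QuotientGroup.eq.mpr h2
  rwa [QuotientGroup.out_eq', QuotientGroup.out_eq'] at h3

theorem es1per_psi_mk (hℓM : ¬ ℓ ∣ M) (γ : gammaH M M H) :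
    es1per_psi H (ℓ := ℓ) (γ : ↥(gammaH M M H) ⧸ subLevel M M H ℓ)
      = idx (p := ℓ) ((γ : SL(2, ℤ))⁻¹) ∞ := by
  obtain ⟨h, hh⟩ := QuotientGroup.mk_out_eq_mul (subLevel M M H ℓ) γ
  unfold es1per_psi
  rw [hh, Subgroup.coe_mul, _root_.mul_inv_rev, idx_mul]
  congr 1
  rw [es1per_idx_infty_iff]
  have h1 : (h : gammaH M M H)⁻¹ ∈ subLevel M M H ℓ := inv_mem h.2
  have h2 := (es1per_mem_subLevel_iff H hℓM _).mp h1
  exact h2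

theorem es1per_exists_idx (hℓM : ¬ ℓ ∣ M) (j : ZMod ℓ) :
    ∃ δ : SL(2, ℤ), δ ∈ Gamma1 M ∧ idx (p := ℓ) δ ∞ = (j : OnePoint (ZMod ℓ)) := by
  have hM0 : ((M : ℕ) : ZMod ℓ) ≠ 0 := by
    rw [Ne, ZMod.natCast_eq_zero_iff]
    exact hℓM
  set k : ℕ := (j - ((M : ℕ) : ZMod ℓ)⁻¹).val with hk
  obtain ⟨δ, h00, h01, h10, h11⟩ :=
    Fermat.Agent.S48.neben_exists_SL 1 (k : ℤ) (M : ℤ) ((M : ℤ) * k + 1) (by ring)
  refine ⟨δ, ?_, ?_⟩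
  · rw [Gamma1_mem, h00, h10, h11]
    refine ⟨by simp, by simp, by simp⟩
  · rw [idx, OnePoint.smul_infty_eq_ite, redMatrix_apply_one_zero, redMatrix_apply_zero_zero,
      h10, h11]
    have h1 : (((M : ℤ) : ℤ) : ZMod ℓ) = ((M : ℕ) : ZMod ℓ) := by push_cast; rfl
    rw [h1, if_neg hM0]
    congr 1
    push_cast
    rw [hk, ZMod.natCast_zmod_val]
    field_simp
    ring

theorem es1per_psi_surjective (hℓM : ¬ ℓ ∣ M) :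
    Function.Surjective (es1per_psi (M := M) H (ℓ := ℓ)) := by
  intro y
  induction y using OnePoint.rec with
  | infty =>
    refine ⟨((1 : gammaH M M H) : ↥(gammaH M M H) ⧸ subLevel M M H ℓ), ?_⟩
    rw [es1per_psi_mk H hℓM, Subgroup.coe_one, inv_one, idx_one]
  | coe j =>
    obtain ⟨δ, hδ, hj⟩ := es1per_exists_idx (M := M) hℓM j
    have hδ' : δ⁻¹ ∈ gammaH M M H := inv_mem (es1per_gamma1_le M H hδ)
    refine ⟨((⟨δ⁻¹, hδ'⟩ : gammaH M M H) : ↥(gammaH M M H) ⧸ subLevel M M H ℓ), ?_⟩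
    rw [es1per_psi_mk H hℓM]
    show idx (p := ℓ) ((δ⁻¹)⁻¹) ∞ = _
    rw [inv_inv, hj]

theorem es1per_psi_bijective (hℓM : ¬ ℓ ∣ M) :
    Function.Bijective (es1per_psi (M := M) H (ℓ := ℓ)) :=
  ⟨es1per_psi_injective H hℓM, es1per_psi_surjective H hℓM⟩

end Bij

section Slash

open Fermat.Agent.S48

variable {M : ℕ} [NeZero M] (H : Subgroup (ZMod M)ˣ) {θ : DirichletCharacter ℂ M} {ℓ : ℕ}
  [Fact ℓ.Prime]

/-- the terms of `θ(ℓ) • Σ_q g ∣ (α q.out⁻¹)` -/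
theorem es1per_smul_slash_diag_mul (hℓM : ¬ ℓ ∣ M) {g : ℍ → ℂ} (hN : NebChar M 2 θ g)
    (γ : SL(2, ℤ)) (hγ0 : γ ∈ Gamma0 M) (hγ : g ∣[(2 : ℤ)] mapGL ℝ γ = g) :
    θ ((ℓ : ℕ) : ZMod M) • (g ∣[(2 : ℤ)] (heckeDiagMatrix ℓ * mapGL ℝ γ))
      = nebTerm 2 ℓ g (θ ((ℓ : ℕ) : ZMod M) • g) (idx (p := ℓ) γ ∞) := by
  obtain ⟨γp, hγp, hγp1, -⟩ := neben_exists_gammaP (N := M) (Fact.out : ℓ.Prime) hℓM
  have h := nebChar_term_slash hℓM hN.inv γp hγp hγp1 γ hγ0 ∞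
  rw [hγ, hN γp hγp, hγp1, nebTerm_infty, ModularForm.smul_slash, σ_heckeDiagMatrix,
    ModularForm.smul_slash, neben_σ_mapGL, ← SlashAction.slash_mul] at h
  exact h

theorem es1per_theta_ne_zero (hℓM : ¬ ℓ ∣ M) : θ ((ℓ : ℕ) : ZMod M) ≠ 0 := by
  have hu : IsUnit ((ℓ : ℕ) : ZMod M) :=
    (ZMod.isUnit_iff_coprime ℓ M).mpr ((Nat.Prime.coprime_iff_not_dvd Fact.out).mpr hℓM)
  exact (hu.map θ).ne_zero

/-- `T_ℓ g = b g` as functions, from the `q`-expansion form -/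
theorem es1per_heckeT_eq (hℓM : ¬ ℓ ∣ M) (g : CuspForm (Gamma1 M) 2)
    (hθ : HasNebenK M θ 2 g) (b : ℂ)
    (hb : ∀ n : ℕ, ModularFormClass.qCoeff g (ℓ * n) +
        (ℓ : ℂ) ^ (2 - 1) * θ ((ℓ : ℕ) : ZMod M) *
          (if ℓ ∣ n then ModularFormClass.qCoeff g (n / ℓ) else 0) =
      b * ModularFormClass.qCoeff g n) :
    heckeU 2 ℓ ⇑g + θ ((ℓ : ℕ) : ZMod M) • ((⇑g : ℍ → ℂ) ∣[(2 : ℤ)] heckeDiagMatrix ℓ)
      = b • (⇑g : ℍ → ℂ) := by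
  have hN : NebChar M ((2 : ℕ) : ℤ) θ ⇑g := (nebChar_iff_hasNebenK 2 θ _).mpr hθ
  rw [Nat.cast_ofNat] at hN
  obtain ⟨g', -, hfun, hq⟩ := nebChar_exists_heckeT_cusp θ (Fact.out : ℓ.Prime) hℓM g hN
  have h1 : g' = b • g := by
    apply dsl_ext
    intro n
    rw [hq n, dsl_qCoeff_smul, ← hb n]
    norm_num
  rw [← hfun, h1]
  rfl

/-- **the Hecke eigen-equation** `Σ_q g ∣ α_q = θ(ℓ)⁻¹ b_ℓ g` for the Hecke coset family -/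
theorem es1per_sum_rep (hℓM : ¬ ℓ ∣ M) [NeZero ℓ] (g : CuspForm (Gamma1 M) 2)
    (hθ : HasNebenK M θ 2 g) (hg0 : (g : ℍ → ℂ) ≠ 0) (hH : ∀ h ∈ H, θ (h : ZMod M) = 1) (b : ℂ)
    (hb : ∀ n : ℕ, ModularFormClass.qCoeff g (ℓ * n) +
        (ℓ : ℂ) ^ (2 - 1) * θ ((ℓ : ℕ) : ZMod M) *
          (if ℓ ∣ n then ModularFormClass.qCoeff g (n / ℓ) else 0) =
      b * ModularFormClass.qCoeff g n) :
    @Finset.sum _ _ _ (@Finset.univ _ (es1per_fintypeQuot M M H ℓ))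
        (fun q => (⇑g : ℍ → ℂ) ∣[(2 : ℤ)] (es1per_heckeFam M M H ℓ (dvd_refl M)).rep q)
      = (b * θ⁻¹ ((ℓ : ℕ) : ZMod M)) • (⇑g : ℍ → ℂ) := by
  letI := es1per_fintypeQuot M M H ℓ
  have hN : NebChar M ((2 : ℕ) : ℤ) θ ⇑g := (nebChar_iff_hasNebenK 2 θ _).mpr hθ
  rw [Nat.cast_ofNat] at hN
  have h0 := es1per_theta_ne_zero (θ := θ) hℓM
  have key : θ ((ℓ : ℕ) : ZMod M) •
      ∑ q, (⇑g : ℍ → ℂ) ∣[(2 : ℤ)] (es1per_heckeFam M M H ℓ (dvd_refl M)).rep q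
      = b • (⇑g : ℍ → ℂ) := by
    rw [Finset.smul_sum]
    have h1 : ∀ q : ↥(gammaH M M H) ⧸ subLevel M M H ℓ,
        θ ((ℓ : ℕ) : ZMod M) •
          ((⇑g : ℍ → ℂ) ∣[(2 : ℤ)] (es1per_heckeFam M M H ℓ (dvd_refl M)).rep q)
        = nebTerm 2 ℓ ⇑g (θ ((ℓ : ℕ) : ZMod M) • ⇑g) (es1per_psi H q) := by
      intro q
      have hmem : ((q.out : gammaH M M H) : SL(2, ℤ))⁻¹ ∈ gammaH M M H := inv_mem q.out.2
      exact es1per_smul_slash_diag_mul hℓM hN _ (gammaH_le_gamma0 M M H hmem)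
        (es1per_slash_eq hθ hg0 hH _ hmem)
    rw [Finset.sum_congr rfl (fun q _ => h1 q),
      (es1per_psi_bijective H hℓM).sum_comp
        (fun y => nebTerm 2 ℓ ⇑g (θ ((ℓ : ℕ) : ZMod M) • ⇑g) y),
      ← neben_sum_nebTerm, ModularForm.smul_slash, σ_heckeDiagMatrix]
    exact es1per_heckeT_eq hℓM g hθ b hb
  rw [MulChar.inv_apply_eq_inv', mul_comm, mul_smul, ← key, smul_smul, inv_mul_cancel₀ h0,
    one_smul]

end Slash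

section Eigen

open Fermat.Agent.S48

variable {M : ℕ} [NeZero M] (H : Subgroup (ZMod M)ˣ) {θ : DirichletCharacter ℂ M}

/-- **`heckeGrp ℓ P_g = (b_ℓ θ⁻¹(ℓ)) • P_g`** -/
theorem es1per_heckeGrp_hom {ℓ : ℕ} (hℓ : ℓ.Prime) (hℓM : ¬ ℓ ∣ M) [NeZero ℓ]
    (g : CuspForm (Gamma1 M) 2) (hθ : HasNebenK M θ 2 g) (hg0 : (g : ℍ → ℂ) ≠ 0)
    (hH : ∀ h ∈ H, θ (h : ZMod M) = 1) (b : ℂ)
    (hb : ∀ n : ℕ, ModularFormClass.qCoeff g (ℓ * n) +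
        (ℓ : ℂ) ^ (2 - 1) * θ ((ℓ : ℕ) : ZMod M) *
          (if ℓ ∣ n then ModularFormClass.qCoeff g (n / ℓ) else 0) =
      b * ModularFormClass.qCoeff g n) :
    heckeGrp M M H ℓ (dvd_refl M) (es1per_cusp hθ hg0 hH).hom
      = (b * θ⁻¹ ((ℓ : ℕ) : ZMod M)) • (es1per_cusp hθ hg0 hH).hom := by
  haveI : Fact ℓ.Prime := ⟨hℓ⟩
  letI := es1per_fintypeQuot M M H ℓ
  rw [es1per_heckeGrp_eq_op]
  exact (es1per_cusp hθ hg0 hH).op_hom (es1per_heckeFam M M H ℓ (dvd_refl M)) _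
    (es1per_sum_rep H hℓM g hθ hg0 hH b hb)

/-- the diamond coset family: one matrix `σ ∈ Γ₀(M)` -/
def es1per_diamFam (σ : SL(2, ℤ)) (hσ : σ ∈ Gamma0 M) : Es1perFam (gammaH M M H) Unit where
  rep _ := mapGL ℝ σ
  det_pos _ := by
    have h := es1per_det_mapGL_pos σ 1 (by simp)
    rwa [one_mul] at h
  next _ x := x
  coc γ _ := conjH M M H σ hσ hσ γ
  spec γ _ := by
    show mapGL ℝ σ * mapGL ℝ (γ : SL(2, ℤ)) = mapGL ℝ (σ * (γ : SL(2, ℤ)) * σ⁻¹) * mapGL ℝ σ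
    rw [← map_mul, ← map_mul, inv_mul_cancel_right]
  next_one _ := rfl
  next_mul _ _ _ := rfl
  coc_mul γ δ _ := map_mul _ γ δ

theorem es1per_diamGrp_eq_op (σ : SL(2, ℤ)) (hσ : σ ∈ Gamma0 M) {A : Type} [AddCommGroup A]
    (φ : Additive (gammaH M M H) →+ A) :
    diamGrp M M H σ hσ hσ φ = (es1per_diamFam H σ hσ).op A φ := by
  refine AddMonoidHom.ext fun γ => ?_
  obtain ⟨γ, rfl⟩ : ∃ g : gammaH M M H, Additive.ofMul g = γ := ⟨Additive.toMul γ, rfl⟩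
  rw [Es1perFam.op_apply, Fintype.sum_unique]
  rfl

/-- **`diamGrp σ P_g = θ⁻¹(diamHom σ) • P_g`** -/
theorem es1per_diamGrp_hom (σ : SL(2, ℤ)) (hσ : σ ∈ Gamma0 M)
    (g : CuspForm (Gamma1 M) 2) (hθ : HasNebenK M θ 2 g) (hg0 : (g : ℍ → ℂ) ≠ 0)
    (hH : ∀ h ∈ H, θ (h : ZMod M) = 1) :
    diamGrp M M H σ hσ hσ (es1per_cusp hθ hg0 hH).hom
      = θ⁻¹ ((diamHom M ⟨σ, hσ⟩ : (ZMod M)ˣ) : ZMod M) • (es1per_cusp hθ hg0 hH).hom := by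
  rw [es1per_diamGrp_eq_op]
  refine (es1per_cusp hθ hg0 hH).op_hom (es1per_diamFam H σ hσ) _ ?_
  rw [Fintype.sum_unique]
  have hN : NebChar M ((2 : ℕ) : ℤ) θ ⇑g := (nebChar_iff_hasNebenK 2 θ _).mpr hθ
  rw [Nat.cast_ofNat] at hN
  have h1 := hN σ hσ
  rw [← coe_inv_diamHom M ⟨σ, hσ⟩] at h1
  have h2 : θ (((diamHom M ⟨σ, hσ⟩)⁻¹ : (ZMod M)ˣ) : ZMod M)
      = θ⁻¹ ((diamHom M ⟨σ, hσ⟩ : (ZMod M)ˣ) : ZMod M) := by
    rw [MulChar.inv_apply_eq_inv']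
    have h3 : θ (((diamHom M ⟨σ, hσ⟩)⁻¹ : (ZMod M)ˣ) : ZMod M)
        * θ ((diamHom M ⟨σ, hσ⟩ : (ZMod M)ˣ) : ZMod M) = 1 := by
      rw [← map_mul, ← Units.val_mul, inv_mul_cancel, Units.val_one, map_one]
    exact eq_inv_of_mul_eq_one_left h3
  rw [h2] at h1
  exact h1

/-- **G1-PER** : the clause `period` of `ES1bUnifData` for `Γ = gammaH M M H`, `Op = es1g1Op`,
`P = es1g1opPar`.  The eigen-system is number `s = true`. -/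
theorem es1per_period (M : ℕ) [NeZero M] (H : Subgroup (ZMod M)ˣ) (θ : DirichletCharacter ℂ M)
    (hH : ∀ h ∈ H, θ (h : ZMod M) = 1) (p : ℕ)
    (g : CuspForm (Gamma1 M) 2) (hg0 : (g : ℍ → ℂ) ≠ 0) (hθ : HasNebenK M θ 2 g)
    (b : ℕ → ℂ) (hb : IsEigenAway M θ 2 (M * p) g b) :
    ∃ (s : Bool) (v : Additive (gammaH M M H) →+ ℂ), v ≠ 0 ∧
      (∀ γ ∈ es1g1opPar M M H, v (Additive.ofMul γ) = 0) ∧
      ∀ i : es1top_goodVars M p,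
        es1g1Op M M H p (dvd_refl M) i ℂ v = es1top_sys θ b s (i : HDVar M) • v := by
  refine ⟨true, (es1per_cusp hθ hg0 hH).hom, es1per_hom_ne_zero hθ hg0 hH,
    fun γ hγ => (es1per_cusp hθ hg0 hH).hom_isParabolicHom γ hγ, ?_⟩
  rintro ⟨i, hi⟩
  rcases i with ℓ | c
  · haveI : NeZero (ℓ : ℕ) := ⟨ℓ.2.ne_zero⟩
    have hnd : ¬ (ℓ : ℕ) ∣ M * p := hi ℓ rfl
    have hℓM : ¬ (ℓ : ℕ) ∣ M := fun h => hnd (dvd_mul_of_dvd_left h p)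
    rw [es1g1Op_inl]
    exact es1per_heckeGrp_hom H ℓ.2 hℓM g hθ hg0 hH (b ℓ) (hb ℓ ℓ.2 hnd)
  · rw [es1g1Op_inr p (dvd_refl M) c hi ℂ _ (es1g1opSigma (dvd_refl M) c)
      (es1g1opSigma_memL (dvd_refl M) c) (es1g1opSigma_memM (dvd_refl M) c)
      (es1g1opSigma_diam (dvd_refl M) c)]
    have h := es1per_diamGrp_hom H (es1g1opSigma (dvd_refl M) c)
      (es1g1opSigma_memM (dvd_refl M) c) g hθ hg0 hH
    rw [es1g1opSigma_diam] at h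
    exact h

end Eigen

end Fermat.Agent.ES1
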