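import Fermat.Agent.ES1.G1Final
import Fermat.Agent.ES1.G1.MuCoreH
import Fermat.Agent.ES1.G1.MuDiam
import Fermat.Agent.ES1.G1.MuSurjFinal
import Fermat.Agent.ES1.G1Unique
import Fermat.Agent.ES1.PerHecke
import Fermat.Agent.ES1.G1UnifStmt
import Fermat.Agent.ES1.G1.MuHeckeH

/-!
# ES₁-G1 — the G1 contract from the Hecke-equivariance of the multiplier alone
(sub-captain helper38)

All the pieces of G1 except `MuHeckeH` (G1-HKb) are plugged in:
`es1g1e_muExistsH`, `es1g1u_muUniqueH`, `es1g1u_muAddH`, `es1g1i_muInjH`, `es1g1s_muSurjH`,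
`muDiamH`, `es1per_period`.

* `StmtMuHeckeAll` : `MuHeckeH M M H` for all `M`, `H` — the only open input;
* `es1g1_unifData` : the G1 contract `ES1bUnifData` for `gammaH M M H`, `H ≤ ker θ`;
* `es1g1_stmtG1Unif : StmtMuHeckeAll → StmtG1Unif` (the deliverable, `ES1/G1UnifStmt.lean`),
  with `H = ⊥`;
* `StmtHKbCrossAll` (the seam of `ES1/G1/HKbPlan.lean` at all levels) and
  `es1g1_stmtMuHeckeAll_of_cross : StmtHKbCrossAll → StmtMuHeckeAll`.
-/

set_option autoImplicit false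

noncomputable section

namespace Fermat.Agent.ES1

open ModularCurve AlgebraicCurve CongruenceSubgroup ModularCurve.Period UpperHalfPlane
open Fermat.Agent.ES Fermat.Agent.S48
open scoped MatrixGroups

/-- **The only open input of G1**: Hecke-equivariance of the multiplier (G1-HKb). -/
def StmtMuHeckeAll : Prop :=
  ∀ (M : ℕ) [NeZero M] (H : Subgroup (ZMod M)ˣ), MuHeckeH M M H dvd_rfl

/-- the multiplier map on `J_H(M)[p]` -/
def es1g1_mu (M : ℕ) [NeZero M] (H : Subgroup (ZMod M)ˣ) (p : ℕ) (hp : 0 < p) :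
    es1b_torsPart p (JH M M H) →+ CharGrpH M M H :=
  es1g1_muP (es1g1e_muExistsH dvd_rfl H) (es1g1u_muUniqueH dvd_rfl) es1g1u_muAddH p hp

/-- **The G1 contract** for `Γ = gammaH M M H`, `H ≤ ker θ`, from `MuHeckeH`. -/
theorem es1g1_unifData (M : ℕ) [NeZero M] (H : Subgroup (ZMod M)ˣ)
    (θ : DirichletCharacter ℂ M) (hHθ : ∀ h ∈ H, θ (h : ZMod M) = 1) (p : ℕ) (hp : 0 < p)
    (hH : MuHeckeH M M H dvd_rfl) :
    ES1bUnifData M θ p (JH M M H) (G2.es1g2T M M H) (G2.es1Diamond M M H) (gammaH M M H)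
      (es1g1opPar M M H) (es1g1Op M M H p dvd_rfl) (Additive ℂˣ) (es1g1_mu M H p hp)
      (expZMod p) :=
  es1g1_unif_of_pieces θ p hp (es1g1e_muExistsH dvd_rfl H) (es1g1u_muUniqueH dvd_rfl)
    es1g1u_muAddH (es1g1i_muInjH dvd_rfl H) (es1g1s_muSurjH dvd_rfl) hH
    (muDiamH H (NeZero.ne M) dvd_rfl) (es1per_period M H θ hHθ p)

/-- **G1 ⇒ the deliverable `StmtG1Unif`** (`ES1/G1UnifStmt.lean`), with `H = ⊥`. -/
theorem es1g1_stmtG1Unif (hH : StmtMuHeckeAll) : StmtG1Unif := by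
  intro M _ θ p hp
  have hbot : ∀ h ∈ (⊥ : Subgroup (ZMod M)ˣ), θ (h : ZMod M) = 1 := by
    intro h hh
    rw [Subgroup.mem_bot] at hh
    subst hh
    simp
  exact ⟨⊥, Additive ℂˣ, inferInstance, es1g1_mu M ⊥ p hp.out.pos, expZMod p,
    es1g1_unifData M ⊥ θ hbot p hp.out.pos (hH M ⊥)⟩

/-- the seam `StmtHKbCross` (HKb-NORM) at all levels `L = M` -/
def StmtHKbCrossAll : Prop :=
  ∀ (M : ℕ) [NeZero M] (H : Subgroup (ZMod M)ˣ) (ℓ : ℕ) [NeZero ℓ], ℓ.Prime → ¬ ℓ ∣ M →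
    StmtHKbCross M M H ℓ

theorem es1g1_stmtMuHeckeAll_of_cross (h : StmtHKbCrossAll) : StmtMuHeckeAll :=
  fun M _ H => es1g1h_muHeckeH_of_cross dvd_rfl (fun ℓ _ hℓ hℓM => h M H ℓ hℓ hℓM)

/-- **the deliverable of G1 from the seam HKb-NORM** -/
theorem es1g1_stmtG1Unif_of_cross (h : StmtHKbCrossAll) : StmtG1Unif :=
  es1g1_stmtG1Unif (es1g1_stmtMuHeckeAll_of_cross h)

end Fermat.Agent.ES1
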