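import Mathlib
import Fermat.Prelude.Def_ModularCurve_ReductionModL

/-!
# ES₁/INJ₁: the Kummer field `Lf = F(h) ⊆ E((q))` for a GENERAL intermediate field `F`
(copy of `INJ/Concrete.lean` with `modularFunctionFieldFullC E N` replaced by `F`)

`E` a field, `F = F ⊆ E((q))`, `h ∈ E((q))`.
* `kumFieldG F h : IntermediateField E (LaurentSeries E)` is `E(F ∪ {h})`;
* `kumInclG : F →ₐ[E] kumFieldG`, the algebra structure `kumAlgebraG` of `kumFieldG` over `F`
  (a `def`, to be installed with `letI`), `kumGenG : kumFieldG` the element `h`;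
* `kumField_adjoin_genG` : `F⟮h⟯ = ⊤` in `kumFieldG`.
-/

set_option autoImplicit false

open ModularCurve IntermediateField

namespace Fermat.Agent.ES1

variable {E : Type*} [Field E] (F : IntermediateField E (LaurentSeries E)) (h : LaurentSeries E)

/-- the field `F_N(h)` inside `E((q))` -/
noncomputable def kumFieldG : IntermediateField E (LaurentSeries E) :=
  IntermediateField.adjoin E
    ((F : Set (LaurentSeries E)) ∪ {h})

theorem le_kumFieldG : F ≤ kumFieldG F h := by
  intro x hx
  exact IntermediateField.subset_adjoin E _ (Or.inl hx)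

theorem mem_kumField_selfG : h ∈ kumFieldG F h :=
  IntermediateField.subset_adjoin E _ (Or.inr rfl)

/-- the inclusion `F_N → F_N(h)` -/
noncomputable def kumInclG : F →ₐ[E] kumFieldG F h :=
  IntermediateField.inclusion (le_kumFieldG F h)

theorem coe_kumInclG (x : F) :
    ((kumInclG F h x : kumFieldG F h) : LaurentSeries E) = (x : LaurentSeries E) :=
  IntermediateField.coe_inclusion _ _

theorem kumIncl_injectiveG : Function.Injective (kumInclG F h) :=
  (kumInclG F h).toRingHom.injective

/-- the generator `h` of `F_N(h)` -/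
noncomputable def kumGenG : kumFieldG F h := ⟨h, mem_kumField_selfG F h⟩

@[simp] theorem coe_kumGenG : ((kumGenG F h : kumFieldG F h) : LaurentSeries E) = h := rfl

/-- `F_N(h)` as an algebra over `F_N` -/
@[reducible] noncomputable def kumAlgebraG :
    Algebra F (kumFieldG F h) :=
  (kumInclG F h).toRingHom.toAlgebra

theorem kum_algebraMap_eqG (x : F) :
    letI := kumAlgebraG F h
    algebraMap F (kumFieldG F h) x = kumInclG F h x := rfl

theorem kum_isScalarTowerG :
    letI := kumAlgebraG F h
    IsScalarTower E F (kumFieldG F h) := by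
  letI := kumAlgebraG F h
  refine IsScalarTower.of_algebraMap_eq fun c => ?_
  rw [kum_algebraMap_eqG]
  exact ((kumInclG F h).commutes c).symm

/-- `F_N(h)` is generated by `h` over `F_N`. -/
theorem kumField_adjoin_genG :
    letI := kumAlgebraG F h
    IntermediateField.adjoin F {kumGenG F h} = ⊤ := by
  letI := kumAlgebraG F h
  haveI := kum_isScalarTowerG F h
  rw [eq_top_iff]
  rintro ⟨x, hx⟩ -
  let M : IntermediateField E (LaurentSeries E) :=
    IntermediateField.lift
      ((IntermediateField.adjoin F
        {kumGenG F h}).restrictScalars E)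
  have hM : kumFieldG F h ≤ M := by
    rw [kumFieldG, IntermediateField.adjoin_le_iff]
    rintro y (hy | hy)
    · refine ⟨kumInclG F h ⟨y, hy⟩, ?_, ?_⟩
      · have : kumInclG F h ⟨y, hy⟩ =
            algebraMap F (kumFieldG F h) ⟨y, hy⟩ :=
          (kum_algebraMap_eqG F h _).symm
        rw [this]
        exact IntermediateField.algebraMap_mem
          (IntermediateField.adjoin F {kumGenG F h}) _
      · show ((kumInclG F h ⟨y, hy⟩ : kumFieldG F h) : LaurentSeries E) = y
        exact coe_kumInclG F h _
    · rw [Set.mem_singleton_iff] at hy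
      subst hy
      exact ⟨kumGenG F y, IntermediateField.mem_adjoin_simple_self _ _, rfl⟩
  obtain ⟨z, hz, hzx⟩ := hM hx
  have : z = ⟨x, hx⟩ := Subtype.ext hzx
  rw [← this]
  exact hz

end Fermat.Agent.ES1
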