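import Fermat.Agent.INJ.TSStmt
import Fermat.Agent.INJ.GaussRep
import Fermat.Agent.ES1.KumG

/-!
# ES₁/INJ₁: the line-independent core for a GENERAL intermediate field `F ⊂ E((q))`
(copy of `INJ/InjCoreStmt.lean`, `modularFunctionFieldFullC E N` replaced by `F`)

`A₀` a discrete valuation ring, `E = Frac A₀` of characteristic `0`, `r : A₀ → k` with kernel
`(π)`, `F = F ⊂ E((q))` with Gauss key data `kd` for a coordinate `t₀`
of order `-1`, `Y₁ ≡ Y₂ ≢ 0 mod π` in `A₀((q))` with images in `F`, `h ∈ E((q))` with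
`h ^ p = Y₁ / Y₂`, `h ∉ F`.  If `F` satisfies `(a)` and `Lf = F(h) = kumFieldG F h` satisfies
finiteness, `(b)`, `(b')` of the tame specialization theorem (for the coordinate `t₀`), we get a
contradiction.

`InjCoreStmt` is proved in `INJ/InjCore.lean` (`injCore : TameSpecStmt.{0} → InjCoreStmt`); the
instantiations for the three lines (`j`, `hm2`, `hm3`) prove `InjCoreStmt → StmtInjNF N ℓ p`.
-/

set_option autoImplicit false

namespace Fermat.Agent.ES1

open Fermat.Agent.INJ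

open Polynomial ModularCurve IntermediateField AlgebraicCurve

/-- The line-independent core of (INJ), as a statement. -/
def InjCoreStmtG : Prop :=
  ∀ {A₀ E k : Type} [CommRing A₀] [IsDomain A₀] [IsDiscreteValuationRing A₀]
    [Field E] [Algebra A₀ E] [IsFractionRing A₀ E] [CharZero E]
    [Field k] (r : A₀ →+* k) (F : IntermediateField E (LaurentSeries E)) (h : LaurentSeries E)
    {π : A₀} (_ : Irreducible π) (_ : r π = 0) (_ : ∀ a, r a = 0 → π ∣ a)
    {t₀ : LaurentSeries A₀} {n : ℕ} {x : Fin n → LaurentSeries A₀}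
    (kd : GaussKD r F t₀ x)
    (_ : (coeffMap (algebraMap A₀ E) t₀).order = -1)
    {p : ℕ} (_ : p.Prime) (_ : ¬ π ∣ (p : A₀))
    (ζ u : A₀) (_ : IsPrimitiveRoot ζ p) (_ : (ζ - 1) * u = 1)
    (Y₁ Y₂ : LaurentSeries A₀)
    (_ : coeffMap (algebraMap A₀ E) Y₁ ∈ F)
    (_ : coeffMap (algebraMap A₀ E) Y₂ ∈ F)
    (_ : coeffMap r Y₁ = coeffMap r Y₂) (_ : coeffMap r Y₂ ≠ 0)
    (_ : h ^ p * coeffMap (algebraMap A₀ E) Y₂ = coeffMap (algebraMap A₀ E) Y₁)
    (_ : h ∉ F)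
    (_ : ∀ [Algebra A₀ F]
      [IsScalarTower A₀ E F],
      TSGoodBasis (A₀ := A₀) (E := E) (Lf := F) π
        ⟨coeffMap (algebraMap A₀ E) t₀, kd.t_mem⟩)
    (_ : FiniteDimensional
      E⟮(⟨coeffMap (algebraMap A₀ E) t₀, le_kumFieldG F h kd.t_mem⟩ : kumFieldG F h)⟯
      (kumFieldG F h))
    (S : Finset A₀) (_ : ∀ c ∈ S, ∀ c' ∈ S, c ≠ c' → ¬ π ∣ c - c')
    (e : ℕ) (_ : IsUnit (e : A₀)) (_ : ∃ ζ : A₀, IsPrimitiveRoot ζ e)
    (_ : ∀ [Algebra A₀ (kumFieldG F h)] [IsScalarTower A₀ E (kumFieldG F h)],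
      TSUnramified (A₀ := A₀) (E := E) (Lf := kumFieldG F h)
        ⟨coeffMap (algebraMap A₀ E) t₀, le_kumFieldG F h kd.t_mem⟩ S ∧
      TSTame (A₀ := A₀) (E := E) (Lf := kumFieldG F h)
        ⟨coeffMap (algebraMap A₀ E) t₀, le_kumFieldG F h kd.t_mem⟩ S e),
    False

end Fermat.Agent.ES1
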