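import Fermat.Agent.INJ.InjCore
import Fermat.Agent.ES1.InjCoreStmtG

/-!
# ES₁/INJ₁: the line-independent core of (INJ) for a GENERAL intermediate field `F ⊂ E((q))`

Copy of the proof of `INJ/InjCore.lean` (`injCore`), with `modularFunctionFieldFullC E N`
replaced by an arbitrary intermediate field `F` carrying Gauss key data.
-/

set_option autoImplicit false
set_option linter.unusedSectionVars false
set_option linter.style.haveILetI false

noncomputable section

namespace Fermat.Agent.ES1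

open Polynomial ModularCurve IntermediateField AlgebraicCurve Fermat.Agent.S28 Fermat.Agent.INJ

open ChartGB

section Core

variable {A₀ E k : Type} [CommRing A₀] [IsDomain A₀] [IsDiscreteValuationRing A₀]
  [Field E] [Algebra A₀ E] [IsFractionRing A₀ E] [CharZero E]
  [Field k] (r : A₀ →+* k) (F : IntermediateField E (LaurentSeries E)) (h : LaurentSeries E)

local notation "FN" => F
local notation "LN" => kumFieldG F h
local notation "ι" => algebraMap A₀ E

/-- **The line-independent core of (INJ).** -/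
theorem injCoreG (hTS : TameSpecStmt.{0})
    {π : A₀} (hπ : Irreducible π) (hrπ : r π = 0) (hr : ∀ a, r a = 0 → π ∣ a)
    {t₀ : LaurentSeries A₀} {n : ℕ} {x : Fin n → LaurentSeries A₀}
    (kd : GaussKD r FN t₀ x)
    (ht₀ : (coeffMap ι t₀).order = -1)
    {p : ℕ} (hp : p.Prime) (hpπ : ¬ π ∣ (p : A₀))
    (ζ u : A₀) (hζ : IsPrimitiveRoot ζ p) (hζu : (ζ - 1) * u = 1)
    (Y₁ Y₂ : LaurentSeries A₀)
    (h₁ : coeffMap ι Y₁ ∈ FN) (h₂ : coeffMap ι Y₂ ∈ FN)
    (hred : coeffMap r Y₁ = coeffMap r Y₂) (hne : coeffMap r Y₂ ≠ 0)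
    (hh : h ^ p * coeffMap ι Y₂ = coeffMap ι Y₁)
    (hnot : h ∉ FN)
    (hgoodF : ∀ [Algebra A₀ FN] [IsScalarTower A₀ E FN],
      TSGoodBasis (A₀ := A₀) (E := E) (Lf := FN) π ⟨coeffMap ι t₀, kd.t_mem⟩)
    (hfin : FiniteDimensional
      E⟮(⟨coeffMap ι t₀, le_kumFieldG F h kd.t_mem⟩ : LN)⟯ LN)
    (S : Finset A₀) (hS : ∀ c ∈ S, ∀ c' ∈ S, c ≠ c' → ¬ π ∣ c - c')
    (e : ℕ) (he : IsUnit (e : A₀)) (hζe : ∃ ζ : A₀, IsPrimitiveRoot ζ e)
    (hram : ∀ [Algebra A₀ LN] [IsScalarTower A₀ E LN],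
      TSUnramified (A₀ := A₀) (E := E) (Lf := LN)
        ⟨coeffMap ι t₀, le_kumFieldG F h kd.t_mem⟩ S ∧
      TSTame (A₀ := A₀) (E := E) (Lf := LN)
        ⟨coeffMap ι t₀, le_kumFieldG F h kd.t_mem⟩ S e) :
    False := by
  classical
  have hinj : Function.Injective ι := IsFractionRing.injective A₀ E
  have hcinj : Function.Injective (coeffMap ι) := coeffMap_inj_of_injective ι hinj
  -- instances
  letI algF : Algebra A₀ FN := coreAlg A₀ FN
  haveI towF : IsScalarTower A₀ E FN := coreAlg_isScalarTower A₀ FN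
  letI algL : Algebra A₀ LN := coreAlg A₀ LN
  haveI towL : IsScalarTower A₀ E LN := coreAlg_isScalarTower A₀ LN
  letI algFL : Algebra FN LN := kumAlgebraG F h
  haveI towEFL : IsScalarTower E FN LN := kum_isScalarTowerG F h
  haveI towAFL : IsScalarTower A₀ FN LN := IsScalarTower.of_algebraMap_eq (fun a => by
    show algebraMap E LN (ι a) = kumInclG F h (algebraMap E FN (ι a))
    exact ((kumInclG F h).commutes _).symm)
  -- the coordinate
  set tF : FN := ⟨coeffMap ι t₀, kd.t_mem⟩ with htFdef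
  set tL : LN := ⟨coeffMap ι t₀, le_kumFieldG F h kd.t_mem⟩ with htLdef
  have htrF : Transcendental E tF :=
    bgConst_transcendental FN tF (by
      show (coeffMap ι t₀).order ≠ 0
      rw [ht₀]; norm_num)
  have htrL : Transcendental E tL :=
    bgConst_transcendental LN tL (by
      show (coeffMap ι t₀).order ≠ 0
      rw [ht₀]; norm_num)
  have htLF : algebraMap FN LN tF = tL := by
    apply Subtype.ext
    rw [kum_algebraMap_eqG, coe_kumInclG]
  -- `Y₁ - Y₂ = π D`
  obtain ⟨D, hD⟩ := exists_eq_C_mul_of_coeffMap_eq_zero r hr (Y₁ - Y₂)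
    (by rw [map_sub, hred, sub_self])
  have hιπ : ι π ≠ 0 := fun h0 => hπ.ne_zero (hinj (by rw [h0, map_zero]))
  have hDeq : coeffMap ι Y₁ - coeffMap ι Y₂ = HahnSeries.C (ι π) * coeffMap ι D := by
    rw [← map_sub, hD, map_mul, coeffMap_hahnC]
  have hCeq : (HahnSeries.C (ι π) : LaurentSeries E) = algebraMap E (LaurentSeries E) (ι π) :=
    (algebraMap_laurentSeries_eq_single E (ι π)).symm
  have hCmem : (HahnSeries.C (ι π) : LaurentSeries E) ∈ FN := by
    rw [hCeq]
    exact IntermediateField.algebraMap_mem FN _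
  have hC0 : (HahnSeries.C (ι π) : LaurentSeries E) ≠ 0 := by
    intro h0
    apply hιπ
    have := congrArg (fun z : LaurentSeries E => z.coeff 0) h0
    simpa using this
  have hDmem : coeffMap ι D ∈ FN := by
    have h1 : coeffMap ι D = (HahnSeries.C (ι π))⁻¹ * (coeffMap ι Y₁ - coeffMap ι Y₂) := by
      rw [hDeq, ← mul_assoc, inv_mul_cancel₀ hC0, one_mul]
    rw [h1]
    exact mul_mem (inv_mem hCmem) (sub_mem h₁ h₂)
  set y₁ : FN := ⟨coeffMap ι Y₁, h₁⟩ with hy₁def
  set y₂ : FN := ⟨coeffMap ι Y₂, h₂⟩ with hy₂def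
  set d : FN := ⟨coeffMap ι D, hDmem⟩ with hddef
  have hy₂0 : y₂ ≠ 0 := by
    intro h0
    apply hne
    have h1 : coeffMap ι Y₂ = 0 := congrArg Subtype.val h0
    have h2 : Y₂ = 0 := hcinj (by rw [h1, map_zero])
    rw [h2, map_zero]
  have hyd : y₁ - y₂ = algebraMap A₀ FN π * d := by
    apply Subtype.ext
    show coeffMap ι Y₁ - coeffMap ι Y₂ = _
    rw [hDeq, hCeq]
    rfl
  -- common denominator
  have hFF : ∀ f ∈ FN, ∃ z : FN, (FN).val z = f := fun f hf => ⟨⟨f, hf⟩, rfl⟩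
  have hτF : (FN).val tF = coeffMap ι t₀ := rfl
  obtain ⟨g₁, hg₁, hi₁⟩ := bgInt_exists_mul_isIntegral (FN).val kd hπ.ne_zero hπ.not_isUnit hr
    hFF hτF y₁ h₁ (coeffMap_mem_gaussRing ι r Y₁)
  obtain ⟨g₂, hg₂, hi₂⟩ := bgInt_exists_mul_isIntegral (FN).val kd hπ.ne_zero hπ.not_isUnit hr
    hFF hτF y₂ h₂ (coeffMap_mem_gaussRing ι r Y₂)
  obtain ⟨g₃, hg₃, hi₃⟩ := bgInt_exists_mul_isIntegral (FN).val kd hπ.ne_zero hπ.not_isUnit hr
    hFF hτF d hDmem (coeffMap_mem_gaussRing ι r D)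
  set g : A₀[X] := g₁ * g₂ * g₃ with hgdef
  have hg : g.map r ≠ 0 := by
    rw [hgdef, Polynomial.map_mul, Polynomial.map_mul]
    exact mul_ne_zero (mul_ne_zero hg₁ hg₂) hg₃
  have hG₁ : IsIntegral (Algebra.adjoin A₀ {tF}) (aeval tF g * y₁) := by
    have : aeval tF g * y₁ = aeval tF (g₂ * g₃) * (aeval tF g₁ * y₁) := by
      rw [hgdef]; simp only [map_mul]; ring
    rw [this]; exact core_isIntegral_aeval_mul _ _ hi₁
  have hG₂ : IsIntegral (Algebra.adjoin A₀ {tF}) (aeval tF g * y₂) := by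
    have : aeval tF g * y₂ = aeval tF (g₁ * g₃) * (aeval tF g₂ * y₂) := by
      rw [hgdef]; simp only [map_mul]; ring
    rw [this]; exact core_isIntegral_aeval_mul _ _ hi₂
  have hG₃ : IsIntegral (Algebra.adjoin A₀ {tF}) (aeval tF g * d) := by
    have : aeval tF g * d = aeval tF (g₁ * g₂) * (aeval tF g₃ * d) := by
      rw [hgdef]; simp only [map_mul]; ring
    rw [this]; exact core_isIntegral_aeval_mul _ _ hi₃
  -- reductions
  have hrg : coeffMap r (aeval t₀ g) ≠ 0 := by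
    rw [redDVR_coeffMap_aeval]
    intro h0
    exact hg ((transcendental_iff.mp kd.transc) _ h0)
  have hne₁ : coeffMap r Y₁ ≠ 0 := by rw [hred]; exact hne
  have hGcoe : ((aeval tF g : FN) : LaurentSeries E) = coeffMap ι (aeval t₀ g) :=
    bgInt_map_aeval (FN).val hτF g
  -- `s = g(t) y₂`, `W = s ^ (p - 1) * (g(t) y₁)`
  set s : FN := aeval tF g * y₂ with hsdef
  set W : FN := s ^ (p - 1) * (aeval tF g * y₁) with hWdef
  have hs0 : s ≠ 0 := by
    rw [hsdef]
    refine mul_ne_zero ?_ hy₂0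
    intro h0
    apply hrg
    have h1 : coeffMap ι (aeval t₀ g) = 0 := by rw [← hGcoe, h0]; rfl
    have h2 : aeval t₀ g = 0 := hcinj (by rw [h1, map_zero])
    rw [h2, map_zero]
  have hscoe : ((s : FN) : LaurentSeries E) = coeffMap ι (aeval t₀ g * Y₂) := by
    rw [map_mul, ← hGcoe]; rfl
  have hWcoe : ((W : FN) : LaurentSeries E) =
      coeffMap ι ((aeval t₀ g * Y₂) ^ (p - 1) * (aeval t₀ g * Y₁)) := by
    rw [map_mul, map_pow, ← hscoe, map_mul, ← hGcoe]; rfl
  have hsred : coeffMap r (aeval t₀ g * Y₂) ≠ 0 := by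
    rw [map_mul]; exact mul_ne_zero hrg hne
  have hWred : coeffMap r ((aeval t₀ g * Y₂) ^ (p - 1) * (aeval t₀ g * Y₁)) ≠ 0 := by
    rw [map_mul, map_pow, map_mul (coeffMap r) (aeval t₀ g) Y₁]
    exact mul_ne_zero (pow_ne_zero _ hsred) (mul_ne_zero hrg hne₁)
  have hsint : IsIntegral (Algebra.adjoin A₀ {tF}) s := hG₂
  have hWint : IsIntegral (Algebra.adjoin A₀ {tF}) W := (hG₂.pow _).mul hG₁
  -- the norm of `W`
  obtain ⟨hWg, hWgred⟩ := core_gaussRed_ne_zero r hinj _ hWcoe hWred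
  obtain ⟨nW, -, hnW, hnorm⟩ := bgInt_norm (FN).val kd hπ hrπ hr hFF hτF htrF W W.2 hWg hWgred
    hWint
  -- the Kummer generator
  set hL : LN := kumGenG F h with hLdef
  set w : FN := y₁ / y₂ with hwdef
  have hY₂0 : coeffMap ι Y₂ ≠ 0 := fun h0 => hy₂0 (Subtype.ext h0)
  have hhL : hL ^ p = algebraMap FN LN w := by
    apply Subtype.ext
    rw [kum_algebraMap_eqG, coe_kumInclG]
    show h ^ p = coeffMap ι Y₁ / coeffMap ι Y₂
    rw [eq_div_iff hY₂0]; exact hh
  have hAFinj : Function.Injective (algebraMap A₀ FN) := by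
    intro a b hab
    have h1 : algebraMap E FN (ι a) = algebraMap E FN (ι b) := hab
    exact hinj ((algebraMap E FN).injective h1)
  have hζF : IsPrimitiveRoot (algebraMap A₀ FN ζ) p := hζ.map_of_injective hAFinj
  have hwnot : ∀ y : FN, y ^ p ≠ w := by
    intro y hy
    obtain ⟨z, hz⟩ := core_mem_of_pow_eq hp.pos hζF hhL y hy
    apply hnot
    have hz' : ((z : FN) : LaurentSeries E) = h := by
      have := congrArg Subtype.val hz
      rwa [kum_algebraMap_eqG, coe_kumInclG] at this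
    rw [← hz']; exact z.2
  have htop : FN⟮hL⟯ = ⊤ := kumField_adjoin_genG F h
  have hdeg : Module.finrank FN LN = p := bg_finrank hp hζF hhL htop hwnot
  set H : LN := hL * algebraMap FN LN s with hHdef
  have hgenH : FN⟮H⟯ = ⊤ := KumU.adjoin_mul_base hL s hs0 htop
  have hHW : H ^ p = algebraMap FN LN W := by
    rw [hHdef, mul_pow, hhL, ← map_pow, ← map_mul]
    congr 1
    have hpow : s ^ p = s ^ (p - 1) * s := by
      rw [← pow_succ, Nat.sub_add_cancel hp.pos]
    rw [hWdef, hwdef, hpow, hsdef]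
    field_simp
  have hgoodL : TSGoodBasis (A₀ := A₀) (E := E) (Lf := LN) π (algebraMap FN LN tF) :=
    BGBasis.tsGoodBasis_kummer π hπ.prime tF hp.pos hpπ H W hHW hWint hdeg hgenH nW hnW hnorm
      hgoodF
  rw [htLF] at hgoodL
  -- the tame specialization theorem
  obtain ⟨P₀, -, hP₀, -⟩ := bgConst_exists_place LN tL ht₀
  haveI := hfin
  have hprime : Prime (algebraMap A₀ (integralClosure (Algebra.adjoin A₀ {tL}) LN) π) :=
    hTS A₀ E LN π hπ tL htrL (bgConst_mem_range_of_isAlgebraic LN) hgoodL S hS hram.1 e he hζe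
      hram.2 ⟨P₀, hP₀⟩
  -- the automorphism
  obtain ⟨σ, hσfix, hσh⟩ := bg_aut' hp hζF hhL htop hwnot
  have hAL : ∀ a : A₀, algebraMap A₀ LN a = algebraMap FN LN (algebraMap A₀ FN a) :=
    fun a => IsScalarTower.algebraMap_apply A₀ FN LN a
  have hσA : ∀ a : A₀, σ (algebraMap A₀ LN a) = algebraMap A₀ LN a := by
    intro a
    rw [hAL, hσfix]
  have hσt : σ tL = tL := by rw [← htLF, hσfix]
  have hσh' : σ hL = algebraMap A₀ LN ζ * hL := by rw [hσh, hAL]
  -- integrality in `Lf`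
  have hintL : ∀ z : FN, IsIntegral (Algebra.adjoin A₀ {tF}) z →
      IsIntegral (Algebra.adjoin A₀ {tL}) (algebraMap FN LN z) := by
    intro z hz
    have := BGBasis.isIntegral_adjoin_map (Lf := LN) tF z hz
    rwa [htLF] at this
  have hsC : IsIntegral (Algebra.adjoin A₀ {tL}) (algebraMap FN LN s) := hintL s hsint
  have hcC : IsIntegral (Algebra.adjoin A₀ {tL}) (algebraMap FN LN (aeval tF g * d)) :=
    hintL _ hG₃
  have hshC : IsIntegral (Algebra.adjoin A₀ {tL}) (algebraMap FN LN s * hL) := by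
    have hH : IsIntegral (Algebra.adjoin A₀ {tL}) H := by
      apply IsIntegral.of_pow hp.pos
      rw [hHW]
      exact hintL W hWint
    rwa [hHdef, mul_comm] at hH
  -- `s` is not divisible by `π`
  have hFL : ∀ f ∈ FN, ∃ z : LN, (LN).val z = f :=
    fun f hf => ⟨⟨f, le_kumFieldG F h hf⟩, rfl⟩
  have hτL : (LN).val tL = coeffMap ι t₀ := rfl
  have hsLcoe : (LN).val (algebraMap FN LN s) = coeffMap ι (aeval t₀ g * Y₂) := by
    rw [← hscoe, kum_algebraMap_eqG]
    exact coe_kumInclG F h s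
  have hsLF : (LN).val (algebraMap FN LN s) ∈ FN := by
    rw [hsLcoe, ← hscoe]; exact s.2
  obtain ⟨hsg, hsgred⟩ := core_gaussRed_ne_zero r hinj _ hsLcoe hsred
  have hs : ¬ ∃ z' : LN, IsIntegral (Algebra.adjoin A₀ {tL}) z' ∧
      algebraMap FN LN s = algebraMap A₀ LN π * z' :=
    core_not_dvd (LN).val kd hπ hrπ hr hFL hτL htrL (algebraMap FN LN s) hsLF hsg hsgred
  -- the product formula
  have hζL : IsPrimitiveRoot (algebraMap A₀ LN ζ) p := by
    rw [hAL]
    exact hζF.map_of_injective (algebraMap FN LN).injective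
  have hprod : ∏ i ∈ Finset.range p, (hL - algebraMap A₀ LN ζ ^ i) = hL ^ p - 1 := by
    have h1 := X_pow_sub_C_eq_prod hζL hp.pos (one_pow p : (1 : LN) ^ p = 1)
    have h2 := congrArg (Polynomial.eval hL) h1
    rw [Polynomial.eval_sub, Polynomial.eval_pow, Polynomial.eval_X, Polynomial.eval_C,
      Polynomial.eval_prod] at h2
    rw [h2]
    refine Finset.prod_congr rfl fun i _ => ?_
    rw [Polynomial.eval_sub, Polynomial.eval_X, Polynomial.eval_C, mul_one]
  -- the congruence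
  have hw : (hL ^ p - 1) * algebraMap FN LN s
      = algebraMap A₀ LN π * algebraMap FN LN (aeval tF g * d) := by
    rw [hhL, hAL, ← map_one (algebraMap FN LN), ← map_sub, ← map_mul, ← map_mul]
    congr 1
    have h1 : (w - 1) * y₂ = y₁ - y₂ := by
      rw [hwdef]; field_simp
    calc (w - 1) * s = aeval tF g * ((w - 1) * y₂) := by rw [hsdef]; ring
      _ = aeval tF g * (algebraMap A₀ FN π * d) := by rw [h1, hyd]
      _ = algebraMap A₀ FN π * (aeval tF g * d) := by ring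
  exact endGame π tL hprime σ hσA hσt ζ u hζu hsC hsC hcC (hσfix s) hs hs hshC hσh' hprod hw

end Core

/-- `InjCoreStmt` follows from the tame specialization theorem. -/
theorem injCoreStmtG_of_tameSpec (hTS : TameSpecStmt.{0}) : InjCoreStmtG := by
  intro A₀ E k _ _ _ _ _ _ _ _ r F h π hπ hrπ hr t₀ n x kd ht₀ p hp hpπ ζ u hζ hζu Y₁ Y₂ h₁ h₂
    hred hne hh hnot hgoodF hfin S hS e he hζe hram
  exact injCoreG r F h hTS hπ hrπ hr kd ht₀ hp hpπ ζ u hζ hζu Y₁ Y₂ h₁ h₂ hred hne hh hnot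
    hgoodF hfin S hS e he hζe hram

end Fermat.Agent.ES1
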