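import Fermat.Agent.INJ.NFEmb
import Fermat.Agent.INJ.PlaceExt
import Fermat.Agent.INJ.KummerUnram
import Fermat.Agent.ES1.Formal
import Fermat.Agent.ES1.KumG
import Fermat.Agent.ES1.RamPlan

/-!
# ES₁/INJ₁: the embedding `fieldC K₀ L M H → fieldBar L M H` for a subfield `K₀ ⊆ ℚ̄`
(fork of `INJ/NFEmb.lean` and of the generic part of `INJ/BGRam.lean`)
-/

set_option autoImplicit false
set_option linter.style.haveILetI false
set_option linter.unusedSectionVars false

open ModularCurve AlgebraicCurve IntermediateField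

namespace Fermat.Agent.ES1

open Fermat.Agent.INJ Fermat.Agent.S24

variable (K₀ : IntermediateField ℚ NfQb) (L M : ℕ) (H : Subgroup (ZMod M)ˣ)

theorem nfH_coeffMap_mem_bar {x : LaurentSeries K₀} (hx : x ∈ fieldC K₀ L M H) :
    coeffMap (algebraMap K₀ NfQb) x ∈ fieldBar L M H := by
  rw [es1f_fieldBar_eq]
  exact es1f_coeffMap_mem_fieldC _ L M H hx

/-- the embedding `fieldC K₀ L M H → fieldBar L M H` -/
noncomputable def nfEmbH : fieldC K₀ L M H →+* fieldBar L M H where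
  toFun x := ⟨coeffMap (algebraMap K₀ NfQb) x, nfH_coeffMap_mem_bar K₀ L M H x.2⟩
  map_one' := by ext1; simp
  map_mul' x y := by ext1; simp
  map_zero' := by ext1; simp
  map_add' x y := by ext1; simp

@[simp]
theorem nfEmbH_coe (x : fieldC K₀ L M H) :
    ((nfEmbH K₀ L M H x : fieldBar L M H) : LaurentSeries NfQb)
      = coeffMap (algebraMap K₀ NfQb) (x : LaurentSeries K₀) := rfl

theorem nfEmbH_injective : Function.Injective (nfEmbH K₀ L M H) := (nfEmbH K₀ L M H).injective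

theorem nfEmbH_algebraMap (c : K₀) :
    nfEmbH K₀ L M H (algebraMap K₀ (fieldC K₀ L M H) c)
      = algebraMap NfQb (fieldBar L M H) (algebraMap K₀ NfQb c) := by
  ext1
  show coeffMap (algebraMap K₀ NfQb) (algebraMap K₀ (LaurentSeries K₀) c) = _
  rw [nf_coeffMap_algebraMap]
  rfl

/-- `fieldBar L M H` is generated over `ℚ̄` by the image of `fieldC K₀ L M H`. -/
theorem nfEmbH_adjoin_range :
    IntermediateField.adjoin NfQb (Set.range (nfEmbH K₀ L M H)) = ⊤ := by
  apply IntermediateField.lift_injective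
  rw [IntermediateField.lift_top, IntermediateField.lift_adjoin]
  apply le_antisymm
  · rw [IntermediateField.adjoin_le_iff]
    rintro _ ⟨_, ⟨y, rfl⟩, rfl⟩
    exact (nfEmbH K₀ L M H y).2
  · refine le_trans (le_of_eq (es1f_fieldBar_eq L M H)) ?_
    rw [fieldC, IntermediateField.adjoin_le_iff]
    rintro _ (⟨d, hd, hdN, rfl⟩ | ⟨e, he, a, heL, rfl⟩)
    · refine IntermediateField.subset_adjoin NfQb _
        ⟨nfEmbH K₀ L M H ⟨qExpand K₀ d (jqModC K₀), jd_mem_fieldC K₀ L M H hdN⟩, ⟨_, rfl⟩, ?_⟩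
      exact coeffMap_jqNModC (algebraMap K₀ NfQb) d
    · refine IntermediateField.subset_adjoin NfQb _
        ⟨nfEmbH K₀ L M H ⟨qExpand K₀ e (sS K₀ M H a), qExpand_sS_mem K₀ L M H heL a⟩,
          ⟨_, rfl⟩, ?_⟩
      exact es1f_coeffMap_qExpand_sS (algebraMap K₀ NfQb) M H a e

/-- `fieldBar L M H` as an algebra over `fieldC K₀ L M H` -/
@[reducible] noncomputable def nfH_algebra : Algebra (fieldC K₀ L M H) (fieldBar L M H) :=
  (nfEmbH K₀ L M H).toAlgebra

theorem nfH_algebraMap_eq (x : fieldC K₀ L M H) :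
    letI := nfH_algebra K₀ L M H
    algebraMap (fieldC K₀ L M H) (fieldBar L M H) x = nfEmbH K₀ L M H x := rfl

theorem nfH_tower :
    letI := nfH_algebra K₀ L M H
    IsScalarTower K₀ (fieldC K₀ L M H) (fieldBar L M H) := by
  letI := nfH_algebra K₀ L M H
  refine IsScalarTower.of_algebraMap_eq fun c => ?_
  rw [nfH_algebraMap_eq, nfEmbH_algebraMap]
  rfl

theorem nfH_isAlgebraic : Algebra.IsAlgebraic K₀ Kb := by
  haveI : Algebra.IsAlgebraic ℚ Kb := AlgebraicClosure.isAlgebraic ℚ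
  exact Algebra.IsAlgebraic.tower_top (K := ℚ) K₀

/-- every place of `fieldC K₀ L M H / K₀` extends to `fieldBar L M H / ℚ̄` with the same `ord` -/
theorem nfH_hext (Q : Place K₀ (fieldC K₀ L M H)) :
    ∃ v : Place Kb (fieldBar L M H), ∀ y : fieldC K₀ L M H,
      v.ord (nfEmbH K₀ L M H y) = Q.ord y := by
  letI := nfH_algebra K₀ L M H
  haveI := nfH_tower K₀ L M H
  haveI := nfH_isAlgebraic K₀
  exact PlaceExt.exists_place_extend_charZero (E := K₀) (K := Kb) (L' := fieldBar L M H)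
    (nfEmbH_adjoin_range K₀ L M H) Q

variable (h : LaurentSeries K₀)

/-- every place of `fieldC K₀ L M H (h) / K₀`, `h ^ p = w`, `div w ∈ p · Div`, restricts to
`fieldC K₀ L M H` with the same `ord` (number-field form of the hypothesis). -/
theorem nfH_hkum (p : ℕ) (hp : p ≠ 0) (w : fieldC K₀ L M H)
    (hw : h ^ p = (w : LaurentSeries K₀)) (hh0 : h ≠ 0)
    (hdiv : ∀ Q : Place K₀ (fieldC K₀ L M H), (p : ℤ) ∣ Q.ord w)
    (P : Place K₀ (kumFieldG (fieldC K₀ L M H) h)) :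
    ∃ Q : Place K₀ (fieldC K₀ L M H),
      ∀ y : fieldC K₀ L M H, P.ord (kumInclG (fieldC K₀ L M H) h y) = Q.ord y := by
  letI := kumAlgebraG (fieldC K₀ L M H) h
  haveI := kum_isScalarTowerG (fieldC K₀ L M H) h
  have hh : (kumGenG (fieldC K₀ L M H) h) ^ p
      = algebraMap (fieldC K₀ L M H) (kumFieldG (fieldC K₀ L M H) h) w := by
    apply Subtype.ext
    rw [kum_algebraMap_eqG, coe_kumInclG]
    exact hw
  have hg0 : kumGenG (fieldC K₀ L M H) h ≠ 0 := by
    intro h0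
    apply hh0
    have := congrArg Subtype.val h0
    exact this
  exact KumU.exists_place_restrict_kummer (E := K₀) w (kumGenG (fieldC K₀ L M H) h) p hp hh hg0
    (kumField_adjoin_genG (fieldC K₀ L M H) h) hdiv P

/-- `p ∣ ord y₁ − ord y₂` gives `p ∣ ord (y₁ / y₂)` -/
theorem nfH_hdiv_quot (p : ℕ) (y₁ y₂ : fieldC K₀ L M H) (hy₁ : y₁ ≠ 0) (hy₂ : y₂ ≠ 0)
    (hdiv : ∀ Q : Place K₀ (fieldC K₀ L M H), (p : ℤ) ∣ Q.ord y₁ - Q.ord y₂) :
    ∀ Q : Place K₀ (fieldC K₀ L M H), (p : ℤ) ∣ Q.ord (y₁ / y₂) := by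
  intro Q
  rw [div_eq_mul_inv, Q.ord_mul hy₁ (inv_ne_zero hy₂), Q.ord_inv, ← sub_eq_add_neg]
  exact hdiv Q

/-- `j` as an element of `fieldC K₀ L M H` -/
noncomputable def jCH [NeZero L] : fieldC K₀ L M H :=
  ⟨jqModC K₀, by
    have h := jd_mem_fieldC K₀ L M H (one_dvd L)
    rwa [qExpand_one_apply] at h⟩

@[simp] theorem coe_jCH [NeZero L] :
    ((jCH K₀ L M H : fieldC K₀ L M H) : LaurentSeries K₀) = jqModC K₀ := rfl

end Fermat.Agent.ES1
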