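import Fermat.Agent.ES1.InjPlan
import Fermat.Agent.ES1.NFEmbH
import Fermat.Agent.INJ.InjDescent

/-!
# ES₁ / INJ₁-L1: descent from `ℚ̄` to a number field for `fieldBar L M H`
(fork of `INJ/NumField.lean` (descent part) and of `INJ/InjDescent.lean`)

`stmtINJH_of_stmtInjNFH : StmtInjNFH L M H ℓ p → StmtINJH L M H ℓ p`.
-/

set_option autoImplicit false
set_option linter.style.haveILetI false
set_option synthInstance.maxHeartbeats 400000
set_option maxHeartbeats 1000000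

noncomputable section

namespace Fermat.Agent.ES1

open ModularCurve AlgebraicCurve Fermat.Agent.INJ

section Descent

variable (L M : ℕ) (H : Subgroup (ZMod M)ˣ)

/-- the descent predicate -/
def InjdhDescends (y : LaurentSeries NfQb) : Prop :=
  ∃ K₀ : IntermediateField ℚ NfQb, FiniteDimensional ℚ K₀ ∧
    ∃ y₀ : LaurentSeries K₀, y₀ ∈ fieldC K₀ L M H ∧
      coeffMap (algebraMap K₀ NfQb) y₀ = y

variable {L M H}

/-- enlarging the number field -/
theorem injdh_mono_aux {K₀ K₁ : IntermediateField ℚ NfQb} (h : K₀ ≤ K₁)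
    {y₀ : LaurentSeries K₀} (hy₀ : y₀ ∈ fieldC K₀ L M H) :
    coeffMap (IntermediateField.inclusion h).toRingHom y₀ ∈ fieldC K₁ L M H :=
  es1f_coeffMap_mem_fieldC _ L M H hy₀

theorem injdh_descends_algebraMap (c : NfQb) :
    InjdhDescends L M H (algebraMap NfQb (LaurentSeries NfQb) c) := by
  have hc : IsIntegral ℚ c := (AlgebraicClosure.isAlgebraic ℚ).isIntegral.isIntegral c
  refine ⟨IntermediateField.adjoin ℚ {c}, IntermediateField.adjoin.finiteDimensional hc,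
    algebraMap _ _
      (⟨c, IntermediateField.mem_adjoin_simple_self ℚ c⟩ : IntermediateField.adjoin ℚ {c}),
    (fieldC _ L M H).algebraMap_mem _, ?_⟩
  rw [nf_coeffMap_algebraMap]
  rfl

theorem injdh_descends_coeffEmb {z : LaurentSeries ℚ} (hz : z ∈ fieldQ L M H) :
    InjdhDescends L M H (coeffEmb NfQb z) := by
  refine ⟨⊥, inferInstance, coeffMap (algebraMap ℚ (⊥ : IntermediateField ℚ NfQb)) z,
    es1f_coeffMap_mem_fieldC _ L M H hz, ?_⟩
  rw [coeffMap_coeffMap]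
  exact coeffMap_congr (RingHom.ext fun c => rfl) z

theorem injdh_binary {y y' : LaurentSeries NfQb} (hy : InjdhDescends L M H y)
    (hy' : InjdhDescends L M H y') :
    ∃ K₀ : IntermediateField ℚ NfQb, FiniteDimensional ℚ K₀ ∧
      ∃ y₀ y₀' : LaurentSeries K₀, y₀ ∈ fieldC K₀ L M H ∧
        y₀' ∈ fieldC K₀ L M H ∧
        coeffMap (algebraMap K₀ NfQb) y₀ = y ∧ coeffMap (algebraMap K₀ NfQb) y₀' = y' := by
  obtain ⟨K₁, hK₁, y₁, hy₁, rfl⟩ := hy
  obtain ⟨K₂, hK₂, y₂, hy₂, rfl⟩ := hy'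
  have h1 : K₁ ≤ K₁ ⊔ K₂ := le_sup_left
  have h2 : K₂ ≤ K₁ ⊔ K₂ := le_sup_right
  exact ⟨K₁ ⊔ K₂, IntermediateField.finiteDimensional_sup K₁ K₂, _, _,
    injdh_mono_aux h1 hy₁, injdh_mono_aux h2 hy₂,
    nf_coeffMap_inclusion h1 y₁, nf_coeffMap_inclusion h2 y₂⟩

/-- Every element of `fieldBar L M H` is defined over a number field. -/
theorem injdh_exists_descent {y : LaurentSeries NfQb} (hy : y ∈ fieldBar L M H) :
    InjdhDescends L M H y := by
  have hy' := mem_laurentBaseChange_iff.mp hy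
  clear hy
  induction hy' using Subfield.closure_induction with
  | mem y hy =>
      rcases hy with ⟨a, rfl⟩ | ⟨z, hz, rfl⟩
      · exact injdh_descends_algebraMap a
      · exact injdh_descends_coeffEmb hz
  | one =>
      have := injdh_descends_algebraMap (L := L) (M := M) (H := H) (1 : NfQb)
      rwa [map_one] at this
  | add x y _ _ hx hy =>
      obtain ⟨K₀, hK₀, x₀, y₀, hx₀, hy₀, rfl, rfl⟩ := injdh_binary hx hy
      exact ⟨K₀, hK₀, x₀ + y₀, add_mem hx₀ hy₀, map_add _ _ _⟩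
  | neg x _ hx =>
      obtain ⟨K₀, hK₀, x₀, hx₀, rfl⟩ := hx
      exact ⟨K₀, hK₀, -x₀, neg_mem hx₀, map_neg _ _⟩
  | inv x _ hx =>
      obtain ⟨K₀, hK₀, x₀, hx₀, rfl⟩ := hx
      exact ⟨K₀, hK₀, x₀⁻¹, inv_mem hx₀, map_inv₀ _ _⟩
  | mul x y _ _ hx hy =>
      obtain ⟨K₀, hK₀, x₀, y₀, hx₀, hy₀, rfl, rfl⟩ := injdh_binary hx hy
      exact ⟨K₀, hK₀, x₀ * y₀, mul_mem hx₀ hy₀, map_mul _ _ _⟩

/-- the descent can be done over any larger number field -/
theorem injdh_exists_of_le {y : LaurentSeries NfQb} (hy : InjdhDescends L M H y) :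
    ∃ K₀ : IntermediateField ℚ NfQb, FiniteDimensional ℚ K₀ ∧
      ∀ K₁ : IntermediateField ℚ NfQb, K₀ ≤ K₁ →
        ∃ y₁ : LaurentSeries K₁, y₁ ∈ fieldC K₁ L M H ∧
          coeffMap (algebraMap K₁ NfQb) y₁ = y := by
  obtain ⟨K₀, hK₀, y₀, hy₀, rfl⟩ := hy
  exact ⟨K₀, hK₀, fun K₁ h => ⟨_, injdh_mono_aux h hy₀, nf_coeffMap_inclusion h y₀⟩⟩

/-- Finitely many elements of `fieldBar L M H` and finitely many constants live over one number
field. -/
theorem injdh_exists_descent_finset (S : Finset NfQb) (Y : Finset (LaurentSeries NfQb))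
    (hY : ∀ y ∈ Y, y ∈ fieldBar L M H) :
    ∃ K₀ : IntermediateField ℚ NfQb, FiniteDimensional ℚ K₀ ∧ (∀ s ∈ S, s ∈ K₀) ∧
      ∀ K₁ : IntermediateField ℚ NfQb, K₀ ≤ K₁ → ∀ y ∈ Y,
        ∃ y₁ : LaurentSeries K₁, y₁ ∈ fieldC K₁ L M H ∧
          coeffMap (algebraMap K₁ NfQb) y₁ = y := by
  classical
  induction Y using Finset.induction_on with
  | empty =>
      refine ⟨IntermediateField.adjoin ℚ (S : Set NfQb), ?_, ?_, ?_⟩
      · exact IntermediateField.finiteDimensional_adjoin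
          (fun x _ => (AlgebraicClosure.isAlgebraic ℚ).isIntegral.isIntegral x)
      · exact fun s hs => IntermediateField.subset_adjoin ℚ _ hs
      · intro K₁ _ y hy
        exact absurd hy (Finset.notMem_empty y)
  | insert a Y _ ih =>
      obtain ⟨K₀, hK₀, hS, hK⟩ := ih (fun y hy => hY y (Finset.mem_insert_of_mem hy))
      obtain ⟨Ka, hKa, hKa'⟩ :=
        injdh_exists_of_le (injdh_exists_descent (hY a (Finset.mem_insert_self a Y)))
      refine ⟨K₀ ⊔ Ka, IntermediateField.finiteDimensional_sup K₀ Ka,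
        fun s hs => (le_sup_left : K₀ ≤ K₀ ⊔ Ka) (hS s hs), ?_⟩
      intro K₁ hK₁ y hy
      rcases Finset.mem_insert.mp hy with rfl | hy
      · exact hKa' K₁ (le_trans le_sup_right hK₁)
      · exact hK K₁ (le_trans le_sup_left hK₁) y hy

end Descent

/-- `j ∈ fieldBar L M H` -/
theorem injdh_jqModC_mem (L M : ℕ) (H : Subgroup (ZMod M)ˣ) :
    jqModC NfQb ∈ fieldBar L M H := by
  rw [es1f_fieldBar_eq]
  have h := jd_mem_fieldC NfQb L M H (one_dvd L)
  rwa [qExpand_one_apply] at h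

/-- the cusp place of `fieldBar L M H` -/
theorem injdh_exists_cusp (L M : ℕ) (H : Subgroup (ZMod M)ˣ) :
    ∃ P₀ : Place NfQb (fieldBar L M H), ∀ x : fieldBar L M H, x ≠ 0 →
      P₀.ord x = (x : LaurentSeries NfQb).order := by
  obtain ⟨P₀, h, -, -⟩ := bgConst_exists_place (fieldBar L M H)
    ⟨jqModC NfQb, injdh_jqModC_mem L M H⟩ (bgConst_order_jqModC NfQb)
  exact ⟨P₀, h⟩

/-- **(INJ₁), layer 1**: the number-field form implies the form over `ℚ̄`. -/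
theorem stmtINJH_of_stmtInjNFH {L M : ℕ} {H : Subgroup (ZMod M)ˣ} {ℓ p : ℕ} (hL : L ≠ 0)
    (hp : p.Prime) : StmtInjNFH L M H ℓ p → StmtINJH L M H ℓ p := by
  intro hNF A hA Y₁ Y₂ h₁ h₂ hred hne hdiv
  classical
  set y₁ : LaurentSeries NfQb := coeffMap A.subtype Y₁ with hy₁
  set y₂ : LaurentSeries NfQb := coeffMap A.subtype Y₂ with hy₂
  have hAinj : Function.Injective (A.subtype : A →+* NfQb) := Subtype.val_injective
  -- 1. nonvanishing and the order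
  have hY₂0 : Y₂ ≠ 0 := by
    rintro rfl
    exact hne (map_zero _)
  have hY₁0 : Y₁ ≠ 0 := by
    rintro rfl
    rw [map_zero] at hred
    exact hne hred.symm
  have hy₁0 : y₁ ≠ 0 := fun h => hY₁0 ((nf_coeffMap_eq_zero_iff _ hAinj Y₁).mp h)
  have hy₂0 : y₂ ≠ 0 := fun h => hY₂0 ((nf_coeffMap_eq_zero_iff _ hAinj Y₂).mp h)
  have hord : (p : ℤ) ∣ y₁.order - y₂.order := by
    obtain ⟨P₀, hP₀⟩ := injdh_exists_cusp L M H
    have h := hdiv P₀
    rwa [hP₀ ⟨y₁, h₁⟩ (fun h0 => hy₁0 (congrArg Subtype.val h0)),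
      hP₀ ⟨y₂, h₂⟩ (fun h0 => hy₂0 (congrArg Subtype.val h0))] at h
  -- 2. constants
  have ha₁ : y₁.leadingCoeff ≠ 0 := HahnSeries.leadingCoeff_ne_zero.mpr hy₁0
  have ha₂ : y₂.leadingCoeff ≠ 0 := HahnSeries.leadingCoeff_ne_zero.mpr hy₂0
  obtain ⟨c₀, hc₀⟩ := IsAlgClosed.exists_pow_nat_eq (y₁.leadingCoeff / y₂.leadingCoeff) hp.pos
  haveI : NeZero ((p : ℕ) : ℚ) := ⟨by exact_mod_cast hp.ne_zero⟩
  haveI : NeZero ((6 * L : ℕ) : ℚ) := ⟨by
    have : 6 * L ≠ 0 := by omega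
    exact_mod_cast this⟩
  obtain ⟨ζp, hζp⟩ := HasEnoughRootsOfUnity.exists_primitiveRoot NfQb p
  obtain ⟨ζN, hζN⟩ := HasEnoughRootsOfUnity.exists_primitiveRoot NfQb (6 * L)
  -- 3. the number field
  obtain ⟨K₀, hK₀, hS, hK⟩ := injdh_exists_descent_finset (L := L) (M := M) (H := H)
    ({c₀, ζp, ζN} : Finset NfQb)
    ({y₁, y₂} : Finset (LaurentSeries NfQb)) (by
      intro y hy
      rcases Finset.mem_insert.mp hy with rfl | hy
      · exact h₁
      · rw [Finset.mem_singleton] at hy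
        rw [hy]
        exact h₂)
  have hc₀K : c₀ ∈ K₀ := hS c₀ (by simp)
  have hζpK : ζp ∈ K₀ := hS ζp (by simp)
  have hζNK : ζN ∈ K₀ := hS ζN (by simp)
  obtain ⟨z₁, hz₁, hz₁y⟩ := hK K₀ le_rfl y₁ (by simp)
  obtain ⟨z₂, hz₂, hz₂y⟩ := hK K₀ le_rfl y₂ (by simp)
  have hginj : Function.Injective (algebraMap K₀ NfQb) := (algebraMap K₀ NfQb).injective
  have hz₁0 : z₁ ≠ 0 := by
    rintro rfl
    rw [map_zero] at hz₁y
    exact hy₁0 hz₁y.symm
  have hz₂0 : z₂ ≠ 0 := by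
    rintro rfl
    rw [map_zero] at hz₂y
    exact hy₂0 hz₂y.symm
  -- 4. integrality of the coefficients
  have hfinj : Function.Injective (algebraMap (nfSub A K₀) K₀) := Subtype.val_injective
  have hcoef : ∀ (Y : LaurentSeries A) (z : LaurentSeries K₀),
      coeffMap (algebraMap K₀ NfQb) z = coeffMap A.subtype Y →
      ∃ Z : LaurentSeries (nfSub A K₀), coeffMap (algebraMap (nfSub A K₀) K₀) Z = z ∧
        coeffMap (nfRes A K₀) Z = coeffMap (IsLocalRing.residue A) Y := by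
    intro Y z hz
    have hmem : ∀ n, z.coeff n ∈ nfSub A K₀ := by
      intro n
      have h := congrArg (fun w => w.coeff n) hz
      simp only [coeffMap_coeff] at h
      show algebraMap K₀ NfQb (z.coeff n) ∈ A
      rw [h]
      exact (Y.coeff n).2
    obtain ⟨Z, hZ⟩ := injDesc_exists_coeffMap (algebraMap (nfSub A K₀) K₀) hfinj z
      (fun n => ⟨⟨z.coeff n, hmem n⟩, rfl⟩)
    refine ⟨Z, hZ, ?_⟩
    ext n
    rw [coeffMap_coeff, coeffMap_coeff, nfRes_apply]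
    congr 1
    apply Subtype.ext
    rw [coe_nfSubIncl]
    have h1 := congrArg (fun w => w.coeff n) hZ
    have h2 := congrArg (fun w => w.coeff n) hz
    simp only [coeffMap_coeff] at h1 h2
    have h3 : ((Z.coeff n : nfSub A K₀) : K₀) = z.coeff n := h1
    rw [h3, h2]
    rfl
  obtain ⟨Z₁, hZ₁, hZ₁r⟩ := hcoef Y₁ z₁ hz₁y
  obtain ⟨Z₂, hZ₂, hZ₂r⟩ := hcoef Y₂ z₂ hz₂y
  -- 5. the `p`-th root
  have hpK : ((p : ℕ) : K₀) ≠ 0 := by exact_mod_cast hp.ne_zero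
  set f : LaurentSeries K₀ := z₁ * z₂⁻¹ with hf
  have hf0 : f ≠ 0 := mul_ne_zero hz₁0 (inv_ne_zero hz₂0)
  have hfz : f * z₂ = z₁ := by
    rw [hf, mul_assoc, inv_mul_cancel₀ hz₂0, mul_one]
  have hlc : f.leadingCoeff * z₂.leadingCoeff = z₁.leadingCoeff := by
    rw [← HahnSeries.leadingCoeff_mul, hfz]
  have hfo : f.order + z₂.order = z₁.order := by
    rw [← HahnSeries.order_mul_of_ne_zero, hfz]
    exact mul_ne_zero (HahnSeries.leadingCoeff_ne_zero.mpr hf0)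
      (HahnSeries.leadingCoeff_ne_zero.mpr hz₂0)
  have ho₁ : z₁.order = y₁.order := by
    rw [← hz₁y, nf_order_coeffMap _ hginj]
  have ho₂ : z₂.order = y₂.order := by
    rw [← hz₂y, nf_order_coeffMap _ hginj]
  have hl₁ : algebraMap K₀ NfQb z₁.leadingCoeff = y₁.leadingCoeff := by
    rw [← hz₁y, nf_leadingCoeff_coeffMap _ hginj]
  have hl₂ : algebraMap K₀ NfQb z₂.leadingCoeff = y₂.leadingCoeff := by
    rw [← hz₂y, nf_leadingCoeff_coeffMap _ hginj]
  have hford : (p : ℤ) ∣ f.order := by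
    have : f.order = y₁.order - y₂.order := by rw [← ho₁, ← ho₂, ← hfo]; ring
    rw [this]
    exact hord
  have hfc : ∃ c : K₀, c ^ p = f.leadingCoeff := by
    refine ⟨⟨c₀, hc₀K⟩, ?_⟩
    apply hginj
    rw [map_pow]
    have h1 : algebraMap K₀ NfQb (⟨c₀, hc₀K⟩ : K₀) = c₀ := rfl
    rw [h1, hc₀]
    have h2 := congrArg (algebraMap K₀ NfQb) hlc
    rw [map_mul, hl₁, hl₂] at h2
    rw [div_eq_iff ha₂]
    exact h2.symm
  obtain ⟨h0, hh0⟩ := bgRoot p hpK f hf0 hford hfc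
  -- 6. + 7.
  have hmem₁ : coeffMap (algebraMap (nfSub A K₀) K₀) Z₁ ∈ fieldC K₀ L M H := by
    rw [hZ₁]; exact hz₁
  have hmem₂ : coeffMap (algebraMap (nfSub A K₀) K₀) Z₂ ∈ fieldC K₀ L M H := by
    rw [hZ₂]; exact hz₂
  have hh0mem : h0 ∈ fieldC K₀ L M H := by
    refine hNF A hA K₀ hK₀ ⟨⟨ζp, hζpK⟩, ?_⟩ ⟨⟨ζN, hζNK⟩, ?_⟩ Z₁ Z₂ h0 hmem₁ hmem₂ ?_ ?_ ?_ ?_
    · exact IsPrimitiveRoot.of_map_of_injective (f := algebraMap K₀ NfQb) hζp hginj
    · exact IsPrimitiveRoot.of_map_of_injective (f := algebraMap K₀ NfQb) hζN hginj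
    · rw [hZ₁r, hZ₂r, hred]
    · rw [hZ₂r]; exact hne
    · rw [hZ₁, hZ₂, hh0, hfz]
    · intro Q
      obtain ⟨v, hv⟩ := nfH_hext K₀ L M H Q
      have e₁ : nfEmbH K₀ L M H ⟨_, hmem₁⟩ = (⟨y₁, h₁⟩ : fieldBar L M H) := by
        apply Subtype.ext
        rw [nfEmbH_coe]
        show coeffMap (algebraMap K₀ NfQb) (coeffMap (algebraMap (nfSub A K₀) K₀) Z₁) = y₁
        rw [hZ₁, hz₁y]
      have e₂ : nfEmbH K₀ L M H ⟨_, hmem₂⟩ = (⟨y₂, h₂⟩ : fieldBar L M H) := by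
        apply Subtype.ext
        rw [nfEmbH_coe]
        show coeffMap (algebraMap K₀ NfQb) (coeffMap (algebraMap (nfSub A K₀) K₀) Z₂) = y₂
        rw [hZ₂, hz₂y]
      rw [← hv, ← hv, e₁, e₂]
      exact hdiv v
  refine ⟨nfEmbH K₀ L M H ⟨h0, hh0mem⟩, ?_⟩
  apply Subtype.ext
  show (coeffMap (algebraMap K₀ NfQb) h0) ^ p * y₂ = y₁
  rw [← hz₁y, ← hz₂y, ← map_pow, ← map_mul, hh0, hfz]

end Fermat.Agent.ES1
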