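import Fermat.Agent.INJ.RamAssemble
import Fermat.Agent.INJ.RamJ
import Fermat.Agent.INJ.HMMem
import Fermat.Agent.INJ.BGConstJ
import Fermat.Agent.ES1.NFEmbH

/-!
# ES₁/INJ₁: hypotheses `(b)`, `(b')` of the tame specialization theorem over the `j`-line
for `fieldC K₀ L M H` and its Kummer extensions (fork of `INJ/RamJLine.lean`, `INJ/BGRam.lean`,
`INJ/BGRamNF.lean`), from the ramification data `RamJH L M H` (piece F4).
-/

set_option autoImplicit false
set_option linter.style.haveILetI false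
set_option linter.unusedSectionVars false
set_option synthInstance.maxHeartbeats 400000
set_option maxHeartbeats 1000000

namespace Fermat.Agent.ES1

open Polynomial IntermediateField AlgebraicCurve Fermat.Agent.S24 Fermat.Agent.INJ ModularCurve

section JLine

variable {A₀ E Lf : Type} {F₀ : Type*}
  [CommRing A₀] [Field E] [Algebra A₀ E] [Field Lf] [Algebra E Lf] [Algebra A₀ Lf]
  [IsScalarTower A₀ E Lf]
  [Algebra E Kb] [Field F₀] [Algebra E F₀] [Algebra F₀ Lf] [IsScalarTower E F₀ Lf]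
  (L M : ℕ) (H : Subgroup (ZMod M)ˣ) [NeZero L]
  [Algebra F₀ (fieldBar L M H)] [Algebra E (fieldBar L M H)] [IsScalarTower E F₀ (fieldBar L M H)]
  [IsScalarTower E Kb (fieldBar L M H)]

/-- every place of `fieldBar` lies over a point of the `j`-line -/
theorem ramJH_cases (hR : RamJH L M H) (v : Place Kb (fieldBar L M H)) :
    (∃ c : Kb, 0 < v.ord (jFH L M H - algebraMap Kb (fieldBar L M H) c)) ∨
      v.ord (jFH L M H) < 0 := by
  by_cases hv : v.ord (jFH L M H) < 0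
  · exact Or.inr hv
  · left
    have hmem : jFH L M H ∈ v.toValuationSubring := PlaceAux.mem_of_ord_nonneg v (not_lt.mp hv)
    have htr : Transcendental Kb (jFH L M H) := by
      intro halg
      apply transcendental_jBar
      have := (isAlgebraic_algHom_iff (fieldBar L M H).val (Subtype.val_injective)).mpr halg
      exact this
    haveI := hR.finite
    have halg : Algebra.IsAlgebraic Kb⟮jFH L M H⟯ (fieldBar L M H) :=
      Algebra.IsAlgebraic.of_finite _ _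
    obtain ⟨c, hc⟩ := exists_sub_mem_nonunits (jFH L M H) htr halg v _ hmem
    refine ⟨c, (PlaceAux.ord_pos_iff_mem_nonunits v ?_).mpr hc⟩
    intro h0
    exact htr ⟨Polynomial.X - Polynomial.C c, Polynomial.X_sub_C_ne_zero c, by simpa using h0⟩

/-- **B2-b over the `j`-line** for `fieldBar L M H`. -/
theorem ramBH_jline [CharZero E] [Algebra.IsAlgebraic E Kb] (hR : RamJH L M H)
    (t₀ : F₀) (ht₀ : algebraMap F₀ (fieldBar L M H) t₀ = jFH L M H) (S : Finset A₀)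
    (hS : ∀ c ∈ S, algebraMap E Kb (algebraMap A₀ E c) = 0 ∨
      algebraMap E Kb (algebraMap A₀ E c) = 1728)
    (h0 : ∃ c ∈ S, algebraMap E Kb (algebraMap A₀ E c) = 0)
    (h1728 : ∃ c ∈ S, algebraMap E Kb (algebraMap A₀ E c) = 1728)
    (e : ℕ) (h6 : 6 ∣ e) (hN : L ∣ e)
    (hkum : ∀ P : Place E Lf, ∃ Q : Place E F₀,
      ∀ y : F₀, P.ord (algebraMap F₀ Lf y) = Q.ord y)
    (hext : ∀ Q : Place E F₀, ∃ v : Place Kb (fieldBar L M H),
      ∀ y : F₀, v.ord (algebraMap F₀ (fieldBar L M H) y) = Q.ord y) :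
    TSUnramified (E := E) (algebraMap F₀ Lf t₀) S ∧
      TSTame (E := E) (algebraMap F₀ Lf t₀) S e := by
  refine ramB_assemble A₀ E Kb t₀ S e hkum hext ?_ ?_ ?_ ?_
  · intro v hv
    rw [ht₀] at hv ⊢
    rcases ramJH_cases L M H hR v with h | h
    · exact h
    · omega
  · intro v c₀ hc₀ hv
    rw [ht₀] at hv ⊢
    obtain ⟨c, hc, hc0⟩ := h0
    obtain ⟨c', hc', hc1728⟩ := h1728
    refine hR.gen c₀ ?_ ?_ v hv
    · rw [← hc0]; exact hc₀ c hc
    · rw [← hc1728]; exact hc₀ c' hc'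
  · intro v c hc hv
    rw [ht₀] at hv ⊢
    rcases hS c hc with h | h
    · rw [h] at hv ⊢
      rw [map_zero, sub_zero] at hv ⊢
      exact (hR.zero v hv).trans (by exact_mod_cast (by omega : 3 ∣ e))
    · rw [h] at hv ⊢
      exact (hR.e1728 v hv).trans (by exact_mod_cast (by omega : 2 ∣ e))
  · intro v hv
    rw [ht₀] at hv ⊢
    have h := hR.inf v hv
    rw [v.ord_inv, neg_dvd] at h
    exact h.trans (by exact_mod_cast hN)

end JLine

section NF

variable (K₀ : IntermediateField ℚ NfQb) (L M : ℕ) (H : Subgroup (ZMod M)ˣ) [NeZero L]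

theorem nfEmbH_jCH : nfEmbH K₀ L M H (jCH K₀ L M H) = jFH L M H := by
  apply Subtype.ext
  rw [nfEmbH_coe, coe_jCH]
  show coeffMap (algebraMap K₀ NfQb) (jqModC K₀) = jBar
  rw [hmMem_jBar_eq]
  exact map_jqModC (algebraMap K₀ NfQb)

/-- **(b), (b') over the `j`-line for `fieldC K₀ L M H` itself** (number-field form). -/
theorem nfH_ram_jline_self (hR : RamJH L M H) {A₀ : Type} [CommRing A₀] [Algebra A₀ K₀]
    [Algebra A₀ (fieldC K₀ L M H)] [IsScalarTower A₀ K₀ (fieldC K₀ L M H)]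
    (S : Finset A₀)
    (hS : ∀ c ∈ S, algebraMap A₀ K₀ c = 0 ∨ algebraMap A₀ K₀ c = 1728)
    (h0 : ∃ c ∈ S, algebraMap A₀ K₀ c = 0)
    (h1728 : ∃ c ∈ S, algebraMap A₀ K₀ c = 1728)
    (e : ℕ) (h6 : 6 ∣ e) (hN : L ∣ e) :
    TSUnramified (E := K₀) (jCH K₀ L M H) S ∧ TSTame (E := K₀) (jCH K₀ L M H) S e := by
  letI := nfH_algebra K₀ L M H
  haveI := nfH_tower K₀ L M H
  haveI := nfH_isAlgebraic K₀
  refine ramBH_jline (E := K₀) (Lf := fieldC K₀ L M H) (F₀ := fieldC K₀ L M H) L M H hR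
    (jCH K₀ L M H) (nfEmbH_jCH K₀ L M H) S ?_ ?_ ?_ e h6 hN (fun P => ⟨P, fun y => rfl⟩)
    (nfH_hext K₀ L M H)
  · intro c hc
    rcases hS c hc with h' | h'
    · left; rw [h', map_zero]
    · right; rw [h', map_ofNat]
  · obtain ⟨c, hc, h'⟩ := h0
    exact ⟨c, hc, by rw [h', map_zero]⟩
  · obtain ⟨c, hc, h'⟩ := h1728
    exact ⟨c, hc, by rw [h', map_ofNat]⟩

variable (h : LaurentSeries K₀)

/-- **(b), (b') over the `j`-line for the Kummer extension** (number-field form). -/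
theorem nfH_ram_jline (hR : RamJH L M H) {A₀ : Type} [CommRing A₀] [Algebra A₀ K₀]
    [Algebra A₀ (kumFieldG (fieldC K₀ L M H) h)]
    [IsScalarTower A₀ K₀ (kumFieldG (fieldC K₀ L M H) h)]
    (p : ℕ) (hp : p ≠ 0) (w : fieldC K₀ L M H)
    (hw : h ^ p = (w : LaurentSeries K₀)) (hh0 : h ≠ 0)
    (hdiv : ∀ Q : Place K₀ (fieldC K₀ L M H), (p : ℤ) ∣ Q.ord w)
    (S : Finset A₀)
    (hS : ∀ c ∈ S, algebraMap A₀ K₀ c = 0 ∨ algebraMap A₀ K₀ c = 1728)
    (h0 : ∃ c ∈ S, algebraMap A₀ K₀ c = 0)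
    (h1728 : ∃ c ∈ S, algebraMap A₀ K₀ c = 1728)
    (e : ℕ) (h6 : 6 ∣ e) (hN : L ∣ e) :
    TSUnramified (E := K₀) (kumInclG (fieldC K₀ L M H) h (jCH K₀ L M H)) S ∧
      TSTame (E := K₀) (kumInclG (fieldC K₀ L M H) h (jCH K₀ L M H)) S e := by
  letI := kumAlgebraG (fieldC K₀ L M H) h
  haveI := kum_isScalarTowerG (fieldC K₀ L M H) h
  letI := nfH_algebra K₀ L M H
  haveI := nfH_tower K₀ L M H
  haveI := nfH_isAlgebraic K₀
  refine ramBH_jline (E := K₀) (Lf := kumFieldG (fieldC K₀ L M H) h) L M H hR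
    (jCH K₀ L M H) (nfEmbH_jCH K₀ L M H) S ?_ ?_ ?_ e h6 hN
    (nfH_hkum K₀ L M H h p hp w hw hh0 hdiv) (nfH_hext K₀ L M H)
  · intro c hc
    rcases hS c hc with h' | h'
    · left; rw [h', map_zero]
    · right; rw [h', map_ofNat]
  · obtain ⟨c, hc, h'⟩ := h0
    exact ⟨c, hc, by rw [h', map_zero]⟩
  · obtain ⟨c, hc, h'⟩ := h1728
    exact ⟨c, hc, by rw [h', map_ofNat]⟩

end NF

end Fermat.Agent.ES1
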