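import Fermat.Agent.INJ.RamHAux
import Fermat.Agent.INJ.HMMem
import Fermat.Agent.INJ.CoeffDescent
import Fermat.Agent.ES1.RamLineH

/-!
# ES₁/INJ₁-inst: ramification of `fieldBar L M H` over the Hauptmodul lines of `X₀(2)`, `X₀(3)`
(fork of `INJ/RamHRel.lean`, `INJ/RamH2.lean`, `INJ/RamH3.lean`, `INJ/BGRamH.lean`,
`INJ/BGRamNF.lean`), from the ramification data `RamJH L M H` over the `j`-line (piece F4).

* `ramBH_h2line` (`2 ∣ L`, for `ℓ = 3`): `t = hm2`, `Σ ↦ {0, -64}`, `L ∣ e`;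
* `ramBH_h3line` (`3 ∣ L`, for `ℓ = 2`): `t = hm3`, `Σ ↦ {0, -27}`, `L ∣ e`;
* number-field forms `nfH_ram_h2line(_self)`, `nfH_ram_h3line(_self)`.
-/

set_option autoImplicit false
set_option linter.style.haveILetI false
set_option linter.unusedSectionVars false
set_option linter.unusedVariables false
set_option synthInstance.maxHeartbeats 400000
set_option maxHeartbeats 1000000

namespace Fermat.Agent.ES1

open Polynomial AlgebraicCurve IntermediateField Fermat.Agent.S24 Fermat.Agent.INJ ModularCurve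

section Base

variable (L M : ℕ) (H : Subgroup (ZMod M)ˣ) [NeZero L]

theorem injH1_bar_le : modularFunctionFieldBar L ≤ fieldBar L M H := by
  show laurentBaseChange Kb (modularFunctionFieldFull L) ≤ laurentBaseChange Kb (fieldQ L M H)
  rw [laurentBaseChange, IntermediateField.adjoin_le_iff]
  rintro _ ⟨y, hy, rfl⟩
  exact coeffEmb_mem_laurentBaseChange Kb (full_le_fieldC ℚ L M H hy)

theorem injH1_hm2_mem (h2 : 2 ∣ L) : hm2 Kb ∈ fieldBar L M H :=
  injH1_bar_le L M H (hm2_mem L h2)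

theorem injH1_hm3_mem (h3 : 3 ∣ L) : hm3 Kb ∈ fieldBar L M H :=
  injH1_bar_le L M H (hm3_mem L h3)

theorem transcendental_jFH : Transcendental Kb (jFH L M H) := by
  intro halg
  apply transcendental_jBar
  exact (isAlgebraic_algHom_iff (fieldBar L M H).val (Subtype.val_injective)).mpr halg

theorem jFH_sub_ne_zero (c : Kb) : jFH L M H - algebraMap Kb (fieldBar L M H) c ≠ 0 := by
  intro h0
  exact transcendental_jFH L M H
    ⟨Polynomial.X - Polynomial.C c, Polynomial.X_sub_C_ne_zero c, by simpa using h0⟩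

theorem jFH_ne_zero : jFH L M H ≠ 0 := by
  have h := jFH_sub_ne_zero L M H 0
  rwa [map_zero, sub_zero] at h

end Base

section Rel

variable (L M : ℕ) (H : Subgroup (ZMod M)ˣ) [NeZero L]

/-- `x` with `j · A(x) = B(x)`, `A(x) ≠ 0` is not a constant. -/
theorem ramHH_rel_sub_ne_zero (x : fieldBar L M H) (A B : Kb[X])
    (hrel : jFH L M H * aeval x A = aeval x B) (hA : aeval x A ≠ 0) (c : Kb) :
    x - algebraMap Kb (fieldBar L M H) c ≠ 0 := by
  intro h0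
  have hx : x = algebraMap Kb (fieldBar L M H) c := sub_eq_zero.mp h0
  rw [hx, aeval_algebraMap_apply_eq_algebraMap_eval,
    aeval_algebraMap_apply_eq_algebraMap_eval] at hrel
  rw [hx, aeval_algebraMap_apply_eq_algebraMap_eval] at hA
  have hj : jFH L M H - algebraMap Kb (fieldBar L M H) (B.eval c / A.eval c) = 0 := by
    rw [map_div₀, sub_eq_zero, eq_div_iff hA]
    exact hrel
  exact jFH_sub_ne_zero L M H _ hj

/-- The order of `j - c` at a place over `x = c₀`, `c = B(c₀)/A(c₀)`. -/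
theorem ramHH_rel_ord (x : fieldBar L M H) (A B : Kb[X])
    (hrel : jFH L M H * aeval x A = aeval x B) (v : Place Kb (fieldBar L M H)) (c₀ : Kb)
    (hv : 0 < v.ord (x - algebraMap Kb (fieldBar L M H) c₀))
    (hA : A.eval c₀ ≠ 0) :
    ∃ m : ℕ, 0 < m ∧ v.ord (jFH L M H - algebraMap Kb (fieldBar L M H) (B.eval c₀ / A.eval c₀))
      = (m : ℤ) * v.ord (x - algebraMap Kb (fieldBar L M H) c₀) := by
  set c : Kb := B.eval c₀ / A.eval c₀ with hc
  have hA0 : A ≠ 0 := by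
    rintro rfl
    simp at hA
  obtain ⟨hAx, hAord⟩ := ramH_ord_aeval v x c₀ hv A hA0
  have hmA : A.rootMultiplicity c₀ = 0 := rootMultiplicity_eq_zero hA
  rw [hmA, Nat.cast_zero, zero_mul] at hAord
  set Φ : Kb[X] := B - C c * A with hΦ
  have hΦx : (jFH L M H - algebraMap Kb (fieldBar L M H) c) * aeval x A = aeval x Φ := by
    rw [hΦ, map_sub, map_mul, aeval_C, sub_mul, hrel]
  have hΦ0 : Φ ≠ 0 := by
    intro h
    rw [h, map_zero] at hΦx
    rcases mul_eq_zero.mp hΦx with h1 | h1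
    · exact jFH_sub_ne_zero L M H c h1
    · exact hAx h1
  have hroot : Φ.IsRoot c₀ := by
    rw [IsRoot, hΦ, eval_sub, eval_mul, eval_C, hc, div_mul_cancel₀ _ hA, sub_self]
  obtain ⟨hΦne, hΦord⟩ := ramH_ord_aeval v x c₀ hv Φ hΦ0
  refine ⟨Φ.rootMultiplicity c₀, (rootMultiplicity_pos hΦ0).mpr hroot, ?_⟩
  have h1 := congrArg v.ord hΦx
  rw [v.ord_mul (jFH_sub_ne_zero L M H c) hAx, hAord, add_zero, hΦord] at h1
  exact h1

/-- **Generic fibre**: unramified. -/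
theorem ramHH_rel_gen (hR : RamJH L M H) (x : fieldBar L M H) (A B : Kb[X])
    (hrel : jFH L M H * aeval x A = aeval x B) (v : Place Kb (fieldBar L M H)) (c₀ : Kb)
    (hv : 0 < v.ord (x - algebraMap Kb (fieldBar L M H) c₀))
    (hA : A.eval c₀ ≠ 0) (hB0 : B.eval c₀ ≠ 0) (hB1728 : B.eval c₀ ≠ 1728 * A.eval c₀) :
    v.ord (x - algebraMap Kb (fieldBar L M H) c₀) = 1 := by
  obtain ⟨m, hm, hord⟩ := ramHH_rel_ord L M H x A B hrel v c₀ hv hA
  have hc0 : B.eval c₀ / A.eval c₀ ≠ 0 := div_ne_zero hB0 hA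
  have hc1728 : B.eval c₀ / A.eval c₀ ≠ 1728 := by
    intro h
    rw [div_eq_iff hA] at h
    exact hB1728 h
  have hpos : 0 < v.ord (jFH L M H - algebraMap Kb (fieldBar L M H) (B.eval c₀ / A.eval c₀)) := by
    rw [hord]
    exact mul_pos (by exact_mod_cast hm) hv
  have h1 := hR.gen _ hc0 hc1728 v hpos
  rw [hord] at h1
  exact ramH_eq_one_of_mul_eq_one hv h1

/-- Every place with `0 ≤ ord x` lies over a finite point of the `x`-line. -/
theorem ramHH_rel_cases (hR : RamJH L M H) (x : fieldBar L M H) (hx : ∀ c : Kb, x - algebraMap Kb (fieldBar L M H) c ≠ 0)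
    (v : Place Kb (fieldBar L M H)) (hv : 0 ≤ v.ord x) :
    ∃ c₀ : Kb, 0 < v.ord (x - algebraMap Kb (fieldBar L M H) c₀) := by
  have hmem : x ∈ v.toValuationSubring := PlaceAux.mem_of_ord_nonneg v hv
  have htr := transcendental_jFH L M H
  have hfin : FiniteDimensional Kb⟮jFH L M H⟯ (fieldBar L M H) := hR.finite
  have halg : Algebra.IsAlgebraic Kb⟮jFH L M H⟯ (fieldBar L M H) := Algebra.IsAlgebraic.of_finite _ _
  obtain ⟨c, hc⟩ := exists_sub_mem_nonunits (jFH L M H) htr halg v _ hmem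
  exact ⟨c, (PlaceAux.ord_pos_iff_mem_nonunits v (hx c)).mpr hc⟩

end Rel


section H2

variable (L M : ℕ) (H : Subgroup (ZMod M)ˣ) [NeZero L] (h2 : 2 ∣ L)

/-- The Hauptmodul of `X₀(2)` as an element of `F_N` (`2 ∣ N`). -/
noncomputable def hFH2 : fieldBar L M H := ⟨hm2 Kb, injH1_hm2_mem L M H h2⟩

theorem hFH2_coe : ((hFH2 L M H h2 : fieldBar L M H) : LaurentSeries Kb) = hm2 Kb := rfl

theorem hFH2_ne_zero : hFH2 L M H h2 ≠ 0 := by
  intro h
  apply hm2_ne_zero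
  have := congrArg Subtype.val h
  simpa [hFH2] using this

theorem hFH2_j : jFH L M H * hFH2 L M H h2 ^ 2 = (hFH2 L M H h2 + 256) ^ 3 := by
  apply Subtype.ext
  have h := hm2_j (K := Kb)
  rw [← hmMem_jBar_eq] at h
  exact h

theorem hFH2_j1728 :
    (jFH L M H - 1728) * hFH2 L M H h2 ^ 2 = (hFH2 L M H h2 - 512) ^ 2 * (hFH2 L M H h2 + 64) := by
  linear_combination hFH2_j L M H h2

set_option synthInstance.maxHeartbeats 400000 in
/-- `j · A(h) = B(h)` with `A = X²`, `B = (X + 256)³`. -/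
theorem hFH2_rel :
    jFH L M H * aeval (hFH2 L M H h2) (X ^ 2 : Kb[X]) = aeval (hFH2 L M H h2) ((X + C 256) ^ 3 : Kb[X]) := by
  rw [map_pow, aeval_X, map_pow, map_add, aeval_X, aeval_C, map_ofNat]
  exact hFH2_j L M H h2

set_option synthInstance.maxHeartbeats 400000 in
theorem hFH2_sub_ne_zero (c : Kb) : hFH2 L M H h2 - algebraMap Kb (fieldBar L M H) c ≠ 0 := by
  refine ramHH_rel_sub_ne_zero L M H (hFH2 L M H h2) _ _ (hFH2_rel L M H h2) ?_ c
  rw [map_pow, aeval_X]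
  exact pow_ne_zero _ (hFH2_ne_zero L M H h2)

/-- Over `h = ∞`. -/
theorem ramHH2_inf (hR : RamJH L M H) (v : Place Kb (fieldBar L M H)) (hv : v.ord (hFH2 L M H h2) < 0) :
    v.ord (hFH2 L M H h2) ∣ (L : ℤ) := by
  have hx0 := hFH2_ne_zero L M H h2
  obtain ⟨hne, hord⟩ := ramH_ord_add_const_of_neg v (hFH2 L M H h2) 256 hv
  rw [map_ofNat] at hne hord
  have h1 := congrArg v.ord (hFH2_j L M H h2)
  rw [v.ord_mul (jFH_ne_zero L M H) (pow_ne_zero _ hx0), place_ord_pow, place_ord_pow, hord] at h1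
  simp only [Nat.cast_ofNat] at h1
  have hJ : v.ord (jFH L M H) = v.ord (hFH2 L M H h2) := by linarith
  have h3 := hR.inf v (by rw [hJ]; exact hv)
  rw [v.ord_inv, neg_dvd, hJ] at h3
  exact h3

/-- Over the cusp `h = 0`. -/
theorem ramHH2_zero (hR : RamJH L M H) (v : Place Kb (fieldBar L M H)) (hv : 0 < v.ord (hFH2 L M H h2)) :
    v.ord (hFH2 L M H h2) ∣ (L : ℤ) := by
  have hx0 := hFH2_ne_zero L M H h2
  have hv' : 0 < v.ord (hFH2 L M H h2 - algebraMap Kb (fieldBar L M H) 0) := by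
    rwa [map_zero, sub_zero]
  obtain ⟨hne, hord⟩ := ramH_ord_sub_const v (hFH2 L M H h2) 0 (-256) hv' (by norm_num)
  rw [map_neg, sub_neg_eq_add, map_ofNat] at hne hord
  have h1 := congrArg v.ord (hFH2_j L M H h2)
  rw [v.ord_mul (jFH_ne_zero L M H) (pow_ne_zero _ hx0), place_ord_pow, place_ord_pow, hord] at h1
  simp only [Nat.cast_ofNat] at h1
  have hJ : v.ord (jFH L M H) = -(2 * v.ord (hFH2 L M H h2)) := by linarith
  have h3 := hR.inf v (by rw [hJ]; omega)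
  rw [v.ord_inv, hJ, neg_neg] at h3
  exact (Dvd.intro_left _ rfl).trans h3

/-- Over the elliptic point `h = -64`. -/
theorem ramHH2_ell (hR : RamJH L M H) (v : Place Kb (fieldBar L M H))
    (hv : 0 < v.ord (hFH2 L M H h2 - algebraMap Kb (fieldBar L M H) (-64))) :
    v.ord (hFH2 L M H h2 - algebraMap Kb (fieldBar L M H) (-64)) ∣ 2 := by
  have hx0 := hFH2_ne_zero L M H h2
  obtain ⟨hne0, hord0⟩ := ramH_ord_sub_const v (hFH2 L M H h2) (-64) 0 hv (by norm_num)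
  rw [map_zero, sub_zero] at hord0
  obtain ⟨hne1, hord1⟩ := ramH_ord_sub_const v (hFH2 L M H h2) (-64) 512 hv (by norm_num)
  rw [map_ofNat] at hne1 hord1
  have hne2 := hFH2_sub_ne_zero L M H h2 (-64)
  have h1 := congrArg v.ord (hFH2_j1728 L M H h2)
  have hJ0 : jFH L M H - (1728 : fieldBar L M H) ≠ 0 := by
    have := jFH_sub_ne_zero L M H 1728
    rwa [map_ofNat] at this
  have he : hFH2 L M H h2 + 64 = hFH2 L M H h2 - algebraMap Kb (fieldBar L M H) (-64) := by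
    rw [map_neg, sub_neg_eq_add, map_ofNat]
  rw [he] at h1
  rw [v.ord_mul hJ0 (pow_ne_zero _ hx0), place_ord_pow, hord0,
    v.ord_mul (pow_ne_zero _ hne1) hne2, place_ord_pow, hord1] at h1
  simp only [Nat.cast_ofNat, mul_zero, add_zero, zero_add] at h1
  have hJ : v.ord (jFH L M H - algebraMap Kb (fieldBar L M H) 1728)
      = v.ord (hFH2 L M H h2 - algebraMap Kb (fieldBar L M H) (-64)) := by
    rw [map_ofNat (algebraMap Kb (fieldBar L M H)) 1728]; exact h1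
  have h3 := hR.e1728 v (by rw [hJ]; exact hv)
  rwa [hJ] at h3

/-- Over `h = -256` (where `j = 0`). -/
theorem ramHH2_256 (hR : RamJH L M H) (v : Place Kb (fieldBar L M H))
    (hv : 0 < v.ord (hFH2 L M H h2 - algebraMap Kb (fieldBar L M H) (-256))) :
    v.ord (hFH2 L M H h2 - algebraMap Kb (fieldBar L M H) (-256)) = 1 := by
  have hx0 := hFH2_ne_zero L M H h2
  obtain ⟨hne0, hord0⟩ := ramH_ord_sub_const v (hFH2 L M H h2) (-256) 0 hv (by norm_num)
  rw [map_zero, sub_zero] at hord0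
  have h1 := congrArg v.ord (hFH2_j L M H h2)
  have he : hFH2 L M H h2 + 256 = hFH2 L M H h2 - algebraMap Kb (fieldBar L M H) (-256) := by
    rw [map_neg, sub_neg_eq_add, map_ofNat]
  rw [he] at h1
  rw [v.ord_mul (jFH_ne_zero L M H) (pow_ne_zero _ hx0), place_ord_pow, hord0, place_ord_pow] at h1
  simp only [Nat.cast_ofNat, mul_zero, add_zero] at h1
  have hJ : v.ord (jFH L M H) = 3 * v.ord (hFH2 L M H h2 - algebraMap Kb (fieldBar L M H) (-256)) := h1
  have h3 := hR.zero v (by rw [hJ]; omega)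
  rw [hJ] at h3
  exact ramH_eq_one_of_mul_dvd (n := 3) (by norm_num) hv h3

/-- Over `h = 512` (where `j = 1728`). -/
theorem ramHH2_512 (hR : RamJH L M H) (v : Place Kb (fieldBar L M H))
    (hv : 0 < v.ord (hFH2 L M H h2 - algebraMap Kb (fieldBar L M H) 512)) :
    v.ord (hFH2 L M H h2 - algebraMap Kb (fieldBar L M H) 512) = 1 := by
  have hx0 := hFH2_ne_zero L M H h2
  obtain ⟨hne0, hord0⟩ := ramH_ord_sub_const v (hFH2 L M H h2) 512 0 hv (by norm_num)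
  rw [map_zero, sub_zero] at hord0
  obtain ⟨hne1, hord1⟩ := ramH_ord_sub_const v (hFH2 L M H h2) 512 (-64) hv (by norm_num)
  have hne2 := hFH2_sub_ne_zero L M H h2 512
  have h1 := congrArg v.ord (hFH2_j1728 L M H h2)
  have hJ0 : jFH L M H - (1728 : fieldBar L M H) ≠ 0 := by
    have := jFH_sub_ne_zero L M H 1728
    rwa [map_ofNat] at this
  have he : hFH2 L M H h2 + 64 = hFH2 L M H h2 - algebraMap Kb (fieldBar L M H) (-64) := by
    rw [map_neg, sub_neg_eq_add, map_ofNat]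
  have he' : hFH2 L M H h2 - 512 = hFH2 L M H h2 - algebraMap Kb (fieldBar L M H) 512 := by
    rw [map_ofNat]
  rw [he, he'] at h1
  rw [v.ord_mul hJ0 (pow_ne_zero _ hx0), place_ord_pow, hord0,
    v.ord_mul (pow_ne_zero _ hne2) hne1, place_ord_pow, hord1] at h1
  simp only [Nat.cast_ofNat, mul_zero, add_zero] at h1
  have hJ : v.ord (jFH L M H - algebraMap Kb (fieldBar L M H) 1728)
      = 2 * v.ord (hFH2 L M H h2 - algebraMap Kb (fieldBar L M H) 512) := by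
    rw [map_ofNat (algebraMap Kb (fieldBar L M H)) 1728]; exact h1
  have h3 := hR.e1728 v (by rw [hJ]; omega)
  rw [hJ] at h3
  exact ramH_eq_one_of_mul_dvd (n := 2) (by norm_num) hv h3

/-- Over a generic point `h = c₀`, `c₀ ≠ 0, -64`: unramified. -/
theorem ramHH2_gen (hR : RamJH L M H) (c₀ : Kb) (hc0 : c₀ ≠ 0) (hc64 : c₀ ≠ -64) (v : Place Kb (fieldBar L M H))
    (hv : 0 < v.ord (hFH2 L M H h2 - algebraMap Kb (fieldBar L M H) c₀)) :
    v.ord (hFH2 L M H h2 - algebraMap Kb (fieldBar L M H) c₀) = 1 := by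
  by_cases h256 : c₀ = -256
  · subst h256; exact ramHH2_256 L M H h2 hR v hv
  by_cases h512 : c₀ = 512
  · subst h512; exact ramHH2_512 L M H h2 hR v hv
  refine ramHH_rel_gen L M H hR (hFH2 L M H h2) _ _ (hFH2_rel L M H h2) v c₀ hv ?_ ?_ ?_
  · simpa using hc0
  · simp only [eval_pow, eval_add, eval_X, eval_C]
    refine pow_ne_zero _ ?_
    intro h
    exact h256 (eq_neg_of_add_eq_zero_left h)
  · simp only [eval_pow, eval_add, eval_X, eval_C]
    intro h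
    have h' : (c₀ - 512) ^ 2 * (c₀ + 64) = 0 := by linear_combination h
    rcases mul_eq_zero.mp h' with h'' | h''
    · exact h512 (sub_eq_zero.mp (pow_eq_zero_iff (by norm_num) |>.mp h''))
    · exact hc64 (eq_neg_of_add_eq_zero_left h'')

theorem ramHH2_cases (hR : RamJH L M H) (v : Place Kb (fieldBar L M H)) (hv : 0 ≤ v.ord (hFH2 L M H h2)) :
    ∃ c₀ : Kb, 0 < v.ord (hFH2 L M H h2 - algebraMap Kb (fieldBar L M H) c₀) :=
  ramHH_rel_cases L M H hR (hFH2 L M H h2) (hFH2_sub_ne_zero L M H h2) v hv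

end H2

section H2Line

variable {A₀ E Lf : Type} {F₀ : Type*}
  [CommRing A₀] [Field E] [Algebra A₀ E] [Field Lf] [Algebra E Lf] [Algebra A₀ Lf]
  [IsScalarTower A₀ E Lf]
  [Algebra E Kb] [Field F₀] [Algebra E F₀] [Algebra F₀ Lf] [IsScalarTower E F₀ Lf]
  (L M : ℕ) (H : Subgroup (ZMod M)ˣ) [NeZero L] (h2 : 2 ∣ L)
  [Algebra F₀ (fieldBar L M H)] [Algebra E (fieldBar L M H)] [IsScalarTower E F₀ (fieldBar L M H)]
  [IsScalarTower E Kb (fieldBar L M H)]

/-- **B2-b over the `h`-line of `X₀(2)`** (`ℓ = 3`): `Σ = {0, -64}`, `N ∣ e`. -/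
theorem ramBH_h2line (hR : RamJH L M H) [CharZero E] [Algebra.IsAlgebraic E Kb]
    (t₀ : F₀) (ht₀ : algebraMap F₀ (fieldBar L M H) t₀ = hFH2 L M H h2) (S : Finset A₀)
    (hS : ∀ c ∈ S, algebraMap E Kb (algebraMap A₀ E c) = 0 ∨
      algebraMap E Kb (algebraMap A₀ E c) = -64)
    (h0 : ∃ c ∈ S, algebraMap E Kb (algebraMap A₀ E c) = 0)
    (h64 : ∃ c ∈ S, algebraMap E Kb (algebraMap A₀ E c) = -64)
    (e : ℕ) (hN : L ∣ e)
    (hkum : ∀ P : Place E Lf, ∃ Q : Place E F₀,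
      ∀ y : F₀, P.ord (algebraMap F₀ Lf y) = Q.ord y)
    (hext : ∀ Q : Place E F₀, ∃ v : Place Kb (fieldBar L M H),
      ∀ y : F₀, v.ord (algebraMap F₀ (fieldBar L M H) y) = Q.ord y) :
    TSUnramified (E := E) (algebraMap F₀ Lf t₀) S ∧
      TSTame (E := E) (algebraMap F₀ Lf t₀) S e := by
  have h2e : (2 : ℤ) ∣ (e : ℤ) := by exact_mod_cast h2.trans hN
  have hNe : (L : ℤ) ∣ (e : ℤ) := by exact_mod_cast hN
  refine ramB_assemble A₀ E Kb t₀ S e hkum hext ?_ ?_ ?_ ?_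
  · intro v hv
    rw [ht₀] at hv ⊢
    exact ramHH2_cases L M H h2 hR v hv
  · intro v c₀ hc₀ hv
    rw [ht₀] at hv ⊢
    obtain ⟨c, hc, hc0⟩ := h0
    obtain ⟨c', hc', hc64⟩ := h64
    refine ramHH2_gen L M H h2 hR c₀ ?_ ?_ v hv
    · rw [← hc0]; exact hc₀ c hc
    · rw [← hc64]; exact hc₀ c' hc'
  · intro v c hc hv
    rw [ht₀] at hv ⊢
    rcases hS c hc with h | h
    · rw [h] at hv ⊢
      rw [map_zero, sub_zero] at hv ⊢
      exact (ramHH2_zero L M H h2 hR v hv).trans hNe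
    · rw [h] at hv ⊢
      exact (ramHH2_ell L M H h2 hR v hv).trans h2e
  · intro v hv
    rw [ht₀] at hv ⊢
    exact (ramHH2_inf L M H h2 hR v hv).trans hNe

end H2Line


section H3

variable (L M : ℕ) (H : Subgroup (ZMod M)ˣ) [NeZero L] (h3 : 3 ∣ L)

/-- The Hauptmodul of `X₀(3)` as an element of `F_N` (`3 ∣ N`). -/
noncomputable def hFH3 : fieldBar L M H := ⟨hm3 Kb, injH1_hm3_mem L M H h3⟩

theorem hFH3_coe : ((hFH3 L M H h3 : fieldBar L M H) : LaurentSeries Kb) = hm3 Kb := rfl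

theorem hFH3_ne_zero : hFH3 L M H h3 ≠ 0 := by
  intro h
  apply hm3_ne_zero
  have := congrArg Subtype.val h
  simpa [hFH3] using this

theorem hFH3_j : jFH L M H * hFH3 L M H h3 ^ 3 = (hFH3 L M H h3 + 27) * (hFH3 L M H h3 + 243) ^ 3 := by
  apply Subtype.ext
  have h := hm3_j (K := Kb)
  rw [← hmMem_jBar_eq] at h
  exact h

theorem hFH3_j1728 :
    (jFH L M H - 1728) * hFH3 L M H h3 ^ 3 = (hFH3 L M H h3 ^ 2 - 486 * hFH3 L M H h3 - 19683) ^ 2 := by
  linear_combination hFH3_j L M H h3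

set_option synthInstance.maxHeartbeats 400000 in
/-- `j · A(h) = B(h)` with `A = X³`, `B = (X + 27)(X + 243)³`. -/
theorem hFH3_rel :
    jFH L M H * aeval (hFH3 L M H h3) (X ^ 3 : Kb[X])
      = aeval (hFH3 L M H h3) ((X + C 27) * (X + C 243) ^ 3 : Kb[X]) := by
  rw [map_pow, aeval_X, map_mul, map_pow, map_add, map_add, aeval_X, aeval_C, aeval_C,
    map_ofNat, map_ofNat]
  exact hFH3_j L M H h3

set_option synthInstance.maxHeartbeats 400000 in
theorem hFH3_sub_ne_zero (c : Kb) : hFH3 L M H h3 - algebraMap Kb (fieldBar L M H) c ≠ 0 := by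
  refine ramHH_rel_sub_ne_zero L M H (hFH3 L M H h3) _ _ (hFH3_rel L M H h3) ?_ c
  rw [map_pow, aeval_X]
  exact pow_ne_zero _ (hFH3_ne_zero L M H h3)

/-- Over `h = ∞`. -/
theorem ramHH3_inf (hR : RamJH L M H) (v : Place Kb (fieldBar L M H)) (hv : v.ord (hFH3 L M H h3) < 0) :
    v.ord (hFH3 L M H h3) ∣ (L : ℤ) := by
  have hx0 := hFH3_ne_zero L M H h3
  obtain ⟨hne, hord⟩ := ramH_ord_add_const_of_neg v (hFH3 L M H h3) 27 hv
  obtain ⟨hne', hord'⟩ := ramH_ord_add_const_of_neg v (hFH3 L M H h3) 243 hv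
  rw [map_ofNat] at hne hord hne' hord'
  have h1 := congrArg v.ord (hFH3_j L M H h3)
  rw [v.ord_mul (jFH_ne_zero L M H) (pow_ne_zero _ hx0), place_ord_pow,
    v.ord_mul hne (pow_ne_zero _ hne'), place_ord_pow, hord, hord'] at h1
  simp only [Nat.cast_ofNat] at h1
  have hJ : v.ord (jFH L M H) = v.ord (hFH3 L M H h3) := by linarith
  have h4 := hR.inf v (by rw [hJ]; exact hv)
  rw [v.ord_inv, neg_dvd, hJ] at h4
  exact h4

/-- Over the cusp `h = 0`. -/
theorem ramHH3_zero (hR : RamJH L M H) (v : Place Kb (fieldBar L M H)) (hv : 0 < v.ord (hFH3 L M H h3)) :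
    v.ord (hFH3 L M H h3) ∣ (L : ℤ) := by
  have hx0 := hFH3_ne_zero L M H h3
  have hv' : 0 < v.ord (hFH3 L M H h3 - algebraMap Kb (fieldBar L M H) 0) := by
    rwa [map_zero, sub_zero]
  obtain ⟨hne, hord⟩ := ramH_ord_sub_const v (hFH3 L M H h3) 0 (-27) hv' (by norm_num)
  obtain ⟨hne', hord'⟩ := ramH_ord_sub_const v (hFH3 L M H h3) 0 (-243) hv' (by norm_num)
  rw [map_neg, sub_neg_eq_add, map_ofNat] at hne hord hne' hord'
  have h1 := congrArg v.ord (hFH3_j L M H h3)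
  rw [v.ord_mul (jFH_ne_zero L M H) (pow_ne_zero _ hx0), place_ord_pow,
    v.ord_mul hne (pow_ne_zero _ hne'), place_ord_pow, hord, hord'] at h1
  simp only [Nat.cast_ofNat, mul_zero, add_zero] at h1
  have hJ : v.ord (jFH L M H) = -(3 * v.ord (hFH3 L M H h3)) := by linarith
  have h4 := hR.inf v (by rw [hJ]; omega)
  rw [v.ord_inv, hJ, neg_neg] at h4
  exact (Dvd.intro_left _ rfl).trans h4

/-- Over the elliptic point `h = -27`. -/
theorem ramHH3_ell (hR : RamJH L M H) (v : Place Kb (fieldBar L M H))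
    (hv : 0 < v.ord (hFH3 L M H h3 - algebraMap Kb (fieldBar L M H) (-27))) :
    v.ord (hFH3 L M H h3 - algebraMap Kb (fieldBar L M H) (-27)) ∣ 3 := by
  have hx0 := hFH3_ne_zero L M H h3
  obtain ⟨hne0, hord0⟩ := ramH_ord_sub_const v (hFH3 L M H h3) (-27) 0 hv (by norm_num)
  rw [map_zero, sub_zero] at hord0
  obtain ⟨hne1, hord1⟩ := ramH_ord_sub_const v (hFH3 L M H h3) (-27) (-243) hv (by norm_num)
  have hne2 := hFH3_sub_ne_zero L M H h3 (-27)
  have h1 := congrArg v.ord (hFH3_j L M H h3)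
  have he : hFH3 L M H h3 + 27 = hFH3 L M H h3 - algebraMap Kb (fieldBar L M H) (-27) := by
    rw [map_neg, sub_neg_eq_add, map_ofNat]
  have he' : hFH3 L M H h3 + 243 = hFH3 L M H h3 - algebraMap Kb (fieldBar L M H) (-243) := by
    rw [map_neg, sub_neg_eq_add, map_ofNat]
  rw [he, he'] at h1
  rw [v.ord_mul (jFH_ne_zero L M H) (pow_ne_zero _ hx0), place_ord_pow, hord0,
    v.ord_mul hne2 (pow_ne_zero _ hne1), place_ord_pow, hord1] at h1
  simp only [Nat.cast_ofNat, mul_zero, add_zero] at h1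
  have h4 := hR.zero v (by rw [h1]; exact hv)
  rwa [h1] at h4

/-- Over `h = -243` (where `j = 0`, ramified of index `3` over the `j`-line). -/
theorem ramHH3_243 (hR : RamJH L M H) (v : Place Kb (fieldBar L M H))
    (hv : 0 < v.ord (hFH3 L M H h3 - algebraMap Kb (fieldBar L M H) (-243))) :
    v.ord (hFH3 L M H h3 - algebraMap Kb (fieldBar L M H) (-243)) = 1 := by
  have hx0 := hFH3_ne_zero L M H h3
  obtain ⟨hne0, hord0⟩ := ramH_ord_sub_const v (hFH3 L M H h3) (-243) 0 hv (by norm_num)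
  rw [map_zero, sub_zero] at hord0
  obtain ⟨hne1, hord1⟩ := ramH_ord_sub_const v (hFH3 L M H h3) (-243) (-27) hv (by norm_num)
  have hne2 := hFH3_sub_ne_zero L M H h3 (-243)
  have h1 := congrArg v.ord (hFH3_j L M H h3)
  have he : hFH3 L M H h3 + 27 = hFH3 L M H h3 - algebraMap Kb (fieldBar L M H) (-27) := by
    rw [map_neg, sub_neg_eq_add, map_ofNat]
  have he' : hFH3 L M H h3 + 243 = hFH3 L M H h3 - algebraMap Kb (fieldBar L M H) (-243) := by
    rw [map_neg, sub_neg_eq_add, map_ofNat]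
  rw [he, he'] at h1
  rw [v.ord_mul (jFH_ne_zero L M H) (pow_ne_zero _ hx0), place_ord_pow, hord0,
    v.ord_mul hne1 (pow_ne_zero _ hne2), place_ord_pow, hord1] at h1
  simp only [Nat.cast_ofNat, mul_zero, add_zero, zero_add] at h1
  have h4 := hR.zero v (by rw [h1]; omega)
  rw [h1] at h4
  exact ramH_eq_one_of_mul_dvd (n := 3) (by norm_num) hv h4

set_option synthInstance.maxHeartbeats 400000 in
/-- Over the roots of `X² - 486 X - 19683` (where `j = 1728`). -/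
theorem ramHH3_1728 (hR : RamJH L M H) (c₀ : Kb) (hc : c₀ ^ 2 - 486 * c₀ - 19683 = 0) (v : Place Kb (fieldBar L M H))
    (hv : 0 < v.ord (hFH3 L M H h3 - algebraMap Kb (fieldBar L M H) c₀)) :
    v.ord (hFH3 L M H h3 - algebraMap Kb (fieldBar L M H) c₀) = 1 := by
  have hx0 := hFH3_ne_zero L M H h3
  have hc0 : (0 : Kb) ≠ c₀ := by
    rintro rfl
    norm_num at hc
  obtain ⟨hne0, hord0⟩ := ramH_ord_sub_const v (hFH3 L M H h3) c₀ 0 hv hc0
  rw [map_zero, sub_zero] at hord0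
  set Q : Kb[X] := X ^ 2 - C 486 * X - C 19683 with hQ
  have hQ0 : Q ≠ 0 := by
    intro h
    have := congrArg (fun p : Kb[X] => p.eval 0) h
    simp [hQ] at this
  have hroot : Q.IsRoot c₀ := by
    rw [IsRoot, hQ]
    simp only [eval_sub, eval_pow, eval_X, eval_mul, eval_C]
    exact hc
  obtain ⟨hQne, hQord⟩ := ramH_ord_aeval v (hFH3 L M H h3) c₀ hv Q hQ0
  have hm : 0 < Q.rootMultiplicity c₀ := (rootMultiplicity_pos hQ0).mpr hroot
  have hQx : aeval (hFH3 L M H h3) Q = hFH3 L M H h3 ^ 2 - 486 * hFH3 L M H h3 - 19683 := by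
    rw [hQ, map_sub, map_sub, map_pow, map_mul, aeval_X, aeval_C, aeval_C, map_ofNat, map_ofNat]
  have hJ0 : jFH L M H - (1728 : fieldBar L M H) ≠ 0 := by
    have := jFH_sub_ne_zero L M H 1728
    rwa [map_ofNat] at this
  have h1 := congrArg v.ord (hFH3_j1728 L M H h3)
  rw [← hQx, v.ord_mul hJ0 (pow_ne_zero _ hx0), place_ord_pow, hord0, place_ord_pow, hQord] at h1
  simp only [Nat.cast_ofNat, mul_zero, add_zero] at h1
  have hpos : 0 < (Q.rootMultiplicity c₀ : ℤ) * v.ord (hFH3 L M H h3 - algebraMap Kb (fieldBar L M H) c₀) :=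
    mul_pos (by exact_mod_cast hm) hv
  have h4 := hR.e1728 v (by rw [map_ofNat (algebraMap Kb (fieldBar L M H)) 1728, h1]; omega)
  rw [map_ofNat (algebraMap Kb (fieldBar L M H)) 1728, h1] at h4
  have h5 := ramH_eq_one_of_mul_dvd (n := 2) (by norm_num) hpos h4
  exact ramH_eq_one_of_mul_eq_one hv h5

/-- Over a generic point `h = c₀`, `c₀ ≠ 0, -27`: unramified. -/
theorem ramHH3_gen (hR : RamJH L M H) (c₀ : Kb) (hc0 : c₀ ≠ 0) (hc27 : c₀ ≠ -27) (v : Place Kb (fieldBar L M H))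
    (hv : 0 < v.ord (hFH3 L M H h3 - algebraMap Kb (fieldBar L M H) c₀)) :
    v.ord (hFH3 L M H h3 - algebraMap Kb (fieldBar L M H) c₀) = 1 := by
  by_cases h243 : c₀ = -243
  · subst h243; exact ramHH3_243 L M H h3 hR v hv
  by_cases hQ : c₀ ^ 2 - 486 * c₀ - 19683 = 0
  · exact ramHH3_1728 L M H h3 hR c₀ hQ v hv
  refine ramHH_rel_gen L M H hR (hFH3 L M H h3) _ _ (hFH3_rel L M H h3) v c₀ hv ?_ ?_ ?_
  · simpa using hc0
  · simp only [eval_mul, eval_pow, eval_add, eval_X, eval_C]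
    refine mul_ne_zero ?_ (pow_ne_zero _ ?_)
    · intro h
      exact hc27 (eq_neg_of_add_eq_zero_left h)
    · intro h
      exact h243 (eq_neg_of_add_eq_zero_left h)
  · simp only [eval_mul, eval_pow, eval_add, eval_X, eval_C]
    intro h
    have h' : (c₀ ^ 2 - 486 * c₀ - 19683) ^ 2 = 0 := by linear_combination h
    exact hQ (pow_eq_zero_iff (by norm_num) |>.mp h')

theorem ramHH3_cases (hR : RamJH L M H) (v : Place Kb (fieldBar L M H)) (hv : 0 ≤ v.ord (hFH3 L M H h3)) :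
    ∃ c₀ : Kb, 0 < v.ord (hFH3 L M H h3 - algebraMap Kb (fieldBar L M H) c₀) :=
  ramHH_rel_cases L M H hR (hFH3 L M H h3) (hFH3_sub_ne_zero L M H h3) v hv

end H3

section H3Line

variable {A₀ E Lf : Type} {F₀ : Type*}
  [CommRing A₀] [Field E] [Algebra A₀ E] [Field Lf] [Algebra E Lf] [Algebra A₀ Lf]
  [IsScalarTower A₀ E Lf]
  [Algebra E Kb] [Field F₀] [Algebra E F₀] [Algebra F₀ Lf] [IsScalarTower E F₀ Lf]
  (L M : ℕ) (H : Subgroup (ZMod M)ˣ) [NeZero L] (h3 : 3 ∣ L)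
  [Algebra F₀ (fieldBar L M H)] [Algebra E (fieldBar L M H)] [IsScalarTower E F₀ (fieldBar L M H)]
  [IsScalarTower E Kb (fieldBar L M H)]

/-- **B2-b over the `h`-line of `X₀(3)`** (`ℓ = 2`): `Σ = {0, -27}`, `N ∣ e`. -/
theorem ramBH_h3line (hR : RamJH L M H) [CharZero E] [Algebra.IsAlgebraic E Kb]
    (t₀ : F₀) (ht₀ : algebraMap F₀ (fieldBar L M H) t₀ = hFH3 L M H h3) (S : Finset A₀)
    (hS : ∀ c ∈ S, algebraMap E Kb (algebraMap A₀ E c) = 0 ∨
      algebraMap E Kb (algebraMap A₀ E c) = -27)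
    (h0 : ∃ c ∈ S, algebraMap E Kb (algebraMap A₀ E c) = 0)
    (h27 : ∃ c ∈ S, algebraMap E Kb (algebraMap A₀ E c) = -27)
    (e : ℕ) (hN : L ∣ e)
    (hkum : ∀ P : Place E Lf, ∃ Q : Place E F₀,
      ∀ y : F₀, P.ord (algebraMap F₀ Lf y) = Q.ord y)
    (hext : ∀ Q : Place E F₀, ∃ v : Place Kb (fieldBar L M H),
      ∀ y : F₀, v.ord (algebraMap F₀ (fieldBar L M H) y) = Q.ord y) :
    TSUnramified (E := E) (algebraMap F₀ Lf t₀) S ∧
      TSTame (E := E) (algebraMap F₀ Lf t₀) S e := by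
  have h3e : (3 : ℤ) ∣ (e : ℤ) := by exact_mod_cast h3.trans hN
  have hNe : (L : ℤ) ∣ (e : ℤ) := by exact_mod_cast hN
  refine ramB_assemble A₀ E Kb t₀ S e hkum hext ?_ ?_ ?_ ?_
  · intro v hv
    rw [ht₀] at hv ⊢
    exact ramHH3_cases L M H h3 hR v hv
  · intro v c₀ hc₀ hv
    rw [ht₀] at hv ⊢
    obtain ⟨c, hc, hc0⟩ := h0
    obtain ⟨c', hc', hc27⟩ := h27
    refine ramHH3_gen L M H h3 hR c₀ ?_ ?_ v hv
    · rw [← hc0]; exact hc₀ c hc
    · rw [← hc27]; exact hc₀ c' hc'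
  · intro v c hc hv
    rw [ht₀] at hv ⊢
    rcases hS c hc with h | h
    · rw [h] at hv ⊢
      rw [map_zero, sub_zero] at hv ⊢
      exact (ramHH3_zero L M H h3 hR v hv).trans hNe
    · rw [h] at hv ⊢
      exact (ramHH3_ell L M H h3 hR v hv).trans h3e
  · intro v hv
    rw [ht₀] at hv ⊢
    exact (ramHH3_inf L M H h3 hR v hv).trans hNe

end H3Line


section NFH

variable (K₀ : IntermediateField ℚ NfQb) (L M : ℕ) (H : Subgroup (ZMod M)ˣ) [NeZero L]

/-- the Hauptmodul of `X₀(2)` in `fieldC K₀ L M H` -/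
noncomputable def hm2CH (h2 : 2 ∣ L) : fieldC K₀ L M H :=
  ⟨hm2 K₀, full_le_fieldC K₀ L M H (hm2_mem_fullC K₀ L h2)⟩

/-- the Hauptmodul of `X₀(3)` in `fieldC K₀ L M H` -/
noncomputable def hm3CH (h3 : 3 ∣ L) : fieldC K₀ L M H :=
  ⟨hm3 K₀, full_le_fieldC K₀ L M H (hm3_mem_fullC K₀ L h3)⟩

theorem coe_hm2CH (h2 : 2 ∣ L) :
    ((hm2CH K₀ L M H h2 : fieldC K₀ L M H) : LaurentSeries K₀) = hm2 K₀ := rfl

theorem coe_hm3CH (h3 : 3 ∣ L) :
    ((hm3CH K₀ L M H h3 : fieldC K₀ L M H) : LaurentSeries K₀) = hm3 K₀ := rfl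

theorem nfEmbH_hm2CH (h2 : 2 ∣ L) : nfEmbH K₀ L M H (hm2CH K₀ L M H h2) = hFH2 L M H h2 := by
  apply Subtype.ext
  rw [nfEmbH_coe, hFH2_coe, coe_hm2CH]
  exact hm2_map (algebraMap K₀ NfQb)

theorem nfEmbH_hm3CH (h3 : 3 ∣ L) : nfEmbH K₀ L M H (hm3CH K₀ L M H h3) = hFH3 L M H h3 := by
  apply Subtype.ext
  rw [nfEmbH_coe, hFH3_coe, coe_hm3CH]
  exact hm3_map (algebraMap K₀ NfQb)

/-- **(b), (b') over the `hm2`-line for `fieldC K₀ L M H` itself** (number-field form). -/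
theorem nfH_ram_h2line_self (hR : RamJH L M H) (h2 : 2 ∣ L) {A₀ : Type} [CommRing A₀]
    [Algebra A₀ K₀] [Algebra A₀ (fieldC K₀ L M H)] [IsScalarTower A₀ K₀ (fieldC K₀ L M H)]
    (S : Finset A₀)
    (hS : ∀ c ∈ S, algebraMap A₀ K₀ c = 0 ∨ algebraMap A₀ K₀ c = -64)
    (h0 : ∃ c ∈ S, algebraMap A₀ K₀ c = 0)
    (h64 : ∃ c ∈ S, algebraMap A₀ K₀ c = -64)
    (e : ℕ) (hN : L ∣ e) :
    TSUnramified (E := K₀) (hm2CH K₀ L M H h2) S ∧
      TSTame (E := K₀) (hm2CH K₀ L M H h2) S e := by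
  letI := nfH_algebra K₀ L M H
  haveI := nfH_tower K₀ L M H
  haveI := nfH_isAlgebraic K₀
  refine ramBH_h2line (E := K₀) (Lf := fieldC K₀ L M H) (F₀ := fieldC K₀ L M H) L M H h2 hR
    (hm2CH K₀ L M H h2) (nfEmbH_hm2CH K₀ L M H h2) S ?_ ?_ ?_ e hN
    (fun P => ⟨P, fun y => rfl⟩) (nfH_hext K₀ L M H)
  · intro c hc
    rcases hS c hc with h' | h'
    · left; rw [h', map_zero]
    · right; rw [h', map_neg, map_ofNat]
  · obtain ⟨c, hc, h'⟩ := h0
    exact ⟨c, hc, by rw [h', map_zero]⟩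
  · obtain ⟨c, hc, h'⟩ := h64
    exact ⟨c, hc, by rw [h', map_neg, map_ofNat]⟩

/-- **(b), (b') over the `hm3`-line for `fieldC K₀ L M H` itself** (number-field form). -/
theorem nfH_ram_h3line_self (hR : RamJH L M H) (h3 : 3 ∣ L) {A₀ : Type} [CommRing A₀]
    [Algebra A₀ K₀] [Algebra A₀ (fieldC K₀ L M H)] [IsScalarTower A₀ K₀ (fieldC K₀ L M H)]
    (S : Finset A₀)
    (hS : ∀ c ∈ S, algebraMap A₀ K₀ c = 0 ∨ algebraMap A₀ K₀ c = -27)
    (h0 : ∃ c ∈ S, algebraMap A₀ K₀ c = 0)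
    (h27 : ∃ c ∈ S, algebraMap A₀ K₀ c = -27)
    (e : ℕ) (hN : L ∣ e) :
    TSUnramified (E := K₀) (hm3CH K₀ L M H h3) S ∧
      TSTame (E := K₀) (hm3CH K₀ L M H h3) S e := by
  letI := nfH_algebra K₀ L M H
  haveI := nfH_tower K₀ L M H
  haveI := nfH_isAlgebraic K₀
  refine ramBH_h3line (E := K₀) (Lf := fieldC K₀ L M H) (F₀ := fieldC K₀ L M H) L M H h3 hR
    (hm3CH K₀ L M H h3) (nfEmbH_hm3CH K₀ L M H h3) S ?_ ?_ ?_ e hN
    (fun P => ⟨P, fun y => rfl⟩) (nfH_hext K₀ L M H)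
  · intro c hc
    rcases hS c hc with h' | h'
    · left; rw [h', map_zero]
    · right; rw [h', map_neg, map_ofNat]
  · obtain ⟨c, hc, h'⟩ := h0
    exact ⟨c, hc, by rw [h', map_zero]⟩
  · obtain ⟨c, hc, h'⟩ := h27
    exact ⟨c, hc, by rw [h', map_neg, map_ofNat]⟩

variable (h : LaurentSeries K₀)

/-- **(b), (b') over the `hm2`-line for the Kummer extension** (number-field form). -/
theorem nfH_ram_h2line (hR : RamJH L M H) (h2 : 2 ∣ L) {A₀ : Type} [CommRing A₀]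
    [Algebra A₀ K₀] [Algebra A₀ (kumFieldG (fieldC K₀ L M H) h)]
    [IsScalarTower A₀ K₀ (kumFieldG (fieldC K₀ L M H) h)]
    (p : ℕ) (hp : p ≠ 0) (w : fieldC K₀ L M H)
    (hw : h ^ p = (w : LaurentSeries K₀)) (hh0 : h ≠ 0)
    (hdiv : ∀ Q : Place K₀ (fieldC K₀ L M H), (p : ℤ) ∣ Q.ord w)
    (S : Finset A₀)
    (hS : ∀ c ∈ S, algebraMap A₀ K₀ c = 0 ∨ algebraMap A₀ K₀ c = -64)
    (h0 : ∃ c ∈ S, algebraMap A₀ K₀ c = 0)
    (h64 : ∃ c ∈ S, algebraMap A₀ K₀ c = -64)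
    (e : ℕ) (hN : L ∣ e) :
    TSUnramified (E := K₀) (kumInclG (fieldC K₀ L M H) h (hm2CH K₀ L M H h2)) S ∧
      TSTame (E := K₀) (kumInclG (fieldC K₀ L M H) h (hm2CH K₀ L M H h2)) S e := by
  letI := kumAlgebraG (fieldC K₀ L M H) h
  haveI := kum_isScalarTowerG (fieldC K₀ L M H) h
  letI := nfH_algebra K₀ L M H
  haveI := nfH_tower K₀ L M H
  haveI := nfH_isAlgebraic K₀
  refine ramBH_h2line (E := K₀) (Lf := kumFieldG (fieldC K₀ L M H) h) L M H h2 hR
    (hm2CH K₀ L M H h2) (nfEmbH_hm2CH K₀ L M H h2) S ?_ ?_ ?_ e hN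
    (nfH_hkum K₀ L M H h p hp w hw hh0 hdiv) (nfH_hext K₀ L M H)
  · intro c hc
    rcases hS c hc with h' | h'
    · left; rw [h', map_zero]
    · right; rw [h', map_neg, map_ofNat]
  · obtain ⟨c, hc, h'⟩ := h0
    exact ⟨c, hc, by rw [h', map_zero]⟩
  · obtain ⟨c, hc, h'⟩ := h64
    exact ⟨c, hc, by rw [h', map_neg, map_ofNat]⟩

/-- **(b), (b') over the `hm3`-line for the Kummer extension** (number-field form). -/
theorem nfH_ram_h3line (hR : RamJH L M H) (h3 : 3 ∣ L) {A₀ : Type} [CommRing A₀]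
    [Algebra A₀ K₀] [Algebra A₀ (kumFieldG (fieldC K₀ L M H) h)]
    [IsScalarTower A₀ K₀ (kumFieldG (fieldC K₀ L M H) h)]
    (p : ℕ) (hp : p ≠ 0) (w : fieldC K₀ L M H)
    (hw : h ^ p = (w : LaurentSeries K₀)) (hh0 : h ≠ 0)
    (hdiv : ∀ Q : Place K₀ (fieldC K₀ L M H), (p : ℤ) ∣ Q.ord w)
    (S : Finset A₀)
    (hS : ∀ c ∈ S, algebraMap A₀ K₀ c = 0 ∨ algebraMap A₀ K₀ c = -27)
    (h0 : ∃ c ∈ S, algebraMap A₀ K₀ c = 0)
    (h27 : ∃ c ∈ S, algebraMap A₀ K₀ c = -27)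
    (e : ℕ) (hN : L ∣ e) :
    TSUnramified (E := K₀) (kumInclG (fieldC K₀ L M H) h (hm3CH K₀ L M H h3)) S ∧
      TSTame (E := K₀) (kumInclG (fieldC K₀ L M H) h (hm3CH K₀ L M H h3)) S e := by
  letI := kumAlgebraG (fieldC K₀ L M H) h
  haveI := kum_isScalarTowerG (fieldC K₀ L M H) h
  letI := nfH_algebra K₀ L M H
  haveI := nfH_tower K₀ L M H
  haveI := nfH_isAlgebraic K₀
  refine ramBH_h3line (E := K₀) (Lf := kumFieldG (fieldC K₀ L M H) h) L M H h3 hR
    (hm3CH K₀ L M H h3) (nfEmbH_hm3CH K₀ L M H h3) S ?_ ?_ ?_ e hN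
    (nfH_hkum K₀ L M H h p hp w hw hh0 hdiv) (nfH_hext K₀ L M H)
  · intro c hc
    rcases hS c hc with h' | h'
    · left; rw [h', map_zero]
    · right; rw [h', map_neg, map_ofNat]
  · obtain ⟨c, hc, h'⟩ := h0
    exact ⟨c, hc, by rw [h', map_zero]⟩
  · obtain ⟨c, hc, h'⟩ := h27
    exact ⟨c, hc, by rw [h', map_neg, map_ofNat]⟩

end NFH

end Fermat.Agent.ES1
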