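import Fermat.Agent.INJ.InjH2Aux
import Fermat.Agent.INJ.LocalSetup
import Fermat.Agent.INJ.GaussHaupt
import Fermat.Agent.INJ.BGFinH
import Fermat.Agent.INJ.InjDescentAux
import Fermat.Agent.ES1.InjCoreStmtG
import Fermat.Agent.ES1.InjInstRamH
import Fermat.Agent.ES1.InjInstFin

/-!
# ES₁/INJ₁-inst, INST-h3: `ℓ = 2`, the Hauptmodul line of `X₀(3)` (fork of `INJ/InjH3.lean`)

`stmtInjNFH_h3 : InjCoreStmtG → StmtKDLift → RamJH L M H → StmtConjFamNF L M H 2 →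
  StmtInjNFH L M H 2 p` for `3 ∣ L`, `2 ∤ L`, `p ≠ 2` prime.
Coordinate `t₀ = hm3`, `Σ = {0, -27}`, `e = L`.
-/

set_option autoImplicit false
set_option linter.style.haveILetI false
set_option linter.unusedSectionVars false
set_option synthInstance.maxHeartbeats 400000
set_option maxHeartbeats 4000000

namespace Fermat.Agent.ES1

open Polynomial ModularCurve IntermediateField AlgebraicCurve Fermat.Agent.S24 Fermat.Agent.INJ

/-- **INST-h3 for `fieldC`.** -/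
theorem stmtInjNFH_h3 (hcore : InjCoreStmtG) (hKD : StmtKDLift) {L M p : ℕ}
    {H : Subgroup (ZMod M)ˣ} (hL : L ≠ 0) (h3 : 3 ∣ L) (h2 : ¬ 2 ∣ L)
    (hp : p.Prime) (hp2 : p ≠ 2)
    (hR : haveI : NeZero L := ⟨hL⟩; RamJH L M H) (hconj : StmtConjFamNF L M H 2) :
    StmtInjNFH L M H 2 p := by
  classical
  intro A hA K₀ hfin hζp hζ6L Y₁ Y₂ h h₁ h₂ hred hne hpow hdiv
  by_contra hnot
  haveI : NeZero L := ⟨hL⟩
  haveI : FiniteDimensional ℚ K₀ := hfin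
  have hℓ : (2 : ℕ).Prime := Nat.prime_two
  haveI hdvr : IsDiscreteValuationRing (nfSub A K₀) := ls_isDVR A K₀ hℓ hA
  obtain ⟨π, hπ⟩ := IsDiscreteValuationRing.exists_irreducible (nfSub A K₀)
  have hrπ : nfRes A K₀ π = 0 := ls_res_irreducible A K₀ hπ
  have hr : ∀ a, nfRes A K₀ a = 0 → π ∣ a := fun a => ls_dvd_of_res_eq_zero A K₀ hπ a
  haveI : Fact (2 : ℕ).Prime := ⟨hℓ⟩
  haveI : CharP (IsLocalRing.ResidueField A) 2 := ls_charP_residueField A hℓ hA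
  haveI : PerfectRing (IsLocalRing.ResidueField A) 2 := nf_perfectRing_residueField A 2
  have hLE : ((L : ℕ) : K₀) ≠ 0 := Nat.cast_ne_zero.mpr hL
  have hLk : ((L : ℕ) : IsLocalRing.ResidueField A) ≠ 0 :=
    ls_natCast_residue_ne_zero A hℓ hA L h2
  have h3E : ((3 : ℕ) : K₀) ≠ 0 := Nat.cast_ne_zero.mpr (by norm_num)
  have h3k : ((3 : ℕ) : IsLocalRing.ResidueField A) ≠ 0 :=
    ls_natCast_residue_ne_zero A hℓ hA 3 (by norm_num)
  -- key data over the `hm3`-line for the `Γ₀(L)`-field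
  have hkeq := adjoin_hm3_eq (IsLocalRing.ResidueField A) h3k
  have hjk : jqModC (IsLocalRing.ResidueField A) ∈
      (IsLocalRing.ResidueField A)⟮hm3 (IsLocalRing.ResidueField A)⟯ := by
    rw [hkeq]; exact jqModC_mem_full _ 3
  obtain ⟨n₀, x₀, kd₀, -⟩ := exists_gaussKD_of_adjoin_eq (E := K₀) (nfRes A K₀) π hπ.ne_zero
    hπ.not_isUnit hr (N₀ := 3) (M := L) h3 hLE hLk hm3Z (adjoin_hm3_eq K₀ h3E) hkeq
    (transcendental_of_jqModC_mem _ hjk)
  have hkt : coeffMap (nfRes A K₀) (coeffMap (Int.castRingHom (nfSub A K₀)) hm3Z)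
      = hm3 (IsLocalRing.ResidueField A) := by
    rw [coeffMap_coeffMap]
    exact coeffMap_congr (RingHom.ext_int _ _) _
  have hEt : coeffMap (algebraMap (nfSub A K₀) K₀) (coeffMap (Int.castRingHom (nfSub A K₀)) hm3Z)
      = hm3 K₀ := by
    rw [coeffMap_coeffMap]
    exact coeffMap_congr (RingHom.ext_int _ _) _
  have hord : (coeffMap (algebraMap (nfSub A K₀) K₀)
      (coeffMap (Int.castRingHom (nfSub A K₀)) hm3Z)).order = -1 := by
    rw [hEt]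
    exact injH_order_hm3 K₀
  -- units and roots of unity
  have hp2' : ¬ 2 ∣ p := fun hd => hp2 ((Nat.prime_dvd_prime_iff_eq hℓ hp).mp hd).symm
  have hpπ : ¬ π ∣ ((p : ℕ) : nfSub A K₀) := fun hd =>
    hπ.not_isUnit (isUnit_of_dvd_unit hd (ls_isUnit_natCast A K₀ hℓ hA p hp2'))
  obtain ⟨ζ, hζ⟩ := ls_exists_primitiveRoot A K₀ hp.ne_zero hζp
  obtain ⟨u, hζu⟩ := ls_exists_inv_zeta_sub_one A K₀ hℓ hA hp hp2 ζ hζ
  have hrootL : ∃ ζ : nfSub A K₀, IsPrimitiveRoot ζ L := by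
    refine ls_exists_primitiveRoot A K₀ hL ?_
    obtain ⟨ζ₀, hζ₀⟩ := hζ6L
    exact ⟨ζ₀ ^ 6, hζ₀.pow (by positivity) rfl⟩
  -- the set `Σ = {0, -27}`
  set S : Finset (nfSub A K₀) := {0, -27} with hSdef
  have hdist : ∀ c ∈ S, ∀ c' ∈ S, c ≠ c' → ¬ π ∣ c - c' := by
    intro c hc c' hc' hcc
    rw [hSdef, Finset.mem_insert, Finset.mem_singleton] at hc hc'
    have key : ∀ a b : ℤ, ¬ (2 : ℤ) ∣ a - b →
        ¬ π ∣ ((a : nfSub A K₀) - (b : nfSub A K₀)) := fun a b hab =>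
      ls_not_dvd_intCast_sub A K₀ hℓ hA hπ.not_isUnit a b (by exact_mod_cast hab)
    rcases hc with rfl | rfl <;> rcases hc' with rfl | rfl
    · exact absurd rfl hcc
    · have := key 0 (-27) (by norm_num)
      simpa using this
    · have := key (-27) 0 (by norm_num)
      simpa using this
    · exact absurd rfl hcc
  have hS01 : ∀ c ∈ S, algebraMap (nfSub A K₀) K₀ c = 0 ∨
      algebraMap (nfSub A K₀) K₀ c = -27 := by
    intro c hc
    rw [hSdef, Finset.mem_insert, Finset.mem_singleton] at hc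
    rcases hc with rfl | rfl
    · left; exact map_zero _
    · right; rw [map_neg, map_ofNat]
  have hS0 : ∃ c ∈ S, algebraMap (nfSub A K₀) K₀ c = 0 :=
    ⟨0, by rw [hSdef]; simp, map_zero _⟩
  have hS27 : ∃ c ∈ S, algebraMap (nfSub A K₀) K₀ c = -27 :=
    ⟨-27, by rw [hSdef]; simp, by rw [map_neg, map_ofNat]⟩
  have hunit : IsUnit ((L : ℕ) : nfSub A K₀) := ls_isUnit_natCast A K₀ hℓ hA L h2
  -- the conjugate family and the key data for `fieldC`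
  obtain ⟨m, Sc, hSc⟩ := hconj A hA K₀ hfin
  have hfin₀ : FiniteDimensional
      K₀⟮(⟨coeffMap (algebraMap (nfSub A K₀) K₀)
        (coeffMap (Int.castRingHom (nfSub A K₀)) hm3Z), kd₀.t_mem⟩ :
        modularFunctionFieldFullC K₀ L)⟯ (modularFunctionFieldFullC K₀ L) :=
    bgFinH_finiteDimensional_full_hm3 K₀ L _ hEt
  have hfinF : FiniteDimensional
      K₀⟮(⟨coeffMap (algebraMap (nfSub A K₀) K₀)
        (coeffMap (Int.castRingHom (nfSub A K₀)) hm3Z),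
        hSc.le kd₀.t_mem⟩ : fieldC K₀ L M H)⟯ (fieldC K₀ L M H) := by
    obtain ⟨P, hPm, -, hP0⟩ := hSc.poly
    exact injH1_fin_of_gen (modularFunctionFieldFullC K₀ L) (fieldC K₀ L M H) hSc.le _ hSc.gen
      (injH1_isIntegral_of_eval₂ _ _ ⟨P, hPm, hP0⟩) _ kd₀.t_mem hfin₀
  have hteq : (⟨coeffMap (algebraMap (nfSub A K₀) K₀)
      (coeffMap (Int.castRingHom (nfSub A K₀)) hm3Z),
      hSc.le kd₀.t_mem⟩ : fieldC K₀ L M H) = hm3CH K₀ L M H h3 := Subtype.ext hEt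
  obtain ⟨n, x, kd⟩ := hKD (A₀ := nfSub A K₀) (E := K₀) (k := IsLocalRing.ResidueField A)
    (nfRes A K₀) (modularFunctionFieldFullC K₀ L) (fieldC K₀ L M H) hπ hrπ hr kd₀ hord Sc hSc
    (fun {_ _} => kd₀.tsGoodBasis hπ.ne_zero hπ.not_isUnit hr hrπ 2
      (by rw [hkt]; exact thetaFun_hm3_ne_zero _))
    hfinF S hdist L hunit hrootL
    (fun {_ _} => by
      rw [hteq]
      exact nfH_ram_h3line_self K₀ L M H hR h3 S hS01 hS0 hS27 L dvd_rfl)
  -- the elements `y₁`, `y₂`, `w`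
  have hinj : Function.Injective (algebraMap (nfSub A K₀) K₀) := Subtype.val_injective
  have hY₂ : Y₂ ≠ 0 := injH_ne_zero_of_red (nfRes A K₀) Y₂ hne
  have hY₁ : Y₁ ≠ 0 := injH_ne_zero_of_red (nfRes A K₀) Y₁ (by rw [hred]; exact hne)
  have hy₁' := injH_coeffMap_ne_zero (algebraMap (nfSub A K₀) K₀) hinj Y₁ hY₁
  have hy₂' := injH_coeffMap_ne_zero (algebraMap (nfSub A K₀) K₀) hinj Y₂ hY₂
  set y₁ : fieldC K₀ L M H := ⟨_, h₁⟩ with hy₁def
  set y₂ : fieldC K₀ L M H := ⟨_, h₂⟩ with hy₂def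
  have hy₁ : y₁ ≠ 0 := fun h0 => hy₁' (congrArg Subtype.val h0)
  have hy₂ : y₂ ≠ 0 := fun h0 => hy₂' (congrArg Subtype.val h0)
  have hw : h ^ p = ((y₁ / y₂ : fieldC K₀ L M H) : LaurentSeries K₀) :=
    injH_quot (fieldC K₀ L M H) h y₁ y₂ hy₂ hpow
  have hh0 : h ≠ 0 := injH_root_ne_zero h _ _ hy₁' hp.ne_zero hpow
  have hdivw := nfH_hdiv_quot K₀ L M H p y₁ y₂ hy₁ hy₂ hdiv
  have hteq' : (⟨coeffMap (algebraMap (nfSub A K₀) K₀)
      (coeffMap (Int.castRingHom (nfSub A K₀)) hm3Z),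
      le_kumFieldG (fieldC K₀ L M H) h kd.t_mem⟩ : kumFieldG (fieldC K₀ L M H) h)
      = kumInclG (fieldC K₀ L M H) h (hm3CH K₀ L M H h3) := by
    apply Subtype.ext
    rw [coe_kumInclG, coe_hm3CH]
    exact hEt
  refine hcore (A₀ := nfSub A K₀) (E := K₀) (k := IsLocalRing.ResidueField A) (nfRes A K₀)
    (fieldC K₀ L M H) h hπ hrπ hr kd hord hp hpπ ζ u hζ hζu Y₁ Y₂ h₁ h₂ hred hne hpow hnot
    ?_ ?_ S hdist L hunit hrootL ?_
  · -- (a) for `fieldC`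
    intro _ _
    exact kd.tsGoodBasis hπ.ne_zero hπ.not_isUnit hr hrπ 2
      (by rw [hkt]; exact thetaFun_hm3_ne_zero _)
  · -- finiteness
    have hwF : h ^ p ∈ fieldC K₀ L M H := by rw [hw]; exact (y₁ / y₂).2
    exact injH1_fin_of_gen (fieldC K₀ L M H) (kumFieldG (fieldC K₀ L M H) h)
      (le_kumFieldG _ h) h le_rfl (injH1_isIntegral_of_pow _ h p hp.ne_zero hwF) _ kd.t_mem hfinF
  · -- (b), (b')
    intro _ _
    rw [hteq']
    exact nfH_ram_h3line K₀ L M H h hR h3 p hp.ne_zero (y₁ / y₂) hw hh0 hdivw S hS01 hS0 hS27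
      L dvd_rfl

end Fermat.Agent.ES1
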