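import Fermat.Agent.ES1.InjInstJ
import Fermat.Agent.ES1.InjInstH2
import Fermat.Agent.ES1.InjInstH3
import Fermat.Agent.ES1.InjCoreG
import Fermat.Agent.ES1.InjDescentH
import Fermat.Agent.ES1.DescentLevelH
import Fermat.Agent.ES1.ConjNF
import Fermat.Agent.INJ.TameSpec

/-!
# ES₁/INJ₁-inst: final assembly of (INJ₁), all residue characteristics
(fork of `INJ/InjAll.lean`)

* `injH1_core : InjCoreStmtG` (from the tame specialization theorem, Part A);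
* `injH1_ge5`   : `StmtINJH L M H ℓ p` for `ℓ ∤ 6 L` (the `j`-line);
* `injH1_three` : `StmtINJH L M H 3 p` for `3 ∤ L` (Hauptmodul line of `X₀(2)`, level `lcm 2 L`);
* `injH1_two`   : `StmtINJH L M H 2 p` for `2 ∤ L` (Hauptmodul line of `X₀(3)`, level `lcm 3 L`);
* `stmtINJHAll_of : StmtKDLift → StmtDiamondH → StmtRamJH → StmtINJHAll`.
-/

set_option autoImplicit false
set_option linter.style.haveILetI false

namespace Fermat.Agent.ES1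

open Fermat.Agent.INJ

/-- the line-independent core, unconditionally -/
theorem injH1_core : InjCoreStmtG := injCoreStmtG_of_tameSpec tameSpecStmt

section

variable (hKD : StmtKDLift) (hD : StmtDiamondH) (hRam : StmtRamJH)
include hKD hD hRam

/-- **(INJ₁) for `ℓ ≥ 5`.** -/
theorem injH1_ge5 {L M ℓ p : ℕ} (H : Subgroup (ZMod M)ˣ) (hL : L ≠ 0) (hML : M ∣ L)
    (hℓ : ℓ.Prime) (hp : p.Prime) (hℓL : ¬ ℓ ∣ L) (hℓp : ℓ ≠ p) (hℓ2 : ℓ ≠ 2) (hℓ3 : ℓ ≠ 3) :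
    StmtINJH L M H ℓ p := by
  haveI : NeZero L := ⟨hL⟩
  refine stmtINJH_of_stmtInjNFH hL hp
    (stmtInjNFH_j injH1_core hKD hL hℓ hp hℓp ?_ (hRam L M H hML)
      (stmtConjFamNF_of_diamond hD H ℓ hL hML))
  intro hd
  rcases (Nat.Prime.dvd_mul hℓ).mp hd with h6 | hL'
  · have h6' : (6 : ℕ) = 2 * 3 := by norm_num
    rw [h6'] at h6
    rcases (Nat.Prime.dvd_mul hℓ).mp h6 with h | h
    · exact hℓ2 ((Nat.prime_dvd_prime_iff_eq hℓ Nat.prime_two).mp h)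
    · exact hℓ3 ((Nat.prime_dvd_prime_iff_eq hℓ Nat.prime_three).mp h)
  · exact hℓL hL'

/-- **(INJ₁) for `ℓ = 3`.** -/
theorem injH1_three {L M p : ℕ} (H : Subgroup (ZMod M)ˣ) (hL : L ≠ 0) (hML : M ∣ L)
    (hp : p.Prime) (h3L : ¬ 3 ∣ L) (h3p : 3 ≠ p) : StmtINJH L M H 3 p := by
  refine stmtINJH_descent_three (stmtRelDegH_of_diamond hD) L M H p hL hML hp h3p ?_
  have hL' : Nat.lcm 2 L ≠ 0 := Nat.lcm_ne_zero (by norm_num) hL
  have hML' : M ∣ Nat.lcm 2 L := hML.trans (Nat.dvd_lcm_right 2 L)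
  haveI : NeZero (Nat.lcm 2 L) := ⟨hL'⟩
  exact stmtINJH_of_stmtInjNFH hL' hp
    (stmtInjNFH_h2 injH1_core hKD hL' (Nat.dvd_lcm_left 2 L) (dl_not_dvd_lcm_two h3L) hp
      (Ne.symm h3p) (hRam (Nat.lcm 2 L) M H hML')
      (stmtConjFamNF_of_diamond hD H 3 hL' hML'))

/-- **(INJ₁) for `ℓ = 2`.** -/
theorem injH1_two {L M p : ℕ} (H : Subgroup (ZMod M)ˣ) (hL : L ≠ 0) (hML : M ∣ L)
    (hp : p.Prime) (h2L : ¬ 2 ∣ L) (h2p : 2 ≠ p) : StmtINJH L M H 2 p := by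
  refine stmtINJH_descent_two (stmtRelDegH_of_diamond hD) L M H p hL hML hp h2p ?_
  have hL' : Nat.lcm 3 L ≠ 0 := Nat.lcm_ne_zero (by norm_num) hL
  have hML' : M ∣ Nat.lcm 3 L := hML.trans (Nat.dvd_lcm_right 3 L)
  haveI : NeZero (Nat.lcm 3 L) := ⟨hL'⟩
  exact stmtINJH_of_stmtInjNFH hL' hp
    (stmtInjNFH_h3 injH1_core hKD hL' (Nat.dvd_lcm_left 3 L) (dl_not_dvd_lcm_three h2L) hp
      (Ne.symm h2p) (hRam (Nat.lcm 3 L) M H hML')
      (stmtConjFamNF_of_diamond hD H 2 hL' hML'))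

/-- **(INJ₁), all cases**, from (INJ₁-KD), (F3-conj) and (F4). -/
theorem stmtINJHAll_of : StmtINJHAll := by
  intro L M H ℓ p hL hML hℓ hp hℓL hℓp
  by_cases hℓ2 : ℓ = 2
  · subst hℓ2
    exact injH1_two hKD hD hRam H hL hML hp hℓL hℓp
  by_cases hℓ3 : ℓ = 3
  · subst hℓ3
    exact injH1_three hKD hD hRam H hL hML hp hℓL hℓp
  exact injH1_ge5 hKD hD hRam H hL hML hℓ hp hℓL hℓp hℓ2 hℓ3

end

end Fermat.Agent.ES1
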