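import Fermat.Agent.ES1.InjInstAll
import Fermat.Agent.ES1.RealFinal

/-!
# ES₁/INJ₁-inst: (INJ₁) from (INJ₁-KD) and (F3-conj) alone

`stmtINJHAll_of_kd_diamond : StmtKDLift → StmtDiamondH → StmtINJHAll`
(the ramification input F4 = `stmtRamJH` is proved in `ES1/RealFinal.lean`).
-/

set_option autoImplicit false

namespace Fermat.Agent.ES1

/-- **(INJ₁)** from the key-data lift (INJ₁-KD) and the diamond automorphisms (F3-conj). -/
theorem stmtINJHAll_of_kd_diamond (hKD : StmtKDLift) (hD : StmtDiamondH) : StmtINJHAll :=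
  stmtINJHAll_of hKD hD stmtRamJH

end Fermat.Agent.ES1
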