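import Fermat.Agent.INJ.InjH2Aux
import Fermat.Agent.INJ.LocalSetup
import Fermat.Agent.INJ.GaussLevel
import Fermat.Agent.INJ.BGFin
import Fermat.Agent.INJ.InjDescentAux
import Fermat.Agent.ES1.InjCoreStmtG
import Fermat.Agent.ES1.RamLineH
import Fermat.Agent.ES1.InjInstFin

/-!
# ES₁/INJ₁-inst, INST-j: `ℓ ∤ 6 L`, the `j`-line (fork of `INJ/InjJ.lean`)

`stmtInjNFH_j : InjCoreStmtG → StmtKDLift → RamJH L M H → StmtConjFamNF L M H ℓ →
  StmtInjNFH L M H ℓ p` for `ℓ ∤ 6 L`, `p ≠ ℓ` prime.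
Coordinate `t₀ = j`, `Σ = {0, 1728}`, `e = 6 L`.
-/

set_option autoImplicit false
set_option linter.style.haveILetI false
set_option linter.unusedSectionVars false
set_option synthInstance.maxHeartbeats 400000
set_option maxHeartbeats 4000000

namespace Fermat.Agent.ES1

open Polynomial ModularCurve IntermediateField AlgebraicCurve Fermat.Agent.S24 Fermat.Agent.INJ

/-- **INST-j for `fieldC`.** -/
theorem stmtInjNFH_j (hcore : InjCoreStmtG) (hKD : StmtKDLift) {L M ℓ p : ℕ}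
    {H : Subgroup (ZMod M)ˣ} (hL : L ≠ 0) (hℓ : ℓ.Prime)
    (hp : p.Prime) (hℓp : ℓ ≠ p) (hℓ6L : ¬ ℓ ∣ 6 * L)
    (hR : haveI : NeZero L := ⟨hL⟩; RamJH L M H) (hconj : StmtConjFamNF L M H ℓ) :
    StmtInjNFH L M H ℓ p := by
  classical
  intro A hA K₀ hfin hζp hζ6L Y₁ Y₂ h h₁ h₂ hred hne hpow hdiv
  by_contra hnot
  haveI : NeZero L := ⟨hL⟩
  haveI : FiniteDimensional ℚ K₀ := hfin
  have hℓL : ¬ ℓ ∣ L := fun hd => hℓ6L (hd.mul_left 6)
  have hℓ6 : ¬ ℓ ∣ 6 := fun hd => hℓ6L (hd.mul_right L)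
  have hℓ1728 : ¬ (ℓ : ℤ) ∣ 1728 := by
    intro hd
    have h1 : ℓ ∣ 1728 := by exact_mod_cast hd
    have h2 : (1728 : ℕ) = 6 ^ 3 * 8 := by norm_num
    rw [h2] at h1
    rcases (Nat.Prime.dvd_mul hℓ).mp h1 with h3 | h3
    · exact hℓ6 (hℓ.dvd_of_dvd_pow h3)
    · have h4 : (8 : ℕ) = 2 ^ 3 := by norm_num
      rw [h4] at h3
      have h5 := hℓ.dvd_of_dvd_pow h3
      exact hℓ6 (h5.trans (by norm_num))
  haveI hdvr : IsDiscreteValuationRing (nfSub A K₀) := ls_isDVR A K₀ hℓ hA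
  obtain ⟨π, hπ⟩ := IsDiscreteValuationRing.exists_irreducible (nfSub A K₀)
  have hrπ : nfRes A K₀ π = 0 := ls_res_irreducible A K₀ hπ
  have hr : ∀ a, nfRes A K₀ a = 0 → π ∣ a := fun a => ls_dvd_of_res_eq_zero A K₀ hπ a
  haveI : Fact ℓ.Prime := ⟨hℓ⟩
  haveI : CharP (IsLocalRing.ResidueField A) ℓ := ls_charP_residueField A hℓ hA
  haveI : PerfectRing (IsLocalRing.ResidueField A) ℓ := nf_perfectRing_residueField A ℓ
  have hLk : ((L : ℕ) : IsLocalRing.ResidueField A) ≠ 0 :=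
    ls_natCast_residue_ne_zero A hℓ hA L hℓL
  -- key data over the `j`-line for the `Γ₀(L)`-field
  obtain ⟨x₀, kd₀⟩ := exists_gaussKD_j (E := K₀) (nfRes A K₀) π hπ.ne_zero hπ.not_isUnit hr L hLk
  have hkt : coeffMap (nfRes A K₀) (jqModC (nfSub A K₀)) = jqModC (IsLocalRing.ResidueField A) :=
    coeffMap_jqModC _
  have hEt : coeffMap (algebraMap (nfSub A K₀) K₀) (jqModC (nfSub A K₀)) = jqModC K₀ :=
    coeffMap_jqModC _
  have hord : (coeffMap (algebraMap (nfSub A K₀) K₀) (jqModC (nfSub A K₀))).order = -1 := by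
    rw [hEt]
    exact bgConst_order_jqModC K₀
  -- units and roots of unity
  have hpℓ' : ¬ ℓ ∣ p := fun hd => hℓp ((Nat.prime_dvd_prime_iff_eq hℓ hp).mp hd)
  have hpπ : ¬ π ∣ ((p : ℕ) : nfSub A K₀) := fun hd =>
    hπ.not_isUnit (isUnit_of_dvd_unit hd (ls_isUnit_natCast A K₀ hℓ hA p hpℓ'))
  obtain ⟨ζ, hζ⟩ := ls_exists_primitiveRoot A K₀ hp.ne_zero hζp
  obtain ⟨u, hζu⟩ := ls_exists_inv_zeta_sub_one A K₀ hℓ hA hp (Ne.symm hℓp) ζ hζ
  have h6L : 6 * L ≠ 0 := mul_ne_zero (by norm_num) hL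
  have hroot : ∃ ζ : nfSub A K₀, IsPrimitiveRoot ζ (6 * L) :=
    ls_exists_primitiveRoot A K₀ h6L hζ6L
  -- the set `Σ = {0, 1728}`
  set S : Finset (nfSub A K₀) := {0, 1728} with hSdef
  have hdist : ∀ c ∈ S, ∀ c' ∈ S, c ≠ c' → ¬ π ∣ c - c' := by
    intro c hc c' hc' hcc
    rw [hSdef, Finset.mem_insert, Finset.mem_singleton] at hc hc'
    have key : ∀ a b : ℤ, ¬ (ℓ : ℤ) ∣ a - b →
        ¬ π ∣ ((a : nfSub A K₀) - (b : nfSub A K₀)) := fun a b hab =>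
      ls_not_dvd_intCast_sub A K₀ hℓ hA hπ.not_isUnit a b hab
    rcases hc with rfl | rfl <;> rcases hc' with rfl | rfl
    · exact absurd rfl hcc
    · have := key 0 1728 (by rw [zero_sub, dvd_neg]; exact hℓ1728)
      simpa using this
    · have := key 1728 0 (by rw [sub_zero]; exact hℓ1728)
      simpa using this
    · exact absurd rfl hcc
  have hS01 : ∀ c ∈ S, algebraMap (nfSub A K₀) K₀ c = 0 ∨
      algebraMap (nfSub A K₀) K₀ c = 1728 := by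
    intro c hc
    rw [hSdef, Finset.mem_insert, Finset.mem_singleton] at hc
    rcases hc with rfl | rfl
    · left; exact map_zero _
    · right; rw [map_ofNat]
  have hS0 : ∃ c ∈ S, algebraMap (nfSub A K₀) K₀ c = 0 :=
    ⟨0, by rw [hSdef]; simp, map_zero _⟩
  have hS1728 : ∃ c ∈ S, algebraMap (nfSub A K₀) K₀ c = 1728 :=
    ⟨1728, by rw [hSdef]; simp, by rw [map_ofNat]⟩
  have hunit : IsUnit (((6 * L : ℕ) : ℕ) : nfSub A K₀) :=
    ls_isUnit_natCast A K₀ hℓ hA (6 * L) hℓ6L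
  -- the conjugate family and the key data for `fieldC`
  obtain ⟨m, Sc, hSc⟩ := hconj A hA K₀ hfin
  have hfin₀ : FiniteDimensional
      K₀⟮(⟨coeffMap (algebraMap (nfSub A K₀) K₀) (jqModC (nfSub A K₀)), kd₀.t_mem⟩ :
        modularFunctionFieldFullC K₀ L)⟯ (modularFunctionFieldFullC K₀ L) := by
    have h0 := bgFin_finiteDimensional_full K₀ L
    have heq : (⟨coeffMap (algebraMap (nfSub A K₀) K₀) (jqModC (nfSub A K₀)), kd₀.t_mem⟩ :
        modularFunctionFieldFullC K₀ L) = ⟨jqModC K₀, jqModC_mem_full K₀ L⟩ :=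
      Subtype.ext hEt
    rw [heq]
    exact h0
  have hfinF : FiniteDimensional
      K₀⟮(⟨coeffMap (algebraMap (nfSub A K₀) K₀) (jqModC (nfSub A K₀)),
        hSc.le kd₀.t_mem⟩ : fieldC K₀ L M H)⟯ (fieldC K₀ L M H) := by
    obtain ⟨P, hPm, -, hP0⟩ := hSc.poly
    exact injH1_fin_of_gen (modularFunctionFieldFullC K₀ L) (fieldC K₀ L M H) hSc.le _ hSc.gen
      (injH1_isIntegral_of_eval₂ _ _ ⟨P, hPm, hP0⟩) _ kd₀.t_mem hfin₀
  have hjeq : (⟨coeffMap (algebraMap (nfSub A K₀) K₀) (jqModC (nfSub A K₀)),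
      hSc.le kd₀.t_mem⟩ : fieldC K₀ L M H) = jCH K₀ L M H := Subtype.ext hEt
  obtain ⟨n, x, kd⟩ := hKD (A₀ := nfSub A K₀) (E := K₀) (k := IsLocalRing.ResidueField A)
    (nfRes A K₀) (modularFunctionFieldFullC K₀ L) (fieldC K₀ L M H) hπ hrπ hr kd₀ hord Sc hSc
    (fun {_ _} => kd₀.tsGoodBasis hπ.ne_zero hπ.not_isUnit hr hrπ ℓ
      (by rw [hkt]; exact thetaFun_jqModC_ne_zero _))
    hfinF S hdist (6 * L) hunit hroot
    (fun {_ _} => by
      rw [hjeq]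
      exact nfH_ram_jline_self K₀ L M H hR S hS01 hS0 hS1728 (6 * L)
        (Dvd.intro _ rfl) (Dvd.intro_left _ rfl))
  -- the elements `y₁`, `y₂`, `w`
  have hinj : Function.Injective (algebraMap (nfSub A K₀) K₀) := Subtype.val_injective
  have hY₂ : Y₂ ≠ 0 := injH_ne_zero_of_red (nfRes A K₀) Y₂ hne
  have hY₁ : Y₁ ≠ 0 := injH_ne_zero_of_red (nfRes A K₀) Y₁ (by rw [hred]; exact hne)
  have hy₁' := injH_coeffMap_ne_zero (algebraMap (nfSub A K₀) K₀) hinj Y₁ hY₁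
  have hy₂' := injH_coeffMap_ne_zero (algebraMap (nfSub A K₀) K₀) hinj Y₂ hY₂
  set y₁ : fieldC K₀ L M H := ⟨_, h₁⟩ with hy₁def
  set y₂ : fieldC K₀ L M H := ⟨_, h₂⟩ with hy₂def
  have hy₁ : y₁ ≠ 0 := fun h0 => hy₁' (congrArg Subtype.val h0)
  have hy₂ : y₂ ≠ 0 := fun h0 => hy₂' (congrArg Subtype.val h0)
  have hw : h ^ p = ((y₁ / y₂ : fieldC K₀ L M H) : LaurentSeries K₀) :=
    injH_quot (fieldC K₀ L M H) h y₁ y₂ hy₂ hpow
  have hh0 : h ≠ 0 := injH_root_ne_zero h _ _ hy₁' hp.ne_zero hpow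
  have hdivw := nfH_hdiv_quot K₀ L M H p y₁ y₂ hy₁ hy₂ hdiv
  have hjeq' : (⟨coeffMap (algebraMap (nfSub A K₀) K₀) (jqModC (nfSub A K₀)),
      le_kumFieldG (fieldC K₀ L M H) h kd.t_mem⟩ : kumFieldG (fieldC K₀ L M H) h)
      = kumInclG (fieldC K₀ L M H) h (jCH K₀ L M H) := by
    apply Subtype.ext
    rw [coe_kumInclG]
    exact hEt
  refine hcore (A₀ := nfSub A K₀) (E := K₀) (k := IsLocalRing.ResidueField A) (nfRes A K₀)
    (fieldC K₀ L M H) h hπ hrπ hr kd hord hp hpπ ζ u hζ hζu Y₁ Y₂ h₁ h₂ hred hne hpow hnot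
    ?_ ?_ S hdist (6 * L) hunit hroot ?_
  · -- (a) for `fieldC`
    intro _ _
    exact kd.tsGoodBasis hπ.ne_zero hπ.not_isUnit hr hrπ ℓ
      (by rw [hkt]; exact thetaFun_jqModC_ne_zero _)
  · -- finiteness
    have hwF : h ^ p ∈ fieldC K₀ L M H := by rw [hw]; exact (y₁ / y₂).2
    exact injH1_fin_of_gen (fieldC K₀ L M H) (kumFieldG (fieldC K₀ L M H) h)
      (le_kumFieldG _ h) h le_rfl (injH1_isIntegral_of_pow _ h p hp.ne_zero hwF) _ kd.t_mem hfinF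
  · -- (b), (b')
    intro _ _
    rw [hjeq']
    exact nfH_ram_jline K₀ L M H h hR p hp.ne_zero (y₁ / y₂) hw hh0 hdivw S hS01 hS0 hS1728
      (6 * L) (Dvd.intro _ rfl) (Dvd.intro_left _ rfl)

end Fermat.Agent.ES1
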