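import Fermat.Agent.ES.HeckePPar

/-!
# ES₁ / G1-PER — coset families and their operators on `Hom(Γ, A)` (helper42)

`Γ ≤ SL(2, ℤ)`.  A *coset family* is a finite family of matrices `α_x ∈ GL₂(ℝ)⁺` (`x : X`) with
`α_x γ = κ(γ, x) α_{x·γ}`, `κ(γ, x) ∈ Γ`, where `x ↦ x·γ` is a right action of `Γ` on `X` and `κ` is
a cocycle.  It defines the operator `(T φ)(γ) = Σ_x φ(κ(γ, x))` on `Hom(Γ, A)`, for every abelian
group `A`:

* `Es1perFam.op`  : the operator, natural in `A` (`op_natural`);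
* `Es1perFam.op_isParabolicHom` : it preserves the homomorphisms vanishing on the elements of
  trace `±2`.

Hecke operators `T_ℓ` (`X = ℙ¹(𝔽_ℓ)`) and diamond operators (`X` a point) for
`Γ = Γ_H(M)` are instances (`ES1/PerHecke.lean`).
-/

set_option autoImplicit false
set_option linter.unusedSectionVars false

noncomputable section

namespace Fermat.Agent.ES1

open Matrix Matrix.SpecialLinearGroup
open scoped MatrixGroups

/-- **A coset family** for `Γ`, indexed by `X`. -/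
structure Es1perFam (Γ : Subgroup SL(2, ℤ)) (X : Type) where
  /-- the representatives -/
  rep : X → GL (Fin 2) ℝ
  /-- they have positive determinant -/
  det_pos : ∀ x, 0 < (rep x).det.val
  /-- the right action of `Γ` on the index set -/
  next : Γ → X → X
  /-- the cocycle -/
  coc : Γ → X → Γ
  /-- `α_x γ = κ(γ, x) α_{x·γ}` -/
  spec : ∀ (γ : Γ) (x : X),
    rep x * mapGL ℝ (γ : SL(2, ℤ)) = mapGL ℝ ((coc γ x : Γ) : SL(2, ℤ)) * rep (next γ x)
  /-- `x·1 = x` -/
  next_one : ∀ x, next 1 x = x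
  /-- `x·(γδ) = (x·γ)·δ` -/
  next_mul : ∀ γ δ x, next (γ * δ) x = next δ (next γ x)
  /-- `κ(γδ, x) = κ(γ, x) κ(δ, x·γ)` -/
  coc_mul : ∀ γ δ x, coc (γ * δ) x = coc γ x * coc δ (next γ x)

namespace Es1perFam

variable {Γ : Subgroup SL(2, ℤ)} {X : Type} (F : Es1perFam Γ X)

theorem coc_one (x : X) : F.coc 1 x = 1 := by
  have h := F.coc_mul 1 1 x
  rw [mul_one, F.next_one] at h
  exact (mul_eq_left).mp h.symm

/-- `x ↦ x·γ` as a permutation -/
def nextPerm (γ : Γ) : Equiv.Perm X where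
  toFun := F.next γ
  invFun := F.next γ⁻¹
  left_inv x := by rw [← F.next_mul, mul_inv_cancel, F.next_one]
  right_inv x := by rw [← F.next_mul, inv_mul_cancel, F.next_one]

@[simp] theorem nextPerm_apply (γ : Γ) (x : X) : F.nextPerm γ x = F.next γ x := rfl

theorem next_pow (γ : Γ) (j : ℕ) (x : X) : F.next (γ ^ j) x = ((F.nextPerm γ) ^ j) x := by
  induction j with
  | zero => rw [pow_zero, pow_zero, F.next_one]; rfl
  | succ j ih => rw [pow_succ, F.next_mul, ih, pow_succ', Equiv.Perm.mul_apply]; rfl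

variable [Fintype X]

/-- the value of the operator at `γ` -/
def opFun {A : Type} [AddCommGroup A] (φ : Additive Γ →+ A) (γ : Γ) : A :=
  ∑ x, φ (Additive.ofMul (F.coc γ x))

theorem opFun_mul {A : Type} [AddCommGroup A] (φ : Additive Γ →+ A) (γ δ : Γ) :
    F.opFun φ (γ * δ) = F.opFun φ γ + F.opFun φ δ := by
  unfold opFun
  have h1 : ∀ x, φ (Additive.ofMul (F.coc (γ * δ) x))
      = φ (Additive.ofMul (F.coc γ x)) + φ (Additive.ofMul (F.coc δ (F.next γ x))) := by
    intro x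
    rw [F.coc_mul, ofMul_mul, map_add]
  rw [Finset.sum_congr rfl (fun x _ => h1 x), Finset.sum_add_distrib]
  congr 1
  exact Equiv.sum_comp (F.nextPerm γ) (fun x => φ (Additive.ofMul (F.coc δ x)))

theorem opFun_one {A : Type} [AddCommGroup A] (φ : Additive Γ →+ A) : F.opFun φ 1 = 0 := by
  have h := F.opFun_mul φ 1 1
  rw [mul_one] at h
  exact (add_eq_left).mp h.symm

/-- the operator on a homomorphism -/
def opHom {A : Type} [AddCommGroup A] (φ : Additive Γ →+ A) : Additive Γ →+ A where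
  toFun γ := F.opFun φ (Additive.toMul γ)
  map_zero' := F.opFun_one φ
  map_add' γ δ := F.opFun_mul φ (Additive.toMul γ) (Additive.toMul δ)

/-- **The operator of a coset family** on `Hom(Γ, A)`. -/
def op (A : Type) [AddCommGroup A] : (Additive Γ →+ A) →+ (Additive Γ →+ A) where
  toFun φ := F.opHom φ
  map_zero' := by
    refine AddMonoidHom.ext fun γ => ?_
    show ∑ x, (0 : Additive Γ →+ A) (Additive.ofMul (F.coc (Additive.toMul γ) x)) = 0
    simp
  map_add' φ ψ := by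
    refine AddMonoidHom.ext fun γ => ?_
    show ∑ x, (φ + ψ) (Additive.ofMul (F.coc (Additive.toMul γ) x))
      = ∑ x, φ (Additive.ofMul (F.coc (Additive.toMul γ) x))
        + ∑ x, ψ (Additive.ofMul (F.coc (Additive.toMul γ) x))
    simp [Finset.sum_add_distrib]

theorem op_apply {A : Type} [AddCommGroup A] (φ : Additive Γ →+ A) (γ : Γ) :
    F.op A φ (Additive.ofMul γ) = ∑ x, φ (Additive.ofMul (F.coc γ x)) := rfl

/-- the operator is natural in the coefficient group -/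
theorem op_natural (A A' : Type) [AddCommGroup A] [AddCommGroup A'] (f : A →+ A')
    (φ : Additive Γ →+ A) : F.op A' (f.comp φ) = f.comp (F.op A φ) := by
  refine AddMonoidHom.ext fun γ => ?_
  show ∑ x, (f.comp φ) (Additive.ofMul (F.coc (Additive.toMul γ) x))
    = f (∑ x, φ (Additive.ofMul (F.coc (Additive.toMul γ) x)))
  rw [map_sum]
  rfl

/-- the sum of `φ ∘ κ(γ, ·)` along an orbit -/
theorem sum_range_coc {A : Type} [AddCommGroup A] (φ : Additive Γ →+ A) (γ : Γ) (x : X)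
    (r : ℕ) :
    ∑ j ∈ Finset.range r, φ (Additive.ofMul (F.coc γ (((F.nextPerm γ) ^ j) x)))
      = φ (Additive.ofMul (F.coc (γ ^ r) x)) := by
  induction r with
  | zero => simp [F.coc_one]
  | succ r ih =>
    rw [Finset.sum_range_succ, ih, pow_succ, F.coc_mul, ofMul_mul, map_add, F.next_pow]

/-- if `x·γ = x` then `κ(γ, x)` is conjugate to `γ`, so it has the same trace -/
theorem trace_coc_of_next_eq (γ : Γ) (x : X) (hx : F.next γ x = x) :
    (((F.coc γ x : Γ) : SL(2, ℤ)) : Matrix (Fin 2) (Fin 2) ℤ).trace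
      = (((γ : Γ) : SL(2, ℤ)) : Matrix (Fin 2) (Fin 2) ℤ).trace := by
  have h1 := F.spec γ x
  rw [hx] at h1
  have h2 : mapGL ℝ ((F.coc γ x : Γ) : SL(2, ℤ))
      = F.rep x * mapGL ℝ (γ : SL(2, ℤ)) * (F.rep x)⁻¹ := by
    rw [h1, mul_inv_cancel_right]
  have h3 := congrArg (fun M : GL (Fin 2) ℝ => (M : Matrix (Fin 2) (Fin 2) ℝ).trace) h2
  simp only [Matrix.GeneralLinearGroup.coe_mul] at h3
  have h4 : ((F.rep x : GL (Fin 2) ℝ) : Matrix (Fin 2) (Fin 2) ℝ) *
      ((mapGL ℝ (γ : SL(2, ℤ)) : GL (Fin 2) ℝ) : Matrix (Fin 2) (Fin 2) ℝ) *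
      (((F.rep x)⁻¹ : GL (Fin 2) ℝ) : Matrix (Fin 2) (Fin 2) ℝ) =
      (((F.rep x : GL (Fin 2) ℝ) : (Matrix (Fin 2) (Fin 2) ℝ)ˣ) : Matrix (Fin 2) (Fin 2) ℝ) *
      ((mapGL ℝ (γ : SL(2, ℤ)) : GL (Fin 2) ℝ) : Matrix (Fin 2) (Fin 2) ℝ) *
      ((((F.rep x : GL (Fin 2) ℝ) : (Matrix (Fin 2) (Fin 2) ℝ)ˣ)⁻¹ :
        (Matrix (Fin 2) (Fin 2) ℝ)ˣ) : Matrix (Fin 2) (Fin 2) ℝ) := rfl
  rw [h4, Matrix.trace_units_conj, Fermat.Agent.ES.HeckeP.trace_mapGL,
    Fermat.Agent.ES.HeckeP.trace_mapGL] at h3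
  exact_mod_cast h3

/-- **The operator of a coset family preserves parabolic homomorphisms.** -/
theorem op_isParabolicHom {A : Type} [AddCommGroup A] {φ : Additive Γ →+ A}
    (hφ : ModularCurve.Period.IsParabolicHom Γ φ) :
    ModularCurve.Period.IsParabolicHom Γ (F.op A φ) := by
  classical
  intro γ hγ
  rw [F.op_apply]
  refine Fermat.Agent.ES.HeckeP.sum_univ_eq_zero_of_cycle_sums (F.nextPerm γ)
    (fun x => φ (Additive.ofMul (F.coc γ x))) ?_
  intro x r _ hrx
  rw [F.sum_range_coc]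
  refine hφ _ ?_
  have hnext : F.next (γ ^ r) x = x := by
    rw [F.next_pow]
    exact hrx
  rw [F.trace_coc_of_next_eq (γ ^ r) x hnext, Subgroup.coe_pow]
  exact Fermat.Agent.ES.HeckeP.trace_pow_sq_eq_four _ hγ r

end Es1perFam

end Fermat.Agent.ES1
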