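import Fermat.Agent.ES1.PerFam
import Fermat.Agent.ES.PeriodHecke
import Fermat.Agent.S21.Parabolic

/-!
# ES₁ / G1-PER — the period homomorphism of a `Γ`-invariant cusp datum (helper42)

`Γ ≤ SL(2, ℤ)` any subgroup, `g : ℍ → ℂ`.  `Es1perCusp Γ g` collects what the periods use:

* `prim` : for every `δ ∈ SL(2, ℤ)` the translate `g ∣[2] δ` has a primitive on `ℍ` which tends to
  `0` at `i∞` (true for cusp forms of weight `2` on congruence subgroups);
* `inv`  : `g ∣[2] γ = g` for `γ ∈ Γ`.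

Then (all generic):

* `Es1perCusp.hom : Additive Γ →+ ℂ`, `γ ↦ F(γ z) − F(z)` (`F` any primitive of `g`);
* `Es1perCusp.hom_isParabolicHom` : it vanishes on the elements of trace `±2`;
* `Es1perCusp.op_hom` : for a coset family `(α_x)` with `Σ_x g ∣[2] α_x = b • g`, the operator of
  the family has eigenvector `hom` with eigenvalue `b`.
-/

set_option autoImplicit false
set_option linter.unusedSectionVars false

noncomputable section

namespace Fermat.Agent.ES1

open UpperHalfPlane Filter Topology ModularCurve ModularCurve.Period Fermat.Agent.S21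
open Matrix.SpecialLinearGroup
open scoped MatrixGroups ModularForm

/-- the analytic properties of a weight-2 cusp form used for its periods on `Γ` -/
structure Es1perCusp (Γ : Subgroup SL(2, ℤ)) (g : ℍ → ℂ) : Prop where
  /-- every translate has a primitive tending to `0` at `i∞` -/
  prim : ∀ δ : SL(2, ℤ), ∃ G : ℍ → ℂ, IsPrimitive G (g ∣[(2 : ℤ)] δ) ∧
    Tendsto G atImInfty (𝓝 0)
  /-- invariance under `Γ` -/
  inv : ∀ γ : SL(2, ℤ), γ ∈ Γ → g ∣[(2 : ℤ)] γ = g

namespace Es1perCusp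

variable {Γ : Subgroup SL(2, ℤ)} {g : ℍ → ℂ}

theorem exists_isPrimitive (hg : Es1perCusp Γ g) :
    ∃ F : ℍ → ℂ, IsPrimitive F g ∧ Tendsto F atImInfty (𝓝 0) := by
  obtain ⟨F, hF, h0⟩ := hg.prim 1
  refine ⟨F, ?_, h0⟩
  have e : (g ∣[(2 : ℤ)] (1 : SL(2, ℤ))) = g := SlashAction.slash_one _ _
  rwa [e] at hF

/-- a primitive of `g` is an equivariant primitive -/
theorem isEquivariantPrimitive (hg : Es1perCusp Γ g) {F : ℍ → ℂ} (hF : IsPrimitive F g) :
    IsEquivariantPrimitive Γ F := by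
  intro γ
  refine ⟨F ((γ : SL(2, ℤ)) • UpperHalfPlane.I) - F UpperHalfPlane.I, fun z => ?_⟩
  have h1 : IsPrimitive (fun w => F ((γ : SL(2, ℤ)) • w)) g := by
    have := hF.comp_smul (γ : SL(2, ℤ))
    rwa [hg.inv γ γ.2] at this
  exact h1.sub_eq_sub hF z UpperHalfPlane.I

/-- a primitive of `g` has a limit at every cusp -/
theorem exists_tendsto_smul (hg : Es1perCusp Γ g) {F : ℍ → ℂ} (hF : IsPrimitive F g)
    (δ : SL(2, ℤ)) : ∃ L : ℂ, Tendsto (fun w : ℍ => F (δ • w)) atImInfty (𝓝 L) := by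
  obtain ⟨G, hG, hG0⟩ := hg.prim δ
  have h1 : IsPrimitive (fun w => F (δ • w)) (g ∣[(2 : ℤ)] δ) := hF.comp_smul δ
  refine ⟨F (δ • UpperHalfPlane.I) - G UpperHalfPlane.I, ?_⟩
  have hconst : ∀ w : ℍ, F (δ • w) = G w + (F (δ • UpperHalfPlane.I) - G UpperHalfPlane.I) := by
    intro w
    have := h1.sub_eq_sub hG w UpperHalfPlane.I
    linear_combination this
  have : Tendsto (fun w : ℍ => G w + (F (δ • UpperHalfPlane.I) - G UpperHalfPlane.I)) atImInfty
      (𝓝 (0 + (F (δ • UpperHalfPlane.I) - G UpperHalfPlane.I))) :=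
    hG0.add tendsto_const_nhds
  rw [zero_add] at this
  exact this.congr (fun w => (hconst w).symm)

/-- the chosen primitive -/
def primitive (hg : Es1perCusp Γ g) : ℍ → ℂ := Classical.choose hg.exists_isPrimitive

theorem isPrimitive_primitive (hg : Es1perCusp Γ g) : IsPrimitive hg.primitive g :=
  (Classical.choose_spec hg.exists_isPrimitive).1

/-- **The period homomorphism** `Γ → ℂ` of `g`. -/
def hom (hg : Es1perCusp Γ g) : Additive Γ →+ ℂ :=
  (hg.isEquivariantPrimitive hg.isPrimitive_primitive).periodHom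

/-- the period can be computed from any primitive, at any base point -/
theorem hom_apply (hg : Es1perCusp Γ g) {F : ℍ → ℂ} (hF : IsPrimitive F g) (γ : Γ) (z : ℍ) :
    hg.hom (Additive.ofMul γ) = F ((γ : SL(2, ℤ)) • z) - F z := by
  have h1 := (hg.isEquivariantPrimitive hF).sub_eq_period γ z
  rw [h1]
  show (hg.isEquivariantPrimitive hg.isPrimitive_primitive).period γ = _
  exact Fermat.Agent.S21.period_eq_of_isPrimitive _ _ hg.isPrimitive_primitive hF γ

/-- **Periods of elements of trace `±2` vanish.** -/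
theorem hom_isParabolicHom (hg : Es1perCusp Γ g) : IsParabolicHom Γ hg.hom := by
  intro γ hγ
  obtain ⟨δ, β, hβ, hγδ⟩ := parabolic_exists_conj_upper (γ : SL(2, ℤ)) hγ
  have hF := hg.isPrimitive_primitive
  obtain ⟨L, hL⟩ := hg.exists_tendsto_smul hF δ
  have hconst : ∀ w : ℍ, hg.primitive (δ • (β • w)) - hg.primitive (δ • w)
      = hg.hom (Additive.ofMul γ) := by
    intro w
    rw [hg.hom_apply hF γ (δ • w), ← mul_smul, ← mul_smul, hγδ]
  have hβ' : Tendsto (fun w : ℍ => β • w) atImInfty atImInfty := by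
    have h := tendsto_smul_atImInfty (g := (β : GL (Fin 2) ℝ)) (by simp [hβ])
    exact h
  have h1 : Tendsto (fun w : ℍ => hg.primitive (δ • (β • w))) atImInfty (𝓝 L) := hL.comp hβ'
  have h2 : Tendsto (fun w : ℍ => hg.primitive (δ • (β • w)) - hg.primitive (δ • w)) atImInfty
      (𝓝 (L - L)) := h1.sub hL
  have h3 : Tendsto (fun w : ℍ => hg.primitive (δ • (β • w)) - hg.primitive (δ • w)) atImInfty
      (𝓝 (hg.hom (Additive.ofMul γ))) := by
    simp only [hconst]
    exact tendsto_const_nhds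
  have := tendsto_nhds_unique h3 h2
  rw [this, sub_self]

theorem hom_vanishes (hg : Es1perCusp Γ g) (γ : Γ)
    (hγ : ((γ : SL(2, ℤ)) : Matrix (Fin 2) (Fin 2) ℤ).trace ^ 2 = 4) :
    hg.hom (Additive.ofMul γ) = 0 :=
  hg.hom_isParabolicHom γ hγ

/-- **Compatibility with coset families**: if `Σ_x g ∣[2] α_x = b • g` then the period
homomorphism is an eigenvector of the operator of the family, with eigenvalue `b`. -/
theorem op_hom (hg : Es1perCusp Γ g) {X : Type} [Fintype X] (Fam : Es1perFam Γ X) (b : ℂ)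
    (hb : ∑ x, g ∣[(2 : ℤ)] Fam.rep x = b • g) : Fam.op ℂ hg.hom = b • hg.hom := by
  have hF := hg.isPrimitive_primitive
  set F := hg.primitive with hFdef
  -- `G = Σ_x F ∘ α_x` is a primitive of `b • g`
  have hG : IsPrimitive (fun τ => ∑ x, F (Fam.rep x • τ)) (b • g) := by
    rw [← hb]
    exact Fermat.Agent.ES.isPrimitive_finset_sum Finset.univ (fun x τ => F (Fam.rep x • τ))
      (fun x => g ∣[(2 : ℤ)] Fam.rep x)
      (fun x _ => Fermat.Agent.ES.isPrimitive_comp_smul_slash hF (Fam.det_pos x))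
  have hbF : IsPrimitive (fun τ => b * F τ) (b • g) := by
    have := hF.const_mul b
    exact this
  refine AddMonoidHom.ext fun γ' => ?_
  obtain ⟨γ, rfl⟩ : ∃ γ : Γ, Additive.ofMul γ = γ' := ⟨Additive.toMul γ', rfl⟩
  rw [Fam.op_apply]
  show _ = b * hg.hom (Additive.ofMul γ)
  have hsub := hG.sub_eq_sub hbF ((γ : SL(2, ℤ)) • UpperHalfPlane.I) UpperHalfPlane.I
  have hper : ∀ (δ : Γ) (z : ℍ), F ((δ : SL(2, ℤ)) • z) - F z = hg.hom (Additive.ofMul δ) :=
    fun δ z => (hg.hom_apply hF δ z).symm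
  have hterm : ∀ x : X, F (Fam.rep x • ((γ : SL(2, ℤ)) • UpperHalfPlane.I))
      = hg.hom (Additive.ofMul (Fam.coc γ x)) + F (Fam.rep (Fam.next γ x) • UpperHalfPlane.I) := by
    intro x
    have h1 : Fam.rep x • ((γ : SL(2, ℤ)) • UpperHalfPlane.I)
        = ((Fam.coc γ x : Γ) : SL(2, ℤ)) • (Fam.rep (Fam.next γ x) • UpperHalfPlane.I) := by
      have e1 : (γ : SL(2, ℤ)) • UpperHalfPlane.I
          = (mapGL ℝ (γ : SL(2, ℤ))) • UpperHalfPlane.I := rfl
      have e2 : ∀ z : ℍ, ((Fam.coc γ x : Γ) : SL(2, ℤ)) • z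
          = (mapGL ℝ ((Fam.coc γ x : Γ) : SL(2, ℤ))) • z := fun _ => rfl
      rw [e1, e2, ← mul_smul, ← mul_smul, Fam.spec γ x]
    rw [h1]
    have := hper (Fam.coc γ x) (Fam.rep (Fam.next γ x) • UpperHalfPlane.I)
    linear_combination this
  have hperm : ∑ x, F (Fam.rep (Fam.next γ x) • UpperHalfPlane.I)
      = ∑ x, F (Fam.rep x • UpperHalfPlane.I) :=
    Equiv.sum_comp (Fam.nextPerm γ) (fun x => F (Fam.rep x • UpperHalfPlane.I))
  have hsum : (∑ x, F (Fam.rep x • ((γ : SL(2, ℤ)) • UpperHalfPlane.I)))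
      = (∑ x, hg.hom (Additive.ofMul (Fam.coc γ x)))
        + ∑ x, F (Fam.rep x • UpperHalfPlane.I) := by
    rw [← hperm, ← Finset.sum_add_distrib]
    exact Finset.sum_congr rfl (fun x _ => hterm x)
  have hγ := hper γ UpperHalfPlane.I
  linear_combination (-1) * hsum + hsub + b * hγ

end Es1perCusp

end Fermat.Agent.ES1
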