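import Fermat.Agent.ES1.PerFam
import Fermat.Agent.ES1.HeckeGrp
import Fermat.Prelude.Sol.S_ModularForm_heckeT_slash_eq_self_of_mem_Gamma0

/-!
# ES₁ / G1-PER — the transfer is the operator of a coset family (helper42)

`Γ = gammaH L M H`, `Γ' = subLevel L M H ℓ`.  With the section `q ↦ q.out` of `Γ → Γ ⧸ Γ'`:

* `es1per_transfer_apply` : `transfer ϕ g = ∏_q ϕ (q.out⁻¹ g (g⁻¹ • q).out)` (generic);
* `es1per_heckeFam` : the coset family `α_q = diag(ℓ, 1) · q.out⁻¹`, `q·γ = γ⁻¹ • q`,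
  `κ(γ, q) = conjAlphaH (q.out⁻¹ γ (γ⁻¹ • q).out)`;
* `es1per_heckeGrp_eq_op` : `heckeGrp L M H ℓ hML φ = (es1per_heckeFam …).op A φ`;
-/

set_option autoImplicit false
set_option linter.unusedSectionVars false
set_option linter.style.haveILetI false

noncomputable section

namespace Fermat.Agent.ES1

open Matrix Matrix.SpecialLinearGroup CongruenceSubgroup ModularForm
open scoped MatrixGroups

/-! ## The transfer, with the section `Quotient.out` -/

section Generic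

variable {G : Type*} [Group G] {K : Subgroup G}

theorem es1per_out_mem (g : G) (q : G ⧸ K) :
    (q.out)⁻¹ * g * ((g⁻¹ • q).out) ∈ K := by
  rw [mul_assoc, ← QuotientGroup.eq]
  have h1 : ((g * (g⁻¹ • q).out : G) : G ⧸ K) = g • (((g⁻¹ • q).out : G) : G ⧸ K) := rfl
  have h2 : (((g⁻¹ • q).out : G) : G ⧸ K) = g⁻¹ • q := QuotientGroup.out_eq' _
  rw [h1, QuotientGroup.out_eq', h2, smul_inv_smul]

/-- the element `q.out⁻¹ g (g⁻¹ • q).out` of `K` -/
def es1per_outElt (g : G) (q : G ⧸ K) : K := ⟨(q.out)⁻¹ * g * ((g⁻¹ • q).out), es1per_out_mem g q⟩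

theorem es1per_outElt_mul (g h : G) (q : G ⧸ K) :
    es1per_outElt (g * h) q = es1per_outElt g q * es1per_outElt h (g⁻¹ • q) := by
  apply Subtype.ext
  show (q.out)⁻¹ * (g * h) * (((g * h)⁻¹ • q).out)
    = ((q.out)⁻¹ * g * ((g⁻¹ • q).out)) * (((g⁻¹ • q).out)⁻¹ * h * ((h⁻¹ • g⁻¹ • q).out))
  rw [_root_.mul_inv_rev, mul_smul]
  group

theorem es1per_transfer_apply [K.FiniteIndex] {A : Type*} [CommGroup A] (ϕ : K →* A) (g : G) :
    MonoidHom.transfer ϕ g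
      = @Finset.prod (G ⧸ K) A _ (@Finset.univ _ K.fintypeQuotientOfFiniteIndex)
          (fun q => ϕ (es1per_outElt g q)) := by
  rw [MonoidHom.transfer_def ϕ (default : K.LeftTransversal) g]
  unfold Subgroup.leftTransversals.diff
  refine Finset.prod_congr rfl fun q _ => ?_
  congr 1
  apply Subtype.ext
  show ((((default : K.LeftTransversal).2.leftQuotientEquiv q : G))⁻¹ *
      ((g • (default : K.LeftTransversal)).2.leftQuotientEquiv q : G))
    = (q.out)⁻¹ * g * ((g⁻¹ • q).out)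
  rw [Subgroup.smul_apply_eq_smul_apply_inv_smul]
  have h : ∀ q : G ⧸ K, ((default : K.LeftTransversal).2.leftQuotientEquiv q : G) = q.out :=
    fun q => Subgroup.IsComplement.leftQuotientEquiv_apply (f := Quotient.out)
      Quotient.out_eq' q
  rw [h, h, smul_eq_mul, mul_assoc]

end Generic

/-! ## The Hecke coset family -/

theorem es1per_mapGL_apply (g : SL(2, ℤ)) (i j : Fin 2) :
    ((mapGL ℝ g : GL (Fin 2) ℝ) : Matrix (Fin 2) (Fin 2) ℝ) i j = ((g i j : ℤ) : ℝ) := by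
  simp

theorem es1per_conjAlpha_spec {ℓ : ℕ} (hℓ : ℓ ≠ 0) (h : SL(2, ℤ)) (hd : (ℓ : ℤ) ∣ h 1 0) :
    heckeDiagMatrix ℓ * mapGL ℝ h = mapGL ℝ (conjAlphaSL ℓ h hd) * heckeDiagMatrix ℓ := by
  have he' : ((h 1 0 : ℤ) : ℝ) = (((h 1 0 / (ℓ : ℤ) : ℤ)) : ℝ) * (ℓ : ℝ) := by
    exact_mod_cast (Int.ediv_mul_cancel hd).symm
  apply Matrix.GeneralLinearGroup.ext
  intro i j
  rw [Matrix.GeneralLinearGroup.coe_mul, Matrix.GeneralLinearGroup.coe_mul,
    Matrix.mul_apply, Matrix.mul_apply, Fin.sum_univ_two, Fin.sum_univ_two]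
  simp only [es1per_mapGL_apply, val_heckeDiagMatrix hℓ]
  fin_cases i <;> fin_cases j <;>
    simp [conjAlphaSL_apply_00, conjAlphaSL_apply_01, conjAlphaSL_apply_10, conjAlphaSL_apply_11]
  · ring
  · exact he'

theorem es1per_det_mapGL_pos (γ : SL(2, ℤ)) (α : GL (Fin 2) ℝ) (hα : 0 < ((α.det : ℝˣ) : ℝ)) :
    0 < (((α * mapGL ℝ γ).det : ℝˣ) : ℝ) := by
  rw [map_mul, Units.val_mul]
  have h1 : (((mapGL ℝ γ : GL (Fin 2) ℝ).det : ℝˣ) : ℝ) = 1 := by
    rw [Matrix.GeneralLinearGroup.val_det_apply]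
    have := (Matrix.SpecialLinearGroup.map (Int.castRingHom ℝ) γ).det_coe
    exact this
  rw [h1, mul_one]
  exact hα

section Fam

variable (L M : ℕ) [NeZero L] [NeZero M] (H : Subgroup (ZMod M)ˣ) (ℓ : ℕ) [NeZero ℓ]

/-- the `Fintype` structure of `Γ ⧸ Γ'` -/
@[instance_reducible] def es1per_fintypeQuot : Fintype (↥(gammaH L M H) ⧸ subLevel L M H ℓ) :=
  (subLevel L M H ℓ).fintypeQuotientOfFiniteIndex

/-- the element `κ(γ, q) = conj_α (q.out⁻¹ γ (γ⁻¹ • q).out)` of `Γ` -/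
def es1per_heckeCoc (hML : M ∣ L) (γ : gammaH L M H)
    (q : ↥(gammaH L M H) ⧸ subLevel L M H ℓ) : gammaH L M H :=
  conjAlphaH H ℓ (NeZero.ne ℓ) hML (subLevelEquiv L M H ℓ (es1per_outElt γ q))

/-- **the Hecke coset family** `α_q = diag(ℓ, 1) · q.out⁻¹`, `q ∈ Γ ⧸ Γ'` -/
def es1per_heckeFam (hML : M ∣ L) :
    Es1perFam (gammaH L M H) (↥(gammaH L M H) ⧸ subLevel L M H ℓ) where
  rep q := heckeDiagMatrix ℓ * mapGL ℝ (((q.out : gammaH L M H) : SL(2, ℤ))⁻¹)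
  det_pos q := es1per_det_mapGL_pos _ _ (det_heckeDiagMatrix_pos ℓ)
  next γ q := γ⁻¹ • q
  coc γ q := es1per_heckeCoc L M H ℓ hML γ q
  spec γ q := by
    have h1 := es1per_conjAlpha_spec (NeZero.ne ℓ)
      ((subLevelEquiv L M H ℓ (es1per_outElt γ q) : gammaH (L * ℓ) M H) : SL(2, ℤ))
      (dvd_of_mem_gammaH_mul H ℓ (subLevelEquiv L M H ℓ (es1per_outElt γ q)).2)
    have h2 : ((subLevelEquiv L M H ℓ (es1per_outElt γ q) : gammaH (L * ℓ) M H) : SL(2, ℤ))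
        = ((q.out : gammaH L M H) : SL(2, ℤ))⁻¹ * (γ : SL(2, ℤ))
          * (((γ⁻¹ • q).out : gammaH L M H) : SL(2, ℤ)) := rfl
    show heckeDiagMatrix ℓ * mapGL ℝ (((q.out : gammaH L M H) : SL(2, ℤ))⁻¹)
        * mapGL ℝ (γ : SL(2, ℤ))
      = mapGL ℝ ((es1per_heckeCoc L M H ℓ hML γ q : gammaH L M H) : SL(2, ℤ))
        * (heckeDiagMatrix ℓ * mapGL ℝ ((((γ⁻¹ • q).out : gammaH L M H) : SL(2, ℤ))⁻¹))
    have h3 : mapGL ℝ ((es1per_heckeCoc L M H ℓ hML γ q : gammaH L M H) : SL(2, ℤ))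
        * heckeDiagMatrix ℓ
        = heckeDiagMatrix ℓ * mapGL ℝ (((q.out : gammaH L M H) : SL(2, ℤ))⁻¹ * (γ : SL(2, ℤ))
          * (((γ⁻¹ • q).out : gammaH L M H) : SL(2, ℤ))) := by
      rw [← h2]
      exact h1.symm
    rw [← mul_assoc, h3, map_mul, map_mul, map_inv, map_inv]
    group
  next_one q := by rw [inv_one, one_smul]
  next_mul γ δ q := by rw [_root_.mul_inv_rev, mul_smul]
  coc_mul γ δ q := by
    show es1per_heckeCoc L M H ℓ hML (γ * δ) q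
      = es1per_heckeCoc L M H ℓ hML γ q * es1per_heckeCoc L M H ℓ hML δ (γ⁻¹ • q)
    unfold es1per_heckeCoc
    rw [es1per_outElt_mul, map_mul, map_mul]

variable {A : Type} [AddCommGroup A]

/-- **the bridge**: `heckeGrp` is the operator of the Hecke coset family -/
theorem es1per_heckeGrp_eq_op (hML : M ∣ L) (φ : Additive (gammaH L M H) →+ A) :
    heckeGrp L M H ℓ hML φ
      = @Es1perFam.op _ _ (es1per_heckeFam L M H ℓ hML) (es1per_fintypeQuot L M H ℓ) A _ φ := by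
  letI := es1per_fintypeQuot L M H ℓ
  refine AddMonoidHom.ext fun γ => ?_
  obtain ⟨γ, rfl⟩ : ∃ g : gammaH L M H, Additive.ofMul g = γ := ⟨Additive.toMul γ, rfl⟩
  rw [heckeGrp_apply, Es1perFam.op_apply, es1per_transfer_apply]
  show Multiplicative.toAdd (∏ q, heckeRes L M H ℓ hML φ (es1per_outElt γ q)) = _
  rw [toAdd_prod]
  rfl

end Fam

end Fermat.Agent.ES1
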