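import Fermat.Agent.ES.Kronecker

/-!
# ES₁ / RC-cuspx, formal core: a field of Laurent series all of whose orders are divisible by `p`

`K` a field of characteristic `0`, `ω ∈ Kˣ` with `ω ^ p = 1`, `σ = kronRot ω` (`q ↦ ω q`).
Let `S` be a subfield of `K((q))` containing the constants such that the order of every nonzero
element of `S` is divisible by `p`, and containing a `σ`-invariant element `J` of nonzero order.
Then every element of `S` is `σ`-invariant (`es1rccxf_invariant`).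

Proof.  `D = σ - id`.  The order of `D x ≠ 0` is never divisible by `p`, and `ord x ≤ ord (D x)`.
Take `x ∈ S` with `D x ≠ 0` and `r = ord (D x) - ord x` minimal.  Then `y = x ^ k · J' ^ l`
(`J' = J ^ {±1}`, `k = |ord J|`, `l = |ord x|`) has order `0` and the same `r` (characteristic
`0`), and `y - y(0)` has the same `D` and a larger order, so a smaller `r`.
-/

set_option autoImplicit false

noncomputable section

namespace Fermat.Agent.ES1

open HahnSeries Fermat.Agent.ES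

variable {K : Type*} [Field K]

/-- `x = c q^n + (higher terms)` -/
def CxLeadAt (x : LaurentSeries K) (n : ℤ) (c : K) : Prop :=
  x.coeff n = c ∧ ∀ j : ℤ, j < n → x.coeff j = 0

namespace CxLeadAt

variable {x y : LaurentSeries K} {n m : ℤ} {c d : K}

theorem ne_zero (h : CxLeadAt x n c) (hc : c ≠ 0) : x ≠ 0 := by
  rintro rfl
  exact hc (by rw [← h.1, HahnSeries.coeff_zero])

theorem order_eq (h : CxLeadAt x n c) (hc : c ≠ 0) : x.order = n := by
  apply le_antisymm
  · exact HahnSeries.order_le_of_coeff_ne_zero (by rw [h.1]; exact hc)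
  · by_contra hlt
    push Not at hlt
    exact (HahnSeries.coeff_order_eq_zero.not.mpr (h.ne_zero hc)) (h.2 _ hlt)

theorem leadingCoeff_eq (h : CxLeadAt x n c) (hc : c ≠ 0) : x.leadingCoeff = c := by
  rw [HahnSeries.leadingCoeff_eq, h.order_eq hc, h.1]

theorem add (hx : CxLeadAt x n c) (hy : CxLeadAt y n d) : CxLeadAt (x + y) n (c + d) :=
  ⟨by rw [HahnSeries.coeff_add, hx.1, hy.1],
    fun j hj => by rw [HahnSeries.coeff_add, hx.2 j hj, hy.2 j hj, add_zero]⟩

theorem mul (hx : CxLeadAt x n c) (hy : CxLeadAt y m d) (hc : c ≠ 0) (hd : d ≠ 0) :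
    CxLeadAt (x * y) (n + m) (c * d) := by
  have hx0 := hx.ne_zero hc
  have hy0 := hy.ne_zero hd
  have h1 : (x * y).order = n + m := by
    rw [HahnSeries.order_mul hx0 hy0, hx.order_eq hc, hy.order_eq hd]
  have h2 : (x * y).leadingCoeff = c * d := by
    rw [HahnSeries.leadingCoeff_mul, hx.leadingCoeff_eq hc, hy.leadingCoeff_eq hd]
  refine ⟨by rw [← h2, HahnSeries.leadingCoeff_eq, h1], fun j hj => ?_⟩
  exact HahnSeries.coeff_eq_zero_of_lt_order (by rw [h1]; exact hj)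

theorem pow (hx : CxLeadAt x n c) (hc : c ≠ 0) (k : ℕ) : CxLeadAt (x ^ k) (k * n) (c ^ k) := by
  induction k with
  | zero =>
    rw [pow_zero, pow_zero, Nat.cast_zero, zero_mul]
    refine ⟨by rw [HahnSeries.coeff_one, if_pos rfl], fun j hj => ?_⟩
    rw [HahnSeries.coeff_one, if_neg (ne_of_lt hj)]
  | succ k ih =>
    have h := ih.mul hx (pow_ne_zero k hc) hc
    rw [← pow_succ, ← pow_succ] at h
    have e : (k : ℤ) * n + n = ((k + 1 : ℕ) : ℤ) * n := by push_cast; ring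
    rwa [e] at h

theorem kronRot (hx : CxLeadAt x n c) (ω : Kˣ) (hω : ω ^ n = 1) :
    CxLeadAt (kronRot ω x) n c :=
  ⟨by rw [kronRot_coeff, hω, Units.val_one, one_mul, hx.1],
    fun j hj => by rw [kronRot_coeff, hx.2 j hj, mul_zero]⟩

end CxLeadAt

theorem cxLeadAt_of_ne_zero (x : LaurentSeries K) :
    CxLeadAt x x.order x.leadingCoeff :=
  ⟨by rw [HahnSeries.leadingCoeff_eq], fun _ hj => HahnSeries.coeff_eq_zero_of_lt_order hj⟩

/-! ### The operator `D = σ - id` -/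

section D

variable (ω : Kˣ)

theorem es1rccxf_D_coeff (x : LaurentSeries K) (n : ℤ) :
    (kronRot ω x - x).coeff n = (((ω ^ n : Kˣ) : K) - 1) * x.coeff n := by
  rw [HahnSeries.coeff_sub, kronRot_coeff]
  ring

theorem es1rccxf_zpow_eq_one {p : ℕ} (hω : ω ^ p = 1) {n : ℤ} (hn : (p : ℤ) ∣ n) :
    ω ^ n = 1 := by
  obtain ⟨t, rfl⟩ := hn
  rw [zpow_mul, zpow_natCast, hω, one_zpow]

/-- the order of `D x` is not divisible by `p` -/
theorem es1rccxf_D_order_not_dvd {p : ℕ} (hω : ω ^ p = 1) {x : LaurentSeries K}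
    (h : kronRot ω x - x ≠ 0) : ¬ (p : ℤ) ∣ (kronRot ω x - x).order := by
  intro hdvd
  have h1 := HahnSeries.coeff_order_eq_zero.not.mpr h
  apply h1
  rw [es1rccxf_D_coeff, es1rccxf_zpow_eq_one ω hω hdvd, Units.val_one, sub_self, zero_mul]

/-- `ord x ≤ ord (D x)` -/
theorem es1rccxf_order_le_D {x : LaurentSeries K} (h : kronRot ω x - x ≠ 0) :
    x.order ≤ (kronRot ω x - x).order := by
  have h1 := HahnSeries.coeff_order_eq_zero.not.mpr h
  rw [es1rccxf_D_coeff] at h1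
  exact HahnSeries.order_le_of_coeff_ne_zero (right_ne_zero_of_mul h1)

theorem es1rccxf_D_mul (x y : LaurentSeries K) :
    kronRot ω (x * y) - x * y = kronRot ω x * (kronRot ω y - y) + (kronRot ω x - x) * y := by
  rw [map_mul]; ring

/-- `D (x ^ k) = k c^{k-1} δ q^{k m + r} + …` if `x = c q^m + …`, `D x = δ q^{m + r} + …`
(`k ≥ 1`, `ω ^ m = 1`) -/
theorem es1rccxf_D_pow [CharZero K] {x : LaurentSeries K} {m r : ℤ} {c δ : K}
    (hx : CxLeadAt x m c) (hc : c ≠ 0) (hm : ω ^ m = 1)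
    (hD : CxLeadAt (kronRot ω x - x) (m + r) δ) (hδ : δ ≠ 0) (k : ℕ) :
    CxLeadAt (kronRot ω (x ^ (k + 1)) - x ^ (k + 1)) (((k + 1 : ℕ) : ℤ) * m + r)
      (((k + 1 : ℕ) : K) * c ^ k * δ) := by
  induction k with
  | zero =>
    rw [zero_add, pow_one, pow_zero, Nat.cast_one, Nat.cast_one, one_mul, one_mul, one_mul]
    exact hD
  | succ k ih =>
    rw [pow_succ x (k + 1), es1rccxf_D_mul]
    have hk : ((k + 1 : ℕ) : K) * c ^ k * δ ≠ 0 :=
      mul_ne_zero (mul_ne_zero (Nat.cast_ne_zero.mpr (Nat.succ_ne_zero k)) (pow_ne_zero k hc)) hδ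
    · have h1 : CxLeadAt (kronRot ω (x ^ (k + 1))) (((k + 1 : ℕ) : ℤ) * m) (c ^ (k + 1)) :=
        (hx.pow hc (k + 1)).kronRot ω (by rw [zpow_mul', hm, one_zpow])
      have h2 := h1.mul hD (pow_ne_zero _ hc) hδ
      have h3 := ih.mul hx hk hc
      have e1 : ((k + 1 : ℕ) : ℤ) * m + (m + r) = ((k + 1 + 1 : ℕ) : ℤ) * m + r := by
        push_cast; ring
      have e2 : ((k + 1 : ℕ) : ℤ) * m + r + m = ((k + 1 + 1 : ℕ) : ℤ) * m + r := by
        push_cast; ring
      rw [e1] at h2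
      rw [e2] at h3
      have h4 := h2.add h3
      have e3 : c ^ (k + 1) * δ + ((k + 1 : ℕ) : K) * c ^ k * δ * c =
          ((k + 1 + 1 : ℕ) : K) * c ^ (k + 1) * δ := by
        push_cast; ring
      rwa [e3] at h4

end D

/-! ### The main formal statement -/

section Main

variable (ω : Kˣ)

theorem es1rccxf_kronRot_C (c : K) : kronRot ω (HahnSeries.C c) = HahnSeries.C c := by
  ext n
  rw [kronRot_coeff]
  by_cases hn : n = 0
  · subst hn
    simp
  · have : (HahnSeries.C c : LaurentSeries K).coeff n = 0 := by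
      rw [HahnSeries.C_apply, HahnSeries.coeff_single_of_ne hn]
    rw [this, mul_zero]

/-- an element of order `0` with `D ≠ 0` gives one of positive order with the same `D` -/
theorem es1rccxf_step (S : Subfield (LaurentSeries K)) (hC : ∀ c : K, HahnSeries.C c ∈ S)
    {y : LaurentSeries K} (hy : y ∈ S) (hy0 : y.order = 0) (hDy : kronRot ω y - y ≠ 0) :
    ∃ y' ∈ S, kronRot ω y' - y' = kronRot ω y - y ∧ 0 < y'.order := by
  refine ⟨y - HahnSeries.C (y.coeff 0), S.sub_mem hy (hC _), ?_, ?_⟩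
  · rw [map_sub, es1rccxf_kronRot_C]; ring
  · have hD' : kronRot ω (y - HahnSeries.C (y.coeff 0)) - (y - HahnSeries.C (y.coeff 0)) ≠ 0 := by
      rw [map_sub, es1rccxf_kronRot_C]
      intro h
      apply hDy
      rw [← h]; ring
    have hy' : y - HahnSeries.C (y.coeff 0) ≠ 0 := by
      intro h
      rw [h, map_zero, sub_zero] at hD'
      exact hD' rfl
    have hcoeff : ∀ j : ℤ, j ≤ 0 → (y - HahnSeries.C (y.coeff 0)).coeff j = 0 := by
      intro j hj
      rw [HahnSeries.coeff_sub, HahnSeries.C_apply]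
      rcases hj.lt_or_eq with hlt | heq
      · rw [HahnSeries.coeff_eq_zero_of_lt_order (by rw [hy0]; exact hlt),
          HahnSeries.coeff_single_of_ne (ne_of_lt hlt), sub_zero]
      · rw [heq, HahnSeries.coeff_single_same, sub_self]
    by_contra hle
    push Not at hle
    exact HahnSeries.coeff_order_eq_zero.not.mpr hy' (hcoeff _ hle)

theorem es1rccxf_order_inv {x : LaurentSeries K} (hx : x ≠ 0) : x⁻¹.order = -x.order := by
  have h := HahnSeries.order_mul hx (inv_ne_zero hx)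
  rw [mul_inv_cancel₀ hx, HahnSeries.order_one] at h
  linarith

/-- **Formal core of RC-cuspx.** -/
theorem es1rccxf_invariant [CharZero K] {p : ℕ} (hω : ω ^ p = 1)
    (S : Subfield (LaurentSeries K)) (hC : ∀ c : K, HahnSeries.C c ∈ S)
    (hord : ∀ x ∈ S, x ≠ 0 → (p : ℤ) ∣ x.order)
    (J : LaurentSeries K) (hJ : J ∈ S) (hJσ : kronRot ω J = J) (hJord : J.order ≠ 0) :
    ∀ x ∈ S, kronRot ω x = x := by
  classical
  by_contra hne
  push Not at hne
  have hex : ∃ n : ℕ, ∃ x ∈ S, kronRot ω x - x ≠ 0 ∧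
      (kronRot ω x - x).order = x.order + n := by
    obtain ⟨x, hx, hxne⟩ := hne
    have hD : kronRot ω x - x ≠ 0 := sub_ne_zero.mpr hxne
    have hle := es1rccxf_order_le_D ω hD
    exact ⟨((kronRot ω x - x).order - x.order).toNat, x, hx, hD, by
      rw [Int.toNat_of_nonneg (sub_nonneg.mpr hle)]; ring⟩
  obtain ⟨x, hx, hD, hrx⟩ := Nat.find_spec hex
  have hmin : ∀ n : ℕ, n < Nat.find hex → ¬ ∃ x ∈ S, kronRot ω x - x ≠ 0 ∧
      (kronRot ω x - x).order = x.order + n := fun n hn => Nat.find_min hex hn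
  set n₀ := Nat.find hex with hn₀
  have hx0 : x ≠ 0 := by
    rintro rfl
    rw [map_zero, sub_zero] at hD
    exact hD rfl
  have hJ0 : J ≠ 0 := by
    rintro rfl
    exact hJord HahnSeries.order_zero
  -- an invariant element of `S` with order of the right sign
  obtain ⟨J', hJ', hJ'σ, hJ'0, hJ'ord, hsign⟩ : ∃ J' ∈ S, kronRot ω J' = J' ∧ J' ≠ 0 ∧
      J'.order ≠ 0 ∧ (J'.order.natAbs : ℤ) * x.order + (x.order.natAbs : ℤ) * J'.order = 0 := by
    have hinv : kronRot ω J⁻¹ = J⁻¹ := by rw [map_inv₀, hJσ]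
    have hordinv := es1rccxf_order_inv hJ0
    have key : ∀ a m : ℤ, (0 ≤ m ∧ a ≤ 0) ∨ (m ≤ 0 ∧ 0 ≤ a) →
        (a.natAbs : ℤ) * m + (m.natAbs : ℤ) * a = 0 := by
      rintro a m (⟨h1, h2⟩ | ⟨h1, h2⟩)
      · rw [Int.natCast_natAbs, Int.natCast_natAbs, abs_of_nonneg h1, abs_of_nonpos h2]; ring
      · rw [Int.natCast_natAbs, Int.natCast_natAbs, abs_of_nonpos h1, abs_of_nonneg h2]; ring
    rcases le_total 0 x.order with hm | hm
    · rcases le_total J.order 0 with ha | ha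
      · exact ⟨J, hJ, hJσ, hJ0, hJord, key _ _ (Or.inl ⟨hm, ha⟩)⟩
      · exact ⟨J⁻¹, S.inv_mem hJ, hinv, inv_ne_zero hJ0, by rw [hordinv]; exact neg_ne_zero.mpr hJord,
          key _ _ (Or.inl ⟨hm, by rw [hordinv]; linarith⟩)⟩
    · rcases le_total 0 J.order with ha | ha
      · exact ⟨J, hJ, hJσ, hJ0, hJord, key _ _ (Or.inr ⟨hm, ha⟩)⟩
      · exact ⟨J⁻¹, S.inv_mem hJ, hinv, inv_ne_zero hJ0, by rw [hordinv]; exact neg_ne_zero.mpr hJord,
          key _ _ (Or.inr ⟨hm, by rw [hordinv]; linarith⟩)⟩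
  -- leading terms
  have hxL := cxLeadAt_of_ne_zero x
  have hc : x.leadingCoeff ≠ 0 := HahnSeries.leadingCoeff_ne_zero.mpr hx0
  have hJL := cxLeadAt_of_ne_zero J'
  have hcJ : J'.leadingCoeff ≠ 0 := HahnSeries.leadingCoeff_ne_zero.mpr hJ'0
  have hDL := cxLeadAt_of_ne_zero (kronRot ω x - x)
  have hδ : (kronRot ω x - x).leadingCoeff ≠ 0 := HahnSeries.leadingCoeff_ne_zero.mpr hD
  rw [hrx] at hDL
  have hωm : ω ^ x.order = 1 := es1rccxf_zpow_eq_one ω hω (hord x hx hx0)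
  obtain ⟨k, hk⟩ : ∃ k : ℕ, J'.order.natAbs = k + 1 :=
    Nat.exists_eq_succ_of_ne_zero (Int.natAbs_ne_zero.mpr hJ'ord)
  have hDpow := es1rccxf_D_pow ω hxL hc hωm hDL hδ k
  rw [← hk] at hDpow
  set l := x.order.natAbs with hl
  have hJpow := hJL.pow hcJ l
  -- the element `y`
  have hyS : x ^ J'.order.natAbs * J' ^ l ∈ S := S.mul_mem (S.pow_mem hx _) (S.pow_mem hJ' _)
  have hDy_eq : kronRot ω (x ^ J'.order.natAbs * J' ^ l) - x ^ J'.order.natAbs * J' ^ l =
      (kronRot ω (x ^ J'.order.natAbs) - x ^ J'.order.natAbs) * J' ^ l := by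
    rw [map_mul, map_pow ( kronRot ω) J', hJ'σ]; ring
  have hcoef : ((J'.order.natAbs : ℕ) : K) * x.leadingCoeff ^ k *
      (kronRot ω x - x).leadingCoeff ≠ 0 :=
    mul_ne_zero (mul_ne_zero (Nat.cast_ne_zero.mpr (Int.natAbs_ne_zero.mpr hJ'ord))
      (pow_ne_zero k hc)) hδ
  have hDyL := hDpow.mul hJpow hcoef (pow_ne_zero l hcJ)
  rw [← hDy_eq] at hDyL
  have hDy_ne := hDyL.ne_zero (mul_ne_zero hcoef (pow_ne_zero l hcJ))
  have hDy_ord := hDyL.order_eq (mul_ne_zero hcoef (pow_ne_zero l hcJ))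
  have hyL := (hxL.pow hc J'.order.natAbs).mul hJpow (pow_ne_zero _ hc) (pow_ne_zero l hcJ)
  have hy_ord := hyL.order_eq (mul_ne_zero (pow_ne_zero _ hc) (pow_ne_zero l hcJ))
  rw [hsign] at hy_ord
  have hDy_ord' : (kronRot ω (x ^ J'.order.natAbs * J' ^ l) -
      x ^ J'.order.natAbs * J' ^ l).order = (n₀ : ℤ) := by
    rw [hDy_ord]
    linear_combination hsign
  -- the step
  obtain ⟨y', hy'S, hDy', hy'pos⟩ := es1rccxf_step ω S hC hyS hy_ord hDy_ne
  have hDy'_ne : kronRot ω y' - y' ≠ 0 := by rw [hDy']; exact hDy_ne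
  have hy'0 : y' ≠ 0 := by
    rintro rfl
    rw [HahnSeries.order_zero] at hy'pos
    exact lt_irrefl _ hy'pos
  have h1 : y'.order ≤ (n₀ : ℤ) := by
    have := es1rccxf_order_le_D ω hDy'_ne
    rwa [hDy', hDy_ord'] at this
  have h2 : y'.order ≠ (n₀ : ℤ) := by
    intro h
    have h3 := es1rccxf_D_order_not_dvd ω hω hDy'_ne
    rw [hDy', hDy_ord', ← h] at h3
    exact h3 (hord y' hy'S hy'0)
  have h3 : y'.order < (n₀ : ℤ) := lt_of_le_of_ne h1 h2
  refine hmin ((n₀ : ℤ) - y'.order).toNat ?_ ⟨y', hy'S, hDy'_ne, ?_⟩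
  · have : (((n₀ : ℤ) - y'.order).toNat : ℤ) < n₀ := by
      rw [Int.toNat_of_nonneg (by linarith)]
      linarith
    exact_mod_cast this
  · rw [hDy', hDy_ord', Int.toNat_of_nonneg (by linarith)]
    ring

end Main

end Fermat.Agent.ES1
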