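import Fermat.Agent.ES1.RealPt
import Fermat.Agent.S24.PlaceCusp

/-!
# ES₁ / F4, piece P1 (part 4): the place of `realM L` at the cusp `i∞`, property (L) for `T`

* `RealC.isPer_of_mem`, `RealC.meromorphicAt_cuspFn_of_mem` : the elements of
  `realB N = modFunAlgG Γ(N)` are `N`-periodic and meromorphic in `q_N` at `i∞`
  (NEW proof: `f · Δ ^ m` is a modular form of level `Γ(N)`);
* the rest is a fork of `S24/PlaceCusp.lean`: `RealC.exists_place_inf`.
-/

set_option autoImplicit false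
set_option linter.unusedSectionVars false
set_option linter.unusedVariables false

noncomputable section

open Complex Filter Topology UpperHalfPlane Function AlgebraicCurve WithZero CongruenceSubgroup
open scoped MatrixGroups Manifold ModularForm

namespace Fermat.Agent.ES1.RealC

open Fermat.Agent.S24 Fermat.Agent.S23 Fermat.Agent.ES1

local notation "Δ" => ModularForm.discriminant

/-! ### The elements of `realB N` at the cusp -/

theorem isPer_of_mem {N : ℕ} [NeZero N] {f : ℍ → ℂ} (hf : f ∈ realB N) : IsPer N f := by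
  intro τ
  have hT : ModularGroup.T ^ (N : ℤ) ∈ CongruenceSubgroup.Gamma N := by
    simpa using CongruenceSubgroup.ModularGroup_T_pow_mem_Gamma (N : ℤ) (N : ℤ) dvd_rfl
  have := smul_of_mem_realB_of_mem_Gamma hf hT τ
  rw [modular_T_zpow_smul] at this
  simpa using this

/-- the cusp function (in `q_N`) of a modular form of level `Γ(N)` is meromorphic at `0` -/
theorem meromorphicAt_cuspFn_of_isMF {N : ℕ} [NeZero N] {κ : ℤ} {F : ℍ → ℂ}
    (hF : IsMF (gGL (Gamma N)) κ F) : MeromorphicAt (cuspFn N F) 0 := by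
  obtain ⟨G, rfl⟩ := hF
  have hN : (0 : ℝ) < (N : ℝ) := by exact_mod_cast Nat.pos_of_ne_zero (NeZero.ne N)
  have hper : (N : ℝ) ∈ (gGL (Gamma N)).strictPeriods := by
    rw [CongruenceSubgroup.strictPeriods_Gamma]
    exact AddSubgroup.mem_zmultiples _
  have han : AnalyticAt ℂ (UpperHalfPlane.cuspFunction (N : ℝ) (G : ℍ → ℂ)) 0 :=
    ModularFormClass.analyticAt_cuspFunction_zero G hN hper
  refine han.meromorphicAt.congr ?_
  filter_upwards [self_mem_nhdsWithin] with q hq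
  rw [UpperHalfPlane.cuspFunction, Function.Periodic.cuspFunction_eq_of_nonzero _ _ hq]
  rfl

/-- The cusp function of every element of `realB N` is meromorphic at `0`. -/
theorem meromorphicAt_cuspFn_of_mem {N : ℕ} [NeZero N] {f : ℍ → ℂ} (hf : f ∈ realB N) :
    MeromorphicAt (cuspFn N f) 0 := by
  obtain ⟨m, hm⟩ := hf
  have h1 := meromorphicAt_cuspFn_of_isMF hm
  have h2 : MeromorphicAt (cuspFn N (fun z => Δ z ^ m)) 0 :=
    meromorphicAt_cuspFn_of_isMF ((isMF_discriminantG (Gamma N)).pow m)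
  have h3 : cuspFn N f = cuspFn N (fun z => f z * Δ z ^ m) / cuspFn N (fun z => Δ z ^ m) := by
    funext q
    simp only [cuspFn_apply, Pi.div_apply]
    rw [mul_div_assoc, div_self (pow_ne_zero m (ModularForm.discriminant_ne_zero _)), mul_one]
  rw [h3]
  exact h1.div h2

/-- The cusp function of a nonzero element of `realB N` does not vanish identically near `0`. -/
theorem meromorphicOrderAt_cuspFn_ne_top' {N : ℕ} [NeZero N] {f : ℍ → ℂ} (hf : f ∈ realB N)
    (hf0 : f ≠ 0) : meromorphicOrderAt (cuspFn N f) 0 ≠ ⊤ := by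
  intro h
  rw [meromorphicOrderAt_eq_top_iff] at h
  exact hf0 (eq_zero_of_cuspFn_eventually_zero (Nat.pos_of_ne_zero (NeZero.ne N))
    (es1r_mdiff hf) (isPer_of_mem hf) h)

/-! ### The order at `i∞` on `realB N` -/

/-- The order at `i∞` (in `q_N`) of `b ∈ realB N`. -/
def ordInf (N : ℕ) [NeZero N] (b : realB N) : WithTop ℤ := meromorphicOrderAt (cuspFn N (b : ℍ → ℂ)) 0

theorem ordInf_zero (N : ℕ) [NeZero N] : ordInf N 0 = ⊤ := by
  rw [ordInf, meromorphicOrderAt_eq_top_iff]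
  exact Eventually.of_forall fun q => rfl

theorem ordInf_one (N : ℕ) [NeZero N] : ordInf N 1 = 0 := by
  have h : cuspFn N ((1 : realB N) : ℍ → ℂ) = fun _ => (1 : ℂ) := rfl
  rw [ordInf, h]
  classical
  rw [meromorphicOrderAt_const]
  simp

theorem ordInf_mul {N : ℕ} [NeZero N] (hN : 0 < N) (a b : realB N) :
    ordInf N (a * b) = ordInf N a + ordInf N b := by
  have h : cuspFn N ((a * b : realB N) : ℍ → ℂ) = cuspFn N a * cuspFn N b := rfl
  rw [ordInf, h]
  exact meromorphicOrderAt_mul (meromorphicAt_cuspFn_of_mem a.2)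
    (meromorphicAt_cuspFn_of_mem b.2)

theorem ordInf_add {N : ℕ} [NeZero N] (hN : 0 < N) (a b : realB N) :
    min (ordInf N a) (ordInf N b) ≤ ordInf N (a + b) := by
  have h : cuspFn N ((a + b : realB N) : ℍ → ℂ) = cuspFn N a + cuspFn N b := rfl
  rw [ordInf, ordInf, ordInf, h]
  exact meromorphicOrderAt_add (meromorphicAt_cuspFn_of_mem a.2)
    (meromorphicAt_cuspFn_of_mem b.2)

theorem ordInf_ne_top {N : ℕ} [NeZero N] (hN : 0 < N) {b : realB N} (hb : b ≠ 0) : ordInf N b ≠ ⊤ :=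
  meromorphicOrderAt_cuspFn_ne_top' b.2 (fun h => hb (Subtype.ext h))

theorem ordInf_algebraMap {N : ℕ} [NeZero N] (c : ℂ) (hc : c ≠ 0) :
    ordInf N (algebraMap ℂ (realB N) c) = 0 := by
  have h : cuspFn N ((algebraMap ℂ (realB N) c : realB N) : ℍ → ℂ) = fun _ => c := rfl
  rw [ordInf, h]
  classical
  rw [meromorphicOrderAt_const]
  have : c ≠ 0 := by simpa using hc
  simp [this]

theorem ordInf_jBan {N : ℕ} [NeZero N] (hN : 0 < N) : ordInf N (realJB N) = ((-(N : ℤ) : ℤ) : WithTop ℤ) :=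
  meromorphicOrderAt_cuspFn_Jfun hN

/-- The valuation at `i∞` on `realB N`. -/
def vBan (N : ℕ) [NeZero N] : Valuation (realB N) ℤᵐ⁰ :=
  valuationOfOrd (ordInf N) (ordInf_zero N) (ordInf_one N)
    (ordInf_mul (Nat.pos_of_ne_zero (NeZero.ne N))) (ordInf_add (Nat.pos_of_ne_zero (NeZero.ne N)))

theorem vBan_apply (N : ℕ) [NeZero N] (b : realB N) : vBan N b = expNegTop (ordInf N b) := rfl

theorem vBan_ne_zero (N : ℕ) [NeZero N] {b : realB N} (hb : b ≠ 0) : vBan N b ≠ 0 := by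
  rw [vBan_apply, Ne, expNegTop_eq_zero_iff]
  exact ordInf_ne_top (Nat.pos_of_ne_zero (NeZero.ne N)) hb

theorem nonZeroDivisors_le_supp_vBan (N : ℕ) [NeZero N] :
    nonZeroDivisors (realB N) ≤ (vBan N).supp.primeCompl := by
  intro b hb
  have hb0 : b ≠ 0 := nonZeroDivisors.ne_zero hb
  show b ∉ (vBan N).supp
  rw [Valuation.mem_supp_iff]
  exact vBan_ne_zero N hb0

/-- The valuation at `i∞` on `realM N`. -/
def vInf (N : ℕ) [NeZero N] : Valuation (realM N) ℤᵐ⁰ :=
  (vBan N).extendToLocalization (nonZeroDivisors_le_supp_vBan N) (realM N)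

@[simp] theorem vInf_algebraMap (N : ℕ) [NeZero N] (b : realB N) :
    vInf N (algebraMap (realB N) (realM N) b) = vBan N b :=
  Valuation.extendToLocalization_apply_map_apply _ _ _ b

theorem vord_vInf_algebraMap (N : ℕ) [NeZero N] {b : realB N} (hb : b ≠ 0) :
    vord (vInf N) (algebraMap (realB N) (realM N) b) = (ordInf N b).untop₀ := by
  rw [vord, vInf_algebraMap, vBan_apply]
  obtain ⟨n, hn⟩ := WithTop.ne_top_iff_exists.mp
    (ordInf_ne_top (Nat.pos_of_ne_zero (NeZero.ne N)) hb)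
  rw [← hn]
  simp

theorem vInf_algebraMap_Kb_le (N : ℕ) [NeZero N] (c : ℂ) :
    vInf N (algebraMap ℂ (realM N) c) ≤ 1 := by
  rw [IsScalarTower.algebraMap_apply ℂ (realB N) (realM N), vInf_algebraMap, vBan_apply]
  rcases eq_or_ne c 0 with rfl | hc
  · rw [map_zero, ordInf_zero, expNegTop_top]
    exact zero_le_one
  · rw [ordInf_algebraMap c hc]
    have : ((0 : ℤ) : WithTop ℤ) = 0 := rfl
    rw [← this, expNegTop_coe]
    simp

theorem jBan_ne_zero (N : ℕ) [NeZero N] : realJB N ≠ 0 := by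
  intro h
  have h1 := ordInf_jBan (N := N) (Nat.pos_of_ne_zero (NeZero.ne N))
  rw [h, ordInf_zero] at h1
  exact WithTop.top_ne_coe h1

theorem jMan_ne_zero (N : ℕ) [NeZero N] : realJ N ≠ 0 := by
  rw [realJ, Ne, map_eq_zero_iff _ (IsFractionRing.injective (realB N) (realM N))]
  exact jBan_ne_zero N

theorem vord_vInf_jMan (N : ℕ) [NeZero N] : vord (vInf N) (realJ N) = -(N : ℤ) := by
  rw [realJ, vord_vInf_algebraMap N (jBan_ne_zero N),
    ordInf_jBan (Nat.pos_of_ne_zero (NeZero.ne N))]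
  simp

theorem vord_vInf_jMan_inv (N : ℕ) [NeZero N] : vord (vInf N) (realJ N)⁻¹ = (N : ℤ) := by
  rw [vord_inv, vord_vInf_jMan, neg_neg]

/-! ### The action of `T` -/

theorem qParam_add (h : ℝ) (x y : ℂ) :
    Function.Periodic.qParam h (x + y) = Function.Periodic.qParam h x * Function.Periodic.qParam h y := by
  simp only [Function.Periodic.qParam]
  rw [← Complex.exp_add]
  congr 1
  ring

/-- The rotation factor of `T ^ k`: `exp (- 2 π i k / N)`. -/
def rotT (N k : ℕ) : ℂ := Function.Periodic.qParam (N : ℝ) (-(k : ℂ))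

theorem rotT_ne_zero (N k : ℕ) : rotT N k ≠ 0 := Function.Periodic.qParam_ne_zero _

theorem cuspFn_precomp_T_pow {N : ℕ} [NeZero N] (hN : 0 < N) {f : ℍ → ℂ} (hf : IsPer N f) (k : ℕ) :
    ∀ᶠ q in 𝓝[≠] (0 : ℂ),
      cuspFn N (precompC (ModularGroup.T ^ k) f) q = cuspFn N f (rotT N k * q) := by
  filter_upwards [eventually_punctured_disc] with q hq
  set τ : ℍ := ofComplex (Function.Periodic.invQParam (N : ℝ) q) with hτ
  have hqτ : Function.Periodic.qParam (N : ℝ) (τ : ℂ) = q :=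
    qParam_ofComplex_invQParam hN hq.1 hq.2
  have e1 : ((ModularGroup.T ^ k : SL(2, ℤ)))⁻¹ • τ = ((-(k : ℤ) : ℤ) : ℝ) +ᵥ τ := by
    rw [← modular_T_zpow_smul, zpow_neg, zpow_natCast]
  have e2 : rotT N k * q
      = Function.Periodic.qParam (N : ℝ) ((((-(k : ℤ) : ℤ) : ℝ) +ᵥ τ : ℍ) : ℂ) := by
    rw [coe_vadd, qParam_add, hqτ, rotT]
    congr 2
    push_cast
    rfl
  rw [cuspFn_apply, ← hτ, precompC_apply, e1, e2, cuspFn_qParam hN hf]

theorem ordInf_actBan_T_pow (N : ℕ) [NeZero N] (k : ℕ) (b : realB N) :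
    ordInf N (actB N (ModularGroup.T ^ k) b) = ordInf N b := by
  have hN : 0 < N := Nat.pos_of_ne_zero (NeZero.ne N)
  have h := cuspFn_precomp_T_pow hN (isPer_of_mem b.2) k
  rw [ordInf, ordInf, actB_coe, meromorphicOrderAt_congr h,
    meromorphicOrderAt_comp_mul_zero _ (rotT_ne_zero N k)]

theorem vInf_act_T_pow (N : ℕ) [NeZero N] (k : ℕ) (m : realM N) :
    vInf N (act N (ModularGroup.T ^ k) m) = vInf N m := by
  obtain ⟨a, b, hb, rfl⟩ := IsFractionRing.div_surjective (A := realB N) m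
  simp only [map_div₀, act_algebraMap, vInf_algebraMap, vBan_apply, ordInf_actBan_T_pow]

theorem vInf_act_T (N : ℕ) [NeZero N] (m : realM N) :
    vInf N (act N ModularGroup.T m) = vInf N m := by
  simpa using vInf_act_T_pow N 1 m

/-! ### Property (L) -/

theorem dvd_of_rotT_zpow_eq_one {N : ℕ} [NeZero N] (hN : 0 < N) (k : ℕ) (n : ℤ) (h : rotT N k ^ n = 1) :
    (N : ℤ) ∣ (k : ℤ) * n := by
  rw [rotT, Function.Periodic.qParam, ← Complex.exp_int_mul, Complex.exp_eq_one_iff] at h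
  obtain ⟨m, hm⟩ := h
  have hN' : ((N : ℝ) : ℂ) ≠ 0 := by exact_mod_cast hN.ne'
  have h2 : (2 * (Real.pi : ℂ) * Complex.I) ≠ 0 := Complex.two_pi_I_ne_zero
  have h3 : ((n : ℂ) * (-(k : ℂ))) = (m : ℂ) * (N : ℂ) := by
    have hN'' : (N : ℂ) ≠ 0 := by exact_mod_cast hN.ne'
    have e : (n : ℂ) * (2 * (Real.pi : ℂ) * Complex.I * (-(k : ℂ)) / ((N : ℝ) : ℂ))
        = ((n : ℂ) * (-(k : ℂ)) / (N : ℂ)) * (2 * (Real.pi : ℂ) * Complex.I) := by
      push_cast; ring
    rw [e] at hm
    have := mul_right_cancel₀ h2 hm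
    field_simp at this
    linear_combination this
  have h4 : n * (-(k : ℤ)) = m * (N : ℤ) := by exact_mod_cast h3
  exact ⟨-m, by linear_combination -h4⟩

/-- Analytic core of (L): a `T^k`-invariant element of `realM N` has order at `i∞` with
`N ∣ k · ord`. -/
theorem dvd_vord_of_act_T_pow_eq (N : ℕ) [NeZero N] (k : ℕ) {m : realM N} (hm : m ≠ 0)
    (h : act N (ModularGroup.T ^ k) m = m) : (N : ℤ) ∣ (k : ℤ) * vord (vInf N) m := by
  have hN : 0 < N := Nat.pos_of_ne_zero (NeZero.ne N)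
  obtain ⟨a, b, hb, rfl⟩ := IsFractionRing.div_surjective (A := realB N) m
  have hb0 : b ≠ 0 := nonZeroDivisors.ne_zero hb
  have ha0 : a ≠ 0 := by
    rintro rfl
    simp at hm
  have hinj := IsFractionRing.injective (realB N) (realM N)
  have hb' : algebraMap (realB N) (realM N) b ≠ 0 := by
    rwa [Ne, map_eq_zero_iff _ hinj]
  have ha' : algebraMap (realB N) (realM N) a ≠ 0 := by
    rwa [Ne, map_eq_zero_iff _ hinj]
  have hTb0 : actB N (ModularGroup.T ^ k) b ≠ 0 := by
    rw [Ne, map_eq_zero_iff _ (actB N (ModularGroup.T ^ k)).injective]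
    exact hb0
  have hTb' : algebraMap (realB N) (realM N) (actB N (ModularGroup.T ^ k) b) ≠ 0 := by
    rwa [Ne, map_eq_zero_iff _ hinj]
  -- the relation in `realB N`
  have hrel : actB N (ModularGroup.T ^ k) a * b = a * actB N (ModularGroup.T ^ k) b := by
    apply hinj
    rw [map_div₀, act_algebraMap, act_algebraMap, div_eq_div_iff hTb' hb'] at h
    rw [map_mul, map_mul, h]
  -- as functions of `q`
  set A : ℂ → ℂ := cuspFn N (a : ℍ → ℂ) with hA
  set B : ℂ → ℂ := cuspFn N (b : ℍ → ℂ) with hB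
  set c : ℂ := rotT N k with hc
  have hc0 : c ≠ 0 := rotT_ne_zero N k
  have hAm : MeromorphicAt A 0 := meromorphicAt_cuspFn_of_mem a.2
  have hBm : MeromorphicAt B 0 := meromorphicAt_cuspFn_of_mem b.2
  have hAtop : meromorphicOrderAt A 0 ≠ ⊤ := ordInf_ne_top hN ha0
  have hBtop : meromorphicOrderAt B 0 ≠ ⊤ := ordInf_ne_top hN hb0
  have hrelq : ∀ q, cuspFn N (precompC (ModularGroup.T ^ k) (a : ℍ → ℂ)) q * B q
      = A q * cuspFn N (precompC (ModularGroup.T ^ k) (b : ℍ → ℂ)) q := by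
    intro q
    have := congrArg (fun f : realB N => cuspFn N (f : ℍ → ℂ) q) hrel
    exact this
  have hA' := cuspFn_precomp_T_pow hN (isPer_of_mem a.2) k
  have hB' := cuspFn_precomp_T_pow hN (isPer_of_mem b.2) k
  have hBne : ∀ᶠ q in 𝓝[≠] (0 : ℂ), B q ≠ 0 :=
    (meromorphicOrderAt_ne_top_iff_eventually_ne_zero hBm).mp hBtop
  have hBcm : MeromorphicAt (fun q => B (c * q)) 0 := meromorphicAt_comp_mul_zero hBm c
  have hBcne : ∀ᶠ q in 𝓝[≠] (0 : ℂ), B (c * q) ≠ 0 := by
    have : meromorphicOrderAt (fun q => B (c * q)) 0 ≠ ⊤ := by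
      rw [meromorphicOrderAt_comp_mul_zero _ hc0]; exact hBtop
    exact (meromorphicOrderAt_ne_top_iff_eventually_ne_zero hBcm).mp this
  -- the quotient
  set Φ : ℂ → ℂ := A / B with hΦ
  have hΦm : MeromorphicAt Φ 0 := hAm.div hBm
  obtain ⟨na, hna⟩ := WithTop.ne_top_iff_exists.mp hAtop
  obtain ⟨nb, hnb⟩ := WithTop.ne_top_iff_exists.mp hBtop
  have hΦord : meromorphicOrderAt Φ 0 = ((na - nb : ℤ) : WithTop ℤ) := by
    rw [hΦ, meromorphicOrderAt_div hAm hBm, ← hna, ← hnb]
    rfl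
  have hΦtop : meromorphicOrderAt Φ 0 ≠ ⊤ := by
    rw [hΦord]; exact WithTop.coe_ne_top
  have hinv : ∀ᶠ q in 𝓝[≠] (0 : ℂ), Φ (c * q) = Φ q := by
    filter_upwards [hA', hB', hBne, hBcne] with q h1 h2 h3 h4
    have := hrelq q
    rw [h1, h2] at this
    simp only [hΦ, Pi.div_apply]
    rw [div_eq_div_iff h4 h3]
    exact this
  have key := zpow_order_eq_one_of_comp_mul hc0 hΦm hΦtop hinv
  rw [hΦord, WithTop.untop₀_coe] at key
  have hdvd := dvd_of_rotT_zpow_eq_one hN k (na - nb) key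
  have hv : vord (vInf N) (algebraMap (realB N) (realM N) a / algebraMap (realB N) (realM N) b)
      = na - nb := by
    rw [div_eq_mul_inv, vord_mul _ ha' (inv_ne_zero hb'), vord_inv,
      vord_vInf_algebraMap N ha0, vord_vInf_algebraMap N hb0]
    have e1 : ordInf N a = (na : WithTop ℤ) := hna.symm
    have e2 : ordInf N b = (nb : WithTop ℤ) := hnb.symm
    rw [e1, e2]
    simp
    ring
  rw [hv]
  exact hdvd

/-- **P5c**: the place of `realM N` at the cusp `i∞`, with property (L) for `T`. -/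
theorem exists_place_inf (N : ℕ) [NeZero N] :
    ∃ w : Place ℂ (realM N), LocalProp (realJ N)⁻¹ (act N ModularGroup.T) w := by
  have hN : 0 < N := Nat.pos_of_ne_zero (NeZero.ne N)
  have hx0 : (realJ N)⁻¹ ≠ 0 := inv_ne_zero (jMan_ne_zero N)
  have hxv : vord (vInf N) (realJ N)⁻¹ = (N : ℤ) := vord_vInf_jMan_inv N
  have hxlt : vInf N (realJ N)⁻¹ < 1 := by
    rw [lt_one_iff_vord_pos _ hx0, hxv]
    exact_mod_cast hN
  obtain ⟨w, e₀, he₀, hw, hord⟩ := exists_place_of_valuation (K := ℂ) (vInf N)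
    (vInf_algebraMap_Kb_le N) ⟨_, hx0, hxlt⟩
  have hwx : (N : ℤ) = e₀ * w.ord (realJ N)⁻¹ := by rw [← hord _ hx0, hxv]
  refine ⟨w, ?_, ?_, ?_⟩
  · -- positivity
    have : 0 < e₀ * w.ord (realJ N)⁻¹ := by rw [← hwx]; exact_mod_cast hN
    exact (mul_pos_iff_of_pos_left he₀).mp this
  · -- `T`-stability
    apply Place.ext
    rw [Place.smul_toValuationSubring, hw]
    ext x
    rw [ValuationSubring.mem_pointwise_smul_iff_inv_smul_mem, Valuation.mem_valuationSubring_iff,
      Valuation.mem_valuationSubring_iff]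
    have h1 := vInf_act_T N ((act N ModularGroup.T)⁻¹ • x)
    have h2 : act N ModularGroup.T ((act N ModularGroup.T)⁻¹ • x) = x := by
      show (act N ModularGroup.T) ((act N ModularGroup.T)⁻¹ x) = x
      rw [← AlgEquiv.mul_apply, mul_inv_cancel, AlgEquiv.one_apply]
    rw [h2] at h1
    rw [h1]
  · -- (L)
    intro m k hk
    rcases eq_or_ne m 0 with rfl | hm
    · simp
    · rw [← map_pow] at hk
      have h1 := dvd_vord_of_act_T_pow_eq N k hm hk
      rw [hord m hm, hwx] at h1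
      have h2 : e₀ * w.ord (realJ N)⁻¹ ∣ e₀ * ((k : ℤ) * w.ord m) := by
        convert h1 using 1; ring
      exact Int.dvd_of_mul_dvd_mul_left he₀.ne' h2


end Fermat.Agent.ES1.RealC
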