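import Fermat.Agent.ES1.RealModel
import Fermat.Agent.S28.ScaleForm

/-!
# ES₁ / F4, piece P1 (part 2): the fixed field of `SL(2, ℤ)` on `realM L` is `ℂ(J)`

* `RealC.exists_poly_of_invariant` : an `SL(2, ℤ)`-invariant element of `realB L` is a polynomial
  in `J` (level one modular functions are polynomials in `J`);
* `RealC.fixed_mem_adjoin` : an element of `realM L` fixed by `SL(2, ℤ)` lies in `ℂ(J)`
  (norm trick, fork of `S24/Fixed.lean`).
-/

set_option autoImplicit false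

noncomputable section

open UpperHalfPlane CongruenceSubgroup IntermediateField
open scoped MatrixGroups Manifold ModularForm Polynomial

namespace Fermat.Agent.ES1.RealC

open Fermat.Agent.S24 Fermat.Agent.S28 Fermat.Agent.ES1

/-- a modular function of level one is a polynomial in `J` -/
theorem exists_poly_of_levelOne {f : ℍ → ℂ} (hf : IsModFun 1 f) :
    ∃ p : ℂ[X], ∀ τ : ℍ, f τ = p.eval (Jfun τ) := by
  obtain ⟨Φ, hΦm, hΦd, hΦ⟩ := IsModFun.exists_normPoly (N := 1) hf
  have hd : Φ.natDegree = 1 := by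
    rw [hΦd, cosetCard_eq_dedekindPsi, ModularCurve.dedekindPsi_one]
  have hΦeq : Φ = Polynomial.X + Polynomial.C (Φ.coeff 0) := hΦm.eq_X_add_C hd
  refine ⟨-(Φ.coeff 0), fun τ => ?_⟩
  have h := hΦ τ
  rw [hΦeq, Polynomial.eval₂_add, Polynomial.eval₂_X, Polynomial.eval₂_C] at h
  have : (Polynomial.evalRingHom (Jfun τ)) (Φ.coeff 0) = (Φ.coeff 0).eval (Jfun τ) := rfl
  rw [this] at h
  rw [Polynomial.eval_neg]
  linear_combination h

variable (L : ℕ) [NeZero L]

/-- Evaluation at `τ`, as a `ℂ`-algebra homomorphism `realB L → ℂ`. -/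
def evalB (τ : ℍ) : realB L →ₐ[ℂ] ℂ :=
  (Pi.evalAlgHom ℂ (fun _ : ℍ => ℂ) τ).comp (realB L).val

theorem evalB_apply (τ : ℍ) (f : realB L) : evalB L τ f = (f : ℍ → ℂ) τ := rfl

theorem aeval_realJB_apply (p : ℂ[X]) (τ : ℍ) :
    ((Polynomial.aeval (realJB L) p : realB L) : ℍ → ℂ) τ = p.eval (Jfun τ) := by
  rw [← evalB_apply, ← Polynomial.aeval_algHom_apply, evalB_apply, realJB_coe,
    Polynomial.aeval_def, Polynomial.eval₂_eq_eval_map]
  simp

/-- An element of `realB L` fixed by `SL(2,ℤ)` is a polynomial in `J`. -/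
theorem actB_fixed_eq_aeval (f : realB L) (hf : ∀ γ, actB L γ f = f) :
    ∃ p : ℂ[X], f = Polynomial.aeval (realJB L) p := by
  have hinv : ∀ γ : SL(2, ℤ), ∀ τ : ℍ, (f : ℍ → ℂ) (γ • τ) = (f : ℍ → ℂ) τ := by
    intro γ τ
    have h := congrArg (fun g : realB L => (g : ℍ → ℂ) τ) (hf γ⁻¹)
    simp only [actB_apply_apply, inv_inv] at h
    exact h
  have h1 : IsModFunG (Gamma0 1) (f : ℍ → ℂ) :=
    IsModFunG.of_invariant (Γ := Gamma L) (Γ' := Gamma0 1) f.2 (fun γ _ τ => hinv γ τ)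
  obtain ⟨p, hp⟩ := exists_poly_of_levelOne ((isModFunG_gamma0_iff 1 _).mp h1)
  refine ⟨p, Subtype.ext (funext fun τ => ?_)⟩
  rw [aeval_realJB_apply]
  exact hp τ

theorem algebraMap_aeval_realJB (p : ℂ[X]) :
    algebraMap (realB L) (realM L) (Polynomial.aeval (realJB L) p) =
      Polynomial.aeval (realJ L) p := by
  rw [realJ, ← Polynomial.aeval_algebraMap_apply]

/-- The field of invariants of `SL(2,ℤ)` on `realM L` is `ℂ(J)`. -/
theorem fixed_mem_adjoin (m : realM L) (hm : ∀ γ, act L γ m = m) :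
    m ∈ ℂ⟮realJ L⟯ := by
  classical
  have : Finite (act L).range := finite_range_act L
  have : Fintype (act L).range := Fintype.ofFinite _
  obtain ⟨a, b, hb, rfl⟩ := IsFractionRing.div_surjective (A := realB L) m
  have hb0 : b ≠ 0 := nonZeroDivisors.ne_zero hb
  have hbM : algebraMap (realB L) (realM L) b ≠ 0 := by
    rwa [Ne, IsFractionRing.to_map_eq_zero_iff]
  -- the image of `realB L` in `realM L`
  set B' : Subring (realM L) := (algebraMap (realB L) (realM L)).range with hB'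
  have hstable : ∀ σ : (act L).range, ∀ x ∈ B', (σ : realM L ≃ₐ[ℂ] realM L) x ∈ B' := by
    rintro ⟨_, γ, rfl⟩ _ ⟨y, rfl⟩
    exact ⟨actB L γ y, (act_algebraMap L γ y).symm⟩
  set bM := algebraMap (realB L) (realM L) b with hbMdef
  set P : realM L := ∏ σ : (act L).range, (σ : realM L ≃ₐ[ℂ] realM L) bM with hP
  set Q : realM L := ∏ σ ∈ (Finset.univ.erase (1 : (act L).range)),
    (σ : realM L ≃ₐ[ℂ] realM L) bM with hQ
  have hPQ : bM * Q = P := by
    have := Finset.mul_prod_erase (Finset.univ : Finset (act L).range)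
      (fun σ => (σ : realM L ≃ₐ[ℂ] realM L) bM) (Finset.mem_univ 1)
    simpa using this
  have hQmem : Q ∈ B' :=
    Subring.prod_mem _ fun σ _ => hstable σ _ ⟨b, rfl⟩
  have hPmem : P ∈ B' := by
    rw [← hPQ]; exact Subring.mul_mem _ ⟨b, rfl⟩ hQmem
  have hP0 : P ≠ 0 := by
    rw [hP, Finset.prod_ne_zero_iff]
    intro σ _
    exact (map_ne_zero_iff _ (AlgEquiv.injective _)).mpr hbM
  have hPinv : ∀ γ, act L γ P = P := by
    intro γ
    rw [hP, map_prod]
    let τ : (act L).range := ⟨act L γ, γ, rfl⟩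
    refine Fintype.prod_equiv (Equiv.mulLeft τ) _ _ fun σ => ?_
    rfl
  -- numerator
  set n : realM L := algebraMap (realB L) (realM L) a * Q with hn
  have hnmem : n ∈ B' := Subring.mul_mem _ ⟨a, rfl⟩ hQmem
  have hmn : algebraMap (realB L) (realM L) a / bM = n / P := by
    rw [hn, ← hPQ]
    have hQ0 : Q ≠ 0 := by
      intro h
      rw [← hPQ, h, mul_zero] at hP0
      exact hP0 rfl
    field_simp
  have hninv : ∀ γ, act L γ n = n := by
    intro γ
    have h1 : n = (algebraMap (realB L) (realM L) a / bM) * P := by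
      rw [hmn]; field_simp
    rw [h1, map_mul, hm γ, hPinv γ]
  obtain ⟨n₀, hn₀⟩ := hnmem
  obtain ⟨P₀, hP₀⟩ := hPmem
  have hinj : Function.Injective (algebraMap (realB L) (realM L)) := IsFractionRing.injective _ _
  have hn₀inv : ∀ γ, actB L γ n₀ = n₀ := fun γ => hinj <| by
    rw [← act_algebraMap, hn₀, hninv γ]
  have hP₀inv : ∀ γ, actB L γ P₀ = P₀ := fun γ => hinj <| by
    rw [← act_algebraMap, hP₀, hPinv γ]
  obtain ⟨p, hp⟩ := actB_fixed_eq_aeval L n₀ hn₀inv
  obtain ⟨q, hq⟩ := actB_fixed_eq_aeval L P₀ hP₀inv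
  rw [hmn, ← hn₀, ← hP₀, hp, hq, algebraMap_aeval_realJB, algebraMap_aeval_realJB]
  have haeval : ∀ r : ℂ[X], Polynomial.aeval (realJ L) r ∈ ℂ⟮realJ L⟯ := fun r => by
    have := Polynomial.aeval_mem_adjoin_singleton ℂ (realJ L) (p := r)
    exact IntermediateField.algebra_adjoin_le_adjoin ℂ _ this
  exact div_mem (haeval p) (haeval q)

end Fermat.Agent.ES1.RealC
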