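import Fermat.Agent.ES1.RealDefs
import Fermat.Agent.S24.ModelGamma

/-!
# ES₁ / F4, piece P1 (part 1): the action of `SL(2, ℤ)` on `realM L = Frac (modFunAlgG Γ(L))`

Fork of `S24/Model.lean`, `S24/ModelGamma.lean` (with `Ban N` replaced by `realB L`, `ℚ̄` by `ℂ`).

* `RealC.actB L γ : realB L ≃ₐ[ℂ] realB L`, `(actB γ f) τ = f (γ⁻¹ τ)`;
* `RealC.act L : SL(2, ℤ) →* (realM L ≃ₐ[ℂ] realM L)`;
* `RealC.act_of_mem_Gamma`, `RealC.act_neg_one`, `RealC.finite_range_act`, `RealC.act_realJ`.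
-/

set_option autoImplicit false

noncomputable section

open UpperHalfPlane CongruenceSubgroup
open scoped MatrixGroups Manifold ModularForm

namespace Fermat.Agent.ES1.RealC

open Fermat.Agent.S24 Fermat.Agent.ES1

/-- Precomposition with `γ⁻¹`, as a `ℂ`-algebra endomorphism of `ℍ → ℂ`. -/
def precompC (γ : SL(2, ℤ)) : (ℍ → ℂ) →ₐ[ℂ] (ℍ → ℂ) where
  toFun f := fun τ => f (γ⁻¹ • τ)
  map_one' := rfl
  map_mul' _ _ := rfl
  map_zero' := rfl
  map_add' _ _ := rfl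
  commutes' _ := rfl

@[simp] theorem precompC_apply (γ : SL(2, ℤ)) (f : ℍ → ℂ) (τ : ℍ) :
    precompC γ f τ = f (γ⁻¹ • τ) := rfl

theorem precompC_one (f : ℍ → ℂ) : precompC 1 f = f := by
  funext τ; simp

theorem precompC_mul (γ δ : SL(2, ℤ)) (f : ℍ → ℂ) :
    precompC (γ * δ) f = precompC γ (precompC δ f) := by
  funext τ; simp [mul_smul]

theorem precompC_mem {L : ℕ} [NeZero L] {f : ℍ → ℂ} (hf : f ∈ realB L) (γ : SL(2, ℤ)) :
    precompC γ f ∈ realB L := by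
  have h : IsModFunG (Gamma L) f := hf
  have := h.comp_normalizer γ⁻¹ (fun δ hδ => (Gamma_normal L).conj_mem δ hδ γ⁻¹)
  exact this

/-- The action of `γ` on `realB L`, as an algebra endomorphism. -/
def actBHom (L : ℕ) [NeZero L] (γ : SL(2, ℤ)) : realB L →ₐ[ℂ] realB L :=
  ((precompC γ).comp (realB L).val).codRestrict (realB L) (fun f => precompC_mem f.2 γ)

@[simp] theorem actBHom_coe (L : ℕ) [NeZero L] (γ : SL(2, ℤ)) (f : realB L) :
    ((actBHom L γ f : realB L) : ℍ → ℂ) = precompC γ (f : ℍ → ℂ) := rfl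

theorem actBHom_one (L : ℕ) [NeZero L] : actBHom L 1 = AlgHom.id ℂ (realB L) := by
  ext f : 1
  exact Subtype.ext (precompC_one _)

theorem actBHom_mul (L : ℕ) [NeZero L] (γ δ : SL(2, ℤ)) :
    actBHom L (γ * δ) = (actBHom L γ).comp (actBHom L δ) := by
  ext f : 1
  exact Subtype.ext (precompC_mul γ δ _)

/-- The action of `γ` on `realB L`, as an algebra automorphism. -/
def actB (L : ℕ) [NeZero L] (γ : SL(2, ℤ)) : realB L ≃ₐ[ℂ] realB L :=
  AlgEquiv.ofAlgHom (actBHom L γ) (actBHom L γ⁻¹)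
    (by rw [← actBHom_mul, mul_inv_cancel, actBHom_one])
    (by rw [← actBHom_mul, inv_mul_cancel, actBHom_one])

@[simp] theorem actB_coe (L : ℕ) [NeZero L] (γ : SL(2, ℤ)) (f : realB L) :
    ((actB L γ f : realB L) : ℍ → ℂ) = precompC γ (f : ℍ → ℂ) := rfl

theorem actB_apply_apply (L : ℕ) [NeZero L] (γ : SL(2, ℤ)) (f : realB L) (τ : ℍ) :
    (actB L γ f : ℍ → ℂ) τ = (f : ℍ → ℂ) (γ⁻¹ • τ) := rfl

theorem actB_one (L : ℕ) [NeZero L] : actB L 1 = AlgEquiv.refl := by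
  ext f : 1
  exact Subtype.ext (precompC_one _)

theorem actB_mul (L : ℕ) [NeZero L] (γ δ : SL(2, ℤ)) :
    actB L (γ * δ) = (actB L δ).trans (actB L γ) := by
  ext f : 1
  exact Subtype.ext (precompC_mul γ δ _)

/-- The action of `SL(2,ℤ)` on `realM L`: `act γ (f / g) = (f ∘ γ⁻¹) / (g ∘ γ⁻¹)`. -/
def act (L : ℕ) [NeZero L] : SL(2, ℤ) →* (realM L ≃ₐ[ℂ] realM L) where
  toFun γ := IsFractionRing.algEquivOfAlgEquiv (actB L γ)
  map_one' := by
    ext x
    obtain ⟨a, b, hb, rfl⟩ := IsFractionRing.div_surjective (A := realB L) x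
    simp [actB_one]
  map_mul' γ δ := by
    ext x
    obtain ⟨a, b, hb, rfl⟩ := IsFractionRing.div_surjective (A := realB L) x
    simp [actB_mul]

@[simp] theorem act_algebraMap (L : ℕ) [NeZero L] (γ : SL(2, ℤ)) (f : realB L) :
    act L γ (algebraMap (realB L) (realM L) f) = algebraMap (realB L) (realM L) (actB L γ f) :=
  IsFractionRing.algEquivOfAlgEquiv_algebraMap _ _

/-! ### `Γ(L)` and `-1` act trivially -/

theorem smul_of_mem_realB_of_mem_Gamma {L : ℕ} [NeZero L] {f : ℍ → ℂ} (hf : f ∈ realB L)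
    {γ : SL(2, ℤ)} (hγ : γ ∈ Gamma L) (τ : ℍ) : f (γ • τ) = f τ :=
  IsModFunG.comp_smul hf hγ τ

theorem actB_of_mem_Gamma {L : ℕ} [NeZero L] {γ : SL(2, ℤ)} (hγ : γ ∈ Gamma L) :
    actB L γ = AlgEquiv.refl := by
  ext f : 1
  apply Subtype.ext
  funext τ
  exact smul_of_mem_realB_of_mem_Gamma f.2 (inv_mem hγ) τ

theorem act_eq_one_of_actB {L : ℕ} [NeZero L] {γ : SL(2, ℤ)} (h : actB L γ = AlgEquiv.refl) :
    act L γ = 1 := by
  have h1 : act L γ = act L 1 := by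
    ext x
    obtain ⟨a, b, hb, rfl⟩ := IsFractionRing.div_surjective (A := realB L) x
    simp only [map_div₀, act_algebraMap, h, actB_one]
  rw [h1, map_one]

/-- `Γ(L)` acts trivially on `realM L`. -/
theorem act_of_mem_Gamma {L : ℕ} [NeZero L] {γ : SL(2, ℤ)} (hγ : γ ∈ Gamma L) : act L γ = 1 :=
  act_eq_one_of_actB (actB_of_mem_Gamma hγ)

theorem neg_one_smul_SL (τ : ℍ) : (-1 : SL(2, ℤ)) • τ = τ := by
  exact ModularGroup.SL_neg_smul 1 τ ▸ one_smul _ τ

/-- `-1` acts trivially on `realM L`. -/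
theorem act_neg_one (L : ℕ) [NeZero L] : act L (-1) = 1 := by
  refine act_eq_one_of_actB ?_
  ext f : 1
  apply Subtype.ext
  funext τ
  show (f : ℍ → ℂ) ((-1 : SL(2, ℤ))⁻¹ • τ) = (f : ℍ → ℂ) τ
  have h : ((-1 : SL(2, ℤ))⁻¹) = -1 := by
    rw [inv_eq_iff_eq_inv]
    exact (inv_neg_one).symm
  rw [h, neg_one_smul_SL]

theorem Gamma_le_ker_act (L : ℕ) [NeZero L] : Gamma L ≤ (act L).ker :=
  fun _ hγ => MonoidHom.mem_ker.mpr (act_of_mem_Gamma hγ)

/-- `finite_range` of the realization. -/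
theorem finite_range_act (L : ℕ) [NeZero L] : Finite (act L).range := by
  have : (act L).ker.FiniteIndex := Subgroup.finiteIndex_of_le (Gamma_le_ker_act L)
  have : Finite (SL(2, ℤ) ⧸ (act L).ker) := Subgroup.finite_quotient_of_finiteIndex
  exact Finite.of_equiv _ (QuotientGroup.quotientKerEquivRange (act L)).toEquiv

/-! ### `J` is fixed -/

theorem actB_realJB (L : ℕ) [NeZero L] (γ : SL(2, ℤ)) : actB L γ (realJB L) = realJB L := by
  apply Subtype.ext
  funext τ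
  exact Jfun_smul_SL γ⁻¹ τ

/-- `act_j` of the realization. -/
theorem act_realJ (L : ℕ) [NeZero L] (γ : SL(2, ℤ)) : act L γ (realJ L) = realJ L := by
  rw [realJ, act_algebraMap, actB_realJB]

end Fermat.Agent.ES1.RealC
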