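import Fermat.Agent.ES1.RealModel
import Fermat.Agent.S24.PlaceFinite
import Fermat.Agent.S24.LocFinite

/-!
# ES₁ / F4, piece P1 (part 3): places of `realM L` at the points of `ℍ`, property (L)

Fork of `S24/OrderAt.lean` (valuation part), `S24/PlaceFinite.lean`, `S24/LocFinite.lean`
with `Ban N` replaced by `realB N = modFunAlgG Γ(N)` and `ℚ̄` by `ℂ`.

* `RealC.exists_place_localProp`;
* `RealC.loc_gen`, `RealC.loc_1728`, `RealC.loc_zero`.
-/

set_option autoImplicit false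
set_option linter.unusedSectionVars false
set_option linter.unusedVariables false

noncomputable section

open UpperHalfPlane Filter Topology AlgebraicCurve WithZero
open scoped MatrixGroups Manifold ModularForm

namespace Fermat.Agent.ES1.RealC

open Fermat.Agent.S24 Fermat.Agent.ES1

/-- Property (L) of a place `w` of `M` over `ℂ` with respect to an automorphism `σ` and an
element `x` (the analogue over `ℂ` of `S24.LocalProp`). -/
def LocalProp {M : Type*} [Field M] [Algebra ℂ M] (x : M) (σ : M ≃ₐ[ℂ] M) (w : Place ℂ M) :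
    Prop :=
  0 < w.ord x ∧ σ • w = w ∧ ∀ (m : M) (k : ℕ), (σ ^ k) m = m → w.ord x ∣ (k : ℤ) * w.ord m

/-! ### The valuation on `realB N` and `realM N` attached to `τ₀` -/

theorem Ban_coe_ne_zero {N : ℕ} [NeZero N] {f : realB N} (hf : f ≠ 0) : (f : ℍ → ℂ) ≠ 0 :=
  fun h => hf (Subtype.ext h)

/-- The integer order at `τ₀` of an element of `realB N`. -/
def ordBan (N : ℕ) [NeZero N] (τ₀ : ℍ) (f : realB N) : ℕ := (ordAt τ₀ (f : ℍ → ℂ)).toNat

theorem coe_ordBan {N : ℕ} [NeZero N] (τ₀ : ℍ) {f : realB N} (hf : f ≠ 0) :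
    (ordBan N τ₀ f : ℕ∞) = ordAt τ₀ (f : ℍ → ℂ) :=
  ENat.natCast_toNat (ordAt_ne_top (es1r_mdiff f.2) (Ban_coe_ne_zero hf) τ₀)

theorem ordBan_mul {N : ℕ} [NeZero N] (τ₀ : ℍ) {f g : realB N} (hf : f ≠ 0) (hg : g ≠ 0) :
    ordBan N τ₀ (f * g) = ordBan N τ₀ f + ordBan N τ₀ g := by
  have h := ordAt_mul (es1r_mdiff f.2) (es1r_mdiff g.2) τ₀
  have h1 : ((f * g : realB N) : ℍ → ℂ) = (f : ℍ → ℂ) * (g : ℍ → ℂ) := rfl
  rw [← h1, ← coe_ordBan τ₀ hf, ← coe_ordBan τ₀ hg, ← coe_ordBan τ₀ (mul_ne_zero hf hg)] at h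
  exact_mod_cast h

theorem min_le_ordBan_add {N : ℕ} [NeZero N] (τ₀ : ℍ) {f g : realB N} (hf : f ≠ 0) (hg : g ≠ 0)
    (hfg : f + g ≠ 0) : min (ordBan N τ₀ f) (ordBan N τ₀ g) ≤ ordBan N τ₀ (f + g) := by
  have h := le_ordAt_add (f : ℍ → ℂ) (g : ℍ → ℂ) τ₀
  have h1 : ((f + g : realB N) : ℍ → ℂ) = (f : ℍ → ℂ) + (g : ℍ → ℂ) := rfl
  rw [← h1, ← coe_ordBan τ₀ hf, ← coe_ordBan τ₀ hg, ← coe_ordBan τ₀ hfg] at h
  rw [min_le_iff] at h ⊢
  rcases h with h | h
  · exact Or.inl (by exact_mod_cast h)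
  · exact Or.inr (by exact_mod_cast h)

theorem ordBan_algebraMap {N : ℕ} [NeZero N] (τ₀ : ℍ) (a : ℂ) : ordBan N τ₀ (algebraMap ℂ (realB N) a) = 0 := by
  rcases eq_or_ne a 0 with rfl | ha
  · simp only [map_zero, ordBan]
    have : ((0 : realB N) : ℍ → ℂ) = fun _ => (0 : ℂ) := rfl
    rw [this, ordAt, analyticOrderAt_eq_top.mpr (by simp)]
    rfl
  · have h1 : ((algebraMap ℂ (realB N) a : realB N) : ℍ → ℂ) = fun _ => a := rfl
    rw [ordBan, h1, ordAt_const (by simpa using ha)]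
    rfl

theorem ordBan_one {N : ℕ} [NeZero N] (τ₀ : ℍ) : ordBan N τ₀ 1 = 0 := by
  have := ordBan_algebraMap (N := N) τ₀ 1
  simpa using this

/-- The valuation on `realB N` given by the order of vanishing at `τ₀`. -/
def valBan (N : ℕ) [NeZero N] (τ₀ : ℍ) : Valuation (realB N) ℤᵐ⁰ where
  toFun f := open Classical in if f = 0 then 0 else WithZero.exp (-(ordBan N τ₀ f : ℤ))
  map_zero' := by simp
  map_one' := by simp [ordBan_one]
  map_mul' f g := by
    rcases eq_or_ne f 0 with rfl | hf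
    · simp
    rcases eq_or_ne g 0 with rfl | hg
    · simp
    simp only [hf, hg, mul_ne_zero hf hg, if_false, ordBan_mul τ₀ hf hg, ← WithZero.exp_add]
    congr 1
    push_cast
    ring
  map_add_le_max' f g := by
    rcases eq_or_ne f 0 with rfl | hf
    · rw [zero_add]; exact le_max_right _ _
    rcases eq_or_ne g 0 with rfl | hg
    · rw [add_zero]; exact le_max_left _ _
    rcases eq_or_ne (f + g) 0 with hfg | hfg
    · simp [hfg]
    simp only [hf, hg, hfg, if_false]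
    have h := min_le_ordBan_add τ₀ hf hg hfg
    rcases min_le_iff.mp h with h | h
    · exact le_max_of_le_left (WithZero.exp_le_exp.mpr (by omega))
    · exact le_max_of_le_right (WithZero.exp_le_exp.mpr (by omega))

theorem valBan_apply {N : ℕ} [NeZero N] (τ₀ : ℍ) {f : realB N} (hf : f ≠ 0) :
    valBan N τ₀ f = WithZero.exp (-(ordBan N τ₀ f : ℤ)) := by
  classical
  show (if f = 0 then 0 else WithZero.exp (-(ordBan N τ₀ f : ℤ))) = _
  rw [if_neg hf]

theorem valBan_ne_zero {N : ℕ} [NeZero N] (τ₀ : ℍ) {f : realB N} (hf : f ≠ 0) : valBan N τ₀ f ≠ 0 := by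
  rw [valBan_apply τ₀ hf]; exact WithZero.exp_ne_zero

theorem nonZeroDivisors_le_primeCompl (N : ℕ) [NeZero N] (τ₀ : ℍ) :
    nonZeroDivisors (realB N) ≤ (valBan N τ₀).supp.primeCompl := by
  intro f hf
  have hf0 : f ≠ 0 := nonZeroDivisors.ne_zero hf
  show f ∉ (valBan N τ₀).supp
  rw [Valuation.mem_supp_iff]
  exact valBan_ne_zero τ₀ hf0

/-- The valuation on `realM N` given by the order at `τ₀`. -/
def valMan (N : ℕ) [NeZero N] (τ₀ : ℍ) : Valuation (realM N) ℤᵐ⁰ :=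
  (valBan N τ₀).extendToLocalization (nonZeroDivisors_le_primeCompl N τ₀) (realM N)

theorem valMan_algebraMap {N : ℕ} [NeZero N] (τ₀ : ℍ) (f : realB N) :
    valMan N τ₀ (algebraMap (realB N) (realM N) f) = valBan N τ₀ f :=
  Valuation.extendToLocalization_apply_map_apply _ _ _ f

/-! ### Values of `valMan` -/

theorem algebraMap_Ban_Man_ne_zero {N : ℕ} [NeZero N] {f : realB N} (hf : f ≠ 0) :
    algebraMap (realB N) (realM N) f ≠ 0 := by
  intro h
  apply hf
  exact (IsFractionRing.injective (realB N) (realM N)) (by rw [h, map_zero])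

theorem vord_valMan_algebraMap {N : ℕ} [NeZero N] (τ₀ : ℍ) {f : realB N} (hf : f ≠ 0) :
    vord (valMan N τ₀) (algebraMap (realB N) (realM N) f) = ordBan N τ₀ f := by
  rw [vord, valMan_algebraMap, valBan_apply τ₀ hf, WithZero.log_exp, neg_neg]

theorem vord_valMan_div {N : ℕ} [NeZero N] (τ₀ : ℍ) {a b : realB N} (ha : a ≠ 0) (hb : b ≠ 0) :
    vord (valMan N τ₀) (algebraMap (realB N) (realM N) a / algebraMap (realB N) (realM N) b)
      = (ordBan N τ₀ a : ℤ) - ordBan N τ₀ b := by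
  rw [div_eq_mul_inv, vord_mul _ (algebraMap_Ban_Man_ne_zero ha)
    (inv_ne_zero (algebraMap_Ban_Man_ne_zero hb)), vord_inv, vord_valMan_algebraMap τ₀ ha,
    vord_valMan_algebraMap τ₀ hb]
  ring

theorem valMan_algebraMap_Kb_le_one {N : ℕ} [NeZero N] (τ₀ : ℍ) (a : ℂ) :
    valMan N τ₀ (algebraMap ℂ (realM N) a) ≤ 1 := by
  rw [IsScalarTower.algebraMap_apply ℂ (realB N) (realM N), valMan_algebraMap]
  rcases eq_or_ne (algebraMap ℂ (realB N) a) 0 with h | h
  · rw [h, map_zero]; exact zero_le_one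
  · rw [valBan_apply τ₀ h, ordBan_algebraMap]
    simp

/-! ### Invariance under the stabiliser of `τ₀` -/

theorem ordBan_actBan {N : ℕ} [NeZero N] {τ₀ : ℍ} {γ : SL(2, ℤ)} (hfix : γ • τ₀ = τ₀) (f : realB N) :
    ordBan N τ₀ (actB N γ f) = ordBan N τ₀ f := by
  have h1 : ((actB N γ f : realB N) : ℍ → ℂ) = fun τ => (f : ℍ → ℂ) (γ⁻¹ • τ) := rfl
  rw [ordBan, h1, ordAt_comp_smul, (denom_inv_of_fix hfix).1]
  rfl

theorem valBan_actBan {N : ℕ} [NeZero N] {τ₀ : ℍ} {γ : SL(2, ℤ)} (hfix : γ • τ₀ = τ₀) (f : realB N) :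
    valBan N τ₀ (actB N γ f) = valBan N τ₀ f := by
  rcases eq_or_ne f 0 with rfl | hf
  · simp
  · have hf' : actB N γ f ≠ 0 := by
      intro h
      apply hf
      have := congrArg (actB N γ).symm h
      simpa using this
    rw [valBan_apply τ₀ hf, valBan_apply τ₀ hf', ordBan_actBan hfix]

theorem valMan_act {N : ℕ} [NeZero N] {τ₀ : ℍ} {γ : SL(2, ℤ)} (hfix : γ • τ₀ = τ₀) (m : realM N) :
    valMan N τ₀ (act N γ m) = valMan N τ₀ m := by
  obtain ⟨a, b, hb, rfl⟩ := IsFractionRing.div_surjective (A := realB N) m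
  simp only [map_div₀, act_algebraMap, valMan_algebraMap, valBan_actBan hfix]

/-- Stability of a place with valuation ring `(valMan N τ₀).valuationSubring` under the
stabiliser of `τ₀`. -/
theorem act_smul_place_eq {N : ℕ} [NeZero N] {τ₀ : ℍ} {γ : SL(2, ℤ)} (hfix : γ • τ₀ = τ₀)
    (w : Place ℂ (realM N)) (hw : w.toValuationSubring = (valMan N τ₀).valuationSubring) :
    act N γ • w = w := by
  apply Place.ext
  rw [Place.smul_toValuationSubring, hw]
  ext m
  rw [ValuationSubring.mem_pointwise_smul_iff_inv_smul_mem, Valuation.mem_valuationSubring_iff,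
    Valuation.mem_valuationSubring_iff]
  have h1 : (act N γ)⁻¹ • m = act N γ⁻¹ m := by
    rw [← map_inv]; rfl
  rw [h1, valMan_act (denom_inv_of_fix hfix).1]

/-! ### Property (L) -/

/-- Core of property (L) on `realB N`: if `γ` fixes `τ₀` and `(γ • a) * b = a * (γ • b)`, then
`(denom γ τ₀ ^ 2) ^ ord a = (denom γ τ₀ ^ 2) ^ ord b`. -/
theorem denom_sq_pow_eq_of_fixed {N : ℕ} [NeZero N] {τ₀ : ℍ} {γ : SL(2, ℤ)} (hfix : γ • τ₀ = τ₀)
    {a b : realB N} (ha : a ≠ 0) (hb : b ≠ 0)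
    (h : actB N γ a * b = a * actB N γ b) :
    (denom γ τ₀ ^ 2) ^ ordBan N τ₀ a = (denom γ τ₀ ^ 2) ^ ordBan N τ₀ b := by
  obtain ⟨hfix', hden⟩ := denom_inv_of_fix hfix
  obtain ⟨ca, hca⟩ := exists_isLead (ordAt_analyticAt (es1r_mdiff a.2) τ₀)
    (ordAt_ne_top (es1r_mdiff a.2) (Ban_coe_ne_zero ha) τ₀)
  obtain ⟨cb, hcb⟩ := exists_isLead (ordAt_analyticAt (es1r_mdiff b.2) τ₀)
    (ordAt_ne_top (es1r_mdiff b.2) (Ban_coe_ne_zero hb) τ₀)
  have hμfix : mobC γ⁻¹ (τ₀ : ℂ) = (τ₀ : ℂ) := by rw [mobC_coe, hfix']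
  have hν : HasDerivAt (mobC γ⁻¹) (denom γ τ₀ ^ 2) (τ₀ : ℂ) := by
    have := hasDerivAt_mobC γ⁻¹ τ₀
    rw [hden] at this
    simpa using this
  have hν0 : denom γ τ₀ ^ 2 ≠ 0 := pow_ne_zero _ (denom_ne_zero _ _)
  have key : ∀ f : realB N, ∀ z : ℂ,
      ((f : ℍ → ℂ) ∘ ofComplex) (mobC γ⁻¹ z) = (actB N γ f : ℍ → ℂ) (ofComplex z) := by
    intro f z
    simp only [Function.comp_apply, mobC, ofComplex_apply]
    rfl
  have heq : ∀ᶠ z in 𝓝 (τ₀ : ℂ),
      ((a : ℍ → ℂ) ∘ ofComplex) (mobC γ⁻¹ z) * ((b : ℍ → ℂ) ∘ ofComplex) z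
        = ((a : ℍ → ℂ) ∘ ofComplex) z * ((b : ℍ → ℂ) ∘ ofComplex) (mobC γ⁻¹ z) := by
    refine Filter.Eventually.of_forall fun z => ?_
    rw [key a z, key b z]
    have h' := congrFun (congrArg Subtype.val h) (ofComplex z)
    exact h'
  exact pow_deriv_eq_of_comp_mul_eq hca hcb (analyticAt_mobC γ⁻¹ τ₀) hμfix hν hν0 heq

/-- Property (L) for `valMan`: an `act N ε ^ k`-invariant element has order divisible by `e`
(up to the factor `k`), if `denom ε τ₀ ^ 2` is a primitive `e`-th root of unity. -/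
theorem dvd_mul_vord_of_fixed {N : ℕ} [NeZero N] {τ₀ : ℍ} {ε : SL(2, ℤ)} (hfix : ε • τ₀ = τ₀) {e : ℕ}
    (hprim : IsPrimitiveRoot (denom ε τ₀ ^ 2) e) {m : realM N} (hm : m ≠ 0) (k : ℕ)
    (hinv : (act N ε ^ k) m = m) : (e : ℤ) ∣ (k : ℤ) * vord (valMan N τ₀) m := by
  obtain ⟨a, b, hb, rfl⟩ := IsFractionRing.div_surjective (A := realB N) m
  have hb0 : b ≠ 0 := nonZeroDivisors.ne_zero hb
  have ha0 : a ≠ 0 := by
    rintro rfl
    apply hm
    simp
  obtain ⟨hfixk, hdenk⟩ := denom_pow_of_fix hfix k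
  -- the invariance on `realB N`
  have h1 : actB N (ε ^ k) a * b = a * actB N (ε ^ k) b := by
    rw [← map_pow] at hinv
    simp only [map_div₀, act_algebraMap] at hinv
    have hb' : algebraMap (realB N) (realM N) b ≠ 0 := algebraMap_Ban_Man_ne_zero hb0
    have hb'' : algebraMap (realB N) (realM N) (actB N (ε ^ k) b) ≠ 0 := by
      apply algebraMap_Ban_Man_ne_zero
      intro h
      apply hb0
      have := congrArg (actB N (ε ^ k)).symm h
      simpa using this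
    rw [div_eq_div_iff hb'' hb', ← map_mul, ← map_mul] at hinv
    exact IsFractionRing.injective (realB N) (realM N) hinv
  have h2 := denom_sq_pow_eq_of_fixed hfixk ha0 hb0 h1
  rw [hdenk] at h2
  set ζ := denom ε τ₀ ^ 2 with hζ
  have hζ0 : ζ ≠ 0 := pow_ne_zero _ (denom_ne_zero _ _)
  have h3 : ζ ^ (k * ordBan N τ₀ a) = ζ ^ (k * ordBan N τ₀ b) := by
    have e1 : ((denom ε τ₀) ^ k) ^ 2 = ζ ^ k := by rw [hζ]; ring
    rw [e1] at h2
    rw [pow_mul, pow_mul]; exact h2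
  have h4 : ζ ^ ((k : ℤ) * ((ordBan N τ₀ a : ℤ) - ordBan N τ₀ b)) = 1 := by
    have e2 : (k : ℤ) * ((ordBan N τ₀ a : ℤ) - ordBan N τ₀ b)
        = ((k * ordBan N τ₀ a : ℕ) : ℤ) - ((k * ordBan N τ₀ b : ℕ) : ℤ) := by
      push_cast; ring
    rw [e2, zpow_sub₀ hζ0, zpow_natCast, zpow_natCast, h3, div_self (pow_ne_zero _ hζ0)]
  rw [vord_valMan_div τ₀ ha0 hb0]
  exact (hprim.zpow_eq_one_iff_dvd _).mp h4

/-- **Main theorem of P5b.** Let `ε ∈ SL(2,ℤ)` fix `τ₀ ∈ ℍ`, let `denom ε τ₀ ^ 2` be a primitive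
`e`-th root of unity, and let `x ∈ realB N` vanish to order exactly `e > 0` at `τ₀`. Then there is a
place `w` of `realM N` with property (L) for `x` and `act N ε`. -/
theorem exists_place_localProp (N : ℕ) [NeZero N] (τ₀ : ℍ) (ε : SL(2, ℤ)) (e : ℕ) (x : realB N)
    (hfix : ε • τ₀ = τ₀) (hprim : IsPrimitiveRoot (denom ε τ₀ ^ 2) e)
    (hx : ordAt τ₀ (x : ℍ → ℂ) = e) (he : 0 < e) :
    ∃ w : Place ℂ (realM N), LocalProp (algebraMap (realB N) (realM N) x) (act N ε) w := by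
  have hx0 : x ≠ 0 := by
    rintro rfl
    have h1 : ordAt τ₀ ((0 : realB N) : ℍ → ℂ) = ⊤ := by
      rw [ordAt, analyticOrderAt_eq_top]
      exact Filter.Eventually.of_forall fun z => rfl
    rw [h1] at hx
    exact ENat.top_ne_natCast e hx
  have hxe : ordBan N τ₀ x = e := by
    rw [ordBan, hx]; rfl
  have hxM : algebraMap (realB N) (realM N) x ≠ 0 := algebraMap_Ban_Man_ne_zero hx0
  have hvx : vord (valMan N τ₀) (algebraMap (realB N) (realM N) x) = e := by
    rw [vord_valMan_algebraMap τ₀ hx0, hxe]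
  obtain ⟨w, e₀, he₀, hw, hord⟩ := exists_place_of_valuation (K := ℂ) (valMan N τ₀)
    (valMan_algebraMap_Kb_le_one τ₀)
    ⟨algebraMap (realB N) (realM N) x, hxM, by
      rw [lt_one_iff_vord_pos _ hxM, hvx]; exact_mod_cast he⟩
  have hwx : (e : ℤ) = e₀ * w.ord (algebraMap (realB N) (realM N) x) := by
    rw [← hord _ hxM, hvx]
  refine ⟨w, ⟨?_, act_smul_place_eq hfix w hw, ?_⟩⟩
  · have : (0 : ℤ) < e₀ * w.ord (algebraMap (realB N) (realM N) x) := by
      rw [← hwx]; exact_mod_cast he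
    exact (mul_pos_iff_of_pos_left he₀).mp this
  · intro m k hinv
    rcases eq_or_ne m 0 with rfl | hm
    · simp
    have h1 := dvd_mul_vord_of_fixed hfix hprim hm k hinv
    rw [hord m hm, hwx] at h1
    have h2 : e₀ * w.ord (algebraMap (realB N) (realM N) x) ∣ e₀ * ((k : ℤ) * w.ord m) := by
      have : (k : ℤ) * (e₀ * w.ord m) = e₀ * ((k : ℤ) * w.ord m) := by ring
      rw [← this]; exact h1
    exact Int.dvd_of_mul_dvd_mul_left he₀.ne' h2


theorem algebraMap_jBan_sub (N : ℕ) [NeZero N] (c : ℂ) :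
    algebraMap (realB N) (realM N) (realJB N - algebraMap ℂ (realB N) c)
      = realJ N - algebraMap ℂ (realM N) c := by
  rw [map_sub, ← IsScalarTower.algebraMap_apply ℂ (realB N) (realM N)]
  rfl

theorem coe_jBan_sub (N : ℕ) [NeZero N] (c : ℂ) :
    ((realJB N - algebraMap ℂ (realB N) c : realB N) : ℍ → ℂ) = fun τ => Jfun τ - c := rfl

/-- The place over a generic point `c ≠ 0, 1728` of the `j`-line. -/
theorem loc_gen_Man (N : ℕ) [NeZero N] (c : ℂ) (hc0 : c ≠ 0) (hc : c ≠ 1728) :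
    ∃ w : Place ℂ (realM N), LocalProp (realJ N - algebraMap ℂ (realM N) c) (act N 1) w := by
  obtain ⟨τ₀, hτ₀⟩ := Jfun_surjective c
  have h0 : Jfun τ₀ ≠ 0 := by
    rw [hτ₀]
    intro h
    exact hc0 (by simpa using h)
  have h1 : Jfun τ₀ ≠ 1728 := by
    rw [hτ₀]
    intro h
    exact hc h
  have hord := analyticOrderAt_Jfun_sub_of_ne h0 h1
  rw [hτ₀] at hord
  have hprim : IsPrimitiveRoot (denom ((1 : SL(2, ℤ)) : GL (Fin 2) ℝ) τ₀ ^ 2) 1 := by
    rw [denom_one_SL, one_pow]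
    exact IsPrimitiveRoot.one
  have := exists_place_localProp N τ₀ 1 1 (realJB N - algebraMap ℂ (realB N) c) (one_smul _ _)
    hprim (by rw [coe_jBan_sub]; exact hord) one_pos
  rwa [algebraMap_jBan_sub] at this

/-- The place over `j = 1728` (the point `i`). -/
theorem loc_1728_Man (N : ℕ) [NeZero N] :
    ∃ w : Place ℂ (realM N),
      LocalProp (realJ N - algebraMap ℂ (realM N) 1728) (act N ModularGroup.S) w := by
  have hden : denom (ModularGroup.S : GL (Fin 2) ℝ) UpperHalfPlane.I ^ 2 = -1 := by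
    have : denom (ModularGroup.S : GL (Fin 2) ℝ) UpperHalfPlane.I = Complex.I := by
      have := ModularGroup.denom_apply (g := ModularGroup.S) (z := UpperHalfPlane.I)
      rw [this]
      simp [ModularGroup.S]
    rw [this, Complex.I_sq]
  have hprim : IsPrimitiveRoot (denom (ModularGroup.S : GL (Fin 2) ℝ) UpperHalfPlane.I ^ 2) 2 := by
    rw [hden]
    exact IsPrimitiveRoot.neg_one 0 (by norm_num)
  have hord : ordAt UpperHalfPlane.I
      ((realJB N - algebraMap ℂ (realB N) 1728 : realB N) : ℍ → ℂ) = (2 : ℕ) := by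
    rw [coe_jBan_sub]
    exact analyticOrderAt_Jfun_I
  have := exists_place_localProp N UpperHalfPlane.I ModularGroup.S 2
    (realJB N - algebraMap ℂ (realB N) 1728) S_smul_I hprim hord (by norm_num)
  rwa [algebraMap_jBan_sub] at this

/-- The place over `j = 0` (the point `ρ`). -/
theorem loc_zero_Man (N : ℕ) [NeZero N] :
    ∃ w : Place ℂ (realM N),
      LocalProp (realJ N) (act N (ModularGroup.S * ModularGroup.T)) w := by
  have hd : denom ((ModularGroup.S * ModularGroup.T : SL(2, ℤ)) : GL (Fin 2) ℝ) UpperHalfPlane.ρ =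
      (UpperHalfPlane.ρ : ℂ) + 1 := by
    have := ModularGroup.denom_apply (g := ModularGroup.S * ModularGroup.T)
      (z := UpperHalfPlane.ρ)
    rw [this]
    have e10 : ((ModularGroup.S * ModularGroup.T : SL(2, ℤ)) : Matrix (Fin 2) (Fin 2) ℤ) 1 0 = 1 := by
      rw [Matrix.SpecialLinearGroup.coe_mul, ModularGroup.coe_S, ModularGroup.coe_T]
      simp [Matrix.mul_apply, Fin.sum_univ_two]
    have e11 : ((ModularGroup.S * ModularGroup.T : SL(2, ℤ)) : Matrix (Fin 2) (Fin 2) ℤ) 1 1 = 1 := by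
      rw [Matrix.SpecialLinearGroup.coe_mul, ModularGroup.coe_S, ModularGroup.coe_T]
      simp [Matrix.mul_apply, Fin.sum_univ_two]
    rw [e10, e11]
    simp
  have hsq := UpperHalfPlane.ρ_sq
  have hden : denom ((ModularGroup.S * ModularGroup.T : SL(2, ℤ)) : GL (Fin 2) ℝ)
      UpperHalfPlane.ρ ^ 2 = (UpperHalfPlane.ρ : ℂ) := by
    rw [hd]; linear_combination hsq
  have hρ3 : (UpperHalfPlane.ρ : ℂ) ^ 3 = 1 := by
    linear_combination ((UpperHalfPlane.ρ : ℂ) - 1) * hsq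
  have hρ1 : (UpperHalfPlane.ρ : ℂ) ≠ 1 := by
    intro h
    have := congrArg Complex.im h
    have hpos : 0 < (UpperHalfPlane.ρ : ℂ).im := UpperHalfPlane.ρ.2
    rw [Complex.one_im] at this
    exact hpos.ne' this
  have hprim : IsPrimitiveRoot (denom ((ModularGroup.S * ModularGroup.T : SL(2, ℤ)) :
      GL (Fin 2) ℝ) UpperHalfPlane.ρ ^ 2) 3 := by
    rw [hden]
    refine IsPrimitiveRoot.mk_of_lt _ (by norm_num) hρ3 ?_
    intro l hl0 hl3 hl
    interval_cases l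
    · exact hρ1 (by simpa using hl)
    · apply hρ1
      have h2 : (UpperHalfPlane.ρ : ℂ) ^ 3 = (UpperHalfPlane.ρ : ℂ) ^ 2 * (UpperHalfPlane.ρ : ℂ) := by
        ring
      rw [hl, one_mul] at h2
      rw [← h2, hρ3]
  have hord : ordAt UpperHalfPlane.ρ ((realJB N : realB N) : ℍ → ℂ) = (3 : ℕ) :=
    analyticOrderAt_Jfun_ρ
  exact exists_place_localProp N UpperHalfPlane.ρ (ModularGroup.S * ModularGroup.T) 3
    (realJB N) ST_smul_ρ hprim hord (by norm_num)


end Fermat.Agent.ES1.RealC
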