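import Fermat.Agent.ES1.RealCusp
import Fermat.Agent.ES1.RealFixed
import Fermat.Agent.S24.LocalCount
import Fermat.Agent.S24.Transc
import Fermat.Agent.S24.Residue
import Fermat.Agent.S24.LevelOneA

/-!
# ES₁ / F4, piece P3: ramification over the `j`-line of every field embedded in `realM L`

`F` a field over `ℂ`, `φ : F →ₐ[ℂ] realM L`, `φ j = J`.  Then `F` is finite over `ℂ(j)` and, for
every place `v` of `F`:
`ord_v j ∣ 3`, `ord_v (j - 1728) ∣ 2`, `ord_v (j - c) = 1`, `ord_v j⁻¹ ∣ L` (when positive).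

Only the trivial part of the stabiliser is used (`±Γ(L)` acts trivially on `realM L`).
Fork of `INJ/RamJ.lean`.

* `RealC.ramJC_of_emb`, `stmtRamJC_of : StmtRealEmb → StmtRamJC`.
-/

set_option autoImplicit false

open AlgebraicCurve IntermediateField CongruenceSubgroup UpperHalfPlane
open scoped MatrixGroups

namespace Fermat.Agent.ES1.RealC

open Fermat.Agent.S24 Fermat.Agent.ES1

theorem es1r_S_sq : (ModularGroup.S) ^ 2 = (-1 : SL(2, ℤ)) := by
  ext i j
  fin_cases i <;> fin_cases j <;>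
    simp [ModularGroup.S, pow_two, Matrix.mul_apply, Fin.sum_univ_two]

theorem es1r_ST_cube : (ModularGroup.S * ModularGroup.T) ^ 3 = (-1 : SL(2, ℤ)) := by
  ext i j
  fin_cases i <;> fin_cases j <;>
    simp [ModularGroup.S, ModularGroup.T, pow_succ, Matrix.mul_apply, Fin.sum_univ_two]

theorem es1r_T_pow_mem (L : ℕ) : ModularGroup.T ^ L ∈ Gamma L := by
  have := CongruenceSubgroup.ModularGroup_T_pow_mem_Gamma (L : ℤ) (L : ℤ) dvd_rfl
  simpa using this

section Generic

variable (L : ℕ) [NeZero L]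

/-- `J` is transcendental over `ℂ` in `realM L`. -/
theorem transcendental_realJ : Transcendental ℂ (realJ L) := by
  rw [Transcendental, isAlgebraic_iff_not_injective, not_not]
  rw [injective_iff_map_eq_zero]
  intro p hp
  have h1 : algebraMap (realB L) (realM L) (Polynomial.aeval (realJB L) p) = 0 := by
    rw [algebraMap_aeval_realJB]; exact hp
  have h2 : Polynomial.aeval (realJB L) p = 0 :=
    (IsFractionRing.injective (realB L) (realM L)) (by rw [h1, map_zero])
  apply Polynomial.funext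
  intro z
  obtain ⟨τ, rfl⟩ := Jfun_surjective z
  rw [← aeval_realJB_apply L p τ, h2, Polynomial.eval_zero]
  rfl

variable {L} {F : Type} [Field F] [Algebra ℂ F] (φ : F →ₐ[ℂ] realM L) {j : F}

include φ in
theorem transcendental_of_emb (hφj : φ j = realJ L) : Transcendental ℂ j := by
  intro halg
  apply transcendental_realJ L
  rw [← hφj]
  exact IsAlgebraic.algHom φ halg

include φ in
/-- `F` is finite over `ℂ(j)`. -/
theorem finite_of_emb (hφj : φ j = realJ L) : FiniteDimensional ℂ⟮j⟯ F := by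
  haveI := finite_range_act L
  exact finiteDimensional_adjoin_of_fixed φ (act L) j
    (fun m hm => by rw [hφj]; exact fixed_mem_adjoin L m hm)

include φ in
/-- Generic form: if `ε ^ k` acts trivially, every place over `x = 0` has `ord_v x ∣ k`. -/
theorem ord_dvd_of_loc (hφj : φ j = realJ L)
    (x : F) (hx : Transcendental ℂ x) (hxj : x ∈ ℂ⟮j⟯) (hjx : j ∈ ℂ⟮x⟯)
    (ε : SL(2, ℤ)) (hloc : ∃ w : Place ℂ (realM L), LocalProp (φ x) (act L ε) w)
    (k : ℕ) (hk : act L (ε ^ k) = 1)
    (v : Place ℂ F) (hv : 0 < v.ord x) : v.ord x ∣ (k : ℤ) := by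
  classical
  obtain ⟨w, hw, -, hL⟩ := hloc
  have : Finite (act L).range := finite_range_act L
  have hKeq : ℂ⟮x⟯ = ℂ⟮j⟯ := by
    apply le_antisymm
    · rw [IntermediateField.adjoin_simple_le_iff]; exact hxj
    · rw [IntermediateField.adjoin_simple_le_iff]; exact hjx
  have hfdj : FiniteDimensional ℂ⟮j⟯ F := finite_of_emb φ hφj
  have hfd : FiniteDimensional ℂ⟮x⟯ F := by
    rw [hKeq]; exact hfdj
  have hact_j : ∀ γ, act L γ (φ j) = φ j := fun γ => by rw [hφj]; exact act_realJ L γ
  have hfixed : ∀ m : realM L, (∀ γ, act L γ m = m) → m ∈ ℂ⟮φ j⟯ :=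
    fun m hm => by rw [hφj]; exact fixed_mem_adjoin L m hm
  have hfix : ∀ γ, act L γ (φ x) = φ x :=
    fun γ => act_fix_of_mem_adjoin φ (act L) hact_j hxj γ
  have hfacts := intClosure_facts (K := ℂ) x hx
  obtain ⟨g, rfl⟩ := exists_restrPlace_eq φ (act L) hfixed w hjx hw hfix
    (fun v S' hv hvS hS' => exists_ord_neg_of x hfacts v S' hv hvS hS') v hv
  refine restrPlace_ord_dvd φ (act L) w hw hfix ε g hL k (fun f => ?_)
  rw [map_mul, map_mul, hk, mul_one, ← map_mul, inv_mul_cancel, map_one]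
  rfl

include φ in
theorem ram_zero (hφj : φ j = realJ L) (v : Place ℂ F) (hv : 0 < v.ord j) : v.ord j ∣ 3 := by
  have htr := transcendental_of_emb φ hφj
  have hloc : ∃ w : Place ℂ (realM L),
      LocalProp (φ j) (act L (ModularGroup.S * ModularGroup.T)) w := by
    rw [hφj]; exact loc_zero_Man L
  have h := ord_dvd_of_loc φ hφj j htr (mem_adjoin_simple_self ℂ j) (mem_adjoin_simple_self ℂ j)
    (ModularGroup.S * ModularGroup.T) hloc 3 (by rw [es1r_ST_cube]; exact act_neg_one L) v hv
  exact_mod_cast h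

include φ in
theorem ram_1728 (hφj : φ j = realJ L) (v : Place ℂ F)
    (hv : 0 < v.ord (j - algebraMap ℂ F 1728)) : v.ord (j - algebraMap ℂ F 1728) ∣ 2 := by
  have htr := transcendental_of_emb φ hφj
  have hloc : ∃ w : Place ℂ (realM L),
      LocalProp (φ (j - algebraMap ℂ F 1728)) (act L ModularGroup.S) w := by
    rw [map_sub, hφj, AlgHom.commutes]; exact loc_1728_Man L
  have h := ord_dvd_of_loc φ hφj (j - algebraMap ℂ F 1728)
    (transcendental_sub_algebraMap htr 1728) (sub_algebraMap_mem_adjoin j 1728)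
    (mem_adjoin_sub_algebraMap j 1728) ModularGroup.S hloc 2
    (by rw [es1r_S_sq]; exact act_neg_one L) v hv
  exact_mod_cast h

include φ in
theorem ram_gen (hφj : φ j = realJ L) (c : ℂ) (hc0 : c ≠ 0) (hc : c ≠ 1728) (v : Place ℂ F)
    (hv : 0 < v.ord (j - algebraMap ℂ F c)) : v.ord (j - algebraMap ℂ F c) = 1 := by
  have htr := transcendental_of_emb φ hφj
  have hloc : ∃ w : Place ℂ (realM L),
      LocalProp (φ (j - algebraMap ℂ F c)) (act L 1) w := by
    rw [map_sub, hφj, AlgHom.commutes]; exact loc_gen_Man L c hc0 hc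
  have h := ord_dvd_of_loc φ hφj (j - algebraMap ℂ F c)
    (transcendental_sub_algebraMap htr c) (sub_algebraMap_mem_adjoin j c)
    (mem_adjoin_sub_algebraMap j c) 1 hloc 1 (by simp) v hv
  have h1 : v.ord (j - algebraMap ℂ F c) ∣ 1 := by exact_mod_cast h
  exact Int.eq_one_of_dvd_one hv.le h1

include φ in
theorem ram_inf (hφj : φ j = realJ L) (v : Place ℂ F) (hv : v.ord j < 0) :
    v.ord j⁻¹ ∣ (L : ℤ) := by
  have htr := transcendental_of_emb φ hφj
  have hpos : 0 < v.ord j⁻¹ := by rw [v.ord_inv]; omega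
  have hloc : ∃ w : Place ℂ (realM L), LocalProp (φ j⁻¹) (act L ModularGroup.T) w := by
    rw [map_inv₀, hφj]; exact exists_place_inf L
  exact ord_dvd_of_loc φ hφj j⁻¹ (transcendental_inv htr) (inv_mem_adjoin j) (mem_adjoin_inv j)
    ModularGroup.T hloc L (act_of_mem_Gamma (es1r_T_pow_mem L)) v hpos

end Generic

/-- ramification of `fieldC ℂ L M H` over the `j`-line, from an embedding into `realM L` -/
theorem ramJC_of_emb (L M : ℕ) (H : Subgroup (ZMod M)ˣ) [NeZero L]
    (φ : fieldC ℂ L M H →ₐ[ℂ] realM L) (hφ : φ (jFC L M H) = realJ L) : RamJC L M H where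
  finite := finite_of_emb φ hφ
  zero := ram_zero φ hφ
  e1728 := ram_1728 φ hφ
  gen := ram_gen φ hφ
  inf := ram_inf φ hφ

end Fermat.Agent.ES1.RealC

namespace Fermat.Agent.ES1

/-- **(P3)** -/
theorem stmtRamJC_of (h : StmtRealEmb) : StmtRamJC := by
  intro L M H _ hML
  obtain ⟨φ, hφ⟩ := h L M H hML
  exact RealC.ramJC_of_emb L M H φ hφ

end Fermat.Agent.ES1
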