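import Fermat.Agent.ES1.G2.Final
import Fermat.Agent.ES1.G1UnifStmt
import Fermat.Agent.ES1.G2.SwapH
import Fermat.Agent.ES1.G1Op
import Fermat.Agent.ES1.TopFinal
import Fermat.Agent.S48.Reduced3
import Fermat.Agent.S48.E1.Final
import Fermat.Agent.S48.CD.Main

/-!
# S48 from the G1 contract (captain helper78)

Everything else is proved: `S48.stmtE1`, `S48.CD.stmtChebDensity`, `ES1.es1int_stmtInt1`, the
glue `es1top_stmtES1_of_pkg`, TOP-b `es1b_pkg_of_unif`, and all the G2 clauses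
(`ES1/G2/Final.lean` + `stmtSwapH`).

* `StmtG1Unif` : for every `M`, `θ`, `p` prime there are `H ≤ (ℤ/M)ˣ`, `Co`, `μ`, `ε` with
  `ES1bUnifData M θ p (JH M M H) (es1g2T M M H) (es1Diamond M M H) (gammaH M M H)
    (es1g1opPar M M H) (es1g1Op M M H p _) Co μ ε`   — THE deliverable of G1;
* `es1pkg_of_g1 : StmtG1Unif → ES1Pkg M θ p`;
* `stmtES1_of_g1 : StmtG1Unif → S48.StmtES1`;
* `s48_of_g1 : StmtG1Unif → (the statement of S48)`.
-/

set_option autoImplicit false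

noncomputable section

open CongruenceSubgroup
open scoped MatrixGroups

namespace Fermat.Agent.ES1

open Fermat.Agent.S48 Fermat.Agent.ES

/-- the Eichler–Shimura package from the G1 contract -/
theorem es1pkg_of_g1 (h : StmtG1Unif) (M : ℕ) [NeZero M] (θ : DirichletCharacter ℂ M) (p : ℕ)
    (hp : p.Prime) : ES1Pkg M θ p := by
  haveI : Fact p.Prime := ⟨hp⟩
  obtain ⟨H, Co, _, μ, ε, hU⟩ := h M θ p
  have hM : M ≠ 0 := NeZero.ne M
  exact es1b_pkg_of_unif hU
    (fun σ ℓ _ x _ => G2.es1g2_final_galois_hecke σ ℓ x)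
    (fun σ c x _ => G2.es1g2_final_galois_diamond hM dvd_rfl σ c x)
    (fun x hx => G2.es1g2_final_finite_level hp.ne_zero x hx)
    (fun x _ => G2.es1g2_final_diamond_one x)
    (fun c d x _ => G2.es1g2_final_diamond_mul hM dvd_rfl c d x)
    (G2.es1g2_final_frob G2.stmtSwapH hM dvd_rfl p)
    (G2.es1g2_final_unram hM dvd_rfl p)

/-- `S48.StmtES1` from the G1 contract -/
theorem stmtES1_of_g1 (h : StmtG1Unif) : Fermat.Agent.S48.StmtES1 :=
  es1top_stmtES1_of_pkg fun M _ θ p hp => es1pkg_of_g1 h M θ p hp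

/-- **S48 from the G1 contract.** -/
theorem s48_of_g1 (h : StmtG1Unif)
    (N : ℕ) [NeZero N] (ε : DirichletCharacter ℂ N) (f : CuspForm (Gamma1 N) 1)
    (hf₁ : ModularFormClass.qCoeff f 1 = 1)
    (hT : ∀ p : ℕ, p.Prime → ¬ p ∣ N → ∀ n : ℕ,
        ModularFormClass.qCoeff f (p * n) +
            ε (p : ZMod N) * (if p ∣ n then ModularFormClass.qCoeff f (n / p) else 0) =
          ModularFormClass.qCoeff f p * ModularFormClass.qCoeff f n) :
    ∃ ρ : GalQ →* GL (Fin 2) ℂ, GaloisFactorsThroughFiniteLevel ρ ∧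
      (Deformation.matrixRepresentation ρ).IsIrreducible ∧
      ∀ p : ℕ, p.Prime → ¬ p ∣ N →
        ∀ A : ValuationSubring (AlgebraicClosure ℚ), A.LiesOverPrime p →
          (∀ σ ∈ A.inertiaSubgroupIn ℚ, ρ σ = 1) ∧
          ∀ σ : GalQ, A.IsFrobeniusAt σ p →
            ((ρ σ : GL (Fin 2) ℂ) : Matrix (Fin 2) (Fin 2) ℂ).trace = ModularFormClass.qCoeff f p ∧
            ((ρ σ : GL (Fin 2) ℂ) : Matrix (Fin 2) (Fin 2) ℂ).det = ε (p : ZMod N) :=
  s48_of_e1_es1_cd stmtE1 (stmtES1_of_g1 h) Fermat.Agent.S48.CD.stmtChebDensity N ε f hf₁ hT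

end Fermat.Agent.ES1
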