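import Fermat.Agent.ES.EigenWords
import Fermat.Agent.ES1.TopB

/-!
# ES₁ / TOP-b — the support clause and finiteness from an abstract multiplier map (helper42)

Generic in the group `Γ` (in the application `Γ = Γ_H(M)`), in the family of natural operators
`Op i` on `A ↦ Hom(Γ, A)` (Hecke operators and diamonds) and in the group `J` with operators `T i`:

* `es1b_supp_of_multiplier` : if `μ : J[p] → Hom(Γ, Co)` is additive, injective, equivariant, and
  its image contains `ε ∘ (x mod p)` for every integral homomorphism `x` vanishing on `P`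
  (`ε : ZMod p → Co` injective), then for every nonzero joint eigen-homomorphism `v : Γ → ℂ`
  vanishing on `P`, with eigenvalues `a i`, and every proper ideal `𝔪 ∋ p` of `ℤ̄`, some nonzero
  element of `J[p]` is killed by every word in the `T i` whose value at `a` lies in `𝔪`;
* `es1b_finite_of_multiplier` : `J[p]` is finite as soon as `Co[p]` is;
* `es1b_eigen_isIntegral` : the eigenvalues `a i` are algebraic integers.
-/

set_option autoImplicit false
set_option linter.style.haveILetI false
set_option linter.unusedSectionVars false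

noncomputable section

namespace Fermat.Agent.ES1

open Fermat.Agent.ES Fermat.Agent.S48

section Generic

variable {Γ : Type} [Group Γ] {ι : Type} {S : Set ι}
  (Op : S → ∀ (A : Type) [AddCommGroup A], (Additive Γ →+ A) →+ (Additive Γ →+ A))
  {J : Type} [AddCommGroup J] (T : S → J →+ J) {Co : Type} [AddCommGroup Co] {p : ℕ}

/-- `μ` intertwines words on `J[p]` with words on `Hom(Γ, Co)` -/
theorem es1b_multiplier_wordAct (μ : es1b_torsPart p J →+ (Additive Γ →+ Co))
    (hμT : ∀ (i : S) (x : es1b_torsPart p J), μ (es1b_torsOp p T i x) = Op i Co (μ x))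
    (w : FreeAlgebra ℤ S) (x : es1b_torsPart p J) :
    μ (es1b_wordAct (es1b_torsOp p T) w x) = wordOp Op Co w (μ x) := by
  induction w using FreeAlgebra.induction generalizing x with
  | grade0 r =>
    simp only [AlgHom.commutes, Module.algebraMap_end_apply]
    exact map_zsmul μ r x
  | grade1 i => rw [es1b_wordAct_ι, wordOp_ι, hμT]
  | mul a b ha hb =>
    simp only [map_mul, Module.End.mul_apply]
    rw [ha, hb]
  | add a b ha hb =>
    simp only [map_add, LinearMap.add_apply]
    rw [ha, hb]

/-- **The support clause (word form) from a multiplier map on `J[p]`.** -/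
theorem es1b_supp_of_multiplier [Group.FG Γ] [Fact p.Prime] (P : Set Γ)
    (hnat : ∀ (i : S) (A A' : Type) [AddCommGroup A] [AddCommGroup A'] (f : A →+ A')
      (φ : Additive Γ →+ A), Op i A' (f.comp φ) = f.comp (Op i A φ))
    (hpar : ∀ (i : S) (φ : Additive Γ →+ ℤ), φ ∈ intHoms Γ P → Op i ℤ φ ∈ intHoms Γ P)
    (μ : es1b_torsPart p J →+ (Additive Γ →+ Co)) (hμ : Function.Injective μ)
    (hμT : ∀ (i : S) (x : es1b_torsPart p J), μ (es1b_torsOp p T i x) = Op i Co (μ x))
    (ε : ZMod p →+ Co) (hε : Function.Injective ε)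
    (hμS : ∀ x : Additive Γ →+ ℤ, x ∈ intHoms Γ P →
      ∃ y : es1b_torsPart p J, μ y = ε.comp ((Int.castAddHom (ZMod p)).comp x))
    (a : S → ℂ) (v : Additive Γ →+ ℂ) (hv0 : v ≠ 0)
    (hvP : ∀ γ ∈ P, v (Additive.ofMul γ) = 0) (hv : ∀ i, Op i ℂ v = a i • v)
    (𝔪 : Ideal Zb) (h𝔪 : 𝔪 ≠ ⊤) (hp : ((p : ℕ) : Zb) ∈ 𝔪) :
    ∃ y : J, y ≠ 0 ∧ p • y = 0 ∧ ∀ w : FreeAlgebra ℤ S,
      (∃ z ∈ 𝔪, (z : ℂ) = FreeAlgebra.lift ℤ a w) →
        FreeAlgebra.lift ℤ (fun i : S => (T i).toIntLinearMap) w y = 0 := by
  obtain ⟨x, hxP, hx0, hx⟩ := exists_modp_eigen_hom_words (G := Γ) (T := Op) P hnat hpar a v hv0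
    hvP hv (algebraMap Zb ℂ) Subtype.val_injective p 𝔪 h𝔪 hp
  obtain ⟨y, hy⟩ := hμS x hxP
  refine ⟨(y : J), ?_, y.2, ?_⟩
  · intro h0
    have hy0 : y = 0 := Subtype.ext h0
    rw [hy0, map_zero] at hy
    apply hx0
    refine DFunLike.ext _ _ (fun γ => ?_)
    apply hε
    have h1 := (DFunLike.congr_fun hy γ).symm
    simp only [AddMonoidHom.zero_apply, map_zero] at h1 ⊢
    exact h1
  · intro w hw
    rw [← es1b_coe_wordAct_torsOp]
    have h1 : es1b_wordAct (es1b_torsOp p T) w y = 0 := by
      apply hμ
      rw [map_zero, es1b_multiplier_wordAct Op T μ hμT, hy,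
        wordOp_natural hnat w (ZMod p) Co ε]
      have h0 : wordOp Op (ZMod p) w ((Int.castAddHom (ZMod p)).comp x) = 0 := hx w hw
      rw [h0]
      refine DFunLike.ext _ _ (fun γ => ?_)
      simp
    rw [h1]
    rfl

/-- **`J[p]` is finite** if it embeds into `Hom(Γ, Co)`, `Γ` finitely generated, `Co[p]` finite. -/
theorem es1b_finite_of_multiplier [Group.FG Γ]
    (μ : es1b_torsPart p J →+ (Additive Γ →+ Co)) (hμ : Function.Injective μ)
    (hCo : {c : Co | p • c = 0}.Finite) : {x : J | p • x = 0}.Finite := by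
  classical
  obtain ⟨G, hG, hGfin⟩ := AddGroup.fg_iff.mp (AddGroup.fg_of_group_fg (G := Γ))
  have : Finite G := hGfin
  have : Finite {c : Co | p • c = 0} := hCo.to_subtype
  have hpow : ∀ (x : es1b_torsPart p J) (s : Additive Γ), p • (μ x s) = 0 := by
    intro x s
    have h1 : p • μ x = 0 := by
      have h0 : p • x = 0 := Subtype.ext x.2
      rw [← map_nsmul μ p x, h0, map_zero]
    have := DFunLike.congr_fun h1 s
    simpa using this
  let ev : es1b_torsPart p J → (G → {c : Co | p • c = 0}) := fun x s =>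
    ⟨μ x (s : Additive Γ), hpow x s⟩
  have hev : Function.Injective ev := by
    intro x y hxy
    apply hμ
    refine AddMonoidHom.eq_of_eqOn_dense hG (fun s hs => ?_)
    have h1 := congrArg Subtype.val (congrFun hxy ⟨s, hs⟩)
    exact h1
  have hfin : Finite (es1b_torsPart p J) := Finite.of_injective ev hev
  exact (Set.finite_coe_iff (s := {x : J | p • x = 0})).mp hfin

end Generic

/-! ## Integrality of the eigenvalues -/

section Integral

variable {Γ : Type} [Group Γ]

/-- an eigenvalue of a natural operator on `Hom(Γ, ℂ)` (`Γ` finitely generated) is an algebraic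
integer -/
theorem es1b_eigen_isIntegral [Group.FG Γ]
    (Op : ∀ (A : Type) [AddCommGroup A], (Additive Γ →+ A) →+ (Additive Γ →+ A))
    (hnat : ∀ (A A' : Type) [AddCommGroup A] [AddCommGroup A'] (f : A →+ A')
      (φ : Additive Γ →+ A), Op A' (f.comp φ) = f.comp (Op A φ))
    (a : ℂ) (v : Additive Γ →+ ℂ) (hv0 : v ≠ 0) (hv : Op ℂ v = a • v) : IsIntegral ℤ a := by
  classical
  have hfin : Module.Finite ℤ (Additive Γ →+ ℤ) := finite_addHom_int Γ
  have hfree : Module.Free ℤ (Additive Γ →+ ℤ) := Module.free_of_finite_type_torsion_free'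
  -- the operator on the lattice
  let TZ : Module.End ℤ (Additive Γ →+ ℤ) := (Op ℤ).toIntLinearMap
  -- its characteristic polynomial
  let χ : Polynomial ℤ := TZ.charpoly
  have hχ : χ.Monic := LinearMap.charpoly_monic TZ
  have hCH : Polynomial.aeval TZ χ = 0 := LinearMap.aeval_self_charpoly TZ
  refine ⟨χ, hχ, ?_⟩
  -- `ℂ`-linearity of the operator on `Hom(Γ, ℂ)`
  have hsmul : ∀ (c : ℂ) (φ : Additive Γ →+ ℂ), c • φ = (AddMonoidHom.mulLeft c).comp φ := by
    intro c φ
    refine DFunLike.ext _ _ (fun g => ?_)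
    rfl
  let TC : Module.End ℂ (Additive Γ →+ ℂ) :=
    { toFun := fun φ => Op ℂ φ
      map_add' := fun a b => map_add (Op ℂ) a b
      map_smul' := by
        intro c φ
        show Op ℂ (c • φ) = c • Op ℂ φ
        rw [hsmul, hsmul, hnat] }
  -- `q(TC) (cast x) = cast (q(TZ) x)` for integer polynomials `q`
  have hcast : ∀ (q : Polynomial ℤ) (x : Additive Γ →+ ℤ),
      Polynomial.aeval TC q (castHomC x) = castHomC (Polynomial.aeval TZ q x) := by
    intro q x
    induction q using Polynomial.induction_on' generalizing x with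
    | add q r hq hr =>
      rw [map_add, map_add, LinearMap.add_apply, LinearMap.add_apply, hq, hr, map_add]
    | monomial n c =>
      rw [← Polynomial.C_mul_X_pow_eq_monomial, map_mul, map_mul, Polynomial.aeval_C,
        Polynomial.aeval_C, map_pow, map_pow, Polynomial.aeval_X, Polynomial.aeval_X,
        Module.End.mul_apply, Module.End.mul_apply, Module.algebraMap_end_apply,
        Module.algebraMap_end_apply]
      have hpow : ∀ (n : ℕ) (x : Additive Γ →+ ℤ), (TC ^ n) (castHomC x) = castHomC ((TZ ^ n) x) := by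
        intro n
        induction n with
        | zero => intro x; simp
        | succ n ih =>
          intro x
          rw [pow_succ, pow_succ, Module.End.mul_apply, Module.End.mul_apply]
          have e : TC (castHomC x) = castHomC (TZ x) := hnat ℤ ℂ (Int.castAddHom ℂ) x
          rw [e, ih]
      rw [hpow]
      refine DFunLike.ext _ _ (fun g => ?_)
      simp
  -- `χ(TC)` kills the span of the lattice, which is everything
  have hspan : v ∈ Submodule.span ℂ
      (Set.range fun x : intHoms Γ (∅ : Set Γ) => castHomC (x : Additive Γ →+ ℤ)) :=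
    mem_span_range_castHomC v (fun g hg => absurd hg (Set.notMem_empty g))
  have hkill : Polynomial.aeval TC χ v = 0 := by
    refine Submodule.span_induction (p := fun y _ => Polynomial.aeval TC χ y = 0)
      ?_ ?_ ?_ ?_ hspan
    · rintro _ ⟨x, rfl⟩
      show Polynomial.aeval TC χ (castHomC (x : Additive Γ →+ ℤ)) = 0
      rw [hcast, hCH]
      simp
    · simp
    · intro x y _ _ hx hy
      rw [map_add, hx, hy, add_zero]
    · intro c x _ hx
      rw [map_smul, hx, smul_zero]
  -- on the eigenvector `χ(TC)` acts by `χ(a)`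
  have heig : Polynomial.aeval TC χ v = (Polynomial.aeval a χ) • v := by
    have hTv : TC v = a • v := hv
    have hmem : Module.End.HasEigenvector TC a v := by
      refine ⟨Module.End.mem_eigenspace_iff.mpr hTv, hv0⟩
    have h1 := Module.End.aeval_apply_of_hasEigenvector (p := χ.map (algebraMap ℤ ℂ)) hmem
    rwa [Polynomial.aeval_map_algebraMap, Polynomial.eval_map_algebraMap] at h1
  rw [heig] at hkill
  have h0 : Polynomial.aeval a χ = 0 := by
    rcases smul_eq_zero.mp hkill with h | h
    · exact h
    · exact absurd h hv0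
  show Polynomial.eval₂ (algebraMap ℤ ℂ) a χ = 0
  rw [← Polynomial.aeval_def]
  exact h0

end Integral

end Fermat.Agent.ES1
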